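import Fermat.Agent.ShortLiouville.Basic
import Mathlib.Algebra.Order.Chebyshev

/-!
# The bilinear decomposition of the Liouville function

For weights `w` on a set of primes with `M = ∑ w p / p` large, Turán and Kubilius say that
`ω n = ∑_{p ∣ n} w p` is `M` for most `n`; so `λ n` is close to `(ω n / M) λ n`, and since `λ` is
completely multiplicative the latter is bilinear: `(1 / M) ∑ w p λ p λ m` over `p m = n`; the same
holds for any completely multiplicative `g` in place of `λ`.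
-/

set_option autoImplicit false

noncomputable section

namespace FA.ShortLiouville

open MeasureTheory Finset FA.Hoheisel
open scoped Real

/-- Weighted primes cut into pieces `[start v, ratio * start v]`. -/
structure Pieces where
  /-- The indices of the pieces. -/
  index : Finset ℕ
  /-- The left ends. -/
  start : ℕ → ℝ
  /-- The primes of a piece. -/
  primes : ℕ → Finset ℕ
  /-- The weights. -/
  weight : ℕ → ℕ → ℝ
  /-- The ratio of the ends. -/
  ratio : ℝ
  one_le_ratio : 1 ≤ ratio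
  start_pos : ∀ v ∈ index, 0 < start v
  prime_mem : ∀ v ∈ index, ∀ p ∈ primes v, p.Prime
  range_mem : ∀ v ∈ index, ∀ p ∈ primes v, start v ≤ p ∧ (p : ℝ) ≤ ratio * start v
  weight_nonneg : ∀ v ∈ index, ∀ p ∈ primes v, 0 ≤ weight v p
  total_le : ∀ p, ∑ v ∈ index, (if p ∈ primes v then weight v p else 0) ≤ 2

namespace Pieces

variable (B : Pieces)

/-- All the primes. -/
def support : Finset ℕ := B.index.biUnion B.primes

/-- The weight of a prime. -/
def wt (p : ℕ) : ℝ := ∑ v ∈ B.index, if p ∈ B.primes v then B.weight v p else 0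

/-- `∑ w p / p`. -/
def mass : ℝ := ∑ p ∈ B.support, B.wt p / p

/-- `∑ w p`. -/
def size : ℝ := ∑ p ∈ B.support, B.wt p

/-- `∑_{p ∣ n} w p`. -/
def omegaSum (n : ℕ) : ℝ := ∑ p ∈ B.support, if p ∣ n then B.wt p else 0

/-- `∑ w p g p p ^ (-it)` over one piece. -/
def piece (F : Twist) (v : ℕ) (t : ℝ) : ℂ :=
  dpoly (B.primes v) (fun p => F.fn p * (B.weight v p : ℂ)) t

/-- The range of the cofactors of one piece. -/
def cofRange (X v : ℕ) : Finset ℕ := Ioc ⌊(X : ℝ) / B.start v⌋₊ ⌊5 * (X : ℝ) / B.start v⌋₊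

/-- `∑ g m m ^ (-it)` over the cofactors. -/
def cofactor (F : Twist) (X v : ℕ) (t : ℝ) : ℂ := dpoly (B.cofRange X v) F.fn t

theorem prime_of_mem_support {p : ℕ} (hp : p ∈ B.support) : p.Prime := by
  obtain ⟨v, hv, hp⟩ := mem_biUnion.1 hp
  exact B.prime_mem v hv p hp

theorem wt_nonneg (p : ℕ) : 0 ≤ B.wt p :=
  sum_nonneg fun v hv => by
    split_ifs with h
    · exact B.weight_nonneg v hv p h
    · rfl

theorem sum_weight_eq (F : ℕ → ℝ) :
    ∑ v ∈ B.index, ∑ p ∈ B.primes v, B.weight v p * F p = ∑ p ∈ B.support, B.wt p * F p := by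
  simp only [wt, sum_mul, ite_mul, zero_mul]
  rw [sum_comm]
  refine sum_congr rfl fun v hv => ?_
  rw [← sum_filter]
  refine sum_congr (Finset.ext fun p => ?_) fun _ _ => rfl
  simp only [mem_filter, support, mem_biUnion]
  exact ⟨fun h => ⟨⟨v, hv, h⟩, h⟩, fun h => h.2⟩

theorem omegaSum_eq (n : ℕ) : B.omegaSum n =
    ∑ v ∈ B.index, ∑ p ∈ B.primes v, B.weight v p * if p ∣ n then 1 else 0 := by
  rw [sum_weight_eq, omegaSum]
  simp only [mul_ite, mul_one, mul_zero]

theorem omegaSum_nonneg (n : ℕ) : 0 ≤ B.omegaSum n :=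
  sum_nonneg fun p _ => by
    split_ifs
    · exact B.wt_nonneg p
    · rfl

theorem mass_nonneg : 0 ≤ B.mass :=
  sum_nonneg fun p _ => div_nonneg (B.wt_nonneg p) (Nat.cast_nonneg p)

theorem size_nonneg : 0 ≤ B.size := sum_nonneg fun p _ => B.wt_nonneg p

theorem card_multiples_le (a b : ℕ) {d : ℕ} (hd : 0 < d) (hab : a ≤ b) :
    (((Ioc a b).filter (d ∣ ·)).card : ℝ) ≤ ((b : ℝ) - a) / d + 1 := by
  have e : (Ioc 0 a).filter (d ∣ ·) ∪ (Ioc a b).filter (d ∣ ·) = (Ioc 0 b).filter (d ∣ ·) := by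
    rw [← filter_union]
    congr 1
    ext x
    simp only [mem_union, mem_Ioc]
    omega
  have hc := congrArg Finset.card e
  rw [card_union_of_disjoint (Finset.disjoint_filter_filter (Finset.disjoint_left.2 fun x hx hx' =>
    by simp only [mem_Ioc] at hx hx'; omega)), Nat.Ioc_filter_dvd_card_eq_div,
    Nat.Ioc_filter_dvd_card_eq_div] at hc
  have hd0 : (0 : ℝ) < d := Nat.cast_pos.2 hd
  have hb : ((b / d : ℕ) : ℝ) ≤ (b : ℝ) / d := Nat.cast_div_le
  have ha : (a : ℝ) / d - 1 ≤ ((a / d : ℕ) : ℝ) := by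
    rw [sub_le_iff_le_add, div_le_iff₀ hd0]
    have := (Nat.lt_mul_div_succ a hd).le
    rw [mul_comm] at this
    exact_mod_cast this
  have hc' : (((Ioc a b).filter (d ∣ ·)).card : ℝ) = ((b / d : ℕ) : ℝ) - ((a / d : ℕ) : ℝ) := by
    rw [← hc]; push_cast; ring
  rw [hc', sub_div]
  linarith

/-- **The second moment of `ω`.** -/
theorem sum_omegaSum_sq_le {a b : ℕ} (hab : a ≤ b) :
    ∑ n ∈ Ioc a b, B.omegaSum n ^ 2 ≤
      ((b : ℝ) - a) * (B.mass ^ 2 + 2 * B.mass) + B.size ^ 2 := by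
  have e : ∑ n ∈ Ioc a b, B.omegaSum n ^ 2 = ∑ p ∈ B.support, ∑ q ∈ B.support,
      B.wt p * B.wt q * (((Ioc a b).filter (Nat.lcm p q ∣ ·)).card : ℝ) := by
    simp only [omegaSum, sq, sum_mul_sum]
    rw [sum_comm]
    refine sum_congr rfl fun p _ => ?_
    rw [sum_comm]
    refine sum_congr rfl fun q _ => ?_
    rw [card_eq_sum_ones, Nat.cast_sum, sum_filter, mul_sum]
    refine sum_congr rfl fun n _ => ?_
    by_cases h : Nat.lcm p q ∣ n
    · rw [if_pos h, if_pos ((Nat.dvd_lcm_left p q).trans h),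
        if_pos ((Nat.dvd_lcm_right p q).trans h), Nat.cast_one, mul_one]
    · rw [if_neg h, mul_zero]
      by_cases hp : p ∣ n
      · rw [if_neg fun hq => h (Nat.lcm_dvd hp hq), mul_zero]
      · rw [if_neg hp, zero_mul]
  have hba : 0 ≤ (b : ℝ) - a := sub_nonneg.2 (Nat.cast_le.2 hab)
  rw [e]
  refine (sum_le_sum fun p hp => sum_le_sum fun q hq => (mul_le_mul_of_nonneg_left
    (b := (((Ioc a b).filter (Nat.lcm p q ∣ ·)).card : ℝ))
    (c := ((b : ℝ) - a) * (1 / p * (1 / q) + if p = q then 1 / (p : ℝ) else 0) + 1) ?_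
    (mul_nonneg (B.wt_nonneg p) (B.wt_nonneg q)))).trans ?_
  · refine (card_multiples_le a b (Nat.lcm_pos (B.prime_of_mem_support hp).pos
      (B.prime_of_mem_support hq).pos) hab).trans (add_le_add ?_ le_rfl)
    rw [div_eq_mul_one_div]
    refine mul_le_mul_of_nonneg_left ?_ hba
    split_ifs with hpq
    · subst hpq
      rw [Nat.lcm_self]
      exact le_add_of_nonneg_left (by positivity)
    · rw [Nat.Coprime.lcm_eq_mul ((Nat.coprime_primes (B.prime_of_mem_support hp)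
        (B.prime_of_mem_support hq)).2 hpq), add_zero, Nat.cast_mul, one_div_mul_one_div]
  have hd : ∀ p ∈ B.support, ∑ q ∈ B.support, B.wt p * B.wt q *
      (((b : ℝ) - a) * (1 / p * (1 / q) + if p = q then 1 / (p : ℝ) else 0) + 1) ≤
      ((b : ℝ) - a) * (B.wt p / p * B.mass + 2 * (B.wt p / p)) + B.wt p * B.size := fun p hp => by
    have e1 : ∀ q : ℕ, B.wt p * B.wt q *
        (((b : ℝ) - a) * (1 / p * (1 / q) + if p = q then 1 / (p : ℝ) else 0) + 1) =
        ((b : ℝ) - a) * (B.wt p / p * (B.wt q / q) +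
          if p = q then B.wt q * (B.wt p / p) else 0) + B.wt p * B.wt q := fun q => by
      split_ifs <;> ring
    simp only [e1, sum_add_distrib, ← mul_sum, sum_ite_eq, if_pos hp]
    rw [← mass, ← size]
    gcongr
    · exact div_nonneg (B.wt_nonneg p) (Nat.cast_nonneg p)
    · exact B.total_le p
  refine (sum_le_sum hd).trans (le_of_eq ?_)
  rw [sum_add_distrib, ← mul_sum, ← sum_mul, sum_add_distrib, ← sum_mul, ← mul_sum, ← mass, ← size]
  ring

/-- **Turán and Kubilius.** -/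
theorem sum_omegaSum_sub_sq_le (N : ℕ) : ∑ n ∈ Ioc 0 N, (B.omegaSum n - B.mass) ^ 2 ≤
    2 * N * B.mass + B.size ^ 2 + 2 * B.mass * B.size := by
  have h2 := B.sum_omegaSum_sq_le (Nat.zero_le N)
  have h1 : N * B.mass - B.size ≤ ∑ n ∈ Ioc 0 N, B.omegaSum n := by
    have e : ∑ n ∈ Ioc 0 N, B.omegaSum n = ∑ p ∈ B.support, B.wt p * ((N / p : ℕ) : ℝ) := by
      simp only [omegaSum]
      rw [sum_comm]
      refine sum_congr rfl fun p _ => ?_
      rw [← Nat.Ioc_filter_dvd_card_eq_div, card_eq_sum_ones, Nat.cast_sum, mul_sum, ← sum_filter]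
      simp
    rw [e, mass, size, mul_sum, ← sum_sub_distrib]
    refine sum_le_sum fun p hp => ?_
    have hp0 : (0 : ℝ) < p := Nat.cast_pos.2 (B.prime_of_mem_support hp).pos
    rw [show (N : ℝ) * (B.wt p / p) - B.wt p = B.wt p * ((N : ℝ) / p - 1) by ring]
    refine mul_le_mul_of_nonneg_left ?_ (B.wt_nonneg p)
    rw [sub_le_iff_le_add, div_le_iff₀ hp0]
    have := (Nat.lt_mul_div_succ N (B.prime_of_mem_support hp).pos).le
    rw [mul_comm] at this
    exact_mod_cast this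
  simp only [sub_sq, sum_add_distrib, sum_sub_distrib, sum_const, Nat.card_Ioc, Nat.sub_zero,
    nsmul_eq_mul, ← sum_mul, ← mul_sum]
  push_cast at h2
  nlinarith [mul_le_mul_of_nonneg_left h1 (show 0 ≤ 2 * B.mass by linarith [B.mass_nonneg])]

/-- The error of the range of one prime. -/
def rangeErr (X v p n : ℕ) : ℝ :=
  if p ∣ n then (if n ∈ Ioc X (5 * X) then 1 else 0) -
    (if n / p ∈ B.cofRange X v then 1 else 0) else 0

/-- The `n` at which the range of some prime is wrong. -/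
def boundary (X : ℕ) : Finset ℕ :=
  Ioc X ⌊B.ratio * X⌋₊ ∪ Ioc (5 * X) ⌊B.ratio * ((5 * X : ℕ) : ℝ)⌋₊

theorem abs_rangeErr_le {X v p : ℕ} (hv : v ∈ B.index) (hp : p ∈ B.primes v) (n : ℕ) :
    |B.rangeErr X v p n| ≤
      if n ∈ B.boundary X then (if p ∣ n then (1 : ℝ) else 0) else 0 := by
  obtain ⟨hPp, hpR⟩ := B.range_mem v hv p hp
  have hP := B.start_pos v hv
  rw [rangeErr]
  by_cases hdvd : p ∣ n
  swap
  · rw [if_neg hdvd, abs_zero]
    split_ifs <;> simp
  rw [if_pos hdvd, if_pos hdvd]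
  obtain ⟨m, rfl⟩ := hdvd
  rw [Nat.mul_div_cancel_left m (B.prime_mem v hv p hp).pos]
  by_cases hA : p * m ∈ Ioc X (5 * X) <;> by_cases hB : m ∈ B.cofRange X v
  · rw [if_pos hA, if_pos hB, sub_self, abs_zero]
    split_ifs <;> norm_num
  · rw [if_pos hA, if_neg hB, sub_zero, abs_one, if_pos]
    simp only [cofRange, mem_Ioc] at hA hB
    rw [boundary, mem_union, mem_Ioc]
    have h5 : m ≤ ⌊5 * (X : ℝ) / B.start v⌋₊ := by
      refine Nat.le_floor ((le_div_iff₀ hP).2 ?_)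
      have h1 : ((p : ℝ) * m) ≤ 5 * X := by exact_mod_cast hA.2
      nlinarith [mul_le_mul_of_nonneg_right hPp (Nat.cast_nonneg (α := ℝ) m)]
    have hm : (m : ℝ) ≤ (X : ℝ) / B.start v :=
      (Nat.cast_le.2 (by omega)).trans (Nat.floor_le (by positivity))
    refine Or.inl ⟨hA.1, Nat.le_floor ?_⟩
    rw [le_div_iff₀ hP] at hm
    push_cast
    calc (p : ℝ) * m ≤ B.ratio * B.start v * m := by gcongr
      _ = B.ratio * (m * B.start v) := by ring
      _ ≤ _ := mul_le_mul_of_nonneg_left hm (by linarith [B.one_le_ratio])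
  · rw [if_neg hA, if_pos hB, zero_sub, abs_neg, abs_one, if_pos]
    simp only [cofRange, mem_Ioc] at hA hB
    rw [boundary, mem_union, mem_Ioc, mem_Ioc]
    have hlo : (X : ℝ) / B.start v < m := (Nat.floor_lt (by positivity)).1 hB.1
    have hhi : (m : ℝ) ≤ 5 * (X : ℝ) / B.start v :=
      (Nat.cast_le.2 hB.2).trans (Nat.floor_le (by positivity))
    rw [div_lt_iff₀ hP] at hlo
    rw [le_div_iff₀ hP] at hhi
    have hX : X < p * m := by
      have : (X : ℝ) < p * m :=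
        hlo.trans_le (by rw [mul_comm]; exact mul_le_mul_of_nonneg_right hPp (Nat.cast_nonneg m))
      exact_mod_cast this
    refine Or.inr ⟨by omega, Nat.le_floor ?_⟩
    push_cast
    calc (p : ℝ) * m ≤ B.ratio * B.start v * m := by gcongr
      _ = B.ratio * (m * B.start v) := by ring
      _ ≤ _ := mul_le_mul_of_nonneg_left hhi (by linarith [B.one_le_ratio])
  · rw [if_neg hA, if_neg hB, sub_self, abs_zero]
    split_ifs <;> norm_num

/-- The coefficient of the error of the ranges. -/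
def rangeCoeff (X n : ℕ) : ℝ :=
  ∑ v ∈ B.index, ∑ p ∈ B.primes v, B.weight v p * B.rangeErr X v p n

theorem abs_rangeCoeff_le (X n : ℕ) :
    |B.rangeCoeff X n| ≤ if n ∈ B.boundary X then B.omegaSum n else 0 := by
  refine (abs_sum_le_sum_abs _ _).trans ?_
  refine (sum_le_sum fun v hv => (abs_sum_le_sum_abs _ _).trans (sum_le_sum fun p hp => ?_)).trans
    (le_of_eq (b := if n ∈ B.boundary X then B.omegaSum n else 0) (a := ∑ v ∈ B.index,
      ∑ p ∈ B.primes v, B.weight v p *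
        if n ∈ B.boundary X then (if p ∣ n then (1 : ℝ) else 0) else 0) ?_)
  · rw [abs_mul, abs_of_nonneg (B.weight_nonneg v hv p hp)]
    exact mul_le_mul_of_nonneg_left (B.abs_rangeErr_le hv hp n) (B.weight_nonneg v hv p hp)
  · rw [omegaSum_eq]
    split_ifs <;> simp

/-- Everything in sight. -/
def ambient (X : ℕ) : Finset ℕ := Icc 1 ⌊B.ratio * ((5 * X : ℕ) : ℝ)⌋₊

theorem Ioc_subset_ambient (X : ℕ) : Ioc X (5 * X) ⊆ B.ambient X := fun n hn => by
  obtain ⟨h1, h2⟩ := mem_Ioc.1 hn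
  refine mem_Icc.2 ⟨by omega, Nat.le_floor ?_⟩
  exact le_trans (Nat.cast_le.2 h2) (le_mul_of_one_le_left (Nat.cast_nonneg _) B.one_le_ratio)

theorem piece_mul_cofactor (F : Twist) {X v : ℕ} (hv : v ∈ B.index) (t : ℝ) :
    B.piece F v t * B.cofactor F X v t =
      ∑ n ∈ B.ambient X, ((∑ p ∈ B.primes v,
        B.weight v p * if p ∣ n ∧ n / p ∈ B.cofRange X v then 1 else 0 : ℝ) : ℂ) *
          (F.fn n * (n : ℂ) ^ (-(Complex.I * (t : ℂ)))) := by
  simp only [Complex.ofReal_sum, sum_mul]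
  rw [sum_comm, piece, dpoly, sum_mul]
  refine sum_congr rfl fun p hp => ?_
  have hp0 : 0 < p := (B.prime_mem v hv p hp).pos
  have e : ∑ n ∈ B.ambient X, ((B.weight v p *
      if p ∣ n ∧ n / p ∈ B.cofRange X v then 1 else 0 : ℝ) : ℂ) *
        (F.fn n * (n : ℂ) ^ (-(Complex.I * (t : ℂ)))) =
      (B.weight v p : ℂ) * ∑ m ∈ B.cofRange X v,
        F.fn (p * m) * ((p * m : ℕ) : ℂ) ^ (-(Complex.I * (t : ℂ))) := by
    rw [mul_sum]
    have h1 : ∀ n : ℕ, ((B.weight v p *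
        if p ∣ n ∧ n / p ∈ B.cofRange X v then 1 else 0 : ℝ) : ℂ) *
          (F.fn n * (n : ℂ) ^ (-(Complex.I * (t : ℂ)))) =
        if p ∣ n ∧ n / p ∈ B.cofRange X v then
          (B.weight v p : ℂ) * (F.fn n * (n : ℂ) ^ (-(Complex.I * (t : ℂ)))) else 0 := fun n => by
      split_ifs <;> simp
    simp only [h1, ← sum_filter]
    refine (sum_bij (fun m _ => p * m) (fun m hm => ?_) (fun a _ b _ h => ?_) (fun n hn => ?_)
      fun m _ => rfl).symm
    · rw [mem_filter, Nat.mul_div_cancel_left m hp0, ambient, mem_Icc]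
      refine ⟨⟨?_, Nat.le_floor ?_⟩, dvd_mul_right p m, hm⟩
      · simp only [cofRange, mem_Ioc] at hm
        exact Nat.mul_pos hp0 (by omega)
      · obtain ⟨-, hpR⟩ := B.range_mem v hv p hp
        have hP := B.start_pos v hv
        have hm' : (m : ℝ) ≤ 5 * (X : ℝ) / B.start v :=
          (Nat.cast_le.2 (mem_Ioc.1 hm).2).trans (Nat.floor_le (by positivity))
        rw [le_div_iff₀ hP] at hm'
        push_cast
        calc (p : ℝ) * m ≤ B.ratio * B.start v * m := by gcongr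
          _ = B.ratio * (m * B.start v) := by ring
          _ ≤ _ := mul_le_mul_of_nonneg_left hm' (by linarith [B.one_le_ratio])
    · exact Nat.eq_of_mul_eq_mul_left hp0 h
    · obtain ⟨-, hd, hc⟩ := mem_filter.1 hn
      exact ⟨n / p, hc, Nat.mul_div_cancel' hd⟩
  rw [e, cofactor, dpoly, mul_sum, mul_sum]
  refine sum_congr rfl fun m _ => ?_
  rw [F.map_mul, natCast_mul_cpow]
  ring

/-- **The decomposition.** -/
theorem twistPoly_eq (F : Twist) {X : ℕ} (hM : B.mass ≠ 0) (t : ℝ) :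
    twistPoly F X t =
      dpoly (Ioc X (5 * X)) (fun n => ((1 - B.omegaSum n / B.mass : ℝ) : ℂ) * F.fn n) t +
      dpoly (B.ambient X) (fun n => ((B.rangeCoeff X n / B.mass : ℝ) : ℂ) * F.fn n) t +
      (1 / B.mass : ℝ) * ∑ v ∈ B.index, B.piece F v t * B.cofactor F X v t := by
  obtain ⟨χ, hχ⟩ : ∃ χ : ℕ → ℝ, χ = fun n => if n ∈ Ioc X (5 * X) then 1 else 0 := ⟨_, rfl⟩
  have hext : ∀ a : ℕ → ℝ, dpoly (Ioc X (5 * X)) (fun n => (a n : ℂ) * F.fn n) t =
      ∑ n ∈ B.ambient X, ((χ n * a n : ℝ) : ℂ) *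
        (F.fn n * (n : ℂ) ^ (-(Complex.I * (t : ℂ)))) := fun a => by
    rw [dpoly, ← sum_subset (B.Ioc_subset_ambient X) fun n _ hn => by
      simp only [hχ, if_neg hn, zero_mul, Complex.ofReal_zero]]
    refine sum_congr rfl fun n hn => ?_
    simp only [hχ, if_pos hn, one_mul]
    ring
  have h1 : twistPoly F X t = dpoly (Ioc X (5 * X)) (fun n => ((1 : ℝ) : ℂ) * F.fn n) t := by
    simp [twistPoly]
  rw [h1, hext, hext, dpoly, sum_congr rfl fun v hv => B.piece_mul_cofactor F (X := X) hv t,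
    sum_comm, mul_sum, ← sum_add_distrib,
    ← sum_add_distrib]
  refine sum_congr rfl fun n _ => ?_
  rw [← sum_mul, ← Complex.ofReal_sum]
  have key : χ n = χ n * (1 - B.omegaSum n / B.mass) + B.rangeCoeff X n / B.mass +
      1 / B.mass * ∑ v ∈ B.index, ∑ p ∈ B.primes v,
        B.weight v p * if p ∣ n ∧ n / p ∈ B.cofRange X v then 1 else 0 := by
    have hsplit : B.rangeCoeff X n + ∑ v ∈ B.index, ∑ p ∈ B.primes v,
        B.weight v p * (if p ∣ n ∧ n / p ∈ B.cofRange X v then 1 else 0) =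
        χ n * B.omegaSum n := by
      rw [omegaSum_eq, rangeCoeff, mul_sum, ← sum_add_distrib]
      refine sum_congr rfl fun v _ => ?_
      rw [mul_sum, ← sum_add_distrib]
      refine sum_congr rfl fun p _ => ?_
      rw [rangeErr, hχ]
      by_cases hp : p ∣ n <;> simp [hp]
      split_ifs <;> ring
    field_simp
    linarith
  rw [mul_one]
  conv_lhs => rw [key]
  push_cast
  ring

theorem sum_rangeCoeff_sq_le (X : ℕ) : ∑ n ∈ B.ambient X, B.rangeCoeff X n ^ 2 ≤
    6 * (B.ratio - 1) * X * (B.mass ^ 2 + 2 * B.mass) + 2 * B.size ^ 2 := by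
  have hR := B.one_le_ratio
  have hone : ∀ Y : ℕ, ∑ n ∈ Ioc Y ⌊B.ratio * Y⌋₊, B.omegaSum n ^ 2 ≤
      (B.ratio - 1) * Y * (B.mass ^ 2 + 2 * B.mass) + B.size ^ 2 := fun Y => by
    have hY : Y ≤ ⌊B.ratio * (Y : ℝ)⌋₊ :=
      Nat.le_floor (le_mul_of_one_le_left (Nat.cast_nonneg Y) hR)
    refine (B.sum_omegaSum_sq_le hY).trans
      (add_le_add (mul_le_mul_of_nonneg_right ?_ ?_) le_rfl)
    · linarith [Nat.floor_le (show 0 ≤ B.ratio * (Y : ℝ) by positivity)]
    · nlinarith [B.mass_nonneg, sq_nonneg B.mass]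
  have hpt : ∀ n, B.rangeCoeff X n ^ 2 ≤ if n ∈ B.boundary X then B.omegaSum n ^ 2 else 0 :=
    fun n => by
      have h := B.abs_rangeCoeff_le X n
      rw [← sq_abs]
      split_ifs with hn
      · rw [if_pos hn] at h
        exact pow_le_pow_left₀ (abs_nonneg _) h 2
      · rw [if_neg hn] at h
        rw [le_antisymm h (abs_nonneg _), zero_pow two_ne_zero]
  refine (sum_le_sum fun n _ => hpt n).trans ?_
  rw [← sum_filter]
  refine (sum_le_sum_of_subset_of_nonneg (t := B.boundary X)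
    (fun n hn => (mem_filter.1 hn).2) fun n _ _ => sq_nonneg _).trans ?_
  have hu := sum_union_inter (f := fun n => B.omegaSum n ^ 2)
    (s₁ := Ioc X ⌊B.ratio * X⌋₊) (s₂ := Ioc (5 * X) ⌊B.ratio * ((5 * X : ℕ) : ℝ)⌋₊)
  have h0 : 0 ≤ ∑ n ∈ Ioc X ⌊B.ratio * X⌋₊ ∩ Ioc (5 * X) ⌊B.ratio * ((5 * X : ℕ) : ℝ)⌋₊,
      B.omegaSum n ^ 2 := sum_nonneg fun n _ => sq_nonneg _
  have ha := hone X
  have hb := hone (5 * X)
  push_cast at hb hu h0
  rw [boundary]
  push_cast
  linarith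

/-- **The mean square through the bilinear form.** -/
theorem setIntegral_twistPoly_le (F : Twist) {X : ℕ} {T : ℝ} (hT : 0 ≤ T) (hTX : T ≤ X)
    (hM : 1 ≤ B.mass)
    (hR : B.ratio ≤ 2) (hsize : B.size ^ 2 ≤ X) (hsize' : B.size ^ 2 ≤ (B.ratio - 1) * X)
    {U : Set ℝ} (hUm : MeasurableSet U) (hU : U ⊆ Set.Icc (-T) T) :
    ∫ t in U, ‖twistPoly F X t‖ ^ 2 ≤
      3 * B.index.card / B.mass ^ 2 *
          (∑ v ∈ B.index, ∫ t in U, ‖B.piece F v t * B.cofactor F X v t‖ ^ 2) +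
        12000 * (X : ℝ) ^ 2 * (1 / B.mass + (B.ratio - 1)) := by
  obtain ⟨μ, hμ⟩ : ∃ μ, μ = B.mass := ⟨_, rfl⟩
  rw [← hμ] at hM ⊢
  have hμ0 : 0 < μ := by linarith
  obtain ⟨e, he⟩ : ∃ e : ℕ → ℂ, e = fun n => ((1 - B.omegaSum n / μ : ℝ) : ℂ) * F.fn n :=
    ⟨_, rfl⟩
  obtain ⟨g, hg⟩ : ∃ g : ℕ → ℂ, g = fun n => ((B.rangeCoeff X n / μ : ℝ) : ℂ) * F.fn n :=
    ⟨_, rfl⟩
  obtain ⟨G, hG⟩ : ∃ G : ℝ → ℝ, G = fun t => 3 * ‖dpoly (Ioc X (5 * X)) e t‖ ^ 2 +
      3 * ‖dpoly (B.ambient X) g t‖ ^ 2 +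
      3 * B.index.card / μ ^ 2 * ∑ v ∈ B.index, ‖B.piece F v t * B.cofactor F X v t‖ ^ 2 := ⟨_, rfl⟩
  have hIoc : ∀ n ∈ Ioc X (5 * X), 1 ≤ n := fun n hn => by have := (mem_Ioc.1 hn).1; omega
  have hamb : ∀ n ∈ B.ambient X, 1 ≤ n := fun n hn => (mem_Icc.1 hn).1
  have hce := continuous_dpoly hIoc e
  have hcg := continuous_dpoly hamb g
  have hcv : ∀ v ∈ B.index, Continuous fun t => ‖B.piece F v t * B.cofactor F X v t‖ ^ 2 :=
    fun v hv => (((continuous_dpoly (fun p hp => (B.prime_mem v hv p hp).one_le) _).mul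
      (continuous_dpoly (fun m hm => by have := (mem_Ioc.1 hm).1; omega) _)).norm).pow 2
  have hint : ∀ {f : ℝ → ℝ}, Continuous f → IntegrableOn f U := fun hf =>
    hf.integrableOn_Icc.mono_set hU
  have hcs : Continuous fun t => ∑ v ∈ B.index, ‖B.piece F v t * B.cofactor F X v t‖ ^ 2 :=
    continuous_finsetSum _ hcv
  have hpt : ∀ t, ‖twistPoly F X t‖ ^ 2 ≤ G t := fun t => by
    rw [B.twistPoly_eq F (by rw [← hμ]; exact hμ0.ne') t, ← hμ, ← he, ← hg, hG]
    have hs : ‖((1 / μ : ℝ) : ℂ) * ∑ v ∈ B.index, B.piece F v t * B.cofactor F X v t‖ ^ 2 ≤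
        (B.index.card : ℝ) / μ ^ 2 * ∑ v ∈ B.index, ‖B.piece F v t * B.cofactor F X v t‖ ^ 2 := by
      rw [norm_mul, mul_pow, Complex.norm_real, Real.norm_eq_abs, sq_abs, div_pow, one_pow,
        div_mul_eq_mul_div, div_mul_eq_mul_div]
      refine div_le_div_of_nonneg_right ?_ (sq_nonneg _)
      rw [one_mul]
      exact (pow_le_pow_left₀ (norm_nonneg _) (norm_sum_le _ _) 2).trans
        sq_sum_le_card_mul_sum_sq
    refine (pow_le_pow_left₀ (norm_nonneg _) ((norm_add_le _ _).trans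
      (add_le_add (norm_add_le _ _) le_rfl)) 2).trans ?_
    simp only
    rw [show (3 : ℝ) * B.index.card / μ ^ 2 = 3 * (B.index.card / μ ^ 2) by ring, mul_assoc]
    generalize ‖dpoly (Ioc X (5 * X)) e t‖ = a
    generalize ‖dpoly (B.ambient X) g t‖ = b
    generalize ‖((1 / μ : ℝ) : ℂ) * ∑ v ∈ B.index, B.piece F v t * B.cofactor F X v t‖ = c at hs ⊢
    nlinarith [sq_nonneg (a - b), sq_nonneg (a - c), sq_nonneg (b - c)]
  refine (setIntegral_mono_on (hint ((continuous_twistPoly F X).norm.pow 2))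
    (hint (hG ▸ by fun_prop)) hUm fun t _ => hpt t).trans ?_
  rw [hG, integral_add (hint (by fun_prop)) (hint (by fun_prop)),
    integral_add (hint (by fun_prop)) (hint (by fun_prop)), integral_const_mul, integral_const_mul,
    integral_const_mul, integral_finsetSum _ fun v hv => hint (hcv v hv)]
  have hX0 : (0 : ℝ) ≤ X := Nat.cast_nonneg X
  have hS0 := B.size_nonneg
  have hSX : B.size ≤ X := by
    rcases Nat.eq_zero_or_pos X with rfl | hXp
    · push_cast at hsize ⊢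
      nlinarith
    · have : (1 : ℝ) ≤ X := Nat.one_le_cast.2 hXp
      nlinarith
  have h1 : ∫ t in U, ‖dpoly (Ioc X (5 * X)) e t‖ ^ 2 ≤ 1300 * (X : ℝ) ^ 2 / μ := by
    have hsum : ∑ n ∈ Ioc X (5 * X), ‖e n‖ ^ 2 ≤ 13 * X / μ := by
      refine (sum_le_sum (g := fun n => (B.omegaSum n - μ) ^ 2 / μ ^ 2) fun n _ => ?_).trans
        ((sum_le_sum_of_subset_of_nonneg (t := Ioc 0 (5 * X))
          (Ioc_subset_Ioc_left (Nat.zero_le X)) fun n _ _ => by positivity).trans ?_)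
      · rw [he, norm_mul, mul_pow, Complex.norm_real, Real.norm_eq_abs, sq_abs]
        refine (mul_le_of_le_one_right (sq_nonneg _)
          (pow_le_one₀ (norm_nonneg _) (F.norm_le n))).trans (le_of_eq ?_)
        field_simp
        ring
      · have h := B.sum_omegaSum_sub_sq_le (5 * X)
        rw [← hμ] at h
        push_cast at h
        rw [← sum_div, div_le_div_iff₀ (by positivity) hμ0]
        calc (∑ n ∈ Ioc 0 (5 * X), (B.omegaSum n - μ) ^ 2) * μ
            ≤ (13 * X * μ) * μ := by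
              refine mul_le_mul_of_nonneg_right (h.trans ?_) hμ0.le
              nlinarith [mul_le_mul_of_nonneg_left hSX hμ0.le,
                le_mul_of_one_le_right hX0 hM]
          _ = _ := by ring
    refine (setIntegral_dpoly_le (M := 5 * X) (fun n hn => by
      simp only [mem_Ioc, mem_Icc] at hn ⊢; omega) e hT hU).trans ?_
    refine (mul_le_mul (show 2 * T + 19 * ((5 * X : ℕ) : ℝ) ≤ 97 * X by push_cast; linarith) hsum
      (sum_nonneg fun n _ => sq_nonneg _) (by positivity)).trans ?_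
    rw [← mul_div_assoc]
    exact div_le_div_of_nonneg_right (by nlinarith) hμ0.le
  have h2 : ∫ t in U, ‖dpoly (B.ambient X) g t‖ ^ 2 ≤ 3840 * (X : ℝ) ^ 2 * (B.ratio - 1) := by
    have hsum : ∑ n ∈ B.ambient X, ‖g n‖ ^ 2 ≤ 20 * (B.ratio - 1) * X := by
      refine (sum_le_sum (g := fun n => B.rangeCoeff X n ^ 2 / μ ^ 2) fun n _ => ?_).trans ?_
      · rw [hg, norm_mul, mul_pow, Complex.norm_real, Real.norm_eq_abs, sq_abs, div_pow]
        exact mul_le_of_le_one_right (by positivity) (pow_le_one₀ (norm_nonneg _) (F.norm_le n))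
      · have h := B.sum_rangeCoeff_sq_le X
        rw [← hμ] at h
        rw [← sum_div, div_le_iff₀ (by positivity)]
        have h3 : 0 ≤ (B.ratio - 1) * X := mul_nonneg (by linarith [B.one_le_ratio]) hX0
        have h4 : (1 : ℝ) ≤ μ ^ 2 := one_le_pow₀ hM
        nlinarith [mul_le_mul_of_nonneg_left (show μ ≤ μ ^ 2 by nlinarith) h3,
          le_mul_of_one_le_right h3 h4]
    refine (setIntegral_dpoly_le (s := B.ambient X) (M := ⌊B.ratio * ((5 * X : ℕ) : ℝ)⌋₊)
      subset_rfl g hT hU).trans ?_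
    refine (mul_le_mul (b := 192 * (X : ℝ)) ?_ hsum (sum_nonneg fun n _ => sq_nonneg _)
      (by positivity)).trans (le_of_eq (by ring))
    have h3 : ((⌊B.ratio * ((5 * X : ℕ) : ℝ)⌋₊ : ℕ) : ℝ) ≤ B.ratio * ((5 * X : ℕ) : ℝ) :=
      Nat.floor_le (mul_nonneg (by linarith [B.one_le_ratio]) (Nat.cast_nonneg _))
    push_cast at h3 ⊢
    nlinarith
  have h3 : 1300 * (X : ℝ) ^ 2 / μ = 1300 * (X : ℝ) ^ 2 * (1 / μ) := by ring
  have h4 : 0 ≤ (X : ℝ) ^ 2 * (1 / μ) := by positivity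
  have h5 : 0 ≤ (X : ℝ) ^ 2 * (B.ratio - 1) :=
    mul_nonneg (sq_nonneg _) (by linarith [B.one_le_ratio])
  refine (add_le_add (add_le_add (mul_le_mul_of_nonneg_left h1 (by norm_num : (0 : ℝ) ≤ 3))
    (mul_le_mul_of_nonneg_left h2 (by norm_num : (0 : ℝ) ≤ 3))) le_rfl).trans ?_
  linarith

end Pieces

end FA.ShortLiouville

end
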