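import Fermat.Agent.ShortLiouville.Moments
import Fermat.Agent.Korobov.ZetaBound
import Mathlib.MeasureTheory.Integral.Prod
import Mathlib.Analysis.SpecialFunctions.Integrals.Basic

/-!
# Large values: the inequality of Halász and Montgomery

`∫_U |R|² ≤ (N log T + |U| √T log N) ∑ |a n|²` for a Dirichlet polynomial of length `N` and a set
`U` in `[-T, T]`, from `∑_{n ≤ N} n ^ (-it) = O (N / (1 + |t|) + √(1 + |t|) log N)`.
-/

set_option autoImplicit false

noncomputable section

namespace FA.ShortLiouville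

open MeasureTheory Finset FA.Hoheisel FA.Subconvexity
open scoped Real ComplexConjugate

/-- A part of a dyadic block of `n ^ (-it)`. -/
theorem norm_phase_block_le {t : ℝ} (ht : 2 ≤ t) {N a b : ℕ} (hN : 1 ≤ N) (ha : N ≤ a)
    (hb : b ≤ 2 * N) : ‖∑ n ∈ Ico a b, expI (phase t n)‖ ≤ 25 * N / t + 87 * √t := by
  have ht0 : 0 < t := by linarith
  have hst : 1 ≤ √t := Real.one_le_sqrt.2 (by linarith)
  rcases lt_or_ge t (N : ℝ) with hhigh | hlow
  · exact (Korobov.norm_block_high_le ht hhigh ha hb).trans (by linarith)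
  have hN0 : (0 : ℝ) < N := Nat.cast_pos.2 hN
  have h := norm_vdc_second_le (φ := phase t) (lam := t / (9 * (N : ℝ) ^ 2)) (A := 9)
    (by positivity) (by norm_num) (a := a) (b := b) fun m hm hm' => by
      obtain ⟨e1, e2⟩ := second_diff_log (show 1 ≤ m by omega)
      have hmN : (N : ℝ) ≤ m := Nat.cast_le.2 (ha.trans hm)
      have hm3 : (m : ℝ) + 1 ≤ 3 * N := by
        have : m + 1 ≤ 3 * N := by omega
        exact_mod_cast this
      have e : (phase t (m + 2) - phase t (m + 1)) - (phase t (m + 1) - phase t m) =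
          t * (2 * Real.log ((m : ℝ) + 1) - Real.log ((m : ℝ) + 2) - Real.log m) := by
        simp only [phase, Nat.cast_add, Nat.cast_ofNat, Nat.cast_one]; ring
      rw [e]
      constructor
      · refine le_trans ?_ (mul_le_mul_of_nonneg_left e1 ht0.le)
        rw [mul_one_div]
        refine div_le_div_of_nonneg_left ht0.le (by positivity) ?_
        nlinarith
      · refine (mul_le_mul_of_nonneg_left e2 ht0.le).trans ?_
        rw [mul_one_div, show 9 * (t / (9 * (N : ℝ) ^ 2)) = t / (N : ℝ) ^ 2 by field_simp]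
        exact div_le_div_of_nonneg_left ht0.le (by positivity)
          (pow_le_pow_left₀ hN0.le hmN 2)
  refine h.trans ?_
  have hs : √(t / (9 * (N : ℝ) ^ 2)) = √t / (3 * N) := by
    rw [Real.sqrt_div' _ (by positivity), show (9 : ℝ) * (N : ℝ) ^ 2 = (3 * N) ^ 2 by ring,
      Real.sqrt_sq (by positivity)]
  have hlen : ((b - a : ℕ) : ℝ) ≤ N := Nat.cast_le.2 (by omega)
  rw [hs, div_div_eq_mul_div]
  have h1 : 3 * 9 * ((b - a : ℕ) : ℝ) * (√t / (3 * N)) ≤ 9 * √t := by
    refine (mul_le_mul_of_nonneg_right (mul_le_mul_of_nonneg_left hlen (by norm_num))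
      (by positivity)).trans (le_of_eq ?_)
    field_simp
  have h2 : 26 * (3 * (N : ℝ)) / √t ≤ 78 * √t := by
    rw [div_le_iff₀ (by linarith), mul_assoc (78 : ℝ), Real.mul_self_sqrt ht0.le]
    linarith
  have h3 : 0 ≤ 25 * (N : ℝ) / t := by positivity
  linarith

theorem norm_phase_sum_le {t : ℝ} (ht : 2 ≤ t) : ∀ X : ℕ,
    ‖∑ n ∈ Icc 1 X, expI (phase t n)‖ ≤ 50 * X / t + (Nat.log 2 X + 1) * (87 * √t) := by
  have hst : 1 ≤ √t := Real.one_le_sqrt.2 (by linarith)
  intro X
  induction X using Nat.strong_induction_on with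
  | h X ih =>
    rcases Nat.eq_zero_or_pos X with rfl | hpos
    · simp only [show Icc 1 0 = (∅ : Finset ℕ) by rfl, sum_empty, norm_zero]
      positivity
    rcases Nat.lt_or_ge X 2 with hlt | hge
    · obtain rfl : X = 1 := by omega
      rw [Icc_self, sum_singleton, norm_expI, Nat.log_one_right]
      push_cast
      have : 0 ≤ 50 * (1 : ℝ) / t := by positivity
      linarith
    set h := X / 2 with hh
    have hlog : Nat.log 2 h + 1 = Nat.log 2 X := by
      rw [hh, Nat.log_div_base]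
      have : 1 ≤ Nat.log 2 X := Nat.le_log_of_pow_le one_lt_two (by simpa using hge)
      omega
    rw [show Icc 1 X = Icc 1 h ∪ Ico (h + 1) (X + 1) by
      ext i; simp only [mem_union, mem_Icc, mem_Ico]; omega,
      sum_union (Finset.disjoint_left.2 fun i ha hb => by
        simp only [mem_Icc, mem_Ico] at ha hb; omega)]
    refine (norm_add_le _ _).trans ((add_le_add (ih h (by omega))
      (norm_phase_block_le ht (N := h + 1) (by omega) le_rfl (by omega))).trans ?_)
    rw [← hlog]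
    have hhX : 2 * (h : ℝ) ≤ X := by exact_mod_cast (show 2 * h ≤ X by omega)
    have hX2 : (2 : ℝ) ≤ X := Nat.ofNat_le_cast.2 hge
    have : (50 * (h : ℝ) + 25 * (h + 1)) / t ≤ 50 * X / t :=
      div_le_div_of_nonneg_right (by linarith) (by linarith)
    rw [add_div] at this
    push_cast
    linarith

/-- `∑_{n ≤ N} n ^ (-it)`. -/
def kernelSum (N : ℕ) (t : ℝ) : ℂ := dpoly (Icc 1 N) (fun _ => 1) t

theorem natCast_cpow_imag_eq {n : ℕ} (hn : 1 ≤ n) (t : ℝ) :
    (n : ℂ) ^ (-(Complex.I * (t : ℂ))) = expI (phase t n) := by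
  rw [Complex.cpow_def_of_ne_zero (Nat.cast_ne_zero.2 (by omega)), ← Complex.natCast_log, expI,
    phase]
  congr 1
  push_cast
  ring

/-- The bound on the kernel. -/
def kernelBound (N : ℕ) (t : ℝ) : ℝ :=
  150 * N / (1 + |t|) + 87 * √(1 + |t|) * (Nat.log 2 N + 1)

theorem norm_kernelSum_le (N : ℕ) (t : ℝ) : ‖kernelSum N t‖ ≤ kernelBound N t := by
  have hk : ∀ u : ℝ, kernelSum N u = ∑ n ∈ Icc 1 N, expI (phase u n) := fun u => by
    rw [kernelSum, dpoly]
    exact sum_congr rfl fun n hn => by rw [one_mul, natCast_cpow_imag_eq (mem_Icc.1 hn).1]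
  rcases lt_or_ge |t| 2 with ht | ht
  · refine ((norm_dpoly_le_card (fun n hn => (mem_Icc.1 hn).1) _ t).trans ?_)
    rw [kernelBound]
    simp only [norm_one, sum_const, Nat.card_Icc, Nat.add_sub_cancel, nsmul_one]
    have h1 : (N : ℝ) ≤ 150 * N / (1 + |t|) := by
      rw [le_div_iff₀ (by positivity)]
      nlinarith [(Nat.cast_nonneg N : (0 : ℝ) ≤ N)]
    have h2 : 0 ≤ 87 * √(1 + |t|) * ((Nat.log 2 N : ℝ) + 1) := by positivity
    linarith
  have habs : ‖kernelSum N t‖ = ‖∑ n ∈ Icc 1 N, expI (phase |t| n)‖ := by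
    rw [hk]
    rcases le_total 0 t with h | h
    · rw [abs_of_nonneg h]
    · rw [abs_of_nonpos h, ← norm_sum_expI_neg _ fun n => phase (-t) n]
      congr 1
      refine sum_congr rfl fun n _ => ?_
      rw [phase, phase]
      ring_nf
  rw [habs, kernelBound]
  refine (norm_phase_sum_le ht N).trans (add_le_add ?_ ?_)
  · rw [div_le_div_iff₀ (by linarith) (by positivity)]
    nlinarith [(Nat.cast_nonneg N : (0 : ℝ) ≤ N)]
  · rw [mul_comm _ (87 * √|t|)]
    gcongr
    linarith

theorem continuous_kernelSum (N : ℕ) : Continuous (kernelSum N) :=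
  continuous_dpoly (fun _ hn => (mem_Icc.1 hn).1) _

theorem norm_kernelSum_comm (N : ℕ) (x y : ℝ) :
    ‖kernelSum N (x - y)‖ = ‖kernelSum N (y - x)‖ := by
  rw [← Complex.norm_conj (kernelSum N (x - y)), kernelSum, kernelSum, dpoly, dpoly, map_sum]
  congr 1
  refine sum_congr rfl fun n _ => ?_
  rw [map_mul, map_one, conj_natCast_cpow_imag, neg_sub]

theorem integral_inv_one_add_le {T x : ℝ} (hx : x ∈ Set.Icc (-T) T) :
    ∫ y in Set.Icc (-T) T, 1 / (1 + |x - y|) ≤ 2 * Real.log (1 + 2 * T) := by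
  have hc : Continuous fun y : ℝ => 1 / (1 + |x - y|) :=
    continuous_const.div (by fun_prop) fun y => by positivity
  have hT : -T ≤ T := hx.1.trans hx.2
  rw [integral_Icc_eq_integral_Ioc, ← intervalIntegral.integral_of_le hT,
    ← intervalIntegral.integral_add_adjacent_intervals (b := x) (hc.intervalIntegrable _ _)
      (hc.intervalIntegrable _ _)]
  have h1 : ∫ y in (-T)..x, 1 / (1 + |x - y|) = Real.log (1 + (x + T)) := by
    have hd : ∀ y ∈ Set.uIcc (-T) x,
        HasDerivAt (fun y => -Real.log (1 + (x - y))) (1 / (1 + |x - y|)) y := fun y hy => by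
      rw [Set.uIcc_of_le hx.1] at hy
      have h0 : 0 ≤ x - y := by linarith [hy.2]
      refine (((((hasDerivAt_id' y).const_sub x).const_add 1).log
        (by linarith : (1 : ℝ) + (x - y) ≠ 0)).fun_neg).congr_deriv ?_
      rw [abs_of_nonneg h0]
      ring
    rw [intervalIntegral.integral_eq_sub_of_hasDerivAt hd (hc.intervalIntegrable _ _)]
    simp [sub_neg_eq_add]
  have h2 : ∫ y in x..T, 1 / (1 + |x - y|) = Real.log (1 + (T - x)) := by
    have hd : ∀ y ∈ Set.uIcc x T,
        HasDerivAt (fun y => Real.log (1 + (y - x))) (1 / (1 + |x - y|)) y := fun y hy => by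
      rw [Set.uIcc_of_le hx.2] at hy
      have h0 : 0 ≤ y - x := by linarith [hy.1]
      refine ((((hasDerivAt_id' y).sub_const x).const_add 1).log
        (by linarith : (1 : ℝ) + (y - x) ≠ 0)).congr_deriv ?_
      rw [abs_sub_comm, abs_of_nonneg h0]
    rw [intervalIntegral.integral_eq_sub_of_hasDerivAt hd (hc.intervalIntegrable _ _)]
    simp
  rw [h1, h2]
  have := hx.1
  have := hx.2
  linarith [Real.log_le_log (by linarith) (show 1 + (x + T) ≤ 1 + 2 * T by linarith),
    Real.log_le_log (by linarith) (show 1 + (T - x) ≤ 1 + 2 * T by linarith)]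

theorem setIntegral_kernel_le {N : ℕ} {T : ℝ} {U : Set ℝ} (hUm : MeasurableSet U)
    (hU : U ⊆ Set.Icc (-T) T) {x : ℝ} (hx : x ∈ U) :
    ∫ y in U, ‖kernelSum N (x - y)‖ ≤ 300 * N * Real.log (1 + 2 * T) +
      87 * √(1 + 2 * T) * (Nat.log 2 N + 1) * volume.real U := by
  obtain ⟨hx1, hx2⟩ := hU hx
  have hcK : Continuous fun y => ‖kernelSum N (x - y)‖ :=
    ((continuous_kernelSum N).comp (by fun_prop)).norm
  have hc : Continuous fun y : ℝ => 150 * N / (1 + |x - y|) :=
    continuous_const.div (by fun_prop) fun y => by positivity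
  have hfin : volume U ≠ ⊤ := ((measure_mono hU).trans_lt measure_Icc_lt_top).ne
  have hi := (hc.integrableOn_Icc (μ := volume)).mono_set hU
  have hL : (0 : ℝ) ≤ (Nat.log 2 N : ℝ) + 1 := by positivity
  calc ∫ y in U, ‖kernelSum N (x - y)‖
      ≤ ∫ y in U, (150 * N / (1 + |x - y|) + 87 * √(1 + 2 * T) * (Nat.log 2 N + 1)) := by
        refine setIntegral_mono_on ((hcK.integrableOn_Icc).mono_set hU)
          (hi.add (integrableOn_const hfin)) hUm fun y hy => (norm_kernelSum_le N _).trans ?_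
        refine add_le_add le_rfl (mul_le_mul_of_nonneg_right
          (mul_le_mul_of_nonneg_left (Real.sqrt_le_sqrt ?_) (by norm_num)) hL)
        have := abs_le.2 ⟨show -(2 * T) ≤ x - y by linarith [(hU hy).2],
          show x - y ≤ 2 * T by linarith [(hU hy).1]⟩
        linarith
    _ = (∫ y in U, 150 * N / (1 + |x - y|)) +
          87 * √(1 + 2 * T) * (Nat.log 2 N + 1) * volume.real U := by
        rw [integral_add hi (integrableOn_const hfin), setIntegral_const, smul_eq_mul]
        ring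
    _ ≤ _ := by
        refine add_le_add ((setIntegral_le_Icc hc (fun y => by positivity) hU).trans ?_) le_rfl
        rw [show (300 : ℝ) * N * Real.log (1 + 2 * T) =
          150 * N * (2 * Real.log (1 + 2 * T)) by ring]
        simp only [div_eq_mul_one_div (150 * (N : ℝ))]
        rw [integral_const_mul]
        exact mul_le_mul_of_nonneg_left (integral_inv_one_add_le (hU hx)) (by positivity)

/-- Schur's test for a symmetric kernel. -/
theorem setIntegral_double_le {U : Set ℝ} {T : ℝ} (hUm : MeasurableSet U)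
    (hU : U ⊆ Set.Icc (-T) T) {φ : ℝ → ℝ} (hφ : Continuous φ)
    {κ : ℝ → ℝ → ℝ} (hκ : Continuous fun z : ℝ × ℝ => κ z.1 z.2) (hκ0 : ∀ x y, 0 ≤ κ x y)
    (hsym : ∀ x y, κ x y = κ y x) {B : ℝ} (hB : ∀ x ∈ U, ∫ y in U, κ x y ≤ B) :
    ∫ x in U, φ x * ∫ y in U, φ y * κ x y ≤ B * ∫ x in U, φ x ^ 2 := by
  have : IsFiniteMeasure (volume.restrict U) :=
    isFiniteMeasure_restrict.2 ((measure_mono hU).trans_lt measure_Icc_lt_top).ne
  obtain ⟨ν, hν⟩ : ∃ ν : Measure ℝ, ν = volume.restrict U := ⟨_, rfl⟩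
  have : IsFiniteMeasure ν := hν ▸ inferInstance
  have hprod : ∀ {g : ℝ × ℝ → ℝ}, Continuous g → Integrable g (ν.prod ν) := fun {g} hg => by
    obtain ⟨C, hC⟩ := (isCompact_Icc.prod isCompact_Icc :
      IsCompact (Set.Icc (-T) T ×ˢ Set.Icc (-T) T)).exists_bound_of_continuousOn hg.continuousOn
    refine (integrable_const C).mono' hg.aestronglyMeasurable ?_
    rw [hν, Measure.prod_restrict]
    exact (ae_restrict_iff' (hUm.prod hUm)).2 (ae_of_all _ fun z hz => hC z ⟨hU hz.1, hU hz.2⟩)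
  have hc1 : Continuous fun z : ℝ × ℝ => φ z.1 * (φ z.2 * κ z.1 z.2) := by fun_prop
  have hc2 : Continuous fun z : ℝ × ℝ => φ z.1 ^ 2 * κ z.1 z.2 := by fun_prop
  have hc3 : Continuous fun z : ℝ × ℝ => φ z.2 ^ 2 * κ z.1 z.2 := by fun_prop
  rw [← hν] at hB ⊢
  have hswap : ∫ z, φ z.2 ^ 2 * κ z.1 z.2 ∂ν.prod ν = ∫ z, φ z.1 ^ 2 * κ z.1 z.2 ∂ν.prod ν := by
    rw [← integral_prod_swap]
    simp only [Prod.fst_swap, Prod.snd_swap, hsym]
  calc ∫ x, φ x * ∫ y, φ y * κ x y ∂ν ∂ν = ∫ z, φ z.1 * (φ z.2 * κ z.1 z.2) ∂ν.prod ν := by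
        rw [integral_prod _ (hprod hc1)]
        simp only [integral_const_mul]
    _ ≤ ∫ z, (φ z.1 ^ 2 * κ z.1 z.2 + φ z.2 ^ 2 * κ z.1 z.2) / 2 ∂ν.prod ν := by
        refine integral_mono (hprod hc1) (hprod (by fun_prop)) fun z => ?_
        have h0 := hκ0 z.1 z.2
        nlinarith [mul_nonneg h0 (sq_nonneg (φ z.1 - φ z.2))]
    _ = ∫ z, φ z.1 ^ 2 * κ z.1 z.2 ∂ν.prod ν := by
        rw [integral_div, integral_add (hprod hc2) (hprod hc3), hswap]
        ring
    _ = ∫ x, φ x ^ 2 * ∫ y, κ x y ∂ν ∂ν := by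
        rw [integral_prod _ (hprod hc2)]
        simp only [integral_const_mul]
    _ ≤ ∫ x, φ x ^ 2 * B ∂ν := by
        have hint : Integrable (fun x => φ x ^ 2 * ∫ y, κ x y ∂ν) ν := by
          simpa only [integral_const_mul] using (hprod hc2).integral_prod_left
        refine integral_mono_ae hint ?_ ?_
        · rw [hν]
          exact (Continuous.integrableOn_Icc (by fun_prop)).mono_set hU
        · nth_rewrite 1 [hν]
          exact (ae_restrict_iff' hUm).2 (ae_of_all _ fun x hx =>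
            mul_le_mul_of_nonneg_left (hB x hx) (sq_nonneg _))
    _ = _ := by rw [integral_mul_const, mul_comm]

/-- **The inequality of Halász and Montgomery**, with weights: the kernel is `∑ w n n ^ (-it)`. -/
theorem setIntegral_weighted_values_le {s : Finset ℕ} (hs : ∀ n ∈ s, 1 ≤ n) {w : ℕ → ℝ}
    (hw : ∀ n ∈ s, 0 ≤ w n) (a : ℕ → ℂ) {T : ℝ} {U : Set ℝ} (hUm : MeasurableSet U)
    (hU : U ⊆ Set.Icc (-T) T) {B : ℝ} (hB0 : 0 ≤ B)
    (hB : ∀ x ∈ U, ∫ y in U, ‖dpoly s (fun n => (w n : ℂ)) (x - y)‖ ≤ B) :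
    ∫ t in U, ‖dpoly s (fun n => (w n : ℂ) * a n) t‖ ^ 2 ≤ (∑ n ∈ s, w n * ‖a n‖ ^ 2) * B := by
  obtain ⟨K, hK⟩ : ∃ K : ℝ → ℂ, K = dpoly s (fun n => (w n : ℂ)) := ⟨_, rfl⟩
  have hKc : Continuous K := hK ▸ continuous_dpoly hs _
  have hKsym : ∀ x y, ‖K (x - y)‖ = ‖K (y - x)‖ := fun x y => by
    rw [← Complex.norm_conj (K (x - y)), hK, dpoly, dpoly, map_sum]
    congr 1
    refine sum_congr rfl fun n _ => ?_
    rw [map_mul, Complex.conj_ofReal, conj_natCast_cpow_imag, neg_sub]
  rw [← hK] at hB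
  obtain ⟨R, hR⟩ : ∃ R : ℝ → ℂ, R = dpoly s (fun n => (w n : ℂ) * a n) := ⟨_, rfl⟩
  have hRc : Continuous R := hR ▸ continuous_dpoly hs _
  obtain ⟨E, hE⟩ : ∃ E : ℕ → ℝ → ℂ, E = fun (n : ℕ) (t : ℝ) =>
      (n : ℂ) ^ (-(Complex.I * (t : ℂ))) := ⟨_, rfl⟩
  have hEc : ∀ n ∈ s, Continuous (E n) := fun n hn => by
    have h0 : (n : ℂ) ≠ 0 := Nat.cast_ne_zero.2 (by have := hs n hn; omega)
    rw [hE]
    exact Continuous.const_cpow (by fun_prop) (Or.inl h0)
  have hint : ∀ {g : ℝ → ℂ}, Continuous g → IntegrableOn g U := fun hg =>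
    hg.integrableOn_Icc.mono_set hU
  rw [← hR]
  obtain ⟨J, hJ⟩ : ∃ J, J = ∫ t in U, ‖R t‖ ^ 2 := ⟨_, rfl⟩
  rw [← hJ]
  have hJ0 : 0 ≤ J := hJ ▸ integral_nonneg fun t => sq_nonneg _
  obtain ⟨c, hc⟩ : ∃ c : ℕ → ℂ, c = fun n => ∫ t in U, E n t * conj (R t) := ⟨_, rfl⟩
  have hfirst : (J : ℂ) = ∑ n ∈ s, (w n : ℂ) * a n * c n := by
    have hi : ∀ n ∈ s, IntegrableOn (fun t => (w n : ℂ) * a n * (E n t * conj (R t))) U :=
      fun n hn =>
      hint (continuous_const.mul ((hEc n hn).mul (Complex.continuous_conj.comp hRc)))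
    rw [hJ, hc, ← integral_complex_ofReal]
    simp only [← integral_const_mul]
    rw [← integral_finsetSum _ hi]
    refine integral_congr_ae (ae_of_all _ fun t => ?_)
    simp only
    rw [Complex.ofReal_pow, ← Complex.mul_conj', hR]
    nth_rewrite 1 [dpoly]
    rw [sum_mul]
    exact sum_congr rfl fun n _ => by rw [hE]; ring
  have hsecond : ∑ n ∈ s, w n * ‖c n‖ ^ 2 ≤
      ∫ x in U, ‖R x‖ * ∫ y in U, ‖R y‖ * ‖K (x - y)‖ := by
    have hconj : ∀ n, conj (c n) = ∫ y in U, E n (-y) * R y := fun n => by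
      rw [hc, ← integral_conj]
      refine integral_congr_ae (ae_of_all _ fun y => ?_)
      simp only [map_mul, Complex.conj_conj, hE, conj_natCast_cpow_imag]
    have hEmul : ∀ n ∈ s, ∀ x y : ℝ, E n x * E n (-y) = E n (x - y) := fun n hn x y => by
      have h0 : (n : ℂ) ≠ 0 := Nat.cast_ne_zero.2 (by have := hs n hn; omega)
      rw [hE]
      simp only
      rw [← Complex.cpow_add _ _ h0]
      congr 1
      push_cast
      ring
    have hinner : ∀ x : ℝ, ∑ n ∈ s, (w n : ℂ) * (E n x * conj (c n)) =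
        ∫ y in U, R y * K (x - y) := fun x => by
      simp only [hconj, ← integral_const_mul]
      have hi : ∀ n ∈ s, IntegrableOn (fun y => (w n : ℂ) * (E n x * (E n (-y) * R y))) U :=
        fun n hn => hint (continuous_const.mul
          (continuous_const.mul (((hEc n hn).comp continuous_neg).mul hRc)))
      rw [← integral_finsetSum _ hi]
      refine integral_congr_ae (ae_of_all _ fun y => ?_)
      simp only [hK, dpoly, mul_sum]
      refine sum_congr rfl fun n hn => ?_
      rw [← mul_assoc (E n x), hEmul n hn, hE]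
      ring
    have key : ((∑ n ∈ s, w n * ‖c n‖ ^ 2 : ℝ) : ℂ) =
        ∫ x in U, conj (R x) * ∫ y in U, R y * K (x - y) := by
      simp only [← hinner, mul_sum, ← mul_assoc]
      have hi : ∀ n ∈ s, IntegrableOn (fun x => conj (R x) * (w n : ℂ) * E n x * conj (c n)) U :=
        fun n hn => hint ((((Complex.continuous_conj.comp hRc).mul continuous_const).mul
          (hEc n hn)).mul continuous_const)
      rw [integral_finsetSum _ hi]
      push_cast
      refine sum_congr rfl fun n _ => ?_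
      rw [← Complex.mul_conj', integral_mul_const, ← mul_assoc]
      congr 1
      rw [hc, ← integral_const_mul]
      exact integral_congr_ae (ae_of_all _ fun x => by ring)
    have h1 := congrArg (‖·‖) key
    simp only [Complex.norm_real, Real.norm_of_nonneg
      (sum_nonneg (s := s) fun n hn => mul_nonneg (hw n hn) (sq_nonneg ‖c n‖))] at h1
    rw [h1]
    have hcont : Continuous fun x => ∫ y in U, R y * K (x - y) := by
      simp only [← hinner]
      exact continuous_finsetSum _ fun n hn =>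
        continuous_const.mul ((hEc n hn).mul continuous_const)
    have hcont' : Continuous fun x => conj (R x) * ∫ y in U, R y * K (x - y) :=
      (Complex.continuous_conj.comp hRc).mul hcont
    refine (norm_integral_le_integral_norm _).trans ?_
    have hmaj : Integrable (fun x => ‖R x‖ * ∫ y in U, ‖R y‖ * ‖K (x - y)‖)
        (volume.restrict U) := by
      have : IsFiniteMeasure (volume.restrict U) :=
        isFiniteMeasure_restrict.2 ((measure_mono hU).trans_lt measure_Icc_lt_top).ne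
      have hg : Continuous fun z : ℝ × ℝ => ‖R z.1‖ * (‖R z.2‖ * ‖K (z.1 - z.2)‖) := by
        fun_prop
      obtain ⟨C, hC⟩ := (isCompact_Icc.prod isCompact_Icc :
        IsCompact (Set.Icc (-T) T ×ˢ Set.Icc (-T) T)).exists_bound_of_continuousOn hg.continuousOn
      have hprod : Integrable (fun z : ℝ × ℝ => ‖R z.1‖ * (‖R z.2‖ * ‖K (z.1 - z.2)‖))
          ((volume.restrict U).prod (volume.restrict U)) := by
        refine (integrable_const C).mono' hg.aestronglyMeasurable ?_
        rw [Measure.prod_restrict]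
        exact (ae_restrict_iff' (hUm.prod hUm)).2
          (ae_of_all _ fun z hz => hC z ⟨hU hz.1, hU hz.2⟩)
      simpa only [integral_const_mul] using hprod.integral_prod_left
    refine integral_mono (hint hcont').norm hmaj fun x => ?_
    rw [norm_mul, Complex.norm_conj]
    refine mul_le_mul_of_nonneg_left ((norm_integral_le_integral_norm _).trans (le_of_eq ?_))
      (norm_nonneg _)
    simp only [norm_mul]
  have hcs : J ^ 2 ≤ (∑ n ∈ s, w n * ‖a n‖ ^ 2) * (B * J) := by
    have h1 : J ≤ ∑ n ∈ s, w n * ‖a n‖ * ‖c n‖ := by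
      have := congrArg (‖·‖) hfirst
      simp only [Complex.norm_real, Real.norm_of_nonneg hJ0] at this
      rw [this]
      refine (norm_sum_le _ _).trans (le_of_eq (sum_congr rfl fun n hn => ?_))
      rw [norm_mul, norm_mul, Complex.norm_real, Real.norm_of_nonneg (hw n hn)]
    refine (pow_le_pow_left₀ hJ0 h1 2).trans ((sum_sq_le_sum_mul_sum_of_sq_le_mul s
      (f := fun n => w n * ‖a n‖ ^ 2) (g := fun n => w n * ‖c n‖ ^ 2)
      (fun n hn => mul_nonneg (hw n hn) (sq_nonneg _))
      (fun n hn => mul_nonneg (hw n hn) (sq_nonneg _)) fun n _ => le_of_eq (by ring)).trans ?_)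
    refine mul_le_mul_of_nonneg_left ?_ (sum_nonneg fun n hn => mul_nonneg (hw n hn) (sq_nonneg _))
    refine hsecond.trans ?_
    rw [hJ]
    exact setIntegral_double_le hUm hU hRc.norm (κ := fun x y => ‖K (x - y)‖)
      ((hKc.comp (by fun_prop)).norm) (fun x y => norm_nonneg _) hKsym hB
  rcases hJ0.eq_or_lt with hJz | hJpos
  · rw [← hJz]
    exact mul_nonneg (sum_nonneg fun n hn => mul_nonneg (hw n hn) (sq_nonneg _)) hB0
  · refine le_of_mul_le_mul_right ?_ hJpos
    rw [mul_assoc, ← sq]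
    exact hcs

/-- **The inequality of Halász and Montgomery.** -/
theorem setIntegral_large_values_le {s : Finset ℕ} {N : ℕ} (hs : s ⊆ Icc 1 N) (a : ℕ → ℂ) {T : ℝ}
    (hT : 0 ≤ T) {U : Set ℝ} (hUm : MeasurableSet U) (hU : U ⊆ Set.Icc (-T) T) :
    ∫ t in U, ‖dpoly s a t‖ ^ 2 ≤ (∑ n ∈ s, ‖a n‖ ^ 2) *
      (300 * N * Real.log (1 + 2 * T) +
        87 * √(1 + 2 * T) * (Nat.log 2 N + 1) * volume.real U) := by
  classical
  have hB0 : 0 ≤ 300 * N * Real.log (1 + 2 * T) +
      87 * √(1 + 2 * T) * (Nat.log 2 N + 1) * volume.real U := by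
    have := Real.log_nonneg (show (1 : ℝ) ≤ 1 + 2 * T by linarith)
    positivity
  have h := setIntegral_weighted_values_le (s := Icc 1 N) (fun n hn => (mem_Icc.1 hn).1)
    (w := fun _ => 1) (fun _ _ => zero_le_one) (fun n => if n ∈ s then a n else 0) hUm hU hB0
    fun x hx => by
      simpa [kernelSum] using setIntegral_kernel_le (N := N) hUm hU hx
  have e : ∀ t, dpoly (Icc 1 N) (fun n => ((1 : ℝ) : ℂ) * if n ∈ s then a n else 0) t =
      dpoly s a t := fun t => by
    simp only [dpoly, Complex.ofReal_one, one_mul, ite_mul, zero_mul, sum_ite_mem,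
      inter_eq_right.2 hs]
  simp only [e, one_mul] at h
  refine h.trans (le_of_eq (congrArg (· * _) ?_))
  simp only [apply_ite (fun z : ℂ => ‖z‖ ^ 2), norm_zero, ne_eq, OfNat.ofNat_ne_zero,
    not_false_eq_true, zero_pow, sum_ite_mem, inter_eq_right.2 hs]

/-- Markov's inequality: the measure of a set of large values. -/
theorem measureReal_le_moment {U : Set ℝ} {T : ℝ} (hUm : MeasurableSet U)
    (hU : U ⊆ Set.Icc (-T) T) {f : ℝ → ℂ} (hf : Continuous f) {c : ℝ} (hc : 0 < c)
    (hlarge : ∀ t ∈ U, c ≤ ‖f t‖) :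
    volume.real U ≤ (∫ t in U, ‖f t‖ ^ 2) / c ^ 2 := by
  rw [le_div_iff₀ (by positivity), ← smul_eq_mul, ← setIntegral_const]
  exact setIntegral_mono_on (integrableOn_const ((measure_mono hU).trans_lt measure_Icc_lt_top).ne)
    ((hf.norm.pow 2).integrableOn_Icc.mono_set hU) hUm fun t ht =>
      pow_le_pow_left₀ hc.le (hlarge t ht) 2

end FA.ShortLiouville

end
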