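import Fermat.Agent.ShortLiouville.PrimeSums
import Fermat.Agent.Korobov.CharacterRegion

/-!
# Prime sums `∑ χ (p) log p p ^ (-it)`

For a fixed modulus, `χ ≠ 1`, `exp ((log X) ^ (3/4)) ≤ x ≤ X` and every `|t| ≤ X` the tent-weighted
sum of `χ (p) log p p ^ (-it)` over `(x, x (1 + 2 d)]` is at most `x / (log X) ^ 20`. There is no
pole, so no lower bound on `|t|` is wanted.
-/

set_option autoImplicit false

noncomputable section

namespace FA.ShortLiouville

open Finset Filter FA.Hoheisel FA.ZeroFree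
open scoped ArithmeticFunction.vonMangoldt Real Topology

variable {q : ℕ}

/-- `χ n Λ n n ^ (-it)`. -/
def charTwist (χ : DirichletCharacter ℂ q) (t : ℝ) (n : ℕ) : ℂ :=
  χ n * (Λ n : ℂ) * (n : ℂ) ^ (-(Complex.I * (t : ℂ)))

theorem term_charTwist (χ : DirichletCharacter ℂ q) (t : ℝ) (s : ℂ) (n : ℕ) :
    LSeries.term (charTwist χ t) s n =
      LSeries.term (fun k => χ k * (Λ k : ℂ)) (s + Complex.I * (t : ℂ)) n := by
  rcases eq_or_ne n 0 with rfl | hn
  · simp
  · rw [LSeries.term_of_ne_zero hn, LSeries.term_of_ne_zero hn, charTwist,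
      Complex.cpow_add _ _ (Nat.cast_ne_zero.2 hn), Complex.cpow_neg]
    field_simp

variable [NeZero q]

/-- **The smoothed sum of `χ n Λ n n ^ (-it)`.** -/
theorem exists_smooth_charTwist_le (q : ℕ) [NeZero q] : ∃ a K, 0 < a ∧ 0 ≤ K ∧
    ∀ χ : DirichletCharacter ℂ q, χ ≠ 1 → ∀ y T t : ℝ, 3 ≤ y → 1 ≤ T →
      ‖SiegelWalfisz.smoothSum (charTwist χ t) y‖ ≤
        K * ell t ^ 41 * y * (y ^ (-(a / Korobov.gauge (|t| + T))) + T ^ (-(1 / 2) : ℝ)) := by
  obtain ⟨a, C, ha, ha1, hC, h⟩ := Korobov.exists_char_region q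
  obtain ⟨P, hP1, hP⟩ := Korobov.ell_pow_high
  obtain ⟨K, hK, hper⟩ := SiegelWalfisz.exists_norm_smoothSum_le
  refine ⟨a, K * (C * P), ha, by positivity, fun χ hχ y T t hy hT => ?_⟩
  obtain ⟨σ₁, hσ₁⟩ : ∃ σ₁, σ₁ = 1 - a / Korobov.gauge (|t| + T) := ⟨_, rfl⟩
  have hg := Korobov.gauge_pos (|t| + T)
  have hag : a / Korobov.gauge (|t| + T) ≤ 1 / 2 :=
    (div_le_div_of_nonneg_right ha1 hg.le).trans
      (one_div_le_one_div_of_le (by norm_num) (Korobov.gauge_bounds _).1)
  have hser : ∀ s : ℂ, 1 < s.re → LSeriesSummable (charTwist χ t) s ∧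
      LSeries (charTwist χ t) s = -deriv (DirichletCharacter.LFunction χ) (s + Complex.I * t) /
        DirichletCharacter.LFunction χ (s + Complex.I * t) := fun s hs => by
    have hs' : 1 < (s + Complex.I * (t : ℂ)).re := by simpa using hs
    have h1 : LSeriesSummable (fun k => χ k * (Λ k : ℂ)) (s + Complex.I * t) :=
      DirichletCharacter.LSeriesSummable_twist_vonMangoldt χ hs'
    refine ⟨?_, ?_⟩
    · simpa only [LSeriesSummable, funext (term_charTwist χ t s)] using h1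
    · rw [← SiegelWalfisz.twist_eq χ hs', LSeries, LSeries, funext (term_charTwist χ t s)]
  have hmain := hper (charTwist χ t)
    (fun s => -deriv (DirichletCharacter.LFunction χ) (s + Complex.I * t) /
      DirichletCharacter.LFunction χ (s + Complex.I * t)) y T σ₁
    (C * ell t ^ 41 * P) hy hT (by rw [hσ₁]; linarith)
    (by rw [hσ₁]; linarith [div_nonneg ha.le hg.le])
    (mul_nonneg (mul_nonneg hC (pow_nonneg (ell_pos t).le _)) (by linarith))
    (fun σ hσ => (hser σ (by simpa using hσ)).1) (fun s hs => (hser s hs).2)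
    fun σ u hreg hσ2 => ?_
  · refine hmain.trans (le_of_eq ?_)
    rw [hσ₁, show 1 - a / Korobov.gauge (|t| + T) - 1 = -(a / Korobov.gauge (|t| + T)) by ring]
    ring
  · obtain ⟨w, hw⟩ : ∃ w : ℂ, w = (σ : ℂ) + u * Complex.I + Complex.I * (t : ℂ) := ⟨_, rfl⟩
    have him : w.im = u + t := by simp [hw]
    have hre : w.re = σ := by simp [hw]
    have hin : 1 - a / Korobov.gauge w.im ≤ σ := by
      rw [him]
      rcases hreg with ⟨hu, hσ⟩ | hσ
      · refine le_trans ?_ (hσ₁ ▸ hσ)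
        refine sub_le_sub_left (div_le_div_of_nonneg_left ha.le (Korobov.gauge_pos _)
          (Korobov.gauge_mono ?_)) 1
        rw [abs_of_nonneg (show 0 ≤ |t| + T by positivity)]
        linarith [abs_add_le u t]
      · linarith [div_nonneg ha.le (Korobov.gauge_pos (u + t)).le]
    obtain ⟨hne, hb⟩ := h χ hχ w (by rw [hre]; exact hin) (by rw [hre]; exact hσ2)
    have hd := DirichletCharacter.differentiable_LFunction hχ
    have hdz : DifferentiableAt ℂ (fun z : ℂ => -deriv (DirichletCharacter.LFunction χ) z /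
        DirichletCharacter.LFunction χ z) w :=
      ((hd.differentiableOn.analyticOnNhd isOpen_univ).deriv _
        (Set.mem_univ _)).differentiableAt.neg |>.div (hd _) hne
    rw [hw] at hdz
    refine ⟨hdz.comp (σ + u * Complex.I : ℂ) (differentiableAt_id.add_const _), ?_⟩
    rw [← hw, neg_div, norm_neg]
    have hl := four_le_ell w.im
    calc ‖deriv (DirichletCharacter.LFunction χ) w / DirichletCharacter.LFunction χ w‖
        ≤ C * ell w.im ^ 2 := hb
      _ ≤ C * ell w.im ^ 41 := mul_le_mul_of_nonneg_left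
          (pow_le_pow_right₀ (by linarith) (by norm_num)) hC
      _ ≤ C * (ell u * ell t) ^ 41 := by
          rw [him]
          exact mul_le_mul_of_nonneg_left (pow_le_pow_left₀ (ell_pos _).le (ell_add_le u t) 41) hC
      _ = C * ell t ^ 41 * ell u ^ 41 := by ring
      _ ≤ C * ell t ^ 41 * (P * (1 + u ^ 2) ^ (1 / 4 : ℝ)) :=
          mul_le_mul_of_nonneg_left (hP u) (mul_nonneg hC (pow_nonneg (ell_pos t).le _))
      _ = _ := by ring

/-- **The prime sums with a character are small.** -/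
theorem exists_char_prime_sum_le (q : ℕ) [NeZero q] {d : ℝ} (hd : 0 < d) (hd4 : d ≤ 1 / 4) :
    ∀ᶠ X : ℕ in atTop, ∀ χ : DirichletCharacter ℂ q, χ ≠ 1 → ∀ x t : ℝ,
      Real.exp (Real.log X ^ (3 / 4 : ℝ)) ≤ x → x ≤ X → |t| ≤ X →
        ‖dpoly (piecePrimes x (d * x))
          (fun p => χ p * ((Real.log p * tentWeight x (d * x) p : ℝ) : ℂ)) t‖ ≤
            x / Real.log X ^ 20 := by
  obtain ⟨a, K, ha, hK, hsm⟩ := exists_smooth_charTwist_le q
  filter_upwards [eventually_ge_atTop 3,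
    (Real.tendsto_log_atTop.comp (tendsto_natCast_atTop_atTop (R := ℝ))).eventually_ge_atTop 10,
    eventually_absorb (3 * (36 * K * 2 ^ 41 / d)) 61 (show 0 < a / 20 by positivity)
      (show (0 : ℝ) < 1 / 20 by norm_num),
    eventually_absorb (3 * (36 * K * 2 ^ 41 / d)) 61 (show (0 : ℝ) < 1 / 2 by norm_num) zero_lt_one,
    eventually_absorb (4 * 12) 21 (show (0 : ℝ) < 1 / 2 by norm_num)
      (show (0 : ℝ) < 3 / 4 by norm_num)]
    with X hX3 hL h1 h2 h4 χ hχ x t hx hxX hhi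
  simp only [Function.comp_apply] at hL
  obtain ⟨L, hLdef⟩ : ∃ L, L = Real.log (X : ℝ) := ⟨_, rfl⟩
  rw [← hLdef] at hL h1 h2 h4 hx ⊢
  have hX3' : (3 : ℝ) ≤ X := Nat.ofNat_le_cast.2 hX3
  have hXexp : (X : ℝ) = Real.exp L := by rw [hLdef, Real.exp_log (by linarith)]
  have hx3 : 3 ≤ x := by
    have h5 : 2 ≤ L ^ (3 / 4 : ℝ) :=
      calc (2 : ℝ) ≤ Real.sqrt L := Real.le_sqrt_of_sq_le (by linarith)
        _ = L ^ (1 / 2 : ℝ) := Real.sqrt_eq_rpow L
        _ ≤ _ := Real.rpow_le_rpow_of_exponent_le (by linarith) (by norm_num)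
    linarith [Real.add_one_le_exp (L ^ (3 / 4 : ℝ))]
  have hx0 : 0 < x := by linarith
  obtain ⟨w, hw⟩ : ∃ w, w = d * x := ⟨_, rfl⟩
  rw [← hw]
  have hw0 : 0 < w := hw ▸ mul_pos hd hx0
  have hwx : 2 * w ≤ x / 2 := by rw [hw]; nlinarith
  obtain ⟨ε, hε⟩ : ∃ ε, ε = Real.exp (-(a / 20 * L ^ (1 / 20 : ℝ))) +
      Real.exp (-(1 / 2 * L ^ (1 : ℝ))) := ⟨_, rfl⟩
  have hsmooth : ∀ y : ℝ, x ≤ y → y ≤ 3 * x →
      ‖(y : ℂ) * SiegelWalfisz.smoothSum (charTwist χ t) y‖ ≤
        (3 * x) * (K * (2 * L) ^ 41 * (3 * x) * ε) := by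
    intro y hy hy'
    rw [norm_mul, Complex.norm_real, Real.norm_of_nonneg (by linarith)]
    refine mul_le_mul hy' ((hsm χ hχ y X t (by linarith) (by linarith)).trans ?_) (norm_nonneg _)
      (by linarith)
    have hεb : y ^ (-(a / Korobov.gauge (|t| + X))) + (X : ℝ) ^ (-(1 / 2) : ℝ) ≤ ε := by
      rw [hε]
      refine add_le_add (rpow_neg_gauge_le ha (by linarith) hL hLdef (by linarith) (by
        rw [abs_of_nonneg (by positivity)]; linarith)) (le_of_eq ?_)
      rw [hXexp, ← Real.exp_mul, Real.rpow_one]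
      ring_nf
    refine mul_le_mul (mul_le_mul (mul_le_mul_of_nonneg_left (pow_le_pow_left₀ (ell_pos _).le
      (ell_le_two_log (by linarith) hL hLdef (by linarith)) 41) hK) hy' (by linarith)
      (by positivity)) hεb (add_nonneg (Real.rpow_nonneg (by linarith) _)
      (Real.rpow_nonneg (by linarith) _)) (by positivity)
  have hmain : ‖∑ n ∈ Ioc ⌊x⌋₊ ⌊x + 2 * w⌋₊, (tentWeight x w n : ℂ) * charTwist χ t n‖ ≤
      36 * K * 2 ^ 41 / d * L ^ 41 * ε * x := by
    refine le_of_mul_le_mul_left ?_ hw0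
    calc w * ‖∑ n ∈ Ioc ⌊x⌋₊ ⌊x + 2 * w⌋₊, (tentWeight x w n : ℂ) * charTwist χ t n‖
        = ‖rampSum (charTwist χ t) x (x + 2 * w) - 2 * rampSum (charTwist χ t) x (x + w)‖ := by
          rw [← sum_tentWeight_eq _ hx0.le hw0, norm_mul, Complex.norm_real,
            Real.norm_of_nonneg hw0.le]
      _ ≤ _ := norm_rampPair_le hx0 hw0 (by linarith) hsmooth
      _ = _ := by
          rw [hw]
          field_simp
          ring
  have hpp : 2 * √(x + 2 * w) * Real.log (x + 2 * w) ≤ 12 * L * √x := by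
    have h5 : √(x + 2 * w) ≤ 2 * √x := by
      rw [Real.sqrt_le_iff]
      exact ⟨by positivity, by rw [mul_pow, Real.sq_sqrt hx0.le]; linarith⟩
    have h6 : Real.log (x + 2 * w) ≤ 2 * L := by
      rw [hLdef, show 2 * Real.log (X : ℝ) = Real.log ((X : ℝ) ^ 2) by
        rw [Real.log_pow]; norm_num]
      exact Real.log_le_log (by linarith) (by nlinarith)
    calc 2 * √(x + 2 * w) * Real.log (x + 2 * w) ≤ 2 * (2 * √x) * (2 * L) :=
          mul_le_mul (by linarith) h6 (Real.log_nonneg (by linarith)) (by positivity)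
      _ ≤ _ := by nlinarith [Real.sqrt_nonneg x]
  have hnp := norm_nonprime_mul_le (x := x) (by linarith) hw0 t (g := fun n : ℕ => χ n)
    fun n => χ.norm_le_one _
  have hnorm := (norm_le_norm_add_norm_sub (∑ n ∈ Ioc ⌊x⌋₊ ⌊x + 2 * w⌋₊,
      (tentWeight x w n : ℂ) * charTwist χ t n)
    (dpoly (piecePrimes x w) (fun p => χ p * ((Real.log p * tentWeight x w p : ℝ) : ℂ)) t)).trans
      (add_le_add hmain (hnp.trans hpp))
  refine hnorm.trans ?_
  rw [le_div_iff₀ (by positivity : (0 : ℝ) < L ^ 20)]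
  have g1 : 36 * K * 2 ^ 41 / d * L ^ 41 * ε * x * L ^ 20 ≤ 2 / 3 * x := by
    have h5 : 3 * (36 * K * 2 ^ 41 / d) * L ^ 61 * ε ≤ 2 := by
      rw [hε, mul_add]
      linarith
    have h6 := mul_le_mul_of_nonneg_right h5 (show 0 ≤ x / 3 by linarith)
    linear_combination h6
  have g3 : 12 * L * √x * L ^ 20 ≤ x / 4 := by
    have hsq : √x * √x = x := Real.mul_self_sqrt hx0.le
    have h5 : Real.exp (L ^ (3 / 4 : ℝ) / 2) ≤ √x := by
      refine Real.le_sqrt_of_sq_le ?_
      rw [← Real.exp_nat_mul]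
      push_cast
      rw [show 2 * (L ^ (3 / 4 : ℝ) / 2) = L ^ (3 / 4 : ℝ) by ring]
      exact hx
    have h6 : 4 * 12 * L ^ 21 ≤ √x := by
      refine le_trans ?_ h5
      have := mul_le_mul_of_nonneg_right h4 (Real.exp_pos (L ^ (3 / 4 : ℝ) / 2)).le
      rwa [mul_assoc, ← Real.exp_add, one_mul,
        show -(1 / 2 * L ^ (3 / 4 : ℝ)) + L ^ (3 / 4 : ℝ) / 2 = 0 by ring, Real.exp_zero,
        mul_one] at this
    have h7 := mul_le_mul_of_nonneg_right h6 (Real.sqrt_nonneg x)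
    rw [hsq] at h7
    linear_combination h7 / 4
  have g4 : (0 : ℝ) ≤ x / 12 := by linarith
  linear_combination g1 + g3 + g4

end FA.ShortLiouville

end
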