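import Fermat.Agent.ShortLiouville.Main
import Fermat.Agent.ShortLiouville.CharacterPrimeSums
import Fermat.Agent.DavenportMoebius.Corollaries

/-!
# Arithmetic progressions in short intervals

The theorem of Matomäki and Radziwiłł for `g χ`, `χ` a character of a fixed modulus, hence for
`∑_{m < n ≤ m + h, n ≡ r (q)} g n`: the classes prime to the modulus by orthogonality, the others
through the common divisor. For `g = λ` the hypotheses hold; in general they are the cancellation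
of the long sums of `g χ n n ^ (-it)`.
-/

set_option autoImplicit false

noncomputable section

namespace FA.ShortLiouville

open Finset Filter
open scoped Real Topology

variable {q : ℕ}

/-- `g χ`. -/
def Twist.mulChar (F : Twist) (χ : DirichletCharacter ℂ q) : Twist where
  fn n := F.fn n * χ n
  norm_le n := by
    rw [norm_mul]
    exact mul_le_one₀ (F.norm_le n) (norm_nonneg _) (χ.norm_le_one _)
  map_mul m n := by rw [F.map_mul, Nat.cast_mul, _root_.map_mul]; ring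

/-- `λ χ`. -/
def charLiou (χ : DirichletCharacter ℂ q) : Twist := liouTwist.mulChar χ

variable [NeZero q]

theorem charLiou_primesCancel (χ : DirichletCharacter ℂ q) : (charLiou χ).PrimesCancel := by
  intro d hd hd4
  have hlog : Tendsto (fun X : ℕ => Real.log X) atTop atTop :=
    Real.tendsto_log_atTop.comp (tendsto_natCast_atTop_atTop (R := ℝ))
  filter_upwards [exists_twisted_prime_sum_le hd hd4, exists_char_prime_sum_le q hd hd4,
    ((tendsto_rpow_atTop (show (0 : ℝ) < 3 / 4 by norm_num)).comp hlog).eventually_ge_atTop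
      (q : ℝ)] with X h1 hχ hq x t hx hxX hlo hhi
  simp only [Function.comp_apply] at hq
  have hqx : (q : ℝ) < x := by
    linarith [Real.add_one_le_exp (Real.log (X : ℝ) ^ (3 / 4 : ℝ))]
  have hneg : ∀ G : ℕ → ℂ, (∀ p ∈ piecePrimes x (d * x), (charLiou χ).fn p *
      ((Real.log p * tentWeight x (d * x) p : ℝ) : ℂ) = -G p) →
      ‖Hoheisel.dpoly (piecePrimes x (d * x)) (fun p => (charLiou χ).fn p *
        ((Real.log p * tentWeight x (d * x) p : ℝ) : ℂ)) t‖ =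
        ‖Hoheisel.dpoly (piecePrimes x (d * x)) G t‖ := fun G hG => by
    rw [← norm_neg (Hoheisel.dpoly _ G t), Hoheisel.dpoly, Hoheisel.dpoly, ← sum_neg_distrib]
    refine congrArg norm (sum_congr rfl fun p hp => ?_)
    rw [hG p hp]
    ring
  by_cases h : χ = 1
  · refine le_of_eq_of_le (hneg _ fun p hp => ?_) (h1 x t hx hxX hlo hhi)
    have hx0 : 0 ≤ x := (Nat.cast_nonneg q).trans hqx.le
    obtain ⟨hp, hxp, -⟩ := (mem_piecePrimes hx0 (mul_nonneg hd.le hx0)).1 hp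
    have hqp : q < p := by
      have : (q : ℝ) < p := hqx.trans hxp
      exact_mod_cast this
    have hu : IsUnit (p : ZMod q) := (ZMod.isUnit_iff_coprime p q).2
      (hp.coprime_iff_not_dvd.2 fun h' => absurd (Nat.le_of_dvd (NeZero.pos q) h') (by omega))
    simp only [charLiou, Twist.mulChar, liouTwist, liou_prime hp, h, MulChar.one_apply hu]
    ring
  · refine le_of_eq_of_le (hneg _ fun p hp => ?_) (hχ χ h x t hx hxX hhi)
    simp only [charLiou, Twist.mulChar, liouTwist, liou_prime (mem_filter.1 hp).2]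
    ring

theorem charLiou_smallOrdinates (χ : DirichletCharacter ℂ q) : (charLiou χ).SmallOrdinates := by
  obtain ⟨C, hC, h⟩ := DavenportMoebius.exists_davenport_liouville 80
  obtain ⟨F, hF, hχ⟩ := Korobov.exists_fourier (fun x : ZMod q => χ x) fun x => χ.norm_le_one x
  refine (charLiou χ).smallOrdinates_of_sum_le (C := q * C) (by positivity) (h.mono fun N hN => ?_)
  have e : ∑ n ∈ Icc 1 N, (charLiou χ).fn n = ∑ a : ZMod q, F a * ∑ n ∈ Icc 1 N,
      (ArithmeticFunction.liouville n : ℂ) *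
        ThreePrimes.eAdd (n * ((a.val : ℝ) / q)) := by
    simp only [mul_sum]
    rw [sum_comm]
    refine sum_congr rfl fun n _ => ?_
    show liou n * χ (n : ZMod q) = _
    rw [hχ n, mul_sum]
    refine sum_congr rfl fun a _ => ?_
    rw [liou, ThreePrimes.eAdd, Subconvexity.expI]
    push_cast
    ring_nf
  rw [e]
  refine (norm_sum_le _ _).trans ((sum_le_card_nsmul _ _ (C * N / Real.log N ^ 80)
    fun a _ => ?_).trans (le_of_eq ?_))
  · rw [norm_mul]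
    exact (mul_le_of_le_one_left (norm_nonneg _) (hF a)).trans (hN _)
  · rw [card_univ, ZMod.card, nsmul_eq_mul]
    ring

/-- **Matomäki and Radziwiłł for `λ χ`**, all characters of a modulus. -/
theorem exists_char_interval_le (q : ℕ) [NeZero q] {ε : ℝ} (hε : 0 < ε) : ∃ H₀ X₀ : ℕ,
    ∀ χ : DirichletCharacter ℂ q, ∀ X h : ℕ, X₀ ≤ X → H₀ ≤ h → h ≤ X →
      ∑ m ∈ Ioc X (2 * X), ‖∑ n ∈ Ioc m (m + h), liou n * χ n‖ ^ 2 ≤ ε * X * (h : ℝ) ^ 2 := by
  have := fun χ : DirichletCharacter ℂ q => exists_twist_interval_le (charLiou χ)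
    (charLiou_smallOrdinates χ) (charLiou_primesCancel χ) hε
  choose H X₀ hb using this
  exact ⟨univ.sup H, univ.sup X₀, fun χ X h hX hh hhX =>
    hb χ X h ((le_sup (mem_univ χ)).trans hX) ((le_sup (mem_univ χ)).trans hh) hhX⟩

/-- `∑_{m < n ≤ m + h, n ≡ r (q)} λ n`. -/
def classSum (q r h m : ℕ) : ℤ :=
  ∑ n ∈ (Ioc m (m + h)).filter (fun n : ℕ => n ≡ r [MOD q]), ArithmeticFunction.liouville n

/-- `∑_{m < n ≤ m + h, n ≡ r (q)} g n`. -/
def twistClassSum (F : Twist) (q r h m : ℕ) : ℂ :=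
  ∑ n ∈ (Ioc m (m + h)).filter (fun n : ℕ => n ≡ r [MOD q]), F.fn n

omit [NeZero q] in
theorem norm_twistClassSum_liou (q r h m : ℕ) :
    ‖twistClassSum liouTwist q r h m‖ = |(classSum q r h m : ℝ)| := by
  rw [← Complex.norm_intCast, classSum, Int.cast_sum]
  rfl

omit [NeZero q] in
theorem norm_twistClassSum_le (F : Twist) (q r h m : ℕ) :
    ‖twistClassSum F q r h m‖ ≤ h := by
  refine (norm_sum_fn_le F _).trans ((Nat.cast_le.2 (card_filter_le _ _)).trans ?_)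
  simp

/-- The classes prime to the modulus. -/
theorem twistClass_unit_le (F : Twist) {X h r : ℕ} (hr : r.Coprime q) {B : ℝ}
    (hB : ∀ χ : DirichletCharacter ℂ q,
      ∑ m ∈ Ioc X (2 * X), ‖∑ n ∈ Ioc m (m + h), F.fn n * χ n‖ ^ 2 ≤ B) :
    ∑ m ∈ Ioc X (2 * X), ‖twistClassSum F q r h m‖ ^ 2 ≤ B := by
  have hu : IsUnit (r : ZMod q) := (ZMod.isUnit_iff_coprime r q).2 hr
  obtain ⟨c, hc⟩ : ∃ c, c = Fintype.card (DirichletCharacter ℂ q) := ⟨_, rfl⟩
  have hcφ : c = q.totient := by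
    rw [hc, ← Nat.card_eq_fintype_card,
      DirichletCharacter.card_eq_totient_of_hasEnoughRootsOfUnity]
  have hc0 : (0 : ℝ) < c := Nat.cast_pos.2 (hcφ ▸ Nat.totient_pos.2 (NeZero.pos q))
  obtain ⟨T, hT⟩ : ∃ T : DirichletCharacter ℂ q → ℕ → ℝ,
      T = fun χ m => ‖∑ n ∈ Ioc m (m + h), F.fn n * χ n‖ := ⟨_, rfl⟩
  have hpt : ∀ m, ‖twistClassSum F q r h m‖ ^ 2 * c ≤ ∑ χ, T χ m ^ 2 := fun m => by
    have e : (c : ℂ) * twistClassSum F q r h m =
        ∑ χ : DirichletCharacter ℂ q, χ (r : ZMod q)⁻¹ *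
          ∑ n ∈ Ioc m (m + h), F.fn n * χ n := by
      simp only [mul_sum]
      rw [sum_comm, twistClassSum, sum_filter, mul_sum]
      refine sum_congr rfl fun n _ => ?_
      simp only [← mul_assoc, mul_right_comm _ (F.fn n)]
      rw [← sum_mul, DirichletCharacter.sum_char_inv_mul_char_eq ℂ hu, hcφ]
      by_cases hn : n ≡ r [MOD q]
      · rw [if_pos hn, if_pos ((ZMod.natCast_eq_natCast_iff r n q).2 hn.symm)]
      · rw [if_neg hn, if_neg fun he => hn ((ZMod.natCast_eq_natCast_iff r n q).1 he).symm]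
        simp
    have h1 : (c : ℝ) * ‖twistClassSum F q r h m‖ ≤ ∑ χ, T χ m := by
      have h2 := congrArg norm e
      rw [norm_mul, Complex.norm_natCast] at h2
      rw [h2, hT]
      refine (norm_sum_le _ _).trans (sum_le_sum fun χ _ => ?_)
      rw [norm_mul]
      exact mul_le_of_le_one_left (norm_nonneg _) (χ.norm_le_one _)
    have h3 := (pow_le_pow_left₀ (by positivity) h1 2).trans sq_sum_le_card_mul_sum_sq
    rw [mul_pow, card_univ, ← hc] at h3
    exact le_of_mul_le_mul_left (by linarith) hc0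
  refine le_of_mul_le_mul_right ?_ hc0
  rw [sum_mul]
  refine (sum_le_sum fun m _ => hpt m).trans ?_
  rw [sum_comm]
  refine (sum_le_card_nsmul _ _ B fun χ _ => ?_).trans (le_of_eq ?_)
  · simp only [hT]
    exact hB χ
  · rw [nsmul_eq_mul, card_univ, ← hc, mul_comm]

omit [NeZero q] in
/-- A class through the common divisor. -/
theorem twistClassSum_mul (F : Twist) {d r h m : ℕ} (hd : 0 < d) :
    twistClassSum F (d * q) (d * r) h m = F.fn d *
      twistClassSum F q r ((m + h) / d - m / d) (m / d) := by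
  rw [twistClassSum, twistClassSum, mul_sum,
    Nat.add_sub_cancel' (Nat.div_le_div_right (Nat.le_add_right m h))]
  symm
  refine sum_bij (fun l _ => d * l) (fun l hl => ?_) (fun a _ b _ e => ?_) (fun n hn => ?_)
    fun l _ => (F.map_mul d l).symm
  · simp only [mem_filter, mem_Ioc, Nat.div_lt_iff_lt_mul hd, Nat.le_div_iff_mul_le hd] at hl ⊢
    exact ⟨⟨by rw [mul_comm]; exact hl.1.1, by rw [mul_comm]; exact hl.1.2⟩,
      Nat.ModEq.mul_left' d hl.2⟩
  · exact Nat.eq_of_mul_eq_mul_left hd e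
  · simp only [mem_filter, mem_Ioc] at hn
    obtain ⟨l, rfl⟩ : d ∣ n :=
      (hn.2.dvd_iff (Dvd.intro q rfl)).2 (Dvd.intro r rfl)
    refine ⟨l, ?_, rfl⟩
    simp only [mem_filter, mem_Ioc, Nat.div_lt_iff_lt_mul hd, Nat.le_div_iff_mul_le hd]
    exact ⟨⟨by rw [mul_comm]; exact hn.1.1, by rw [mul_comm]; exact hn.1.2⟩,
      Nat.ModEq.mul_left_cancel' hd.ne' hn.2⟩

omit [NeZero q] in
/-- The windows of the cofactor. -/
theorem twistClassSum_mul_sq_le (F : Twist) {d r h m : ℕ} (hd : 0 < d) :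
    ‖twistClassSum F (d * q) (d * r) h m‖ ^ 2 ≤
      2 * ‖twistClassSum F q r (h / d) (m / d)‖ ^ 2 + 2 := by
  rw [twistClassSum_mul F hd, norm_mul, mul_pow]
  refine (mul_le_of_le_one_left (sq_nonneg _)
    (pow_le_one₀ (norm_nonneg _) (F.norm_le d))).trans ?_
  obtain ⟨k, hk⟩ : ∃ k, k = m / d := ⟨_, rfl⟩
  obtain ⟨e, he⟩ : ∃ e, e = (m + h) / d - m / d - h / d := ⟨_, rfl⟩
  have hlo : m / d + h / d ≤ (m + h) / d := Nat.div_add_div_le_add_div
  have he1 : e ≤ 1 := by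
    rw [he, Nat.add_div hd]
    split_ifs <;> omega
  rw [← hk] at he hlo ⊢
  have hek : (m + h) / d - k = h / d + e := by
    generalize (m + h) / d = u, h / d = v at he hlo ⊢
    omega
  rw [hek]
  have hsplit : twistClassSum F q r (h / d + e) k =
      twistClassSum F q r (h / d) k + twistClassSum F q r e (k + h / d) := by
    simp only [twistClassSum, sum_filter]
    rw [show k + (h / d + e) = k + h / d + e by ring,
      ← sum_Ioc_consecutive _ (Nat.le_add_right k (h / d)) (Nat.le_add_right _ e)]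
  rw [hsplit]
  have h1 : ‖twistClassSum F q r e (k + h / d)‖ ≤ 1 :=
    (norm_twistClassSum_le F q r e _).trans (by exact_mod_cast he1)
  refine (pow_le_pow_left₀ (norm_nonneg _) (norm_add_le _ _) 2).trans (add_sq_le.trans ?_)
  linarith [pow_le_one₀ (norm_nonneg _) h1 (n := 2)]

omit [NeZero q] in
/-- All the classes from the classes prime to the modulus. -/
theorem twistClass_le_of_coprime (F : Twist) {X h r : ℕ} {ε : ℝ} (hε : 0 < ε) (hq : 1 ≤ q)
    (hh : 64 * (q : ℝ) / ε ≤ h) (hh1 : 1 ≤ h) (hhX : h ≤ X)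
    (hb : ∀ b d r' : ℕ, 1 ≤ b → 1 ≤ d → d * b = q → r'.Coprime b →
      ∑ m ∈ Ioc (X / d) (2 * (X / d)), ‖twistClassSum F b r' (h / d) m‖ ^ 2 ≤
        ε / 8 * (X / d : ℕ) * ((h / d : ℕ) : ℝ) ^ 2) :
    ∑ m ∈ Ioc X (2 * X), ‖twistClassSum F q r h m‖ ^ 2 ≤ ε * X * (h : ℝ) ^ 2 := by
  obtain ⟨d, hd⟩ : ∃ d, d = r.gcd q := ⟨_, rfl⟩
  have hd0 : 0 < d := hd ▸ Nat.gcd_pos_of_pos_right r (by omega)
  obtain ⟨r', q', hco, hr', hq'⟩ := Nat.exists_coprime r q
  rw [← hd, mul_comm] at hr' hq'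
  subst hr' hq'
  clear hd
  have hq1 : 1 ≤ q' := Nat.pos_of_ne_zero fun h0 => by simp [h0] at hq
  have hdq : d ≤ d * q' := Nat.le_mul_of_pos_right d hq1
  obtain ⟨X', hX'⟩ : ∃ X', X' = X / d := ⟨_, rfl⟩
  obtain ⟨h', hh'⟩ : ∃ h', h' = h / d := ⟨_, rfl⟩
  have h0 := hb q' d r' hq1 hd0 rfl hco
  rw [← hX', ← hh'] at h0
  obtain ⟨G, hG⟩ : ∃ G : ℕ → ℝ, G = fun k => ‖twistClassSum F q' r' h' k‖ ^ 2 := ⟨_, rfl⟩
  have hG0 : ∀ k, 0 ≤ G k := fun k => hG ▸ sq_nonneg _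
  have hGh : ∀ k, G k ≤ (h' : ℝ) ^ 2 := fun k => by
    simp only [hG]
    exact pow_le_pow_left₀ (norm_nonneg _) (norm_twistClassSum_le F _ _ _ _) 2
  have hmaps : ∀ m ∈ Ioc X (2 * X), m / d ∈ Icc X' (2 * X' + 2) := fun m hm => by
    obtain ⟨h1, h2⟩ := mem_Ioc.1 hm
    refine mem_Icc.2 ⟨hX' ▸ Nat.div_le_div_right h1.le, Nat.lt_succ_iff.1 ?_⟩
    rw [Nat.div_lt_iff_lt_mul hd0, Nat.succ_eq_add_one, hX']
    have h3 := Nat.lt_mul_div_succ X hd0
    nlinarith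
  have hfib : ∀ k, ((Ioc X (2 * X)).filter fun m => m / d = k).card ≤ d := fun k => by
    refine (card_le_card (t := Ico (k * d) (k * d + d)) fun m hm => ?_).trans (by simp)
    rw [mem_filter, Nat.div_eq_iff hd0] at hm
    rw [mem_Ico]
    omega
  have hsum : ∑ k ∈ Icc X' (2 * X' + 2), G k ≤ ε / 8 * X' * (h' : ℝ) ^ 2 + 3 * (h' : ℝ) ^ 2 := by
    rw [show Icc X' (2 * X' + 2) =
      insert X' (insert (2 * X' + 1) (insert (2 * X' + 2) (Ioc X' (2 * X')))) by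
      ext k; simp only [mem_Icc, mem_insert, mem_Ioc]; omega,
      sum_insert (by simp only [mem_insert, mem_Ioc]; omega),
      sum_insert (by simp only [mem_insert, mem_Ioc]; omega),
      sum_insert (by simp only [mem_Ioc]; omega)]
    have h1 : ∑ k ∈ Ioc X' (2 * X'), G k ≤ ε / 8 * X' * (h' : ℝ) ^ 2 := hG ▸ h0
    linarith [hGh X', hGh (2 * X' + 1), hGh (2 * X' + 2)]
  have hd1 : (1 : ℝ) ≤ d := Nat.one_le_cast.2 hd0
  have hXd : (X' : ℝ) * d ≤ X := by exact_mod_cast hX' ▸ Nat.div_mul_le_self X d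
  have hhd : (h' : ℝ) ≤ h := Nat.cast_le.2 (hh' ▸ Nat.div_le_self h d)
  calc ∑ m ∈ Ioc X (2 * X), ‖twistClassSum F (d * q') (d * r') h m‖ ^ 2
      ≤ ∑ m ∈ Ioc X (2 * X), (2 * G (m / d) + 2) :=
        sum_le_sum fun m _ => hG ▸ hh' ▸ twistClassSum_mul_sq_le F hd0
    _ = 2 * ∑ m ∈ Ioc X (2 * X), G (m / d) + 2 * X := by
        rw [sum_add_distrib, sum_const, Nat.card_Ioc, ← mul_sum, nsmul_eq_mul,
          Nat.cast_sub (by omega)]
        push_cast
        ring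
    _ ≤ 2 * (d * ∑ k ∈ Icc X' (2 * X' + 2), G k) + 2 * X := by
        refine add_le_add (mul_le_mul_of_nonneg_left ?_ two_pos.le) le_rfl
        rw [← sum_fiberwise_of_maps_to hmaps, mul_sum]
        refine sum_le_sum fun k _ => ?_
        rw [sum_congr rfl fun m hm => by rw [(mem_filter.1 hm).2], sum_const, nsmul_eq_mul]
        exact mul_le_mul_of_nonneg_right (Nat.cast_le.2 (hfib k)) (hG0 k)
    _ ≤ 2 * (d * (ε / 8 * X' * (h : ℝ) ^ 2 + 3 * (h : ℝ) ^ 2)) + 2 * X := by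
        have hh2 : (h' : ℝ) ^ 2 ≤ (h : ℝ) ^ 2 := pow_le_pow_left₀ (Nat.cast_nonneg _) hhd 2
        gcongr
        refine hsum.trans (add_le_add ?_ (by linarith))
        exact mul_le_mul_of_nonneg_left hh2 (by positivity)
    _ ≤ _ := by
        rw [div_le_iff₀ hε] at hh
        have hdqR : (d : ℝ) ≤ ((d * q' : ℕ) : ℝ) := Nat.cast_le.2 hdq
        have hhR : (1 : ℝ) ≤ h := Nat.one_le_cast.2 hh1
        have hhXR : (h : ℝ) ≤ X := Nat.cast_le.2 hhX
        have t1 : (d : ℝ) * (ε / 8 * X' * (h : ℝ) ^ 2) ≤ ε / 8 * X * (h : ℝ) ^ 2 := by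
          calc (d : ℝ) * (ε / 8 * X' * (h : ℝ) ^ 2)
              = ε / 8 * ((X' : ℝ) * d) * (h : ℝ) ^ 2 := by ring
            _ ≤ _ := by gcongr
        have h1 : 64 * (d : ℝ) ≤ ε * X :=
          le_trans (by linarith) (hh.trans (by rw [mul_comm ε]; gcongr))
        have h2 : 64 ≤ ε * (h : ℝ) ^ 2 := by
          have h3 : 64 * 1 ≤ ε * h :=
            le_trans (by linarith) (hh.trans (le_of_eq (mul_comm _ _)))
          nlinarith [mul_le_mul_of_nonneg_left (le_self_pow₀ hhR two_ne_zero) hε.le]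
        have := mul_le_mul_of_nonneg_right h1 (sq_nonneg (h : ℝ))
        have := mul_le_mul_of_nonneg_right h2 (Nat.cast_nonneg (α := ℝ) X)
        linarith

omit [NeZero q] in
/-- **`λ` in progressions in almost all short intervals.** -/
theorem exists_class_interval_le (q : ℕ) (hq : 1 ≤ q) {ε : ℝ} (hε : 0 < ε) : ∃ H₀ X₀ : ℕ,
    ∀ X h r : ℕ, X₀ ≤ X → H₀ ≤ h → h ≤ X →
      ∑ m ∈ Ioc X (2 * X), (classSum q r h m : ℝ) ^ 2 ≤ ε * X * (h : ℝ) ^ 2 := by
  classical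
  have : ∀ b : ℕ, ∃ H₀ X₀ : ℕ, 1 ≤ b → ∀ X h r : ℕ, X₀ ≤ X → H₀ ≤ h → h ≤ X → r.Coprime b →
      ∑ m ∈ Ioc X (2 * X), ‖twistClassSum liouTwist b r h m‖ ^ 2 ≤
        ε / 8 * X * (h : ℝ) ^ 2 := fun b => by
    rcases Nat.eq_zero_or_pos b with rfl | hb
    · exact ⟨0, 0, fun h => absurd h (by norm_num)⟩
    · have : NeZero b := ⟨hb.ne'⟩
      obtain ⟨H, X, h⟩ := exists_char_interval_le b (show 0 < ε / 8 by positivity)
      exact ⟨H, X, fun _ X k r hX hk hkX hr =>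
        twistClass_unit_le liouTwist hr fun χ => h χ X k hX hk hkX⟩
  choose H Y hb using this
  obtain ⟨c, hc⟩ : ∃ c, c = ⌈64 * (q : ℝ) / ε⌉₊ + 1 := ⟨_, rfl⟩
  refine ⟨((Icc 1 q).sup H + 1) * q + c, ((Icc 1 q).sup Y + 1) * q,
    fun X h r hX hh hhX => ?_⟩
  simp only [← sq_abs (classSum _ _ _ _ : ℝ), ← norm_twistClassSum_liou]
  refine twistClass_le_of_coprime liouTwist hε hq
    ((Nat.le_ceil _).trans (Nat.cast_le.2 (by omega))) (by omega) hhX
    fun b d r' hb1 hd1 hdb hr' => ?_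
  have hmem : b ∈ Icc 1 q := mem_Icc.2 ⟨hb1, hdb ▸ Nat.le_mul_of_pos_left b hd1⟩
  have hdq : d ≤ q := hdb ▸ Nat.le_mul_of_pos_right d hb1
  have h1 := le_sup (f := H) hmem
  have h2 := le_sup (f := Y) hmem
  exact hb b hb1 (X / d) (h / d) r' ((Nat.le_div_iff_mul_le hd1).2 (by nlinarith))
    ((Nat.le_div_iff_mul_le hd1).2 (by nlinarith)) (Nat.div_le_div_right hhX) hr'

/-- The long sums of `g χ n n ^ (-it)` cancel, for every modulus up to `W`. -/
def Twist.RoughAt (F : Twist) (δ : ℝ) (W X : ℕ) : Prop :=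
  ∀ b : ℕ, 1 ≤ b → b ≤ W → ∀ χ : DirichletCharacter ℂ b, ∀ Y : ℕ, (X : ℝ) ^ (0.95 : ℝ) ≤ Y →
    Y ≤ 20 * X → ∀ t : ℝ, |t| ≤ 4 * X → ‖Hoheisel.dpoly (Icc 1 Y) (F.mulChar χ).fn t‖ ≤ δ * Y

omit [NeZero q] in
theorem Twist.RoughAt.cancel {F : Twist} {δ : ℝ} {W X b Z : ℕ} (hF : F.RoughAt δ W X)
    (hb : 1 ≤ b) (hbW : b ≤ W) (χ : DirichletCharacter ℂ b)
    (hlo : (X : ℝ) ^ (0.95 : ℝ) ≤ (Z : ℝ) ^ (0.97 : ℝ)) (hhi : Z ≤ 4 * X) :
    (F.mulChar χ).Cancel δ Z := fun Y hY hY5 t ht =>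
  hF b hb hbW χ Y (hlo.trans hY) (by omega)
    t (ht.trans (by exact_mod_cast hhi))

omit [NeZero q] in
/-- **Progressions in almost all short intervals, uniformly in the function.** -/
theorem exists_twistClass_interval_le (W : ℕ) {ε : ℝ} (hε : 0 < ε) :
    ∃ (δ : ℝ) (H₀ X₀ : ℕ), 0 < δ ∧ ∀ (F : Twist) (X Y h q r : ℕ), 1 ≤ q → q ≤ W → X₀ ≤ X →
      X ≤ Y → Y ≤ 2 * X → H₀ ≤ h → h ≤ Y → F.RoughAt δ W X →
        ∑ m ∈ Ioc Y (2 * Y), ‖twistClassSum F q r h m‖ ^ 2 ≤ ε * Y * (h : ℝ) ^ 2 := by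
  obtain ⟨δ, H, Z, hδ, hmr⟩ := exists_interval_le_of_cancel (show 0 < ε / 8 by positivity)
  obtain ⟨c, hc⟩ : ∃ c, c = ⌈64 * (W : ℝ) / ε⌉₊ + 1 := ⟨_, rfl⟩
  have hev : ∀ᶠ X : ℕ in atTop, ((W : ℝ) + 1) ^ (0.97 : ℝ) ≤ (X : ℝ) ^ (0.02 : ℝ) :=
    ((tendsto_rpow_atTop (by norm_num)).comp
      (tendsto_natCast_atTop_atTop (R := ℝ))).eventually_ge_atTop _
  obtain ⟨X₁, hX₁⟩ := eventually_atTop.1 hev
  refine ⟨δ, (H + 1) * W + c, max ((Z + 1) * W + W * W + 1) X₁, hδ,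
    fun F X Y h q r hq hqW hX hXY hY2 hh hhY hF => ?_⟩
  have hXW := le_of_max_le_left hX
  refine twistClass_le_of_coprime F hε hq ?_ (by omega) hhY fun b d r' hb1 hd1 hdb hr' => ?_
  · refine le_trans ?_ ((Nat.le_ceil _).trans (Nat.cast_le.2 (show ⌈64 * (W : ℝ) / ε⌉₊ ≤ h by
      omega)))
    gcongr
  have hbW : b ≤ W := (hdb ▸ Nat.le_mul_of_pos_left b hd1 : b ≤ q).trans hqW
  have hdW : d ≤ W := (hdb ▸ Nat.le_mul_of_pos_right d hb1 : d ≤ q).trans hqW
  have : NeZero b := ⟨by omega⟩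
  refine twistClass_unit_le F hr' fun χ => ?_
  have hlo : (X : ℝ) ^ (0.95 : ℝ) ≤ ((Y / d : ℕ) : ℝ) ^ (0.97 : ℝ) := by
    have hX0 : (0 : ℝ) < X := Nat.cast_pos.2 (by omega)
    have h1 : (X : ℝ) ≤ ((W : ℝ) + 1) * (Y / d : ℕ) := by
      have h2 : X ≤ (W + 1) * (Y / d) := by
        have h3 := Nat.lt_mul_div_succ Y hd1
        have h4 : W ≤ Y / d := (Nat.le_div_iff_mul_le hd1).2 (by nlinarith)
        nlinarith
      exact_mod_cast h2
    have h5 := Real.rpow_le_rpow hX0.le h1 (show (0 : ℝ) ≤ 0.97 by norm_num)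
    rw [Real.mul_rpow (by positivity) (Nat.cast_nonneg _),
      show (0.97 : ℝ) = 0.95 + 0.02 by norm_num, Real.rpow_add hX0] at h5
    norm_num at h5 ⊢
    have h6 := hX₁ X (le_of_max_le_right hX)
    norm_num at h6
    refine le_of_mul_le_mul_left ?_ (Real.rpow_pos_of_pos hX0 (1 / 50))
    calc _ = (X : ℝ) ^ (19 / 20 : ℝ) * (X : ℝ) ^ (1 / 50 : ℝ) := mul_comm _ _
      _ ≤ _ := h5
      _ ≤ _ := mul_le_mul_of_nonneg_right h6 (by positivity)
  exact hmr (F.mulChar χ) (Y / d) (h / d) ((Nat.le_div_iff_mul_le hd1).2 (by nlinarith))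
    ((Nat.le_div_iff_mul_le hd1).2 (by nlinarith)) (Nat.div_le_div_right hhY)
    (hF.cancel hb1 hbW χ hlo ((Nat.div_le_self Y d).trans (by omega)))

end FA.ShortLiouville

end
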