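import Fermat.Agent.Hoheisel.DPoly
import Mathlib.NumberTheory.ArithmeticFunction.Liouville

/-!
# The Dirichlet polynomial of the Liouville function

Notation for the theorem of Matomäki and Radziwiłł on `λ` in short intervals, and the mean value
theorem in the form used there.
-/

set_option autoImplicit false

noncomputable section

namespace FA.ShortLiouville

open MeasureTheory Finset FA.Hoheisel
open scoped Real

/-- The Liouville function, with complex values. -/
def liou (n : ℕ) : ℂ := ((ArithmeticFunction.liouville n : ℤ) : ℂ)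

theorem norm_liou_le (n : ℕ) : ‖liou n‖ ≤ 1 := by
  rcases eq_or_ne n 0 with rfl | hn
  · simp [liou]
  · simp [liou, ArithmeticFunction.liouville_apply hn]

theorem liou_mul (m n : ℕ) : liou (m * n) = liou m * liou n := by
  simp [liou, ArithmeticFunction.liouville_apply_mul]

theorem liou_prime {p : ℕ} (hp : p.Prime) : liou p = -1 := by
  simp [liou, ArithmeticFunction.liouville_apply hp.ne_zero,
    ArithmeticFunction.cardFactors_apply_prime hp]

theorem natCast_mul_cpow (m n : ℕ) (z : ℂ) :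
    ((m * n : ℕ) : ℂ) ^ z = (m : ℂ) ^ z * (n : ℂ) ^ z := by
  rw [Nat.cast_mul, Complex.natCast_mul_natCast_cpow]

theorem norm_natCast_cpow_imag {n : ℕ} (hn : 1 ≤ n) (t : ℝ) :
    ‖(n : ℂ) ^ (-(Complex.I * (t : ℂ)))‖ = 1 := by
  rw [Complex.norm_natCast_cpow_of_pos hn]
  simp

theorem conj_natCast_cpow_imag (n : ℕ) (t : ℝ) :
    starRingEnd ℂ ((n : ℂ) ^ (-(Complex.I * (t : ℂ)))) =
      (n : ℂ) ^ (-(Complex.I * ((-t : ℝ) : ℂ))) := by
  have h := Complex.cpow_conj (n : ℂ) (-(Complex.I * (t : ℂ)))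
    (by rw [Complex.natCast_arg]; exact Real.pi_ne_zero.symm)
  rw [Complex.conj_natCast] at h
  rw [← h]
  congr 1
  simp

theorem norm_dpoly_le_card {s : Finset ℕ} (hs : ∀ n ∈ s, 1 ≤ n) (b : ℕ → ℂ) (t : ℝ) :
    ‖dpoly s b t‖ ≤ ∑ n ∈ s, ‖b n‖ := by
  refine (norm_sum_le _ _).trans (le_of_eq (Finset.sum_congr rfl fun n hn => ?_))
  rw [norm_mul, norm_natCast_cpow_imag (hs n hn), mul_one]

theorem dpoly_mul_const (s : Finset ℕ) (b : ℕ → ℂ) (c : ℂ) (t : ℝ) :
    dpoly s (fun n => c * b n) t = c * dpoly s b t := by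
  rw [dpoly, dpoly, Finset.mul_sum]
  exact Finset.sum_congr rfl fun n _ => by ring

/-- An integral over a subset of an interval of a nonnegative continuous function. -/
theorem setIntegral_le_Icc {f : ℝ → ℝ} (hf : Continuous f) (h0 : ∀ t, 0 ≤ f t) {U : Set ℝ}
    {a b : ℝ} (hU : U ⊆ Set.Icc a b) : ∫ t in U, f t ≤ ∫ t in Set.Icc a b, f t :=
  setIntegral_mono_set hf.integrableOn_Icc (ae_of_all _ h0) hU.eventuallyLE

/-- The mean value theorem on a subset of `[-T, T]`. -/
theorem setIntegral_dpoly_le {s : Finset ℕ} {M : ℕ} (hs : s ⊆ Icc 1 M) (b : ℕ → ℂ) {T : ℝ}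
    (hT : 0 ≤ T) {U : Set ℝ} (hU : U ⊆ Set.Icc (-T) T) :
    ∫ t in U, ‖dpoly s b t‖ ^ 2 ≤ (2 * T + 19 * M) * ∑ n ∈ s, ‖b n‖ ^ 2 := by
  have hc := continuous_dpoly (fun n hn => (mem_Icc.1 (hs hn)).1) b
  refine (setIntegral_le_Icc (by fun_prop) (fun t => by positivity) hU).trans ?_
  rw [integral_Icc_eq_integral_Ioc, ← intervalIntegral.integral_of_le (by linarith)]
  exact integral_dpoly_le hs b (by linarith)

/-- A completely multiplicative function with values in the unit disc. -/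
structure Twist where
  /-- The function. -/
  fn : ℕ → ℂ
  norm_le : ∀ n, ‖fn n‖ ≤ 1
  map_mul : ∀ m n, fn (m * n) = fn m * fn n

/-- `λ` itself. -/
def liouTwist : Twist := ⟨liou, norm_liou_le, liou_mul⟩

/-- `∑_{X < n ≤ 5 X} g n n ^ (-it)`. -/
def twistPoly (F : Twist) (X : ℕ) (t : ℝ) : ℂ := dpoly (Ioc X (5 * X)) F.fn t

theorem continuous_twistPoly (F : Twist) (X : ℕ) : Continuous (twistPoly F X) :=
  continuous_dpoly (fun n hn => by have := (mem_Ioc.1 hn).1; omega) F.fn

/-- `∑_{X < n ≤ 5 X} λ n n ^ (-it)`. -/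
def liouPoly (X : ℕ) (t : ℝ) : ℂ := dpoly (Ioc X (5 * X)) liou t

theorem continuous_liouPoly (X : ℕ) : Continuous (liouPoly X) :=
  continuous_twistPoly liouTwist X

/-- The mean square over small ordinates is negligible. -/
def Twist.SmallOrdinates (F : Twist) : Prop :=
  ∀ᶠ X : ℕ in Filter.atTop,
    ∫ t in Set.Icc (-(Real.log X ^ 40)) (Real.log X ^ 40), ‖twistPoly F X t‖ ^ 2 ≤
      2 * (X : ℝ) ^ 2 / Real.log X ^ 20

end FA.ShortLiouville

end
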