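import Fermat.Agent.ShortLiouville.PrimeSums
import Mathlib.Analysis.SpecialFunctions.Pow.Deriv
import Mathlib.Analysis.Calculus.MeanValue

/-!
# The kernel `∑ log p p ^ (-it)` of a short piece of primes

At low ordinates the smooth sum of `n ^ (-it)` against the tent is an integral up to a small
error, hence `O (x / (d (1 + t ^ 2)))`. So the kernel of a piece at `x` is that plus
`x / (log X) ^ 20` for all `|t| ≤ 2 X`, and it is integrable uniformly in the piece.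
-/

set_option autoImplicit false

noncomputable section

namespace FA.ShortLiouville

open Finset Filter Complex FA.Hoheisel
open scoped Real Topology

/-- Telescoping against a derivative with bounded derivative. -/
theorem norm_sum_deriv_sub_le {J J' J'' : ℝ → ℂ} {k m : ℕ} (hkm : k ≤ m) {M : ℝ}
    (h1 : ∀ u ∈ Set.Icc (k : ℝ) m, HasDerivAt J (J' u) u)
    (h2 : ∀ u ∈ Set.Icc (k : ℝ) m, HasDerivAt J' (J'' u) u)
    (hM : ∀ u ∈ Set.Icc (k : ℝ) m, ‖J'' u‖ ≤ M) :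
    ‖∑ n ∈ Ioc k m, J' n - (J m - J k)‖ ≤ (m - k : ℕ) * M := by
  induction m, hkm using Nat.le_induction with
  | base => simp
  | succ m hkm ih =>
    have hle : (m : ℝ) ≤ (m + 1 : ℕ) := by push_cast; linarith
    have hsub : Set.Icc (k : ℝ) m ⊆ Set.Icc (k : ℝ) (m + 1 : ℕ) := Set.Icc_subset_Icc le_rfl hle
    have hI : Set.Icc (m : ℝ) (m + 1 : ℕ) ⊆ Set.Icc (k : ℝ) (m + 1 : ℕ) :=
      Set.Icc_subset_Icc (Nat.cast_le.2 hkm) le_rfl
    have hM0 : 0 ≤ M := (norm_nonneg _).trans (hM _ (hI ⟨le_rfl, hle⟩))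
    have hJ' : ∀ u ∈ Set.Icc (m : ℝ) (m + 1 : ℕ), ‖J' u - J' (m + 1 : ℕ)‖ ≤ M := fun u hu => by
      refine ((convex_Icc _ _).norm_image_sub_le_of_norm_hasDerivWithin_le
        (fun v hv => (h2 v (hI hv)).hasDerivWithinAt) (fun v hv => hM v (hI hv))
        ⟨hle, le_rfl⟩ hu).trans (mul_le_of_le_one_right hM0 ?_)
      rw [Real.norm_eq_abs, abs_le]
      have := hu.1
      have := hu.2
      push_cast at *
      constructor <;> linarith
    have h3 := (convex_Icc (m : ℝ) (m + 1 : ℕ)).norm_image_sub_le_of_norm_hasDerivWithin_le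
      (f := fun u : ℝ => J u - u • J' (m + 1 : ℕ)) (f' := fun u => J' u - J' (m + 1 : ℕ))
      (fun u hu =>
        ((h1 u (hI hu)).sub ((hasDerivAt_id u).smul_const _)).hasDerivWithinAt.congr_deriv
        (by simp)) hJ' ⟨le_rfl, hle⟩ ⟨hle, le_rfl⟩
    have e1 : ‖(((m + 1 : ℕ) : ℝ)) - m‖ = 1 := by push_cast; simp
    rw [e1, mul_one] at h3
    rw [sum_Ioc_succ_top hkm,
      show ((m + 1 - k : ℕ) : ℝ) * M = (m - k : ℕ) * M + M by
        rw [Nat.succ_sub hkm]; push_cast; ring]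
    refine le_trans ?_ (add_le_add (ih (fun u hu => h1 u (hsub hu)) (fun u hu => h2 u (hsub hu))
      fun u hu => hM u (hsub hu)) h3)
    refine le_trans (le_of_eq (congrArg norm ?_)) (norm_sub_le _ _)
    simp only [Complex.real_smul, Nat.cast_succ]
    push_cast
    ring

/-- The second primitive of `u ^ (-it)`. -/
def rampPrim (t u : ℝ) : ℂ :=
  (u : ℂ) ^ (2 - (t : ℂ) * I) / ((1 - (t : ℂ) * I) * (2 - (t : ℂ) * I))

theorem norm_rampPrim_le (t : ℝ) {u : ℝ} (hu : 0 < u) : ‖rampPrim t u‖ ≤ u ^ 2 / (1 + t ^ 2) := by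
  rw [rampPrim, norm_div, norm_cpow_eq_rpow_re_of_pos hu, norm_mul]
  simp only [sub_re, re_ofNat, mul_re, ofReal_re, I_re, mul_zero, ofReal_im, I_im, sub_zero,
    zero_mul]
  rw [Real.rpow_two]
  refine div_le_div_of_nonneg_left (sq_nonneg u) (by positivity) ?_
  have h1 : √(1 + t ^ 2) ≤ ‖(1 - (t : ℂ) * I)‖ := by
    rw [Complex.norm_def]
    refine Real.sqrt_le_sqrt (le_of_eq ?_)
    simp [normSq_apply]
    ring
  have h2 : √(1 + t ^ 2) ≤ ‖(2 - (t : ℂ) * I)‖ := by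
    rw [Complex.norm_def]
    refine Real.sqrt_le_sqrt ?_
    simp [normSq_apply]
    nlinarith
  calc 1 + t ^ 2 = √(1 + t ^ 2) * √(1 + t ^ 2) := (Real.mul_self_sqrt (by positivity)).symm
    _ ≤ _ := mul_le_mul h1 h2 (Real.sqrt_nonneg _) (norm_nonneg _)

theorem norm_imag_cpow {u : ℝ} (hu : 0 < u) (t : ℝ) : ‖(u : ℂ) ^ (-((t : ℂ) * I))‖ = 1 := by
  rw [norm_cpow_eq_rpow_re_of_pos hu]
  simp

/-- A ramp of `n ^ (-it)` is an integral, up to a small error. -/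
theorem norm_rampSum_imag_le (t : ℝ) {x y w : ℝ} (hx : 4 ≤ x) (hxy : x ≤ y)
    (hyw : y - x ≤ 2 * w) (hw : 1 ≤ w) (hwx : 3 * w ≤ x) :
    ‖rampSum (fun n : ℕ => (n : ℂ) ^ (-(I * (t : ℂ)))) x y -
        (rampPrim t y - rampPrim t x -
          ((y - x : ℝ) : ℂ) * ((x : ℂ) ^ (1 - (t : ℂ) * I) / (1 - (t : ℂ) * I)))‖ ≤
      3 * w * (3 + 2 * |t|) := by
  obtain ⟨k, hk⟩ : ∃ k, k = ⌊x⌋₊ := ⟨_, rfl⟩
  obtain ⟨m, hm⟩ : ∃ m, m = ⌊y⌋₊ := ⟨_, rfl⟩
  have hkm : k ≤ m := hk ▸ hm ▸ Nat.floor_le_floor hxy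
  have hk1 : (k : ℝ) ≤ x := hk ▸ Nat.floor_le (by linarith)
  have hk2 : x < (k : ℝ) + 1 := hk ▸ Nat.lt_floor_add_one x
  have hm1 : (m : ℝ) ≤ y := hm ▸ Nat.floor_le (by linarith)
  have hm2 : y < (m : ℝ) + 1 := hm ▸ Nat.lt_floor_add_one y
  have hkm' : (k : ℝ) ≤ m := Nat.cast_le.2 hkm
  have hne1 : (1 : ℂ) - (t : ℂ) * I ≠ 0 := fun h => by simpa using congrArg Complex.re h
  have hne2 : (2 : ℂ) - (t : ℂ) * I ≠ 0 := fun h => by simpa using congrArg Complex.re h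
  obtain ⟨J, hJ⟩ : ∃ J : ℝ → ℂ, J = fun u : ℝ =>
      ((y : ℂ) - u) * ((u : ℂ) ^ (1 - (t : ℂ) * I) / (1 - (t : ℂ) * I)) + rampPrim t u := ⟨_, rfl⟩
  obtain ⟨J', hJ'⟩ : ∃ J' : ℝ → ℂ, J' = fun u : ℝ =>
      ((y : ℂ) - u) * (u : ℂ) ^ (-((t : ℂ) * I)) := ⟨_, rfl⟩
  obtain ⟨J'', hJ''⟩ : ∃ J'' : ℝ → ℂ, J'' = fun u : ℝ => -(u : ℂ) ^ (-((t : ℂ) * I)) +
      ((y : ℂ) - u) * (-((t : ℂ) * I) * (u : ℂ) ^ (-((t : ℂ) * I) - 1)) := ⟨_, rfl⟩
  have hlin : ∀ u : ℝ, HasDerivAt (fun v : ℝ => (y : ℂ) - v) (-1) u := fun u => by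
    simpa using ((hasDerivAt_id u).ofReal_comp).const_sub (y : ℂ)
  have hd1 : ∀ u : ℝ, 0 < u → HasDerivAt J (J' u) u := by
    intro u hu
    have a1 : HasDerivAt (fun v : ℝ => (v : ℂ) ^ (1 - (t : ℂ) * I) / (1 - (t : ℂ) * I))
        ((u : ℂ) ^ (-((t : ℂ) * I))) u := by
      refine ((hasDerivAt_ofReal_cpow_const hu.ne' hne1).div_const _).congr_deriv ?_
      rw [show (1 : ℂ) - (t : ℂ) * I - 1 = -((t : ℂ) * I) by ring]
      field_simp
    have a2 : HasDerivAt (rampPrim t)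
        ((u : ℂ) ^ (1 - (t : ℂ) * I) / (1 - (t : ℂ) * I)) u := by
      refine ((hasDerivAt_ofReal_cpow_const hu.ne' hne2).div_const _).congr_deriv ?_
      rw [show (2 : ℂ) - (t : ℂ) * I - 1 = 1 - (t : ℂ) * I by ring]
      field_simp
    rw [hJ, hJ']
    exact (((hlin u).mul a1).add a2).congr_deriv (by ring)
  have hd2 : ∀ u : ℝ, 0 < u → HasDerivAt J' (J'' u) u := by
    intro u hu
    rw [hJ', hJ'']
    rcases eq_or_ne t 0 with rfl | ht
    · simpa using (hlin u).congr_deriv (by simp : (-1 : ℂ) = -1)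
    exact ((hlin u).mul (hasDerivAt_ofReal_cpow_const hu.ne' (by simpa using ht))).congr_deriv
      (by ring)
  have hin : ∀ u : ℝ, x - 1 ≤ u → u ≤ y → 0 < u ∧ ‖(y : ℂ) - u‖ ≤ 3 * w ∧
      ‖J' u‖ ≤ 3 * w ∧ ‖J'' u‖ ≤ 1 + 2 * |t| := by
    intro u h1 h2
    have hu : 0 < u := by linarith
    have hb : ‖(y : ℂ) - u‖ ≤ 3 * w := by
      rw [← ofReal_sub, Complex.norm_real, Real.norm_of_nonneg (by linarith)]
      linarith
    refine ⟨hu, hb, ?_, ?_⟩
    · rw [hJ', norm_mul, norm_imag_cpow hu, mul_one]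
      exact hb
    · rw [hJ'']
      refine (norm_add_le _ _).trans (add_le_add (le_of_eq (by rw [norm_neg, norm_imag_cpow hu]))
        ?_)
      rw [norm_mul, norm_mul, norm_neg, norm_mul, Complex.norm_real, Complex.norm_I, mul_one,
        norm_cpow_eq_rpow_re_of_pos hu, Real.norm_eq_abs,
        show (-((t : ℂ) * I) - 1).re = (-1 : ℝ) by simp, Real.rpow_neg_one]
      calc ‖(y : ℂ) - u‖ * (|t| * u⁻¹) ≤ x * (|t| * u⁻¹) :=
            mul_le_mul_of_nonneg_right (hb.trans hwx) (by positivity)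
        _ ≤ (2 * u) * (|t| * u⁻¹) := mul_le_mul_of_nonneg_right (by linarith) (by positivity)
        _ = 2 * |t| := by field_simp
  have hkx : x - 1 ≤ (k : ℝ) := by linarith
  have htel := norm_sum_deriv_sub_le hkm (M := 1 + 2 * |t|)
    (fun u hu => hd1 u (hin u (hkx.trans hu.1) (hu.2.trans hm1)).1)
    (fun u hu => hd2 u (hin u (hkx.trans hu.1) (hu.2.trans hm1)).1)
    (fun u hu => (hin u (hkx.trans hu.1) (hu.2.trans hm1)).2.2.2)
  have hlip : ∀ u v : ℝ, x - 1 ≤ u → u ≤ v → v ≤ y → v - u ≤ 1 → ‖J v - J u‖ ≤ 3 * w := by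
    intro u v h1 h2 h3 h4
    refine ((convex_Icc u v).norm_image_sub_le_of_norm_hasDerivWithin_le
      (fun z hz => (hd1 z (hin z (h1.trans hz.1) (hz.2.trans h3)).1).hasDerivWithinAt)
      (fun z hz => (hin z (h1.trans hz.1) (hz.2.trans h3)).2.2.1)
      ⟨le_rfl, h2⟩ ⟨h2, le_rfl⟩).trans (mul_le_of_le_one_right (by linarith) ?_)
    rwa [Real.norm_of_nonneg (by linarith)]
  have hy1 := hlip m y (by linarith) hm1 le_rfl (by linarith)
  have hx1 := hlip k x hkx hk1 hxy (by linarith)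
  have hsum : rampSum (fun n : ℕ => (n : ℂ) ^ (-(I * (t : ℂ)))) x y = ∑ n ∈ Ioc k m, J' n := by
    rw [rampSum, ← hk, ← hm, hJ']
    refine sum_congr rfl fun n hn => ?_
    have hny : (n : ℝ) ≤ y := (Nat.cast_le.2 (mem_Ioc.1 hn).2).trans hm1
    rw [max_eq_left (by linarith), mul_comm I]
    push_cast
    rfl
  have hends : J y - J x = rampPrim t y - rampPrim t x -
      ((y - x : ℝ) : ℂ) * ((x : ℂ) ^ (1 - (t : ℂ) * I) / (1 - (t : ℂ) * I)) := by
    rw [hJ]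
    push_cast
    ring
  rw [hsum, ← hends]
  have hlen : ((m - k : ℕ) : ℝ) ≤ 3 * w := by
    rw [Nat.cast_sub hkm]
    linarith
  calc ‖∑ n ∈ Ioc k m, J' n - (J y - J x)‖
      = ‖(∑ n ∈ Ioc k m, J' n - (J m - J k)) - (J y - J m) + (J x - J k)‖ := by ring_nf
    _ ≤ (m - k : ℕ) * (1 + 2 * |t|) + 3 * w + 3 * w :=
        (norm_add_le _ _).trans (add_le_add ((norm_sub_le _ _).trans (add_le_add htel hy1)) hx1)
    _ ≤ _ := by nlinarith [mul_le_mul_of_nonneg_right hlen (show 0 ≤ 1 + 2 * |t| by positivity)]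

/-- The smooth sum of `n ^ (-it)` against the tent. -/
theorem norm_tent_imag_le (t : ℝ) {x w : ℝ} (hx : 4 ≤ x) (hw : 1 ≤ w) (hwx : 4 * w ≤ x) :
    ‖∑ n ∈ Ioc ⌊x⌋₊ ⌊x + 2 * w⌋₊, (tentWeight x w n : ℂ) * (n : ℂ) ^ (-(I * (t : ℂ)))‖ ≤
      8 * x ^ 2 / (w * (1 + t ^ 2)) + 27 * (1 + |t|) := by
  have hw0 : 0 < w := by linarith
  have h2 := norm_rampSum_imag_le t hx (y := x + 2 * w) (w := w) (by linarith) (by linarith) hw
    (by linarith)
  have h1 := norm_rampSum_imag_le t hx (y := x + w) (w := w) (by linarith) (by linarith) hw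
    (by linarith)
  obtain ⟨F, hF⟩ : ∃ F, F = (x : ℂ) ^ (1 - (t : ℂ) * I) / (1 - (t : ℂ) * I) := ⟨_, rfl⟩
  rw [← hF] at h1 h2
  have he := sum_tentWeight_eq (fun n : ℕ => (n : ℂ) ^ (-(I * (t : ℂ))))
    (show 0 ≤ x by linarith) hw0
  obtain ⟨S, hS⟩ : ∃ S : ℂ, S = ∑ n ∈ Ioc ⌊x⌋₊ ⌊x + 2 * w⌋₊,
      (tentWeight x w n : ℂ) * (n : ℂ) ^ (-(I * (t : ℂ))) := ⟨_, rfl⟩
  obtain ⟨R₂, hR₂⟩ : ∃ R₂, R₂ = rampSum (fun n : ℕ => (n : ℂ) ^ (-(I * (t : ℂ)))) x (x + 2 * w) :=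
    ⟨_, rfl⟩
  obtain ⟨R₁, hR₁⟩ : ∃ R₁, R₁ = rampSum (fun n : ℕ => (n : ℂ) ^ (-(I * (t : ℂ)))) x (x + w) :=
    ⟨_, rfl⟩
  rw [← hR₂] at h2 he
  rw [← hR₁] at h1 he
  simp only [← hS] at he ⊢
  obtain ⟨P₂, hP₂⟩ : ∃ P, P = rampPrim t (x + 2 * w) := ⟨_, rfl⟩
  obtain ⟨P₁, hP₁⟩ : ∃ P, P = rampPrim t (x + w) := ⟨_, rfl⟩
  obtain ⟨P₀, hP₀⟩ : ∃ P, P = rampPrim t x := ⟨_, rfl⟩
  rw [← hP₂, ← hP₀] at h2
  rw [← hP₁, ← hP₀] at h1
  have b2 := norm_rampPrim_le t (u := x + 2 * w) (by linarith)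
  have b1 := norm_rampPrim_le t (u := x + w) (by linarith)
  have b0 := norm_rampPrim_le t (u := x) (by linarith)
  rw [← hP₂] at b2
  rw [← hP₁] at b1
  rw [← hP₀] at b0
  have hmain : ‖P₂ - 2 * P₁ + P₀‖ ≤ 8 * x ^ 2 / (1 + t ^ 2) := by
    refine (norm_add_le _ _).trans ((add_le_add (norm_sub_le _ _) le_rfl).trans ?_)
    rw [norm_mul, Complex.norm_two]
    have hs : (x + 2 * w) ^ 2 + 2 * (x + w) ^ 2 + x ^ 2 ≤ 8 * x ^ 2 := by nlinarith
    have := div_le_div_of_nonneg_right hs (show 0 ≤ 1 + t ^ 2 by positivity)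
    rw [add_div, add_div, mul_div_assoc 2] at this
    linarith
  have hid : (w : ℂ) * S = (R₂ - (P₂ - P₀ - ((x + 2 * w - x : ℝ) : ℂ) * F)) -
      2 * (R₁ - (P₁ - P₀ - ((x + w - x : ℝ) : ℂ) * F)) + (P₂ - 2 * P₁ + P₀) := by
    rw [he]
    push_cast
    ring
  have h3 : w * ‖S‖ ≤ 27 * w * (1 + |t|) + 8 * x ^ 2 / (1 + t ^ 2) := by
    have := congrArg norm hid
    rw [norm_mul, Complex.norm_real, Real.norm_of_nonneg hw0.le] at this
    rw [this]
    refine (norm_add_le _ _).trans (add_le_add ((norm_sub_le _ _).trans ?_) hmain)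
    rw [norm_mul, Complex.norm_two]
    have : 0 ≤ w * |t| := by positivity
    linarith
  refine le_of_mul_le_mul_left (h3.trans (le_of_eq ?_)) hw0
  field_simp
  ring

/-- **The kernel of a piece**, at every ordinate up to `2 X`. -/
theorem eventually_kernel_le {d : ℝ} (hd : 0 < d) (hd4 : d ≤ 1 / 4) :
    ∀ᶠ X : ℕ in atTop, ∀ x t : ℝ, Real.exp (Real.log X ^ (4 / 5 : ℝ)) ≤ x → x ≤ X →
      |t| ≤ 2 * X →
        ‖dpoly (piecePrimes x (d * x))
          (fun p => ((Real.log p * tentWeight x (d * x) p : ℝ) : ℂ)) t‖ ≤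
            8 * x / (d * (1 + t ^ 2)) + x / Real.log X ^ 20 := by
  have hdbl : Tendsto (fun X : ℕ => 2 * X) atTop atTop :=
    tendsto_atTop_mono (fun X => Nat.le_mul_of_pos_left X two_pos) tendsto_id
  filter_upwards [hdbl.eventually (exists_twisted_prime_sum_le hd hd4),
    hdbl.eventually (exists_prime_sum_sub_main_le hd hd4),
    hdbl.eventually (eventually_absorb 108 60 one_pos (show (0 : ℝ) < 3 / 4 by norm_num)),
    hdbl.eventually (eventually_absorb (4 / d) 0 one_pos (show (0 : ℝ) < 3 / 4 by norm_num)),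
    ((tendsto_rpow_atTop (show (0 : ℝ) < 1 / 20 by norm_num)).comp
      (Real.tendsto_log_atTop.comp (tendsto_natCast_atTop_atTop (R := ℝ)))).eventually_ge_atTop 2,
    eventually_ge_atTop 3]
    with X hbig hsub h60 hd' hL20 hX3 x t hx hxX ht
  simp only [Function.comp_apply] at hL20
  obtain ⟨L, hLdef⟩ : ∃ L, L = Real.log (X : ℝ) := ⟨_, rfl⟩
  obtain ⟨L', hL'def⟩ : ∃ L', L' = Real.log ((2 * X : ℕ) : ℝ) := ⟨_, rfl⟩
  rw [← hLdef] at hx hL20 ⊢
  rw [← hL'def] at hbig hsub h60 hd'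
  have hX0 : (3 : ℝ) ≤ X := Nat.ofNat_le_cast.2 hX3
  have hL1 : 1 ≤ L := by
    rw [hLdef, Real.le_log_iff_exp_le (by linarith)]
    linarith [Real.exp_one_lt_three]
  have hLL : L ≤ L' := hLdef ▸ hL'def ▸ Real.log_le_log (by linarith) (by push_cast; linarith)
  have hLL2 : L' ≤ 2 * L := by
    rw [hL'def, Nat.cast_mul, Nat.cast_ofNat, Real.log_mul two_ne_zero (by linarith), ← hLdef]
    linarith [Real.log_two_lt_d9]
  have hx' : Real.exp (L' ^ (3 / 4 : ℝ)) ≤ x := by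
    refine le_trans (Real.exp_le_exp.2 ?_) hx
    have e : L ^ (4 / 5 : ℝ) = L ^ (1 / 20 : ℝ) * L ^ (3 / 4 : ℝ) := by
      rw [← Real.rpow_add (by linarith)]; norm_num
    calc L' ^ (3 / 4 : ℝ) ≤ (2 * L) ^ (3 / 4 : ℝ) :=
          Real.rpow_le_rpow (by linarith) hLL2 (by norm_num)
      _ ≤ 2 * L ^ (3 / 4 : ℝ) := by
          rw [Real.mul_rpow two_pos.le (by linarith)]
          exact mul_le_mul_of_nonneg_right (Real.rpow_le_self_of_one_le one_le_two (by norm_num))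
            (Real.rpow_nonneg (by linarith) _)
      _ ≤ _ := by
          rw [e]
          exact mul_le_mul_of_nonneg_right hL20 (Real.rpow_nonneg (by linarith) _)
  have hxX' : x ≤ ((2 * X : ℕ) : ℝ) := by push_cast; linarith
  have ht' : |t| ≤ ((2 * X : ℕ) : ℝ) := by push_cast; linarith
  have hL20' : x / L' ^ 20 ≤ x / L ^ 20 := by
    refine div_le_div_of_nonneg_left ((Real.exp_pos _).le.trans hx) (by positivity) ?_
    exact pow_le_pow_left₀ (by linarith) hLL 20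
  have hx0 : 0 < x := (Real.exp_pos _).trans_le hx
  rcases le_or_gt (L' ^ 40) |t| with hbig' | hsmall
  · refine (hbig x t hx' hxX' hbig' ht').trans (hL20'.trans ?_)
    exact le_add_of_nonneg_left (by positivity)
  have h1 := hsub x t hx' hxX' ht'
  have he : 1 ≤ Real.exp (-(L' ^ (3 / 4 : ℝ))) * x := by
    have := mul_le_mul_of_nonneg_left hx' (Real.exp_pos (-(L' ^ (3 / 4 : ℝ)))).le
    rwa [← Real.exp_add, neg_add_cancel, Real.exp_zero] at this
  have h4d : 4 / d ≤ x := by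
    have := mul_le_mul_of_nonneg_right hd' hx0.le
    rw [pow_zero, mul_one, mul_assoc, one_mul, one_mul] at this
    exact le_trans (le_mul_of_one_le_right (by positivity) he) this
  have hdx : 1 ≤ d * x := by
    rw [div_le_iff₀ hd] at h4d
    linarith
  have h2 := norm_tent_imag_le t (x := x) (w := d * x) (by nlinarith) hdx (by nlinarith)
  have h108 : 108 * L' ^ 60 ≤ x := by
    have := mul_le_mul_of_nonneg_right h60 hx0.le
    rw [mul_assoc _ _ x, one_mul, one_mul] at this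
    exact le_trans (le_mul_of_one_le_right (by positivity) he) this
  have h27 : 27 * (1 + |t|) ≤ x / (2 * L' ^ 20) := by
    have : 0 < L' := by linarith
    rw [le_div_iff₀ (by positivity)]
    have h6 : (1 : ℝ) ≤ L' ^ 40 := one_le_pow₀ (by linarith)
    have h7 : 27 * (1 + |t|) * (2 * L' ^ 20) ≤ 108 * L' ^ 40 * L' ^ 20 := by
      have : 0 ≤ L' ^ 20 := by positivity
      nlinarith
    have e : 108 * L' ^ 40 * L' ^ 20 = 108 * L' ^ 60 := by ring
    linarith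
  refine (norm_le_norm_add_norm_sub' _ _).trans ((add_le_add h2 h1).trans ?_)
  have e : 8 * x ^ 2 / (d * x * (1 + t ^ 2)) = 8 * x / (d * (1 + t ^ 2)) := by field_simp
  rw [e]
  have e2 : x / L' ^ 20 = x / (2 * L' ^ 20) + x / (2 * L' ^ 20) := by field_simp; ring
  linarith

end FA.ShortLiouville

end
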