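import Fermat.Agent.ShortLiouville.LastStep
import Fermat.Agent.ShortLiouville.Kernel

/-!
# The last step from cancellation alone

For an arbitrary completely multiplicative `g` nothing is known about the sums over short pieces
of primes. Where such a piece is small the thinness of the set finishes as before; where it is
large the weighted inequality of Halász and Montgomery bounds its mean square by `O (x ^ 2)`, and
the cofactor is small in supremum as soon as the sums of `g n n ^ (-it)` cancel.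
-/

set_option autoImplicit false

noncomputable section

namespace FA.ShortLiouville

open MeasureTheory Finset Filter FA.Hoheisel
open scoped Real Topology

/-- The sums `∑_{n ≤ Y} g n n ^ (-it)`, `X ^ 0.97 ≤ Y ≤ 5 X`, `|t| ≤ X`, are at most `δ Y`. -/
def Twist.Cancel (F : Twist) (δ : ℝ) (X : ℕ) : Prop :=
  ∀ Y : ℕ, (X : ℝ) ^ (0.97 : ℝ) ≤ Y → Y ≤ 5 * X → ∀ t : ℝ, |t| ≤ X →
    ‖dpoly (Icc 1 Y) F.fn t‖ ≤ δ * Y

/-- The bound for the last step: off all the levels the mean square is `O (X ^ 2 / K)`. -/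
def LastOK (F : Twist) (K X : ℕ) : Prop :=
  ∀ (a b H : ℕ) (α T : ℝ) (W : Set ℝ), 1 ≤ H → 1 ≤ a → H ≤ b →
    256 * Real.log (Real.log X) ≤ a → (b : ℝ) ≤ √(Real.log X) → 0 ≤ α → α ≤ 3 / 16 → 0 ≤ T →
      T ≤ X → MeasurableSet W → W ⊆ Set.Icc (-T) T →
        Disjoint W (goodSet F (levelPieces a b H) α T) →
          ∫ t in W, ‖twistPoly F X t‖ ^ 2 ≤ 26000 * (X : ℝ) ^ 2 / K

theorem setIntegral_cauchy_add_le {U : Set ℝ} {T x c e : ℝ} (hU : U ⊆ Set.Icc (-T) T)
    (hc : 0 ≤ c) :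
    ∫ y in U, (c * (1 + (x - y) ^ 2)⁻¹ + e) ≤ c * π + e * volume.real U := by
  have hi : Integrable fun y : ℝ => c * (1 + (x - y) ^ 2)⁻¹ :=
    (integrable_inv_one_add_sq.comp_sub_left x).const_mul c
  have hfin : volume U ≠ ⊤ := ((measure_mono hU).trans_lt measure_Icc_lt_top).ne
  rw [integral_add hi.integrableOn (integrableOn_const hfin), setIntegral_const, smul_eq_mul,
    mul_comm e]
  refine add_le_add ((setIntegral_le_integral hi
    (ae_of_all _ fun y => by positivity)).trans (le_of_eq ?_)) le_rfl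
  rw [integral_const_mul, integral_sub_left_eq_self (fun y : ℝ => (1 + y ^ 2)⁻¹) volume x,
    integral_univ_inv_one_add_sq]

/-- Where a piece of primes exceeds `x / (log X) ^ 3` its mean square is `O (x ^ 2 / d ^ 2)`. -/
theorem eventually_piece_sq_le {d : ℝ} (hd : 0 < d) (hd4 : d ≤ 1 / 4) :
    ∀ᶠ X : ℕ in atTop, ∀ (F : Twist) (x T : ℝ) (U : Set ℝ),
      Real.exp (Real.log X ^ (4 / 5 : ℝ)) ≤ x → x ≤ X → T ≤ X → MeasurableSet U →
      U ⊆ Set.Icc (-T) T →
      (∀ t ∈ U, x / Real.log X ^ 3 ≤ ‖dpoly (piecePrimes x (d * x))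
        (fun p => ((Real.log p * tentWeight x (d * x) p : ℝ) : ℂ) * F.fn p) t‖) →
      ∫ t in U, ‖dpoly (piecePrimes x (d * x))
        (fun p => ((Real.log p * tentWeight x (d * x) p : ℝ) : ℂ) * F.fn p) t‖ ^ 2 ≤
          600 * x ^ 2 / d ^ 2 := by
  filter_upwards [eventually_kernel_le hd hd4,
    (Real.tendsto_log_atTop.comp (tendsto_natCast_atTop_atTop (R := ℝ))).eventually_ge_atTop
      (18 / d)] with X hker hL F x T U hx hxX hTX hUm hU hlarge
  simp only [Function.comp_apply] at hL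
  obtain ⟨L, hLdef⟩ : ∃ L, L = Real.log (X : ℝ) := ⟨_, rfl⟩
  rw [← hLdef] at hker hx hL hlarge
  have hL1 : 1 ≤ L := by
    refine le_trans ?_ hL
    rw [le_div_iff₀ hd]
    linarith
  have hx0 : 0 < x := (Real.exp_pos _).trans_le hx
  have hdx : 0 ≤ d * x := by positivity
  obtain ⟨s, hs⟩ : ∃ s, s = piecePrimes x (d * x) := ⟨_, rfl⟩
  obtain ⟨w, hw⟩ : ∃ w : ℕ → ℝ, w = fun p : ℕ => Real.log p * tentWeight x (d * x) p := ⟨_, rfl⟩
  replace hker := fun t => hker x t hx hxX
  rw [← hs] at hker hlarge ⊢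
  obtain ⟨P, hP⟩ : ∃ P : ℝ → ℂ, P = dpoly s (fun p => (w p : ℂ) * F.fn p) := ⟨_, rfl⟩
  have hPe : ∀ t, dpoly s (fun p => ((Real.log p * tentWeight x (d * x) p : ℝ) : ℂ) * F.fn p) t =
      P t := fun t => by rw [hP, hw]
  simp only [hPe] at hlarge ⊢
  have hs1 : ∀ n ∈ s, 1 ≤ n := fun n hn => (mem_filter.1 (hs ▸ hn)).2.one_le
  have hw0 : ∀ n ∈ s, 0 ≤ w n := fun n hn => by
    obtain ⟨-, h1, h2⟩ := (mem_piecePrimes hx0.le hdx).1 (hs ▸ hn)
    rw [hw]
    exact mul_nonneg (Real.log_natCast_nonneg n)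
      (tentWeight_bounds (mul_pos hd hx0) h1.le h2).1
  have hPc : Continuous P := hP ▸ continuous_dpoly hs1 _
  have hker' : ∀ u : ℝ, |u| ≤ 2 * X → ‖dpoly s (fun n => (w n : ℂ)) u‖ ≤
      8 * x / d * (1 + u ^ 2)⁻¹ + x / L ^ 20 := fun u hu => by
    refine le_trans ?_ ((hker u hu).trans (le_of_eq ?_))
    · rw [hw]
    · rw [← div_div, div_eq_mul_inv (8 * x / d)]
  have hL20 : x / L ^ 20 ≤ x / d :=
    div_le_div_of_nonneg_left hx0.le hd
      ((hd4.trans (by norm_num)).trans (one_le_pow₀ hL1))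
  have hW1 : ∑ n ∈ s, w n * ‖F.fn n‖ ^ 2 ≤ 9 * x / d := by
    refine (sum_le_sum fun n hn => mul_le_of_le_one_right (hw0 n hn)
      (pow_le_one₀ (norm_nonneg _) (F.norm_le n))).trans ?_
    have h0 := hker' 0 (by rw [abs_zero]; positivity)
    simp only [dpoly, Complex.ofReal_zero, mul_zero, neg_zero, Complex.cpow_zero, mul_one] at h0
    rw [← Complex.ofReal_sum, Complex.norm_real, Real.norm_of_nonneg (sum_nonneg hw0)] at h0
    refine h0.trans ?_
    rw [show 9 * x / d = 8 * x / d + x / d by ring]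
    norm_num
    exact hL20
  obtain ⟨I, hI⟩ : ∃ I, I = ∫ t in U, ‖P t‖ ^ 2 := ⟨_, rfl⟩
  rw [← hI]
  have hI0 : 0 ≤ I := hI ▸ integral_nonneg fun t => sq_nonneg _
  have hμ : volume.real U ≤ I / (x / L ^ 3) ^ 2 :=
    hI ▸ measureReal_le_moment hUm hU hPc (by positivity) hlarge
  have hB : ∀ u ∈ U, ∫ y in U, ‖dpoly s (fun n => (w n : ℂ)) (u - y)‖ ≤
      8 * x / d * π + x / L ^ 20 * volume.real U := fun u hu => by
    refine (setIntegral_mono_on ?_ ?_ hUm fun y hy => hker' (u - y) ?_).trans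
      (setIntegral_cauchy_add_le hU (by positivity))
    · exact ((continuous_dpoly hs1 _).comp (by fun_prop)).norm.integrableOn_Icc.mono_set hU
    · refine (Continuous.integrableOn_Icc ?_).mono_set hU
      exact (continuous_const.mul ((by fun_prop : Continuous fun y : ℝ => 1 + (u - y) ^ 2).inv₀
        fun y => by positivity)).add continuous_const
    · exact abs_le.2 ⟨by linarith [(hU hu).1, (hU hy).2], by linarith [(hU hu).2, (hU hy).1]⟩
  have hB0 : 0 ≤ 8 * x / d * π + x / L ^ 20 * volume.real U :=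
    add_nonneg (by positivity) (mul_nonneg (by positivity) measureReal_nonneg)
  have hmain : I ≤ 9 * x / d * (8 * x / d * π) + 9 / (d * L ^ 14) * I := by
    refine (le_of_eq (by rw [hI, hP])).trans
      ((setIntegral_weighted_values_le hs1 hw0 F.fn hUm hU hB0 hB).trans ?_)
    refine (mul_le_mul_of_nonneg_right hW1 hB0).trans ?_
    rw [mul_add]
    refine add_le_add le_rfl ?_
    refine (mul_le_mul_of_nonneg_left (mul_le_mul_of_nonneg_left hμ (by positivity))
      (by positivity)).trans (le_of_eq ?_)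
    field_simp
  have hhalf : 9 / (d * L ^ 14) ≤ 1 / 2 := by
    rw [div_le_iff₀ (by positivity)]
    have h1 := mul_le_mul_of_nonneg_left
      (hL.trans (le_self_pow₀ hL1 (show 14 ≠ 0 by norm_num))) hd.le
    rw [mul_div_cancel₀ _ hd.ne'] at h1
    linarith
  have h2 := mul_le_mul_of_nonneg_right hhalf hI0
  have h3 : 9 * x / d * (8 * x / d * π) ≤ 288 * (x ^ 2 / d ^ 2) := by
    rw [show 9 * x / d * (8 * x / d * π) = 72 * π * (x ^ 2 / d ^ 2) by ring]
    exact mul_le_mul_of_nonneg_right (by linarith [Real.pi_le_four]) (by positivity)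
  have h4 : 600 * x ^ 2 / d ^ 2 = 600 * (x ^ 2 / d ^ 2) := by ring
  have : 0 ≤ x ^ 2 / d ^ 2 := by positivity
  linarith

/-- **The last step**, from cancellation alone and uniformly in the function. -/
theorem exists_last_step {K : ℕ} (hK : 2 ≤ K) :
    ∃ δ : ℝ, 0 < δ ∧ ∀ᶠ X : ℕ in atTop, ∀ F : Twist, F.Cancel δ X → LastOK F K X := by
  have hK2 : (2 : ℝ) ≤ K := Nat.ofNat_le_cast.2 hK
  have hK0 : (0 : ℝ) < K := by linarith
  obtain ⟨d, hd⟩ : ∃ d : ℝ, d = 1 / (2 * K) := ⟨_, rfl⟩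
  have hd0 : 0 < d := hd ▸ by positivity
  have hd4 : d ≤ 1 / 4 := hd ▸ one_div_le_one_div_of_le (by norm_num) (by linarith)
  obtain ⟨g, hg⟩ : ∃ g, g = Real.log (1 + 2 * d) := ⟨_, rfl⟩
  have hg0 : 0 < g := hg ▸ Real.log_pos (by linarith)
  have hg1 : g ≤ 1 := hg ▸ (Real.log_le_sub_one_of_pos (by linarith)).trans (by linarith)
  obtain ⟨E, hE⟩ : ∃ E, E = Real.exp (16 * (K : ℝ)) := ⟨_, rfl⟩
  have hE0 : 0 < E := hE ▸ Real.exp_pos _
  obtain ⟨δ, hδ⟩ : ∃ δ : ℝ, δ = d / (360 * (E / g) * K) := ⟨_, rfl⟩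
  have hδ0 : 0 < δ := hδ ▸ by positivity
  refine ⟨δ, hδ0, ?_⟩
  obtain ⟨a₀, ha₀⟩ := exists_tentPieces_mass hd0 hd4
  have hlog : Tendsto (fun X : ℕ => Real.log X) atTop atTop :=
    Real.tendsto_log_atTop.comp (tendsto_natCast_atTop_atTop (R := ℝ))
  filter_upwards [eventually_ge_atTop 3, eventually_piece_sq_le hd0 hd4,
    hlog.eventually_ge_atTop (max (10 ^ 6) (105000 * K / g ^ 2)),
    ((tendsto_rpow_atTop (show (0 : ℝ) < 4 / 5 by norm_num)).comp hlog).eventually_ge_atTop a₀,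
    ((tendsto_rpow_atTop (show (0 : ℝ) < 1 / 5 by norm_num)).comp hlog).eventually_ge_atTop
      (200 * (1 + E))]
    with X hX hlarge hLbig ha' hL5 F hF a b H α T W hH ha hHb hal hb hα hα1 hT hTX hWm hW hWg
  simp only [Function.comp_apply] at ha' hL5
  obtain ⟨L, hLdef⟩ : ∃ L, L = Real.log (X : ℝ) := ⟨_, rfl⟩
  rw [← hLdef] at hlarge hLbig ha' hL5 hal hb
  obtain ⟨hL, hLK⟩ := max_le_iff.1 hLbig
  have hX3 : (3 : ℝ) ≤ X := Nat.ofNat_le_cast.2 hX
  have hXexp : (X : ℝ) = Real.exp L := by rw [hLdef, Real.exp_log (by linarith)]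
  have hL0 : 0 < L := by linarith
  obtain ⟨A, hA⟩ : ∃ A, A = L ^ (4 / 5 : ℝ) := ⟨_, rfl⟩
  have hA1 : 1 ≤ A := hA ▸ Real.one_le_rpow (by linarith) (by norm_num)
  have hAL : 200 * (1 + E) * A ≤ L := by
    have e : L = L ^ (1 / 5 : ℝ) * A := by rw [hA, ← Real.rpow_add hL0]; norm_num
    calc 200 * (1 + E) * A ≤ L ^ (1 / 5 : ℝ) * A :=
          mul_le_mul_of_nonneg_right hL5 (by linarith)
      _ = L := e.symm
  obtain ⟨n, hn⟩ : ∃ n, n = ⌊A * E / g⌋₊ := ⟨_, rfl⟩
  have hn1 : (n : ℝ) * g ≤ A * E := by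
    rw [← le_div_iff₀ hg0, hn]; exact Nat.floor_le (by positivity)
  have hn2 : A * E - g ≤ (n : ℝ) * g := by
    have h1 := Nat.lt_floor_add_one (A * E / g)
    rw [← hn, div_lt_iff₀ hg0] at h1
    linarith
  obtain ⟨B, hB⟩ : ∃ B, B = tentPieces d hd0 hd4 A hA1 n := ⟨_, rfl⟩
  have hstart : ∀ i, B.start i = tentStart d A i := fun i => by rw [hB]; rfl
  have hxlo : ∀ i, Real.exp A ≤ B.start i := fun i => by
    rw [hstart, tentStart, Real.exp_le_exp, ← hg]
    exact le_add_of_nonneg_right (by positivity)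
  have hxhi : ∀ i ≤ n, B.start i ≤ Real.exp (L / 200) := fun i hi => by
    rw [hstart, tentStart, Real.exp_le_exp, ← hg]
    have : (i : ℝ) * g ≤ n * g := mul_le_mul_of_nonneg_right (Nat.cast_le.2 hi) hg0.le
    linarith
  have hindex : B.index = range n := by rw [hB]; rfl
  have hM : (K : ℝ) ≤ B.mass := by
    rw [hB]
    refine le_trans ?_ (ha₀ A hA1 (hA ▸ ha') n)
    rw [le_div_iff₀ (by norm_num), ← hg, Real.le_log_iff_exp_le (by positivity), mul_comm,
      ← hE, le_div_iff₀ (by linarith)]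
    linarith
  have hratio : B.ratio = 1 + 2 * d := by rw [hB]; rfl
  have hd2 : 2 * d = 1 / K := by rw [hd]; field_simp
  have hKL : 105000 * (K : ℝ) ≤ L := le_trans (le_div_self (by positivity) (pow_pos hg0 2)
    (pow_le_one₀ hg0.le hg1)) hLK
  have hsize : B.size ^ 2 ≤ (B.ratio - 1) * X := by
    rw [hratio, add_sub_cancel_left, hd2, div_mul_eq_mul_div, one_mul, le_div_iff₀ hK0]
    have h1 : B.size ≤ 4 * Real.exp (L / 200) := by
      rw [hB]
      refine (tentPieces_size_le hd0 hd4 hA1 n).trans ?_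
      have h2 := hxhi n le_rfl
      rw [hstart] at h2
      linarith [Real.one_le_exp (show 0 ≤ L / 200 by linarith)]
    refine (mul_le_mul_of_nonneg_right (pow_le_pow_left₀ B.size_nonneg h1 2) hK0.le).trans ?_
    rw [hXexp, show L = 2 * (L / 200) + 0.99 * L by ring, Real.exp_add, mul_pow,
      ← Real.exp_nat_mul, show 2 * (L / 200) + 0.99 * L = L by ring]
    push_cast
    rw [mul_comm (4 ^ 2), mul_assoc]
    refine mul_le_mul_of_nonneg_left ?_ (Real.exp_pos _).le
    linarith [Real.add_one_le_exp (0.99 * L)]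
  have hsize' : B.size ^ 2 ≤ X := by
    refine hsize.trans (mul_le_of_le_one_left (Nat.cast_nonneg X) ?_)
    rw [hratio]
    linarith
  refine (B.setIntegral_twistPoly_le F hT hTX (le_trans (Nat.one_le_cast.2 (by omega)) hM)
    (by rw [hratio]; linarith) hsize' hsize hWm hW).trans ?_
  have hterm : ∀ v ∈ B.index, ∫ t in W, ‖B.piece F v t * B.cofactor F X v t‖ ^ 2 ≤
      21600 * δ ^ 2 * (X : ℝ) ^ 2 / (A ^ 2 * d ^ 2) + 17500 * (X : ℝ) ^ 2 / L ^ 4 :=
    fun v hv => by
    obtain ⟨x, hx⟩ : ∃ x, x = B.start v := ⟨_, rfl⟩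
    have hvn : v ≤ n := (mem_range.1 (hindex ▸ hv)).le
    have hx1 : x ≤ Real.exp (L / 200) := hx ▸ hxhi v hvn
    have hxA : Real.exp A ≤ x := hx ▸ hxlo v
    have hlx : A ≤ Real.log x := by
      rw [hx, hstart, tentStart, Real.log_exp, ← hg]
      exact le_add_of_nonneg_right (by positivity)
    have hx10 : 1 ≤ x := le_trans (Real.one_le_exp (by linarith)) hxA
    have hx0 : 0 < x := by linarith
    have hxX : x ≤ X := hx1.trans (hXexp ▸ Real.exp_le_exp.2 (by linarith))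
    obtain ⟨P, hP⟩ : ∃ P : ℝ → ℂ, P = fun t => dpoly (piecePrimes x (d * x))
        (fun p => ((Real.log p * tentWeight x (d * x) p : ℝ) : ℂ) * F.fn p) t := ⟨_, rfl⟩
    have hPc : Continuous P :=
      hP ▸ continuous_dpoly (fun p hp => (mem_filter.1 hp).2.one_le) _
    have hP2c : Continuous fun t => ‖P t‖ ^ 2 := hPc.norm.pow 2
    have hpiece : ∀ t, ‖B.piece F v t‖ = ‖P t‖ / Real.log x := fun t => by
      have e : B.piece F v t = ((1 / Real.log x : ℝ) : ℂ) * P t := by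
        rw [hP]
        simp only
        rw [← dpoly_mul_const, hx, hB, Pieces.piece, dpoly, dpoly]
        refine sum_congr rfl fun p _ => ?_
        simp only [tentPieces]
        push_cast
        ring
      rw [e, norm_mul, Complex.norm_real, Real.norm_of_nonneg
        (div_nonneg zero_le_one (by linarith)), div_mul_eq_mul_div, one_mul]
    obtain ⟨N, hN⟩ : ∃ N, N = ⌊5 * (X : ℝ) / x⌋₊ := ⟨_, rfl⟩
    obtain ⟨N', hN'⟩ : ∃ N', N' = ⌊(X : ℝ) / x⌋₊ := ⟨_, rfl⟩
    have hrange : B.cofRange X v = Ioc N' N := by rw [hN, hN', hx]; rfl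
    have hcof : B.cofRange X v ⊆ Icc 1 N := fun m hm => by
      obtain ⟨h1, h2⟩ := mem_Ioc.1 (hrange ▸ hm)
      exact mem_Icc.2 ⟨by omega, h2⟩
    have hNle : (N : ℝ) ≤ 5 * X / x := hN ▸ Nat.floor_le (by positivity)
    have hNx : (N : ℝ) * x ≤ 5 * X := (le_div_iff₀ hx0).1 hNle
    have hN'le : (N' : ℝ) ≤ X / x := hN' ▸ Nat.floor_le (by positivity)
    have hN1 : (N : ℝ) ≤ 5 * Real.exp L :=
      hXexp ▸ le_trans (le_mul_of_one_le_right (Nat.cast_nonneg N) hx10) hNx
    have hN'2 : 2 * Real.exp (0.98 * L) ≤ (N' : ℝ) + 1 := by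
      refine le_trans ?_ (hN' ▸ Nat.lt_floor_add_one ((X : ℝ) / x)).le
      rw [le_div_iff₀ hx0, hXexp]
      refine (mul_le_mul_of_nonneg_left hx1 (by positivity)).trans ?_
      rw [mul_assoc, ← Real.exp_add, show L = 0.015 * L + (0.98 * L + L / 200) by ring,
        Real.exp_add (0.015 * L)]
      refine mul_le_mul (by linarith [Real.add_one_le_exp (0.015 * L)]) ?_ (Real.exp_pos _).le
        (Real.exp_pos _).le
      exact le_of_eq (by ring_nf)
    have hN'N : N' ≤ N :=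
      hN ▸ hN' ▸ Nat.floor_le_floor (div_le_div_of_nonneg_right (by linarith) hx0.le)
    have hN2 : Real.exp (0.98 * L) ≤ N := by
      have : (N' : ℝ) ≤ N := Nat.cast_le.2 hN'N
      linarith [Real.one_le_exp (show 0 ≤ 0.98 * L by linarith)]
    have hY : ∀ Y : ℕ, N' ≤ Y → (X : ℝ) ^ (0.97 : ℝ) ≤ Y := fun Y hY => by
      refine le_trans ?_ ((show Real.exp (0.98 * L) ≤ N' by
        linarith [Real.one_le_exp (show 0 ≤ 0.98 * L by linarith)]).trans (Nat.cast_le.2 hY))
      rw [hXexp, ← Real.exp_mul]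
      exact Real.exp_le_exp.2 (by linarith)
    have hN5 : N ≤ 5 * X := by
      have : (N : ℝ) ≤ (5 * X : ℕ) := by
        push_cast
        exact (le_mul_of_one_le_right (Nat.cast_nonneg N) hx10).trans hNx
      exact_mod_cast this
    have hsup : ∀ t : ℝ, |t| ≤ X → ‖B.cofactor F X v t‖ ≤ 6 * δ * X / x := fun t ht => by
      have h1 := hF N' (hY N' le_rfl) (hN'N.trans hN5) t ht
      have h2 := hF N (hY N hN'N) hN5 t ht
      have e : B.cofactor F X v t = dpoly (Icc 1 N) F.fn t - dpoly (Icc 1 N') F.fn t := by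
        rw [eq_sub_iff_add_eq', Pieces.cofactor, hrange, dpoly, dpoly, dpoly]
        exact sum_Ioc_consecutive _ (Nat.zero_le N') hN'N
      rw [e]
      refine (norm_sub_le _ _).trans ((add_le_add h2 h1).trans ?_)
      rw [show 6 * δ * X / x = δ * (5 * X / x) + δ * (X / x) by ring]
      exact add_le_add (mul_le_mul_of_nonneg_left hNle hδ0.le)
        (mul_le_mul_of_nonneg_left hN'le hδ0.le)
    have hcc : Continuous fun t => ‖B.cofactor F X v t‖ ^ 2 :=
      ((continuous_dpoly (fun m hm => (mem_Icc.1 (hcof hm)).1) _).norm).pow 2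
    have hcof2 : ∫ t in W, ‖B.cofactor F X v t‖ ^ 2 ≤ L * (700 * L * (N : ℝ) ^ 2) := by
      refine (setIntegral_le_sum_largeSet F (levelPieces a b H) α hWm hW hWg hcc
        fun t => sq_nonneg _).trans ?_
      refine (sum_le_card_nsmul _ _ (700 * L * (N : ℝ) ^ 2) fun u hu =>
        (setIntegral_mono_set (hcc.integrableOn_Icc.mono_set Set.inter_subset_left)
          (ae_of_all _ fun t => sq_nonneg _) Set.inter_subset_right.eventuallyLE).trans
          (setIntegral_largeSet_le F hH ha hu hα hα1 hT (hXexp ▸ hTX) hL hb hal hcof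
            (fun m _ => F.norm_le m) hN1 hN2)).trans ?_
      rw [nsmul_eq_mul]
      refine mul_le_mul_of_nonneg_right ?_ (by positivity)
      rw [show (levelPieces a b H).index = Ico (a * H) (b * H) from rfl, Nat.card_Ico]
      refine (Nat.cast_le.2 ((Nat.sub_le _ _).trans (Nat.mul_le_mul le_rfl hHb))).trans ?_
      push_cast
      calc (b : ℝ) * b ≤ √L * √L := mul_le_mul hb hb (Nat.cast_nonneg b) (Real.sqrt_nonneg L)
        _ = L := Real.mul_self_sqrt hL0.le
    have hbc : Continuous fun t => ‖B.piece F v t * B.cofactor F X v t‖ ^ 2 :=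
      (((continuous_piece F B hv).mul
        (continuous_dpoly (fun m hm => (mem_Icc.1 (hcof hm)).1) _)).norm).pow 2
    obtain ⟨U, hU⟩ : ∃ U : Set ℝ, U = {t | x / L ^ 3 < ‖P t‖} := ⟨_, rfl⟩
    have hUm : MeasurableSet U :=
      hU ▸ measurableSet_lt measurable_const hPc.norm.measurable
    rw [← integral_inter_add_sdiff hUm (hbc.integrableOn_Icc.mono_set hW)]
    refine add_le_add ?_ ?_
    · have hI : ∫ t in W ∩ U, ‖P t‖ ^ 2 ≤ 600 * x ^ 2 / d ^ 2 := by
        have h := hlarge F x T (W ∩ U) (hA ▸ hxA) hxX hTX (hWm.inter hUm)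
          (Set.inter_subset_left.trans hW) (fun t ht => by
            have := ht.2
            rw [hU, hP] at this
            exact le_of_lt this)
        rw [hP]
        exact h
      refine (setIntegral_mono_on (hbc.integrableOn_Icc.mono_set
        (Set.inter_subset_left.trans hW))
        ((hP2c.const_mul ((6 * δ * X / x / A) ^ 2)).integrableOn_Icc.mono_set
          (Set.inter_subset_left.trans hW)) (hWm.inter hUm) fun t ht => ?_).trans ?_
      · rw [norm_mul, hpiece, ← mul_pow]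
        refine pow_le_pow_left₀ (mul_nonneg (div_nonneg (norm_nonneg _) (by linarith))
          (norm_nonneg _)) ?_ 2
        refine (mul_le_mul (div_le_div_of_nonneg_left (norm_nonneg _) (by linarith) hlx)
          (hsup t ((abs_le.2 (hW ht.1)).trans hTX)) (norm_nonneg _)
          (div_nonneg (norm_nonneg _) (by linarith))).trans (le_of_eq ?_)
        ring
      rw [integral_const_mul]
      refine (mul_le_mul_of_nonneg_left hI (sq_nonneg _)).trans (le_of_eq ?_)
      field_simp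
      ring
    · refine (setIntegral_mono_on (hbc.integrableOn_Icc.mono_set (Set.sdiff_subset.trans hW))
        ((hcc.const_mul ((x / L ^ 3) ^ 2)).integrableOn_Icc.mono_set
          (Set.sdiff_subset.trans hW)) (hWm.diff hUm) fun t ht => ?_).trans ?_
      · rw [norm_mul, mul_pow]
        refine mul_le_mul_of_nonneg_right (pow_le_pow_left₀ (norm_nonneg _) ?_ 2) (sq_nonneg _)
        rw [hpiece]
        exact (div_le_self (norm_nonneg _) (hA1.trans hlx)).trans
          (not_lt.1 fun h => ht.2 (hU ▸ h))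
      rw [integral_const_mul]
      refine (mul_le_mul_of_nonneg_left ((setIntegral_mono_set (hcc.integrableOn_Icc.mono_set hW)
        (ae_of_all _ fun t => sq_nonneg _) Set.sdiff_subset.eventuallyLE).trans hcof2)
        (sq_nonneg _)).trans ?_
      calc (x / L ^ 3) ^ 2 * (L * (700 * L * (N : ℝ) ^ 2))
          = 700 * ((N : ℝ) * x) ^ 2 / L ^ 4 := by field_simp
        _ ≤ 700 * (5 * (X : ℝ)) ^ 2 / L ^ 4 := by gcongr
        _ = _ := by ring
  obtain ⟨M, hMdef⟩ : ∃ M, M = B.mass := ⟨_, rfl⟩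
  rw [← hMdef] at hM ⊢
  have hM1 : 1 ≤ M := le_trans (Nat.one_le_cast.2 (by omega)) hM
  refine (add_le_add (mul_le_mul_of_nonneg_left (sum_le_sum hterm)
      (div_nonneg (mul_nonneg (by norm_num) (Nat.cast_nonneg _)) (sq_nonneg M)))
    (mul_le_mul_of_nonneg_left (b := 1 / M + (B.ratio - 1)) (c := 2 / (K : ℝ))
      ?_ (show (0 : ℝ) ≤ 12000 * (X : ℝ) ^ 2 by positivity))).trans ?_
  · rw [hratio, add_sub_cancel_left, hd2]
    have : 1 / M ≤ 1 / (K : ℝ) := one_div_le_one_div_of_le hK0 hM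
    linarith [show (2 : ℝ) / K = 1 / K + 1 / K by ring]
  rw [sum_const, hindex, card_range, nsmul_eq_mul]
  have hnA : (n : ℝ) ≤ A * (E / g) := by
    rw [← mul_div_assoc, le_div_iff₀ hg0]
    linarith
  have hnL : (n : ℝ) ≤ L / g := by
    rw [le_div_iff₀ hg0]
    have : 0 ≤ (1 + E) * A := by positivity
    linarith
  have hsmall : 3 * (n : ℝ) ^ 2 * (17500 * (X : ℝ) ^ 2 / L ^ 4) ≤ (X : ℝ) ^ 2 / (2 * K) := by
    refine (mul_le_mul_of_nonneg_right (mul_le_mul_of_nonneg_left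
      (pow_le_pow_left₀ (Nat.cast_nonneg n) hnL 2) (by norm_num)) (by positivity)).trans ?_
    rw [show 3 * (L / g) ^ 2 * (17500 * (X : ℝ) ^ 2 / L ^ 4) =
      (52500 / g ^ 2) / L ^ 2 * (X : ℝ) ^ 2 by field_simp; ring, ← one_div_mul_eq_div (2 * (K : ℝ))]
    refine mul_le_mul_of_nonneg_right ?_ (sq_nonneg _)
    rw [div_le_div_iff₀ (by positivity) (by positivity), one_mul, div_mul_eq_mul_div,
      show 52500 * (2 * (K : ℝ)) = 105000 * K by ring]
    exact hLK.trans (le_self_pow₀ (by linarith) two_ne_zero)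
  have hmain : 3 * (n : ℝ) ^ 2 * (21600 * δ ^ 2 * (X : ℝ) ^ 2 / (A ^ 2 * d ^ 2)) ≤
      (X : ℝ) ^ 2 / (2 * K) := by
    refine (mul_le_mul_of_nonneg_right (mul_le_mul_of_nonneg_left
      (pow_le_pow_left₀ (Nat.cast_nonneg n) hnA 2) (by norm_num)) (by positivity)).trans ?_
    calc 3 * (A * (E / g)) ^ 2 * (21600 * δ ^ 2 * (X : ℝ) ^ 2 / (A ^ 2 * d ^ 2))
        = (X : ℝ) ^ 2 / (2 * K) * (1 / K) := by rw [hδ]; field_simp; ring
      _ ≤ _ := mul_le_of_le_one_right (by positivity) ((div_le_one hK0).2 (by linarith))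
  have hfirst : ∀ P : ℝ, 0 ≤ P → 3 * (n : ℝ) / M ^ 2 * ((n : ℝ) * P) ≤ 3 * (n : ℝ) ^ 2 * P :=
    fun P hP => (mul_le_mul_of_nonneg_right (div_le_self (by positivity) (one_le_pow₀ hM1))
      (by positivity)).trans (le_of_eq (by ring))
  refine (add_le_add (hfirst _ (by positivity)) le_rfl).trans ?_
  have e1 : (X : ℝ) ^ 2 / (2 * K) = 1 / 2 * ((X : ℝ) ^ 2 / K) := by ring
  have e2 : 12000 * (X : ℝ) ^ 2 * (2 / K) = 24000 * ((X : ℝ) ^ 2 / K) := by ring
  rw [e1] at hsmall hmain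
  have e3 : 26000 * (X : ℝ) ^ 2 / K = 26000 * ((X : ℝ) ^ 2 / K) := by ring
  rw [e2, e3, mul_add]
  linarith [show (0 : ℝ) ≤ (X : ℝ) ^ 2 / K by positivity]

end FA.ShortLiouville

end
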