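import Fermat.Agent.ShortLiouville.Basic
import Fermat.Agent.SieveConstant.MobiusSum

/-!
# Small ordinates

For `|t| ≤ (log X) ^ 40` the sum `∑_{X < n ≤ 5 X} λ n n ^ (-it)` is `O (X / (log X) ^ 30)`, by
partial summation from `∑_{n ≤ N} λ n = O (N / (log N) ^ 80)`.
-/

set_option autoImplicit false

noncomputable section

namespace FA.ShortLiouville

open MeasureTheory Finset Filter FA.Hoheisel
open scoped Real

theorem norm_cpow_imag_succ_sub_le {n : ℕ} (hn : 1 ≤ n) (t : ℝ) :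
    ‖((n + 1 : ℕ) : ℂ) ^ (-(Complex.I * (t : ℂ))) - (n : ℂ) ^ (-(Complex.I * (t : ℂ)))‖ ≤
      |t| / n := by
  have e : ∀ m : ℕ, 1 ≤ m → (m : ℂ) ^ (-(Complex.I * (t : ℂ))) =
      Complex.exp ((-(t * Real.log m) : ℝ) * Complex.I) := fun m hm => by
    rw [Complex.cpow_def_of_ne_zero (Nat.cast_ne_zero.2 (by omega)), ← Complex.natCast_log]
    congr 1
    push_cast
    ring
  rw [e n hn, e (n + 1) (by omega)]
  have hn0 : (0 : ℝ) < n := Nat.cast_pos.2 hn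
  have h0 : 0 ≤ Real.log ((n + 1 : ℕ) : ℝ) - Real.log n :=
    sub_nonneg.2 (Real.log_le_log hn0 (Nat.cast_le.2 n.le_succ))
  have h1 : Real.log ((n + 1 : ℕ) : ℝ) - Real.log n ≤ 1 / n := by
    rw [← Real.log_div (Nat.cast_ne_zero.2 (by omega)) hn0.ne']
    refine (Real.log_le_sub_one_of_pos (div_pos (Nat.cast_pos.2 (by omega)) hn0)).trans
      (le_of_eq ?_)
    push_cast
    field_simp
    ring
  obtain ⟨θ, hθ⟩ : ∃ θ : ℝ, θ = -(t * Real.log ((n + 1 : ℕ) : ℝ)) - -(t * Real.log n) := ⟨_, rfl⟩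
  rw [show (((-(t * Real.log ((n + 1 : ℕ) : ℝ)) : ℝ)) : ℂ) * Complex.I =
    ((-(t * Real.log n) : ℝ) : ℂ) * Complex.I + (θ : ℂ) * Complex.I by
      rw [hθ]; push_cast; ring, Complex.exp_add, ← mul_sub_one, norm_mul,
    Complex.norm_exp_ofReal_mul_I, one_mul, mul_comm (θ : ℂ)]
  refine (Real.norm_exp_I_mul_ofReal_sub_one_le (x := θ)).trans ?_
  rw [Real.norm_eq_abs, hθ, show -(t * Real.log ((n + 1 : ℕ) : ℝ)) - -(t * Real.log n) =
    -t * (Real.log ((n + 1 : ℕ) : ℝ) - Real.log n) by ring, abs_mul, abs_neg, abs_of_nonneg h0,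
    div_eq_mul_one_div]
  exact mul_le_mul_of_nonneg_left h1 (abs_nonneg t)

/-- Partial summation against `n ^ (-it)`. -/
theorem norm_dpoly_Ioc_le {a : ℕ → ℂ} {X Y : ℕ} (hXY : X ≤ Y) (hX : 1 ≤ X) {B : ℝ}
    (hB : ∀ m, X ≤ m → m ≤ Y → ‖∑ n ∈ Ioc X m, a n‖ ≤ B) (t : ℝ) :
    ‖dpoly (Ioc X Y) a t‖ ≤ B * (1 + |t| * ((Y : ℝ) - X) / X) := by
  obtain ⟨E, hE⟩ : ∃ E : ℕ → ℂ, E = fun n : ℕ => (n : ℂ) ^ (-(Complex.I * (t : ℂ))) := ⟨_, rfl⟩
  have hX0 : (0 : ℝ) < X := Nat.cast_pos.2 hX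
  have hB0 : 0 ≤ B := le_trans (norm_nonneg _) (hB X le_rfl hXY)
  have hd : ∀ n : ℕ, X ≤ n → ‖E (n + 1) - E n‖ ≤ |t| / X := fun n hn => by
    rw [hE]
    exact (norm_cpow_imag_succ_sub_le (hX.trans hn) t).trans
      (div_le_div_of_nonneg_left (abs_nonneg t) hX0 (Nat.cast_le.2 hn))
  have key : ∀ m, X ≤ m → m ≤ Y →
      ‖∑ n ∈ Ioc X m, a n * E n - (∑ n ∈ Ioc X m, a n) * E m‖ ≤
        B * (|t| * ((m : ℝ) - X) / X) := by
    intro m hXm
    induction m, hXm using Nat.le_induction with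
    | base => intro; simp
    | succ m hXm ih =>
      intro hm
      rw [sum_Ioc_succ_top hXm, sum_Ioc_succ_top hXm]
      have e : ∑ n ∈ Ioc X m, a n * E n + a (m + 1) * E (m + 1) -
          (∑ n ∈ Ioc X m, a n + a (m + 1)) * E (m + 1) =
          (∑ n ∈ Ioc X m, a n * E n - (∑ n ∈ Ioc X m, a n) * E m) -
            (∑ n ∈ Ioc X m, a n) * (E (m + 1) - E m) := by ring
      rw [e]
      refine (norm_sub_le _ _).trans
        ((add_le_add (ih (by omega)) (le_of_eq (norm_mul _ _))).trans ?_)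
      have h1 := mul_le_mul (hB m hXm (by omega)) (hd m hXm) (norm_nonneg _) hB0
      have e2 : B * (|t| * (((m + 1 : ℕ) : ℝ) - X) / X) =
          B * (|t| * ((m : ℝ) - X) / X) + B * (|t| / X) := by push_cast; ring
      linarith
  have h := key Y hXY le_rfl
  have h2 : ‖(∑ n ∈ Ioc X Y, a n) * E Y‖ ≤ B := by
    rw [norm_mul, hE, norm_natCast_cpow_imag (hX.trans hXY), mul_one]
    exact hB Y hXY le_rfl
  rw [dpoly]
  have h3 := norm_sub_norm_le (∑ n ∈ Ioc X Y, a n * E n) ((∑ n ∈ Ioc X Y, a n) * E Y)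
  rw [hE] at h h2 h3
  linarith

/-- **Small ordinates.** -/
theorem Twist.smallOrdinates_of_sum_le (F : Twist) {C : ℝ} (hC : 0 ≤ C)
    (h : ∀ᶠ N : ℕ in atTop, ‖∑ n ∈ Icc 1 N, F.fn n‖ ≤ C * N / Real.log N ^ 80) :
    F.SmallOrdinates := by
  rw [Twist.SmallOrdinates]
  obtain ⟨N₀, hN₀⟩ := eventually_atTop.1 h
  filter_upwards [eventually_ge_atTop (max N₀ 3),
    (Real.tendsto_log_atTop.comp (tendsto_natCast_atTop_atTop (R := ℝ))).eventually_ge_atTop
      (50 * C + 1)] with X hX hL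
  simp only [Function.comp_apply] at hL
  obtain ⟨L, hLdef⟩ : ∃ L, L = Real.log (X : ℝ) := ⟨_, rfl⟩
  rw [← hLdef] at hL ⊢
  have hX1 : 1 ≤ X := le_trans (by norm_num) (le_of_max_le_right hX)
  have hX0 : (0 : ℝ) < X := Nat.cast_pos.2 hX1
  have hL1 : 1 ≤ L := by linarith
  have hsum : ∀ m, X ≤ m → m ≤ 5 * X → ‖∑ n ∈ Ioc X m, F.fn n‖ ≤ 10 * C * X / L ^ 80 := by
    intro m hXm hm
    have hN : ∀ N, X ≤ N → N ≤ 5 * X → ‖∑ n ∈ Ioc 0 N, F.fn n‖ ≤ 5 * C * X / L ^ 80 := by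
      intro N hXN hN5
      have h1 := hN₀ N ((le_of_max_le_left hX).trans hXN)
      rw [show Ioc 0 N = Icc 1 N from rfl]
      refine h1.trans (div_le_div₀ (by positivity) ?_ (by positivity) ?_)
      · rw [mul_comm (5 : ℝ) C, mul_assoc]
        exact mul_le_mul_of_nonneg_left (by exact_mod_cast hN5) hC
      · exact pow_le_pow_left₀ (by linarith)
          (hLdef ▸ Real.log_le_log hX0 (Nat.cast_le.2 hXN)) 80
    have e : ∑ n ∈ Ioc X m, F.fn n = ∑ n ∈ Ioc 0 m, F.fn n - ∑ n ∈ Ioc 0 X, F.fn n := by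
      rw [← sum_Ioc_consecutive _ (Nat.zero_le X) hXm]
      ring
    rw [e]
    refine (norm_sub_le _ _).trans ((add_le_add (hN m hXm hm) (hN X le_rfl (by omega))).trans
      (le_of_eq ?_))
    ring
  have hpt : ∀ t ∈ Set.Icc (-(L ^ 40)) (L ^ 40),
      ‖twistPoly F X t‖ ^ 2 ≤ ((X : ℝ) / L ^ 30) ^ 2 := by
    intro t ht
    refine pow_le_pow_left₀ (norm_nonneg _) ?_ 2
    refine (norm_dpoly_Ioc_le (by omega) hX1 hsum t).trans ?_
    have ht' : |t| ≤ L ^ 40 := abs_le.2 ht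
    have h5 : 1 + |t| * (((5 * X : ℕ) : ℝ) - X) / X ≤ 5 * L ^ 40 := by
      push_cast
      rw [show |t| * (5 * (X : ℝ) - X) / X = 4 * |t| by field_simp; ring]
      linarith [one_le_pow₀ (n := 40) hL1]
    refine (mul_le_mul_of_nonneg_left h5 (by positivity)).trans ?_
    rw [div_mul_eq_mul_div, div_le_div_iff₀ (by positivity) (by positivity)]
    have h6 : 50 * C ≤ L ^ 10 := by
      have := le_self_pow₀ hL1 (show (10 : ℕ) ≠ 0 by norm_num)
      linarith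
    have h7 := mul_le_mul_of_nonneg_left h6 (show 0 ≤ (X : ℝ) * L ^ 70 by positivity)
    linear_combination h7
  refine (setIntegral_mono_on (((continuous_twistPoly F X).norm.pow 2).integrableOn_Icc)
    (integrableOn_const measure_Icc_lt_top.ne) measurableSet_Icc hpt).trans (le_of_eq ?_)
  rw [setIntegral_const, smul_eq_mul, Real.volume_real_Icc_of_le (by
    have : 0 ≤ L ^ 40 := by positivity
    linarith)]
  field_simp
  ring

/-- **Small ordinates for `λ`.** -/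
theorem eventually_small_ordinates_le : ∀ᶠ X : ℕ in atTop,
    ∫ t in Set.Icc (-(Real.log X ^ 40)) (Real.log X ^ 40), ‖liouPoly X t‖ ^ 2 ≤
      2 * (X : ℝ) ^ 2 / Real.log X ^ 20 := by
  obtain ⟨C, hC, h⟩ := SieveConstant.exists_liouvilleSum_le 80
  refine liouTwist.smallOrdinates_of_sum_le hC (h.mono fun N hN => ?_)
  have e : ∑ n ∈ Icc 1 N, liou n =
      (((∑ n ∈ Icc 1 N, (ArithmeticFunction.liouville n : ℝ)) : ℝ) : ℂ) := by
    push_cast
    rfl
  rw [show liouTwist.fn = liou from rfl, e, Complex.norm_real, Real.norm_eq_abs]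
  exact hN

end FA.ShortLiouville

end
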