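import Fermat.Agent.ShortLiouville.Tower
import Fermat.Agent.ShortLiouville.LastStepGeneral
import Fermat.Agent.ShortLiouville.SmallT

/-!
# The mean square of the polynomial of a completely multiplicative function

`[-T, T]` is cut by the first level whose pieces are all small; on each part the product with the
cofactor is small in mean; off all the levels the bound of the last step finishes, which holds for
`λ` by the sums over primes and in general by the cancellation of the long sums.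
-/

set_option autoImplicit false

noncomputable section

namespace FA.ShortLiouville

open MeasureTheory Finset Filter
open scoped Real Topology

/-- One level, given the bound for its pieces. -/
theorem setIntegral_level_le (F : Twist) {a b H X : ℕ} {T P : ℝ} (hH : 2 ≤ H) (hHb : H ≤ b)
    (hb : (b : ℝ) ≤ √(Real.log X)) (hL : 100 ≤ Real.log X)
    (hM : (H : ℝ) / 2 ≤ (levelPieces a b H).mass) (hT : 0 ≤ T) (hTX : T ≤ X) (hP : 0 ≤ P)
    {U : Set ℝ} (hUm : MeasurableSet U) (hU : U ⊆ Set.Icc (-T) T)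
    (hv : ∀ v ∈ (levelPieces a b H).index,
      ∫ t in U, ‖(levelPieces a b H).piece F v t * (levelPieces a b H).cofactor F X v t‖ ^ 2 ≤ P) :
    ∫ t in U, ‖twistPoly F X t‖ ^ 2 ≤ 3 * ((b : ℝ) * H) ^ 2 * P + 48000 * (X : ℝ) ^ 2 / H := by
  obtain ⟨B, hB⟩ : ∃ B, B = levelPieces a b H := ⟨_, rfl⟩
  obtain ⟨L, hLdef⟩ : ∃ L, L = Real.log (X : ℝ) := ⟨_, rfl⟩
  rw [← hB] at hM hv
  rw [← hLdef] at hb hL
  have hH2 : (2 : ℝ) ≤ H := Nat.ofNat_le_cast.2 hH
  have hH0 : (0 : ℝ) < H := by linarith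
  have hX0 : (0 : ℝ) < X := by
    refine lt_of_le_of_ne (Nat.cast_nonneg X) fun h => ?_
    rw [hLdef, ← h, Real.log_zero] at hL
    norm_num at hL
  have hXexp : (X : ℝ) = Real.exp L := by rw [hLdef, Real.exp_log hX0]
  have hM1 : 1 ≤ B.mass := le_trans (by linarith) hM
  have hratio : B.ratio = Real.exp (1 / (H : ℝ)) := by rw [hB]; rfl
  have hinv : 1 / (H : ℝ) ≤ 1 / 2 := one_div_le_one_div_of_le two_pos hH2
  have hRle : B.ratio - 1 ≤ 2 / H := by
    have h0 : 0 ≤ 1 / (H : ℝ) := by positivity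
    have h1 := Real.abs_exp_sub_one_le (x := 1 / (H : ℝ)) (by
      rw [abs_of_nonneg h0]
      linarith)
    rw [abs_of_nonneg h0] at h1
    rw [hratio, show (2 : ℝ) / H = 2 * (1 / H) by ring]
    exact (abs_le.1 h1).2
  have hR2 : B.ratio ≤ 2 := by
    rw [show (2 : ℝ) / H = 2 * (1 / H) by ring] at hRle
    linarith
  have hR1 : 1 / (H : ℝ) ≤ B.ratio - 1 := by
    rw [hratio]
    linarith [Real.add_one_le_exp (1 / (H : ℝ))]
  have hsq : 3 * √L + 2 ≤ L := by
    have h1 : 10 ≤ √L := Real.le_sqrt_of_sq_le (by linarith)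
    have h2 := Real.mul_self_sqrt (show 0 ≤ L by linarith)
    nlinarith
  have hsize : B.size ^ 2 ≤ (B.ratio - 1) * X := by
    refine le_trans ?_ (mul_le_mul_of_nonneg_right hR1 hX0.le)
    rw [div_mul_eq_mul_div, one_mul, le_div_iff₀ hH0]
    have hHexp : (H : ℝ) ≤ Real.exp √L :=
      ((Nat.cast_le.2 hHb).trans hb).trans
        ((le_add_of_nonneg_right zero_le_one).trans (Real.add_one_le_exp _))
    have hsz : B.size ≤ 2 * Real.exp √L := hB ▸ (levelPieces_size_le a b H).trans
      (mul_le_mul_of_nonneg_left (Real.exp_le_exp.2 hb) two_pos.le)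
    refine (mul_le_mul (pow_le_pow_left₀ B.size_nonneg hsz 2) hHexp hH0.le (sq_nonneg _)).trans ?_
    rw [mul_pow, ← Real.exp_nat_mul, mul_assoc, ← Real.exp_add, hXexp,
      show L = 2 + (L - 2) by ring, Real.exp_add (2 : ℝ)]
    refine mul_le_mul ?_ (Real.exp_le_exp.2 ?_) (Real.exp_pos _).le (Real.exp_pos _).le
    · calc (2 : ℝ) ^ 2 ≤ Real.exp 1 ^ 2 :=
            pow_le_pow_left₀ two_pos.le (by linarith [Real.exp_one_gt_d9]) 2
        _ = Real.exp 2 := by rw [← Real.exp_nat_mul]; norm_num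
    · push_cast
      ring_nf at hsq ⊢
      linarith
  have hsize' : B.size ^ 2 ≤ X :=
    hsize.trans (mul_le_of_le_one_left hX0.le (by linarith))
  refine (B.setIntegral_twistPoly_le F hT hTX hM1 hR2 hsize' hsize hUm hU).trans (add_le_add ?_ ?_)
  · have hc : (B.index.card : ℝ) ≤ (b : ℝ) * H := by
      rw [hB, show (levelPieces a b H).index = Ico (a * H) (b * H) from rfl, Nat.card_Ico]
      exact (Nat.cast_le.2 (Nat.sub_le _ _)).trans (le_of_eq (Nat.cast_mul b H))
    have hs : ∑ v ∈ B.index, ∫ t in U, ‖B.piece F v t * B.cofactor F X v t‖ ^ 2 ≤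
        (b : ℝ) * H * P := by
      refine (sum_le_card_nsmul _ _ P hv).trans ?_
      rw [nsmul_eq_mul]
      exact mul_le_mul_of_nonneg_right hc hP
    calc _ ≤ 3 * (B.index.card : ℝ) * ((b : ℝ) * H * P) :=
          mul_le_mul
            (div_le_self (mul_nonneg (by norm_num) (Nat.cast_nonneg _)) (one_le_pow₀ hM1)) hs
            (sum_nonneg fun v _ => integral_nonneg fun t => sq_nonneg _)
            (mul_nonneg (by norm_num) (Nat.cast_nonneg _))
      _ ≤ 3 * ((b : ℝ) * H) * ((b : ℝ) * H * P) :=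
          mul_le_mul_of_nonneg_right (by linarith) (by positivity)
      _ = _ := by ring
  · rw [show 48000 * (X : ℝ) ^ 2 / H = 12000 * (X : ℝ) ^ 2 * (2 / H + 2 / H) by ring]
    refine mul_le_mul_of_nonneg_left (add_le_add ?_ hRle) (by positivity)
    rw [show (2 : ℝ) / H = 1 / ((H : ℝ) / 2) by field_simp]
    exact one_div_le_one_div_of_le (by positivity) hM

/-- **The mean square of `∑_{X < n ≤ 5 X} g n n ^ (-it)` on `|t| ≤ T` is `O (X ^ 2 / K)`**, given
the bound for the last step, uniformly in `g`. -/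
theorem exists_integral_twistPoly_le_of : ∃ K₁ : ℕ, ∀ K : ℕ, K₁ ≤ K → ∀ᶠ X : ℕ in atTop,
    ∀ F : Twist, LastOK F K X → ∀ T : ℝ, 0 ≤ T → T ≤ X / Real.exp (towerB K 0) →
      ∫ t in Set.Icc (-T) T, ‖twistPoly F X t‖ ^ 2 ≤ 125000 * (X : ℝ) ^ 2 / K := by
  obtain ⟨C, hC⟩ := exists_levelPieces_mass
  refine ⟨⌈6 * C⌉₊ + 2, fun K hK => ?_⟩
  have hK1 : 1 ≤ K := by omega
  have hK2 : (2 : ℝ) ≤ K := Nat.ofNat_le_cast.2 (by omega)
  have hKC : 6 * C ≤ K := (Nat.le_ceil _).trans (Nat.cast_le.2 (by omega))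
  have hHge : ∀ j, 2 ≤ towerH K j := fun j =>
    (show 2 ≤ K by omega).trans (Nat.le_mul_of_pos_right _ (Nat.two_pow_pos j))
  have hHA : ∀ j, towerH K j ≤ towerA K j := fun j => by
    have h := towerA_ge hK1 j
    have : (towerH K j : ℝ) ≤ towerA K j := by
      rw [towerH]
      push_cast
      refine le_trans ?_ h
      have h2 : (2 : ℝ) ^ j ≤ 4 ^ j := pow_le_pow_left₀ two_pos.le (by norm_num) j
      have h3 := mul_le_mul_of_nonneg_left h2 (show (0 : ℝ) ≤ K by linarith)
      linarith [show (0 : ℝ) ≤ (K : ℝ) * 4 ^ j by positivity]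
    exact_mod_cast this
  have hHB : ∀ j, towerH K j ≤ towerB K j := fun j => (hHA j).trans (towerA_le_towerB K j)
  have hmass : ∀ j, (towerH K j : ℝ) / 2 ≤
      (levelPieces (towerA K j) (towerB K j) (towerH K j)).mass := fun j => by
    refine le_trans ?_ (hC _ _ _ ((by norm_num : 1 ≤ 2).trans (one_le_towerA hK1 j))
      ((one_le_towerA hK1 j).trans (towerA_le_towerB K j)) (towerA_le_towerB K j)
      ((by norm_num : 1 ≤ 2).trans (hHge j)))
    obtain ⟨hw, -⟩ := one_le_w hK1 j
    have h2 : (K : ℝ) ≤ (K : ℝ) * 2 ^ j :=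
      le_mul_of_one_le_right (by linarith) (one_le_pow₀ one_le_two)
    have ha0 : (towerA K j : ℝ) ≠ 0 :=
      Nat.cast_ne_zero.2 (by have := one_le_towerA hK1 j; omega)
    rw [towerB, Nat.cast_mul, mul_div_cancel_left₀ _ ha0, Nat.cast_pow, Real.log_pow, towerH]
    push_cast
    nlinarith [Real.log_two_gt_d9]
  have hlog : Tendsto (fun X : ℕ => Real.log X) atTop atTop :=
    Real.tendsto_log_atTop.comp (tendsto_natCast_atTop_atTop (R := ℝ))
  filter_upwards [hlog.eventually_ge_atTop (max 100 (max ((towerB K 0 : ℝ) ^ 2) (2 * K)))]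
    with X hL F hlast T hT hTX
  obtain ⟨L, hLdef⟩ : ∃ L, L = Real.log (X : ℝ) := ⟨_, rfl⟩
  simp only [max_le_iff] at hL
  obtain ⟨hL100, hLb, hLK⟩ := hL
  have hTX' : T ≤ X := hTX.trans (div_le_self (Nat.cast_nonneg X) (Real.one_le_exp (by positivity)))
  classical
  have hex := towerB_lt_exists K hK1 √(Real.log X)
  obtain ⟨J, hJdef⟩ : ∃ J, J = Nat.find hex := ⟨_, rfl⟩
  have hJ : √(Real.log X) < (towerB K (J + 1) : ℝ) := hJdef ▸ Nat.find_spec hex
  have hbJ : ∀ j ≤ J, (towerB K j : ℝ) ≤ √(Real.log X) := fun j hj => by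
    cases j with
    | zero => exact Real.le_sqrt_of_sq_le hLb
    | succ i => exact not_lt.1 (Nat.find_min hex (show i < Nat.find hex by omega))
  obtain ⟨S, hSdef⟩ : ∃ S : ℕ → Set ℝ, S = fun j =>
      goodSet F (levelPieces (towerA K j) (towerB K j) (towerH K j)) (towerAlpha j) T := ⟨_, rfl⟩
  have hSm : ∀ j, MeasurableSet (S j) := fun j => hSdef ▸ measurableSet_goodSet F _ _ _
  have hSI : ∀ j, S j ⊆ Set.Icc (-T) T := fun j => hSdef ▸ Set.inter_subset_left
  have hF : Continuous fun t => ‖twistPoly F X t‖ ^ 2 := (continuous_twistPoly F X).norm.pow 2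
  obtain ⟨E, hE⟩ : ∃ E : ℝ, E = (X : ℝ) ^ 2 / K := ⟨_, rfl⟩
  have hE0 : 0 ≤ E := hE ▸ by positivity
  have hlev0 : ∫ t in S 0, ‖twistPoly F X t‖ ^ 2 ≤ 48001 * E := by
    refine (setIntegral_level_le F (P := 485 * (X : ℝ) ^ 2 *
      Real.exp (-(2 * towerAlpha 0 * (towerA K 0 : ℝ)))) (hHge 0) (hHB 0) (hbJ 0 (Nat.zero_le _))
      hL100 (hmass 0) hT hTX' (by positivity) (hSm 0) (hSI 0) fun v hv => ?_).trans ?_
    · have hv' := mem_Ico.1 (show v ∈ Ico (towerA K 0 * towerH K 0) (towerB K 0 * towerH K 0)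
        from hv)
      have hH0 : (0 : ℝ) < towerH K 0 := Nat.cast_pos.2 (by have := hHge 0; omega)
      have h1 : (v : ℝ) / towerH K 0 ≤ towerB K 0 := by
        rw [div_le_iff₀ hH0]
        exact_mod_cast hv'.2.le
      have h2 : (towerA K 0 : ℝ) ≤ (v : ℝ) / towerH K 0 := by
        rw [le_div_iff₀ hH0]
        exact_mod_cast hv'.1
      rw [hSdef]
      refine (first_level_le F hv hT (hTX.trans (div_le_div_of_nonneg_left (Nat.cast_nonneg X)
        (Real.exp_pos _) (Real.exp_le_exp.2 h1)))).trans ?_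
      refine mul_le_mul_of_nonneg_left (Real.exp_le_exp.2 (neg_le_neg ?_)) (by positivity)
      exact mul_le_mul_of_nonneg_left h2 (by linarith [(towerAlpha_bounds 0).1])
    · have h := mul_le_mul_of_nonneg_left (tower_first_le hK1) (sq_nonneg (X : ℝ))
      have e : (towerH K 0 : ℝ) = K := by simp [towerH]
      rw [mul_one_div, ← hE] at h
      rw [e] at h ⊢
      have e2 : 48000 * (X : ℝ) ^ 2 / K = 48000 * E := by rw [hE]; ring
      rw [e2]
      linarith
  have hlev : ∀ j < J, ∫ t in (Set.Icc (-T) T \ S j) ∩ S (j + 1), ‖twistPoly F X t‖ ^ 2 ≤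
      24001 * E * (1 / 2) ^ j := fun j hj => by
    obtain ⟨hα, hα1, hΔ⟩ := towerAlpha_bounds j
    have hUm : MeasurableSet ((Set.Icc (-T) T \ S j) ∩ S (j + 1)) :=
      (measurableSet_Icc.diff (hSm j)).inter (hSm (j + 1))
    have hUI : (Set.Icc (-T) T \ S j) ∩ S (j + 1) ⊆ Set.Icc (-T) T :=
      Set.inter_subset_right.trans (hSI (j + 1))
    refine (setIntegral_level_le F (P := (towerB K j : ℝ) * towerH K j * (525 * (X : ℝ) ^ 2 *
      Real.exp (towerB K j - (towerAlpha (j + 1) - towerAlpha j) * towerA K (j + 1))))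
      (hHge (j + 1)) (hHB (j + 1)) (hbJ (j + 1) hj) hL100 (hmass (j + 1)) hT hTX' (by positivity)
      hUm hUI fun v hv => ?_).trans ?_
    · obtain ⟨B, hBdef⟩ : ∃ B, B = levelPieces (towerA K (j + 1)) (towerB K (j + 1))
          (towerH K (j + 1)) := ⟨_, rfl⟩
      rw [← hBdef] at hv ⊢
      have hcp : Continuous fun t => ‖B.piece F v t * B.cofactor F X v t‖ ^ 2 :=
        (((continuous_piece F B hv).mul (Hoheisel.continuous_dpoly
          (fun m hm => (cofRange_bounds B hv m hm).1) F.fn)).norm).pow 2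
      refine (setIntegral_le_sum_largeSet F (levelPieces (towerA K j) (towerB K j) (towerH K j))
        (towerAlpha j) hUm hUI (Set.disjoint_left.2 fun t ht h => ht.1.2 (hSdef ▸ h)) hcp
        fun t => sq_nonneg _).trans ?_
      refine (sum_le_card_nsmul _ _ (525 * (X : ℝ) ^ 2 *
        Real.exp (towerB K j - (towerAlpha (j + 1) - towerAlpha j) * towerA K (j + 1)))
        fun u hu => ?_).trans ?_
      · refine (setIntegral_mono_set (hcp.integrableOn_Icc.mono_set
            (Set.inter_subset_left.trans (hSI (j + 1))))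
          (ae_of_all _ fun t => sq_nonneg _)
          (Set.inter_subset_inter_left _ Set.inter_subset_right).eventuallyLE).trans ?_
        rw [hBdef] at hv ⊢
        rw [hSdef]
        exact next_level_le F (κ := 1 / (64 * 2 ^ j))
          ((one_le_towerA hK1 j).trans (towerA_le_towerB K j)) (towerB_le_next hK1 j)
          ((by norm_num : 1 ≤ 2).trans (hHge j)) ((by norm_num : 1 ≤ 2).trans (hHge (j + 1)))
          ((by norm_num : 1 ≤ 2).trans (one_le_towerA hK1 j)) (by linarith) (by linarith)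
          (by positivity) (tower_log_le hK1 j)
          (le_of_eq (by rw [hΔ]; field_simp; ring)) hv hu hT hTX'
      · rw [nsmul_eq_mul]
        refine mul_le_mul_of_nonneg_right ?_ (by positivity)
        rw [show (levelPieces (towerA K j) (towerB K j) (towerH K j)).index =
          Ico (towerA K j * towerH K j) (towerB K j * towerH K j) from rfl, Nat.card_Ico]
        exact (Nat.cast_le.2 (Nat.sub_le _ _)).trans (le_of_eq (Nat.cast_mul _ _))
    · have h := mul_le_mul_of_nonneg_left (tower_step_le hK1 j) (sq_nonneg (X : ℝ))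
      have e : (X : ℝ) ^ 2 * (1 / ((K : ℝ) * 2 ^ j)) = E * (1 / 2) ^ j := by
        rw [hE, one_div_pow]; field_simp
      have e2 : 48000 * (X : ℝ) ^ 2 / (towerH K (j + 1) : ℝ) = 24000 * (E * (1 / 2) ^ j) := by
        rw [← e, towerH]; push_cast; field_simp; ring
      rw [e] at h
      rw [e2]
      linarith
  have hcover : ∀ j ≤ J, ∫ t in Set.Icc (-T) T, ‖twistPoly F X t‖ ^ 2 ≤
      48001 * E + 24001 * E * (2 - 2 * (1 / 2) ^ j) +
        ∫ t in Set.Icc (-T) T \ S j, ‖twistPoly F X t‖ ^ 2 := fun j => by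
    induction j with
    | zero =>
      intro _
      rw [← integral_inter_add_sdiff (hSm 0) hF.integrableOn_Icc, Set.inter_eq_right.2 (hSI 0)]
      norm_num
      linarith
    | succ j ih =>
      intro hj
      refine (ih (by omega)).trans ?_
      rw [← integral_inter_add_sdiff (hSm (j + 1)) (hF.integrableOn_Icc.mono_set Set.sdiff_subset)]
      have h1 := hlev j (by omega)
      have h2 : ∫ t in (Set.Icc (-T) T \ S j) \ S (j + 1), ‖twistPoly F X t‖ ^ 2 ≤
          ∫ t in Set.Icc (-T) T \ S (j + 1), ‖twistPoly F X t‖ ^ 2 :=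
        setIntegral_mono_set (hF.integrableOn_Icc.mono_set Set.sdiff_subset)
          (ae_of_all _ fun t => sq_nonneg _)
          (Set.sdiff_subset_sdiff_left Set.sdiff_subset).eventuallyLE
      have e : 24001 * E * (2 - 2 * (1 / 2) ^ (j + 1)) =
          24001 * E * (2 - 2 * (1 / 2) ^ j) + 24001 * E * (1 / 2) ^ j := by ring
      linarith
  refine (hcover J le_rfl).trans ?_
  have hE' : 125000 * (X : ℝ) ^ 2 / K = 125000 * E := by rw [hE]; ring
  rw [hE']
  have h1 := hlast (towerA K J) (towerB K J) (towerH K J) (towerAlpha J) T (Set.Icc (-T) T \ S J)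
    ((by norm_num : 1 ≤ 2).trans (hHge J)) ((by norm_num : 1 ≤ 2).trans (one_le_towerA hK1 J))
    (hHB J) (tower_last_ge hK1 (by linarith) hJ) (hbJ J le_rfl)
    (by linarith [(towerAlpha_bounds J).1]) (towerAlpha_bounds J).2.1 hT hTX'
    (measurableSet_Icc.diff (hSm J)) Set.sdiff_subset
    (Set.disjoint_left.2 fun t ht h => ht.2 (hSdef ▸ h))
  have e3 : (26000 : ℝ) * (X : ℝ) ^ 2 / K = 26000 * E := by rw [hE]; ring
  rw [e3] at h1
  have h3 : 24001 * E * (2 - 2 * (1 / 2) ^ J) ≤ 48002 * E := by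
    have : 0 ≤ E * (1 / 2) ^ J := mul_nonneg hE0 (by positivity)
    linarith
  linarith

/-- The bound for the last step from the small ordinates and the sums over primes. -/
theorem eventually_lastOK (F : Twist) (hS : F.SmallOrdinates) (hP : F.PrimesCancel) {K : ℕ}
    (hK : 2 ≤ K) : ∀ᶠ X : ℕ in atTop, LastOK F K X := by
  filter_upwards [eventually_last_step F hP hK, hS,
    (Real.tendsto_log_atTop.comp (tendsto_natCast_atTop_atTop (R := ℝ))).eventually_ge_atTop
      (2 * K)] with X hlast hsmall hL a b H α T W hH ha hHb hal hb hα hα1 hT hTX hWm hW hWg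
  simp only [Function.comp_apply] at hL
  have hK0 : (0 : ℝ) < K := Nat.cast_pos.2 (by omega)
  have hF : Continuous fun t => ‖twistPoly F X t‖ ^ 2 := (continuous_twistPoly F X).norm.pow 2
  have hm : MeasurableSet {t : ℝ | Real.log X ^ 40 ≤ |t|} :=
    measurableSet_le measurable_const continuous_abs.measurable
  rw [← integral_inter_add_sdiff hm (hF.integrableOn_Icc.mono_set hW)]
  have h1 := hlast a b H α T (W ∩ {t | Real.log X ^ 40 ≤ |t|}) hH ha hHb hal hb hα hα1 hT hTX
    (hWm.inter hm) (Set.inter_subset_left.trans hW) (Set.disjoint_of_subset_left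
      Set.inter_subset_left hWg) fun t ht => ht.2
  have h2 : ∫ t in W \ {t | Real.log X ^ 40 ≤ |t|}, ‖twistPoly F X t‖ ^ 2 ≤
      (X : ℝ) ^ 2 / K := by
    refine (setIntegral_le_Icc hF (fun t => sq_nonneg _) fun t ht => ?_).trans (hsmall.trans ?_)
    · exact abs_le.1 (le_of_lt (not_le.1 ht.2))
    · rw [div_le_div_iff₀ (pow_pos (by linarith) 20) hK0, mul_comm (2 : ℝ), mul_assoc]
      refine mul_le_mul_of_nonneg_left (hL.trans (le_self_pow₀ ?_ (by norm_num))) (sq_nonneg _)
      have : (2 : ℝ) ≤ K := Nat.ofNat_le_cast.2 hK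
      linarith
  have e : ∀ c : ℝ, c * (X : ℝ) ^ 2 / K = c * ((X : ℝ) ^ 2 / K) := fun c => by ring
  rw [e] at h1 ⊢
  linarith [show (0 : ℝ) ≤ (X : ℝ) ^ 2 / K by positivity]

/-- **The same from the small ordinates and the sums over primes.** -/
theorem exists_integral_twistPoly_le (F : Twist) (hS : F.SmallOrdinates)
    (hP : F.PrimesCancel) : ∃ K₁ : ℕ, ∀ K : ℕ, K₁ ≤ K → ∀ᶠ X : ℕ in atTop, ∀ T : ℝ,
    0 ≤ T → T ≤ X / Real.exp (towerB K 0) →
      ∫ t in Set.Icc (-T) T, ‖twistPoly F X t‖ ^ 2 ≤ 125000 * (X : ℝ) ^ 2 / K := by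
  obtain ⟨K₁, h⟩ := exists_integral_twistPoly_le_of
  refine ⟨max K₁ 2, fun K hK => ?_⟩
  filter_upwards [h K (le_of_max_le_left hK),
    eventually_lastOK F hS hP (le_of_max_le_right hK)] with X hX hlast using hX F hlast

theorem liouTwist_smallOrdinates : liouTwist.SmallOrdinates := eventually_small_ordinates_le

theorem liouTwist_primesCancel : liouTwist.PrimesCancel := fun d hd hd4 => by
  filter_upwards [exists_twisted_prime_sum_le hd hd4] with X h x t h1 h2 h3 h4
  refine le_of_eq_of_le ?_ (h x t h1 h2 h3 h4)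
  rw [← norm_neg, Hoheisel.dpoly, Hoheisel.dpoly, ← sum_neg_distrib]
  refine congrArg norm (sum_congr rfl fun p hp => ?_)
  rw [show liouTwist.fn p = liou p from rfl, liou_prime (mem_filter.1 hp).2]
  ring

/-- **The same for `λ`.** -/
theorem exists_integral_liouPoly_le : ∃ K₁ : ℕ, ∀ K : ℕ, K₁ ≤ K → ∀ᶠ X : ℕ in atTop, ∀ T : ℝ,
    0 ≤ T → T ≤ X / Real.exp (towerB K 0) →
      ∫ t in Set.Icc (-T) T, ‖liouPoly X t‖ ^ 2 ≤ 125000 * (X : ℝ) ^ 2 / K :=
  exists_integral_twistPoly_le liouTwist liouTwist_smallOrdinates liouTwist_primesCancel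

end FA.ShortLiouville

end
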