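import Fermat.Agent.ShortLiouville.Twisted
import Fermat.Agent.ShortLiouville.LargeValues
import Fermat.Agent.Korobov.Error

/-!
# Prime sums `∑ log p p ^ (-it)` in the range of Vinogradov and Korobov

For `exp ((log X) ^ (3/4)) ≤ x ≤ X` and `(log X) ^ 40 ≤ |t| ≤ X` the tent-weighted sum of
`log p p ^ (-it)` over `(x, x (1 + 2 d)]` is at most `x / (log X) ^ 20`.
-/

set_option autoImplicit false

noncomputable section

namespace FA.ShortLiouville

open Finset Filter FA.Hoheisel FA.Subconvexity FA.ZeroFree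
open scoped ArithmeticFunction.vonMangoldt Real Topology

/-- The tent on `(x, x + 2 w]`. -/
def tentWeight (x w : ℝ) (n : ℕ) : ℝ := (max (x + 2 * w - n) 0 - 2 * max (x + w - n) 0) / w

theorem tentWeight_bounds {x w : ℝ} (hw : 0 < w) {n : ℕ} (h1 : x ≤ n) (h2 : (n : ℝ) ≤ x + 2 * w) :
    0 ≤ tentWeight x w n ∧ tentWeight x w n ≤ 1 := by
  rw [tentWeight, max_eq_left (by linarith), le_div_iff₀ hw, div_le_iff₀ hw]
  rcases le_total (n : ℝ) (x + w) with h | h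
  · rw [max_eq_left (by linarith)]
    constructor <;> linarith
  · rw [max_eq_right (by linarith)]
    constructor <;> linarith

theorem tentWeight_ge_half {x w : ℝ} (hw : 0 < w) {n : ℕ} (h1 : x + w / 2 ≤ n)
    (h2 : (n : ℝ) ≤ x + 3 / 2 * w) : 1 / 2 ≤ tentWeight x w n := by
  rw [tentWeight, max_eq_left (by linarith), le_div_iff₀ hw]
  rcases le_total (n : ℝ) (x + w) with h | h
  · rw [max_eq_left (by linarith)]
    linarith
  · rw [max_eq_right (by linarith)]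
    linarith

/-- `∑_{x < n ≤ y} c n (y - n)`. -/
def rampSum (c : ℕ → ℂ) (x y : ℝ) : ℂ :=
  ∑ n ∈ Ioc ⌊x⌋₊ ⌊y⌋₊, ((max (y - n) 0 : ℝ) : ℂ) * c n

theorem rampSum_extend (c : ℕ → ℂ) {x y z : ℝ} (hy : 0 ≤ y) (hyz : y ≤ z) :
    rampSum c x y = ∑ n ∈ Ioc ⌊x⌋₊ ⌊z⌋₊, ((max (y - n) 0 : ℝ) : ℂ) * c n := by
  refine sum_subset (Ioc_subset_Ioc_right (Nat.floor_le_floor hyz)) fun n hn hn' => ?_
  simp only [mem_Ioc] at hn hn'
  have : y < n := (Nat.floor_lt hy).1 (by omega)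
  rw [max_eq_right (by linarith), Complex.ofReal_zero, zero_mul]

theorem sum_tentWeight_eq (c : ℕ → ℂ) {x w : ℝ} (hx : 0 ≤ x) (hw : 0 < w) :
    (w : ℂ) * ∑ n ∈ Ioc ⌊x⌋₊ ⌊x + 2 * w⌋₊, (tentWeight x w n : ℂ) * c n =
      rampSum c x (x + 2 * w) - 2 * rampSum c x (x + w) := by
  rw [rampSum_extend c (z := x + 2 * w) (y := x + w) (by linarith) (by linarith), rampSum, mul_sum,
    mul_sum, ← sum_sub_distrib]
  refine sum_congr rfl fun n _ => ?_
  rw [tentWeight]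
  have : (w : ℂ) ≠ 0 := Complex.ofReal_ne_zero.2 hw.ne'
  push_cast
  field_simp

theorem rampSum_eq_smooth (c : ℕ → ℂ) {x y : ℝ} (hx : 0 < x) (hxy : x ≤ y) :
    rampSum c x y = (y : ℂ) * SiegelWalfisz.smoothSum c y -
      (x : ℂ) * SiegelWalfisz.smoothSum c x -
      ((y - x : ℝ) : ℂ) * ∑ n ∈ Icc 1 ⌊x⌋₊, c n := by
  have hy : 0 < y := hx.trans_le hxy
  have e : ∀ z : ℝ, 0 < z → (z : ℂ) * SiegelWalfisz.smoothSum c z =
      ∑ n ∈ Ioc 0 ⌊z⌋₊, ((z - n : ℝ) : ℂ) * c n := fun z hz => by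
    rw [SiegelWalfisz.smoothSum, mul_sum]
    refine sum_congr rfl fun n _ => ?_
    have : (z : ℂ) ≠ 0 := Complex.ofReal_ne_zero.2 hz.ne'
    push_cast
    field_simp
  rw [e y hy, e x hx, ← sum_Ioc_consecutive _ (Nat.zero_le _) (Nat.floor_le_floor hxy),
    show Icc 1 ⌊x⌋₊ = Ioc 0 ⌊x⌋₊ from rfl, mul_sum, rampSum]
  have h0 : ∑ n ∈ Ioc 0 ⌊x⌋₊, ((y - n : ℝ) : ℂ) * c n -
      ∑ n ∈ Ioc 0 ⌊x⌋₊, ((x - n : ℝ) : ℂ) * c n -
      ∑ n ∈ Ioc 0 ⌊x⌋₊, ((y - x : ℝ) : ℂ) * c n = 0 := by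
    rw [← sum_sub_distrib, ← sum_sub_distrib]
    exact sum_eq_zero fun n _ => by push_cast; ring
  have h1 : ∑ n ∈ Ioc ⌊x⌋₊ ⌊y⌋₊, ((max (y - n) 0 : ℝ) : ℂ) * c n =
      ∑ n ∈ Ioc ⌊x⌋₊ ⌊y⌋₊, ((y - n : ℝ) : ℂ) * c n := sum_congr rfl fun n hn => by
    rw [max_eq_left (sub_nonneg.2 ((Nat.cast_le.2 (mem_Ioc.1 hn).2).trans (Nat.floor_le hy.le)))]
  linear_combination h1 - h0

theorem norm_rampSum_le {c : ℕ → ℂ} {x y B : ℝ} (hxy : x ≤ y) (hB0 : 0 ≤ B)
    (hB : ∀ m, ⌊x⌋₊ + 1 ≤ m → m ≤ ⌊y⌋₊ + 1 → ‖∑ n ∈ Ico (⌊x⌋₊ + 1) m, c n‖ ≤ B) :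
    ‖rampSum c x y‖ ≤ (y - x) * B := by
  rw [rampSum, show Ioc ⌊x⌋₊ ⌊y⌋₊ = Ico (⌊x⌋₊ + 1) (⌊y⌋₊ + 1) by
    ext n; simp only [mem_Ioc, mem_Ico]; omega]
  refine (norm_sum_weight_le (w := fun n : ℕ => max (y - n) 0)
    (Nat.succ_le_succ (Nat.floor_le_floor hxy)) (fun m _ _ => le_max_right _ _)
    (fun m _ _ => max_le_max (by push_cast; linarith) le_rfl) hB).trans
    (mul_le_mul_of_nonneg_right ?_ hB0)
  refine max_le ?_ (by linarith)
  push_cast
  linarith [Nat.lt_floor_add_one x]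

/-- A short sum of `n ^ (-it)`, `|t|` between the powers of the logarithm and `X`. -/
theorem exists_shortBlock_le : ∃ C c : ℝ, 0 ≤ C ∧ 0 < c ∧ ∀ (X x t : ℝ), 3 ≤ X →
    Real.exp (Real.log X ^ (3 / 4 : ℝ)) ≤ x → Real.log X ^ 40 ≤ |t| → |t| ≤ X →
      ∀ m, ⌊x⌋₊ + 1 ≤ m → m ≤ 2 * (⌊x⌋₊ + 1) →
        ‖∑ n ∈ Ico (⌊x⌋₊ + 1) m, (n : ℂ) ^ (-(Complex.I * (t : ℂ)))‖ ≤
          50 * x / Real.log X ^ 40 + 1 +
            C * Real.log X ^ 40 * (x * Real.exp (-(c * Real.log X ^ (1 / 4 : ℝ)))) := by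
  refine ⟨2 * 640 ^ 40, 1 / 3600000, by positivity, by norm_num,
    fun X x t hX hx hlo hhi m hm hm' => ?_⟩
  obtain ⟨N, hN⟩ : ∃ N, N = ⌊x⌋₊ + 1 := ⟨_, rfl⟩
  rw [← hN] at hm hm' ⊢
  obtain ⟨L, hL⟩ : ∃ L, L = Real.log X := ⟨_, rfl⟩
  rw [← hL] at hlo hx ⊢
  have hL1 : 1 ≤ L := by
    rw [hL, Real.le_log_iff_exp_le (by linarith)]
    linarith [Real.exp_one_lt_three]
  have hx2 : 2 ≤ x := by
    have h1 : (1 : ℝ) ≤ L ^ (3 / 4 : ℝ) := Real.one_le_rpow hL1 (by norm_num)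
    linarith [Real.exp_le_exp.2 h1, Real.exp_one_gt_d9]
  have hNx : x < N := by rw [hN]; push_cast; exact Nat.lt_floor_add_one x
  have hN1 : 1 ≤ N := by omega
  have hN2 : 2 ≤ N := by
    have : (2 : ℝ) ≤ N := by linarith
    exact_mod_cast this
  have hNx2 : (N : ℝ) ≤ 2 * x := by
    rw [hN]; push_cast; linarith [Nat.floor_le (show 0 ≤ x by linarith)]
  have habs : ‖∑ n ∈ Ico N m, (n : ℂ) ^ (-(Complex.I * (t : ℂ)))‖ =
      ‖∑ n ∈ Ico N m, expI (phase |t| n)‖ := by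
    rw [sum_congr rfl fun n hn => natCast_cpow_imag_eq
      (show 1 ≤ n by have := (mem_Ico.1 hn).1; omega) t]
    rcases le_total 0 t with h | h
    · rw [abs_of_nonneg h]
    · rw [abs_of_nonpos h, ← norm_sum_expI_neg _ fun n => phase (-t) n]
      congr 1
      refine sum_congr rfl fun n _ => ?_
      rw [phase, phase]
      ring_nf
  rw [habs]
  have hL40 : (1 : ℝ) ≤ L ^ 40 := one_le_pow₀ hL1
  have hxe : 0 ≤ x * Real.exp (-(1 / 3600000 * L ^ (1 / 4 : ℝ))) := by positivity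
  rcases lt_or_ge |t| (N : ℝ) with hhigh | hlow
  · rcases lt_or_ge |t| 2 with h2 | h2
    · refine (norm_sum_expI_le N m _).trans ?_
      have h3 : ((m - N : ℕ) : ℝ) ≤ N := Nat.cast_le.2 (by omega)
      have h4 : (L : ℝ) ^ 40 ≤ 2 := by linarith
      have h5 : 25 * x ≤ 50 * x / L ^ 40 := by
        rw [le_div_iff₀ (by linarith)]
        nlinarith
      have : 0 ≤ 2 * 640 ^ 40 * L ^ 40 * (x * Real.exp (-(1 / 3600000 * L ^ (1 / 4 : ℝ)))) :=
        mul_nonneg (by positivity) hxe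
      linarith
    · refine (Korobov.norm_block_high_le h2 hhigh le_rfl hm').trans ?_
      have h5 : 25 * (N : ℝ) / |t| ≤ 50 * x / L ^ 40 :=
        (div_le_div_of_nonneg_left (by positivity) (by linarith) hlo).trans
          (div_le_div_of_nonneg_right (by linarith) (by linarith))
      have : 0 ≤ 2 * 640 ^ 40 * L ^ 40 * (x * Real.exp (-(1 / 3600000 * L ^ (1 / 4 : ℝ)))) :=
        mul_nonneg (by positivity) hxe
      linarith
  · obtain ⟨K, hK⟩ : ∃ K, K = Nat.log N ⌊|t|⌋₊ := ⟨_, rfl⟩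
    have hK1 : 1 ≤ K :=
      hK ▸ Nat.le_log_of_pow_le hN2 (by simpa using Nat.le_floor hlow)
    have ht0 : 0 ≤ |t| := abs_nonneg t
    have h1 : (N : ℝ) ^ K ≤ |t| := by
      refine le_trans ?_ (Nat.floor_le ht0)
      have hfl : ⌊|t|⌋₊ ≠ 0 := by
        have := Nat.le_floor hlow
        omega
      exact_mod_cast hK ▸ Nat.pow_log_le_self N hfl
    have h2 : |t| ≤ (N : ℝ) ^ (K + 1) := by
      refine (Nat.lt_floor_add_one |t|).le.trans ?_
      exact_mod_cast hK ▸ Nat.lt_pow_succ_log_self hN2 ⌊|t|⌋₊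
    refine le_trans ((Korobov.norm_zetaSum_le (N := N) (K := m) hK1 hN1 hm hm' h1 h2)) ?_
    have hlogN : L ^ (3 / 4 : ℝ) ≤ Real.log N := by
      rw [Real.le_log_iff_exp_le (by linarith)]
      linarith
    have hKL : (K : ℝ) * Real.log N ≤ L := by
      have := Real.log_le_log (by positivity) (h1.trans hhi)
      rwa [Real.log_pow, ← hL] at this
    have hq : 0 < L ^ (3 / 4 : ℝ) := Real.rpow_pos_of_pos (by linarith) _
    have hsplit : L = L ^ (1 / 4 : ℝ) * L ^ (3 / 4 : ℝ) := by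
      rw [← Real.rpow_add (by linarith)]; norm_num
    have hK4 : (K : ℝ) ≤ L ^ (1 / 4 : ℝ) := by
      have h5 : (K : ℝ) * L ^ (3 / 4 : ℝ) ≤ L :=
        (mul_le_mul_of_nonneg_left hlogN (Nat.cast_nonneg K)).trans hKL
      exact le_of_mul_le_mul_right (h5.trans hsplit.le) hq
    have hKL' : (K : ℝ) ≤ L := hK4.trans (Real.rpow_le_self_of_one_le hL1 (by norm_num))
    have hexp : (N : ℝ) ^ (1 - Korobov.korobovDelta K) ≤
        2 * x * Real.exp (-(1 / 3600000 * L ^ (1 / 4 : ℝ))) := by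
      have hN0 : (0 : ℝ) < N := by linarith
      rw [sub_eq_add_neg, Real.rpow_add hN0, Real.rpow_one]
      refine mul_le_mul hNx2 ?_ (Real.rpow_nonneg hN0.le _) (by linarith)
      rw [Real.rpow_def_of_pos hN0, Real.exp_le_exp, mul_neg, neg_le_neg_iff,
        Korobov.korobovDelta]
      have hK0 : (0 : ℝ) < K := Nat.cast_pos.2 hK1
      rw [mul_one_div, le_div_iff₀ (by positivity)]
      have hq4 : 0 ≤ L ^ (1 / 4 : ℝ) := Real.rpow_nonneg (by linarith) _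
      calc 1 / 3600000 * L ^ (1 / 4 : ℝ) * (3600000 * (K : ℝ) ^ 2)
          = L ^ (1 / 4 : ℝ) * (K : ℝ) ^ 2 := by ring
        _ ≤ L ^ (1 / 4 : ℝ) * (L ^ (1 / 4 : ℝ)) ^ 2 :=
            mul_le_mul_of_nonneg_left (pow_le_pow_left₀ hK0.le hK4 2) hq4
        _ = L ^ (3 / 4 : ℝ) := by
            rw [← Real.rpow_natCast (L ^ (1 / 4 : ℝ)) 2, ← Real.rpow_mul (by linarith),
              ← Real.rpow_add (by linarith)]
            norm_num
        _ ≤ _ := hlogN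
    calc (640 * (K : ℝ)) ^ 40 * (N : ℝ) ^ (1 - Korobov.korobovDelta K)
        ≤ (640 * L) ^ 40 * (2 * x * Real.exp (-(1 / 3600000 * L ^ (1 / 4 : ℝ)))) := by
          refine mul_le_mul (pow_le_pow_left₀ (by positivity) (by linarith) 40) hexp
            (Real.rpow_nonneg (Nat.cast_nonneg N) _) (by positivity)
      _ = 2 * 640 ^ 40 * L ^ 40 * (x * Real.exp (-(1 / 3600000 * L ^ (1 / 4 : ℝ)))) := by ring
      _ ≤ _ := by
          have : 0 ≤ 50 * x / L ^ 40 := by positivity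
          linarith

/-- Powers of `log X` lose against `exp ((log X) ^ e)`. -/
theorem eventually_absorb (C : ℝ) (m : ℕ) {c e : ℝ} (hc : 0 < c) (he : 0 < e) :
    ∀ᶠ X : ℕ in atTop, C * Real.log X ^ m * Real.exp (-(c * Real.log X ^ e)) ≤ 1 := by
  have h := ((tendsto_rpow_mul_exp_neg_mul_atTop_nhds_zero ((m : ℝ) / e) c hc).comp
    ((tendsto_rpow_atTop he).comp (Real.tendsto_log_atTop.comp
      (tendsto_natCast_atTop_atTop (R := ℝ))))).const_mul C
  rw [mul_zero] at h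
  filter_upwards [h.eventually (ge_mem_nhds zero_lt_one),
    (Real.tendsto_log_atTop.comp (tendsto_natCast_atTop_atTop (R := ℝ))).eventually_ge_atTop 0]
    with X hX hL
  simp only [Function.comp_apply] at hX hL
  rwa [← Real.rpow_mul hL, mul_div_cancel₀ _ he.ne', Real.rpow_natCast, neg_mul, ← mul_assoc]
    at hX

/-- The primes of `(x, x + 2 w]`. -/
def piecePrimes (x w : ℝ) : Finset ℕ := (Ioc ⌊x⌋₊ ⌊x + 2 * w⌋₊).filter Nat.Prime

theorem mem_piecePrimes {x w : ℝ} (hx : 0 ≤ x) (hw : 0 ≤ w) {p : ℕ} :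
    p ∈ piecePrimes x w ↔ p.Prime ∧ x < p ∧ (p : ℝ) ≤ x + 2 * w := by
  simp only [piecePrimes, mem_filter, mem_Ioc, Nat.floor_lt hx,
    Nat.le_floor_iff (show 0 ≤ x + 2 * w by linarith)]
  tauto

/-- The prime powers do not matter. -/
theorem norm_nonprime_mul_le {x w : ℝ} (hx : 1 ≤ x) (hw : 0 < w) (t : ℝ) {g : ℕ → ℂ}
    (hg : ∀ n, ‖g n‖ ≤ 1) :
    ‖(∑ n ∈ Ioc ⌊x⌋₊ ⌊x + 2 * w⌋₊,
          (tentWeight x w n : ℂ) * (g n * (Λ n : ℂ) * (n : ℂ) ^ (-(Complex.I * (t : ℂ))))) -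
        dpoly (piecePrimes x w) (fun p => g p * ((Real.log p * tentWeight x w p : ℝ) : ℂ)) t‖ ≤
      2 * √(x + 2 * w) * Real.log (x + 2 * w) := by
  obtain ⟨y, hy⟩ : ∃ y, y = x + 2 * w := ⟨_, rfl⟩
  have hy1 : 1 ≤ y := by linarith
  rw [← hy]
  have e : dpoly (piecePrimes x w) (fun p => g p * ((Real.log p * tentWeight x w p : ℝ) : ℂ)) t =
      ∑ n ∈ Ioc ⌊x⌋₊ ⌊y⌋₊, if n.Prime then
        (tentWeight x w n : ℂ) * (g n * (Λ n : ℂ) * (n : ℂ) ^ (-(Complex.I * (t : ℂ)))) else 0 := by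
    rw [dpoly, piecePrimes, ← hy, sum_filter]
    refine sum_congr rfl fun n _ => ?_
    split_ifs with hp
    · rw [ArithmeticFunction.vonMangoldt_apply_prime hp]
      push_cast
      ring
    · rfl
  rw [e, ← sum_sub_distrib]
  refine (norm_sum_le _ _).trans ?_
  refine (sum_le_sum (g := fun n => if n.Prime then 0 else (Λ n : ℝ)) fun n hn => ?_).trans ?_
  · split_ifs with hp
    · simp
    · rw [sub_zero, norm_mul, norm_mul, norm_mul, Complex.norm_real, Complex.norm_real,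
        norm_natCast_cpow_imag (by have := (mem_Ioc.1 hn).1; omega), mul_one]
      obtain ⟨h0, h1⟩ := tentWeight_bounds (x := x) hw (n := n)
        ((Nat.lt_floor_add_one x).le.trans (by
          exact_mod_cast (Nat.cast_le (α := ℝ)).2 (show ⌊x⌋₊ + 1 ≤ n from (mem_Ioc.1 hn).1)))
        ((Nat.cast_le.2 (mem_Ioc.1 hn).2).trans (le_of_le_of_eq (Nat.floor_le (by linarith)) hy))
      rw [Real.norm_of_nonneg h0, Real.norm_of_nonneg ArithmeticFunction.vonMangoldt_nonneg]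
      exact (mul_le_of_le_one_left (mul_nonneg (norm_nonneg _)
        ArithmeticFunction.vonMangoldt_nonneg) h1).trans
          (mul_le_of_le_one_left ArithmeticFunction.vonMangoldt_nonneg (hg n))
  · refine le_trans ?_ ((le_abs_self _).trans (Chebyshev.abs_psi_sub_theta_le_sqrt_mul_log hy1))
    rw [Chebyshev.psi, Chebyshev.theta, sum_filter, ← sum_sub_distrib]
    refine (sum_le_sum_of_subset_of_nonneg (Ioc_subset_Ioc_left (Nat.zero_le ⌊x⌋₊))
      fun n _ _ => ?_).trans (sum_le_sum fun n _ => ?_)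
    · split_ifs
      · exact le_rfl
      · exact ArithmeticFunction.vonMangoldt_nonneg
    · split_ifs with hp
      · rw [ArithmeticFunction.vonMangoldt_apply_prime hp, sub_self]
      · rw [sub_zero]

theorem ell_le_two_log {X L u : ℝ} (hX : 0 < X) (hL : 10 ≤ L) (hLdef : L = Real.log X)
    (hu : |u| ≤ 2 * X) : ell u ≤ 2 * L := by
  have hXexp : X = Real.exp L := by rw [hLdef, Real.exp_log hX]
  rw [hLdef, ell, show 2 * Real.log (X : ℝ) = Real.log ((X : ℝ) ^ 2) by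
    rw [Real.log_pow]; norm_num]
  refine Real.log_le_log (by positivity) ?_
  have h5 : Real.exp 10 ≤ X := by rw [hXexp]; exact Real.exp_le_exp.2 hL
  have h6 : (1000 : ℝ) ≤ Real.exp 10 :=
    calc (1000 : ℝ) ≤ 2.7 ^ 10 := by norm_num
      _ ≤ Real.exp 1 ^ 10 :=
        pow_le_pow_left₀ (by norm_num) (by linarith [Real.exp_one_gt_d9]) 10
      _ = Real.exp 10 := by rw [← Real.exp_nat_mul]; norm_num
  nlinarith

/-- The prime powers do not matter, without a multiplier. -/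
theorem norm_nonprime_le {x w : ℝ} (hx : 1 ≤ x) (hw : 0 < w) (t : ℝ) :
    ‖(∑ n ∈ Ioc ⌊x⌋₊ ⌊x + 2 * w⌋₊,
          (tentWeight x w n : ℂ) * ((Λ n : ℂ) * (n : ℂ) ^ (-(Complex.I * (t : ℂ))))) -
        dpoly (piecePrimes x w) (fun p => ((Real.log p * tentWeight x w p : ℝ) : ℂ)) t‖ ≤
      2 * √(x + 2 * w) * Real.log (x + 2 * w) := by
  simpa using norm_nonprime_mul_le hx hw t (g := fun _ => 1) fun _ => norm_one.le

/-- The factor from the shifted line. -/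
theorem rpow_neg_gauge_le {a X L y u : ℝ} (ha : 0 < a) (hX : 0 < X) (hL : 10 ≤ L)
    (hLdef : L = Real.log X) (hy : Real.exp (L ^ (3 / 4 : ℝ)) ≤ y) (hu : |u| ≤ 2 * X) :
    y ^ (-(a / Korobov.gauge u)) ≤ Real.exp (-(a / 20 * L ^ (1 / 20 : ℝ))) := by
  have hy0 : 0 < y := (Real.exp_pos _).trans_le hy
  rw [Real.rpow_def_of_pos (by linarith), Real.exp_le_exp, mul_neg, neg_le_neg_iff]
  have hg := Korobov.gauge_pos u
  have hgb : Korobov.gauge u ≤ 20 * L ^ (7 / 10 : ℝ) := by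
    have hl : ell u ≤ 2 * L := ell_le_two_log hX hL hLdef hu
    have h4l := four_le_ell u
    rw [Korobov.gauge]
    have h5 : Real.log (ell u) ≤ ell u ^ (1 / 10 : ℝ) * 10 := by
      refine (Real.log_le_rpow_div (ell_pos _).le (show (0 : ℝ) < 1 / 10 by norm_num)).trans
        (le_of_eq ?_)
      field_simp
    refine (mul_le_mul_of_nonneg_left (Real.rpow_le_rpow
      (Real.log_nonneg (by linarith)) h5 (by norm_num))
      (Real.rpow_nonneg (ell_pos _).le _)).trans ?_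
    rw [Real.mul_rpow (Real.rpow_nonneg (ell_pos _).le _) (by norm_num),
      ← Real.rpow_mul (ell_pos _).le, ← mul_assoc, ← Real.rpow_add (ell_pos _)]
    have h6 : ell u ^ (2 / 3 + 1 / 10 * (1 / 3) : ℝ) ≤ 2 * L ^ (7 / 10 : ℝ) := by
      rw [show (2 / 3 + 1 / 10 * (1 / 3) : ℝ) = 7 / 10 by norm_num]
      refine (Real.rpow_le_rpow (ell_pos _).le hl (by norm_num)).trans ?_
      rw [Real.mul_rpow (by norm_num) (by linarith)]
      exact mul_le_mul_of_nonneg_right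
        (Real.rpow_le_self_of_one_le (by norm_num) (by norm_num))
        (Real.rpow_nonneg (by linarith) _)
    refine (mul_le_mul h6 (Real.rpow_le_self_of_one_le (by norm_num) (by norm_num))
      (by positivity) (by positivity)).trans (le_of_eq (by ring))
  have hly : L ^ (3 / 4 : ℝ) ≤ Real.log y := by
    rw [Real.le_log_iff_exp_le (by linarith)]
    linarith
  calc a / 20 * L ^ (1 / 20 : ℝ) = L ^ (3 / 4 : ℝ) * (a / (20 * L ^ (7 / 10 : ℝ))) := by
        have h7 : L ^ (3 / 4 : ℝ) = L ^ (1 / 20 : ℝ) * L ^ (7 / 10 : ℝ) := by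
          rw [← Real.rpow_add (by linarith)]; norm_num
        have h8 : L ^ (7 / 10 : ℝ) ≠ 0 := (Real.rpow_pos_of_pos (by linarith) _).ne'
        rw [h7]
        field_simp
    _ ≤ Real.log y * (a / Korobov.gauge u) :=
        mul_le_mul hly (div_le_div_of_nonneg_left ha.le hg hgb) (by positivity)
          ((Real.rpow_nonneg (by linarith) _).trans hly)

/-- Two ramps from the smoothed sums; the partial sum drops out. -/
theorem norm_rampPair_le {c : ℕ → ℂ} {x w B : ℝ} (hx0 : 0 < x) (hw0 : 0 < w) (hwx : w ≤ x)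
    (hsmooth : ∀ y : ℝ, x ≤ y → y ≤ 3 * x → ‖(y : ℂ) * SiegelWalfisz.smoothSum c y‖ ≤ B) :
    ‖rampSum c x (x + 2 * w) - 2 * rampSum c x (x + w)‖ ≤ B + 2 * B + B := by
  rw [rampSum_eq_smooth _ hx0 (by linarith), rampSum_eq_smooth _ hx0 (by linarith)]
  push_cast
  have h5 : ∀ A B C P : ℂ, A - C - ((x : ℂ) + 2 * w - x) * P -
      2 * (B - C - ((x : ℂ) + w - x) * P) = A - 2 * B + C := fun A B C P => by ring
  rw [h5]
  refine (norm_add_le _ _).trans ((add_le_add (norm_sub_le _ _) le_rfl).trans ?_)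
  rw [norm_mul (2 : ℂ), Complex.norm_two]
  have a1 := hsmooth (x + 2 * w) (by linarith) (by linarith)
  have a2 := hsmooth (x + w) (by linarith) (by linarith)
  have a3 := hsmooth x le_rfl (by linarith)
  push_cast at a1 a2 a3
  exact add_le_add (add_le_add a1 (mul_le_mul_of_nonneg_left a2 two_pos.le)) a3

/-- The twisted prime sums differ little from the smooth sum of `n ^ (-it)`. -/
theorem exists_prime_sum_sub_main_le {d : ℝ} (hd : 0 < d) (hd4 : d ≤ 1 / 4) :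
    ∀ᶠ X : ℕ in atTop, ∀ x t : ℝ, Real.exp (Real.log X ^ (3 / 4 : ℝ)) ≤ x → x ≤ X → |t| ≤ X →
      ‖dpoly (piecePrimes x (d * x))
          (fun p => ((Real.log p * tentWeight x (d * x) p : ℝ) : ℂ)) t -
        ∑ n ∈ Ioc ⌊x⌋₊ ⌊x + 2 * (d * x)⌋₊,
          (tentWeight x (d * x) n : ℂ) * (n : ℂ) ^ (-(Complex.I * (t : ℂ)))‖ ≤
        x / (2 * Real.log X ^ 20) := by
  obtain ⟨a, K, ha, hK, hsm⟩ := exists_smooth_twist_le
  filter_upwards [eventually_ge_atTop 3,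
    (Real.tendsto_log_atTop.comp (tendsto_natCast_atTop_atTop (R := ℝ))).eventually_ge_atTop 10,
    eventually_absorb (5 * (36 * K * 2 ^ 41 / d)) 61 (show 0 < a / 20 by positivity)
      (show (0 : ℝ) < 1 / 20 by norm_num),
    eventually_absorb (5 * (36 * K * 2 ^ 41 / d)) 61 (show (0 : ℝ) < 1 / 2 by norm_num) zero_lt_one,
    eventually_absorb (50 * 12) 21 (show (0 : ℝ) < 1 / 2 by norm_num)
      (show (0 : ℝ) < 3 / 4 by norm_num)]
    with X hX3 hL h1 h2 h4 x t hx hxX hhi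
  simp only [Function.comp_apply] at hL
  obtain ⟨L, hLdef⟩ : ∃ L, L = Real.log (X : ℝ) := ⟨_, rfl⟩
  rw [← hLdef] at hL h1 h2 h4 hx ⊢
  have hX3' : (3 : ℝ) ≤ X := Nat.ofNat_le_cast.2 hX3
  have hXexp : (X : ℝ) = Real.exp L := by rw [hLdef, Real.exp_log (by linarith)]
  have h34 : (1 : ℝ) ≤ L ^ (3 / 4 : ℝ) := Real.one_le_rpow (by linarith) (by norm_num)
  have hx3 : 3 ≤ x := by
    have h5 : 2 ≤ L ^ (3 / 4 : ℝ) :=
      calc (2 : ℝ) ≤ Real.sqrt L := Real.le_sqrt_of_sq_le (by linarith)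
        _ = L ^ (1 / 2 : ℝ) := Real.sqrt_eq_rpow L
        _ ≤ _ := Real.rpow_le_rpow_of_exponent_le (by linarith) (by norm_num)
    linarith [Real.add_one_le_exp (L ^ (3 / 4 : ℝ))]
  have hx0 : 0 < x := by linarith
  obtain ⟨w, hw⟩ : ∃ w, w = d * x := ⟨_, rfl⟩
  rw [← hw]
  have hw0 : 0 < w := hw ▸ mul_pos hd hx0
  have hwx : 2 * w ≤ x / 2 := by rw [hw]; nlinarith
  obtain ⟨E, hE⟩ : ∃ E : ℕ → ℂ, E = fun n : ℕ => (n : ℂ) ^ (-(Complex.I * (t : ℂ))) := ⟨_, rfl⟩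
  obtain ⟨ε, hε⟩ : ∃ ε, ε = Real.exp (-(a / 20 * L ^ (1 / 20 : ℝ))) +
      Real.exp (-(1 / 2 * L ^ (1 : ℝ))) := ⟨_, rfl⟩
  -- the part from `ζ'/ζ + ζ`
  have hsmooth : ∀ y : ℝ, x ≤ y → y ≤ 3 * x →
      ‖(y : ℂ) * SiegelWalfisz.smoothSum (twistErr t) y‖ ≤
        (3 * x) * (K * (2 * L) ^ 41 * (3 * x) * ε) := by
    intro y hy hy'
    rw [norm_mul, Complex.norm_real, Real.norm_of_nonneg (by linarith)]
    refine mul_le_mul hy' ((hsm y X t (by linarith) (by linarith)).trans ?_) (norm_nonneg _)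
      (by linarith)
    have hell : ∀ u : ℝ, |u| ≤ 2 * X → ell u ≤ 2 * L := fun u hu =>
      ell_le_two_log (by linarith) hL hLdef hu
    have hεb : y ^ (-(a / Korobov.gauge (|t| + X))) + (X : ℝ) ^ (-(1 / 2) : ℝ) ≤ ε := by
      rw [hε]
      refine add_le_add (rpow_neg_gauge_le ha (by linarith) hL hLdef (by linarith) (by
        rw [abs_of_nonneg (by positivity)]; linarith)) (le_of_eq ?_)
      · rw [hXexp, ← Real.exp_mul, Real.rpow_one]
        ring_nf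
    refine mul_le_mul (mul_le_mul (mul_le_mul_of_nonneg_left (pow_le_pow_left₀ (ell_pos _).le
      (hell t (by linarith)) 41) hK) hy' (by linarith) (by positivity)) hεb
      (add_nonneg (Real.rpow_nonneg (by linarith) _) (Real.rpow_nonneg (by linarith) _))
      (by positivity)
  have hA : ‖rampSum (twistErr t) x (x + 2 * w) - 2 * rampSum (twistErr t) x (x + w)‖ ≤
      w * (36 * K * 2 ^ 41 / d * L ^ 41 * ε * x) := by
    refine (norm_rampPair_le hx0 hw0 (by linarith) hsmooth).trans (le_of_eq ?_)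
    rw [hw]
    field_simp
    ring
  -- together
  obtain ⟨I₀, hI₀⟩ : ∃ I₀, I₀ = Ioc ⌊x⌋₊ ⌊x + 2 * w⌋₊ := ⟨_, rfl⟩
  have hsplit : ∑ n ∈ I₀, (tentWeight x w n : ℂ) * ((Λ n : ℂ) * E n) =
      ∑ n ∈ I₀, (tentWeight x w n : ℂ) * twistErr t n +
        ∑ n ∈ I₀, (tentWeight x w n : ℂ) * E n := by
    rw [← sum_add_distrib]
    refine sum_congr rfl fun n _ => ?_
    rw [twistErr, errCoeff, hE]
    ring
  have hcancel : ∀ (Φ : ℕ → ℂ) (b : ℝ),
      ‖rampSum Φ x (x + 2 * w) - 2 * rampSum Φ x (x + w)‖ ≤ w * b →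
        ‖∑ n ∈ I₀, (tentWeight x w n : ℂ) * Φ n‖ ≤ b := fun Φ b h => by
    rw [← sum_tentWeight_eq Φ hx0.le hw0, norm_mul, Complex.norm_real,
      Real.norm_of_nonneg hw0.le] at h
    rw [hI₀]
    exact le_of_mul_le_mul_left h hw0
  have hP := norm_nonprime_le (x := x) (by linarith) hw0 t
  have hpp : 2 * √(x + 2 * w) * Real.log (x + 2 * w) ≤ 12 * L * √x := by
    have h5 : √(x + 2 * w) ≤ 2 * √x := by
      rw [Real.sqrt_le_iff]
      exact ⟨by positivity, by rw [mul_pow, Real.sq_sqrt hx0.le]; linarith⟩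
    have h6 : Real.log (x + 2 * w) ≤ 2 * L := by
      rw [hLdef, show 2 * Real.log (X : ℝ) = Real.log ((X : ℝ) ^ 2) by
        rw [Real.log_pow]; norm_num]
      exact Real.log_le_log (by linarith) (by nlinarith)
    calc 2 * √(x + 2 * w) * Real.log (x + 2 * w) ≤ 2 * (2 * √x) * (2 * L) :=
          mul_le_mul (by linarith) h6 (Real.log_nonneg (by linarith)) (by positivity)
      _ ≤ _ := by nlinarith [Real.sqrt_nonneg x]
  rw [← hI₀]
  have hkey : ‖dpoly (piecePrimes x w) (fun p => ((Real.log p * tentWeight x w p : ℝ) : ℂ)) t -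
      ∑ n ∈ I₀, (tentWeight x w n : ℂ) * E n‖ ≤
      36 * K * 2 ^ 41 / d * L ^ 41 * ε * x + 12 * L * √x := by
    refine (norm_sub_le_norm_sub_add_norm_sub _
      (∑ n ∈ I₀, (tentWeight x w n : ℂ) * ((Λ n : ℂ) * E n)) _).trans ?_
    rw [add_comm (36 * K * 2 ^ 41 / d * L ^ 41 * ε * x)]
    refine add_le_add (le_trans (le_of_eq (norm_sub_rev _ _)) (le_trans ?_ hpp)) ?_
    · rw [hI₀, hE]
      exact hP
    · rw [hsplit, add_sub_cancel_right]
      exact hcancel _ _ hA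
  rw [hE] at hkey
  refine hkey.trans ?_
  have hL20 : (0 : ℝ) < L ^ 20 := by positivity
  rw [le_div_iff₀ (by positivity)]
  have g1 : 36 * K * 2 ^ 41 / d * L ^ 41 * ε * x * L ^ 20 ≤ 2 / 5 * x := by
    have h5 : 5 * (36 * K * 2 ^ 41 / d) * L ^ 61 * ε ≤ 2 := by
      rw [hε, mul_add]
      linarith
    have h6 := mul_le_mul_of_nonneg_right h5 (show 0 ≤ x / 5 by linarith)
    linear_combination h6
  have g3 : 12 * L * √x * L ^ 20 ≤ x / 50 := by
    have hsq : √x * √x = x := Real.mul_self_sqrt hx0.le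
    have h5 : Real.exp (L ^ (3 / 4 : ℝ) / 2) ≤ √x := by
      refine Real.le_sqrt_of_sq_le ?_
      rw [← Real.exp_nat_mul]
      push_cast
      rw [show 2 * (L ^ (3 / 4 : ℝ) / 2) = L ^ (3 / 4 : ℝ) by ring]
      exact hx
    have h6 : 50 * 12 * L ^ 21 ≤ √x := by
      refine le_trans ?_ h5
      have := mul_le_mul_of_nonneg_right h4 (Real.exp_pos (L ^ (3 / 4 : ℝ) / 2)).le
      rwa [mul_assoc, ← Real.exp_add, one_mul,
        show -(1 / 2 * L ^ (3 / 4 : ℝ)) + L ^ (3 / 4 : ℝ) / 2 = 0 by ring, Real.exp_zero,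
        mul_one] at this
    have h7 := mul_le_mul_of_nonneg_right h6 (Real.sqrt_nonneg x)
    rw [hsq] at h7
    linear_combination h7 / 50
  linarith

/-- **The twisted prime sums are small.** -/
theorem exists_twisted_prime_sum_le {d : ℝ} (hd : 0 < d) (hd4 : d ≤ 1 / 4) :
    ∀ᶠ X : ℕ in atTop, ∀ x t : ℝ, Real.exp (Real.log X ^ (3 / 4 : ℝ)) ≤ x → x ≤ X →
      Real.log X ^ 40 ≤ |t| → |t| ≤ X →
        ‖dpoly (piecePrimes x (d * x))
          (fun p => ((Real.log p * tentWeight x (d * x) p : ℝ) : ℂ)) t‖ ≤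
            x / Real.log X ^ 20 := by
  obtain ⟨C₁, c₁, hC₁, hc₁, hblock⟩ := exists_shortBlock_le
  filter_upwards [eventually_ge_atTop 3,
    (Real.tendsto_log_atTop.comp (tendsto_natCast_atTop_atTop (R := ℝ))).eventually_ge_atTop 10,
    exists_prime_sum_sub_main_le hd hd4,
    eventually_absorb (5 * (4 * C₁)) 60 hc₁ (show (0 : ℝ) < 1 / 4 by norm_num),
    eventually_absorb (10 * 4) 20 zero_lt_one (show (0 : ℝ) < 3 / 4 by norm_num)]
    with X hX3 hL hsub h3 h4 x t hx hxX hlo hhi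
  simp only [Function.comp_apply] at hL
  obtain ⟨L, hLdef⟩ : ∃ L, L = Real.log (X : ℝ) := ⟨_, rfl⟩
  rw [← hLdef] at hL hsub h3 h4 hx hlo ⊢
  have hX3' : (3 : ℝ) ≤ X := Nat.ofNat_le_cast.2 hX3
  have hXexp : (X : ℝ) = Real.exp L := by rw [hLdef, Real.exp_log (by linarith)]
  have h34 : (1 : ℝ) ≤ L ^ (3 / 4 : ℝ) := Real.one_le_rpow (by linarith) (by norm_num)
  have hx3 : 3 ≤ x := by
    have h5 : 2 ≤ L ^ (3 / 4 : ℝ) :=
      calc (2 : ℝ) ≤ Real.sqrt L := Real.le_sqrt_of_sq_le (by linarith)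
        _ = L ^ (1 / 2 : ℝ) := Real.sqrt_eq_rpow L
        _ ≤ _ := Real.rpow_le_rpow_of_exponent_le (by linarith) (by norm_num)
    linarith [Real.add_one_le_exp (L ^ (3 / 4 : ℝ))]
  have hx0 : 0 < x := by linarith
  obtain ⟨w, hw⟩ : ∃ w, w = d * x := ⟨_, rfl⟩
  rw [← hw]
  have hw0 : 0 < w := hw ▸ mul_pos hd hx0
  have hwx : 2 * w ≤ x / 2 := by rw [hw]; nlinarith
  obtain ⟨E, hE⟩ : ∃ E : ℕ → ℂ, E = fun n : ℕ => (n : ℂ) ^ (-(Complex.I * (t : ℂ))) := ⟨_, rfl⟩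
  -- the part from `ζ`
  obtain ⟨B, hB⟩ : ∃ B, B = 50 * x / L ^ 40 + 1 +
      C₁ * L ^ 40 * (x * Real.exp (-(c₁ * L ^ (1 / 4 : ℝ)))) := ⟨_, rfl⟩
  have hB0 : 0 ≤ B := by rw [hB]; positivity
  have hblk : ∀ y, x ≤ y → y ≤ x + 2 * w → ∀ m, ⌊x⌋₊ + 1 ≤ m → m ≤ ⌊y⌋₊ + 1 →
      ‖∑ n ∈ Ico (⌊x⌋₊ + 1) m, E n‖ ≤ B := by
    intro y hy hy' m hm hm'
    rw [hB, hE, hLdef]
    refine hblock X x t hX3' (hLdef ▸ hx) (hLdef ▸ hlo) hhi m hm (hm'.trans ?_)
    have h5 : (⌊y⌋₊ : ℝ) + 1 ≤ 2 * ((⌊x⌋₊ : ℝ) + 1) := by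
      linarith [Nat.floor_le (show 0 ≤ y by linarith), Nat.lt_floor_add_one x]
    exact_mod_cast h5
  have hO : ‖rampSum E x (x + 2 * w) - 2 * rampSum E x (x + w)‖ ≤ w * (4 * B) := by
    have b1 := norm_rampSum_le (show x ≤ x + 2 * w by linarith) hB0
      (hblk _ (by linarith) le_rfl)
    have b2 := norm_rampSum_le (show x ≤ x + w by linarith) hB0
      (hblk _ (by linarith) (by linarith))
    refine (norm_sub_le _ _).trans ?_
    rw [norm_mul, Complex.norm_two]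
    linarith
  have hO' : ‖∑ n ∈ Ioc ⌊x⌋₊ ⌊x + 2 * w⌋₊, (tentWeight x w n : ℂ) * E n‖ ≤ 4 * B := by
    have h := hO
    rw [← sum_tentWeight_eq E hx0.le hw0, norm_mul, Complex.norm_real,
      Real.norm_of_nonneg hw0.le] at h
    exact le_of_mul_le_mul_left h hw0
  have hsub' := hsub x t hx hxX hhi
  rw [← hw] at hsub'
  rw [hE] at hO'
  refine (norm_le_norm_add_norm_sub' _ _).trans ((add_le_add hO' hsub').trans ?_)
  have hL20 : (0 : ℝ) < L ^ 20 := by positivity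
  rw [le_div_iff₀ hL20, add_mul]
  have e : x / (2 * L ^ 20) * L ^ 20 = x / 2 := by field_simp
  have g2 : 4 * B * L ^ 20 ≤ 200 / L ^ 20 * x + 4 * L ^ 20 + 1 / 5 * x := by
    have h5 := mul_le_mul_of_nonneg_right h3 (show 0 ≤ x / 5 by linarith)
    have e : 200 / L ^ 20 * x = 4 * (50 * x / L ^ 40) * L ^ 20 := by
      field_simp
      ring
    rw [hB, e]
    linear_combination h5
  have g4 : 200 / L ^ 20 * x ≤ x / 10 := by
    rw [div_mul_eq_mul_div, div_le_iff₀ hL20]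
    have : (2000 : ℝ) ≤ L ^ 20 :=
      calc (2000 : ℝ) ≤ 10 ^ 20 := by norm_num
        _ ≤ _ := pow_le_pow_left₀ (by norm_num) hL 20
    nlinarith
  have g5 : 4 * L ^ 20 ≤ x / 10 := by
    have := mul_le_mul_of_nonneg_right h4 (Real.exp_pos (L ^ (3 / 4 : ℝ))).le
    rw [mul_assoc, ← Real.exp_add, one_mul, one_mul, neg_add_cancel, Real.exp_zero, mul_one] at this
    linarith
  rw [e]
  linarith

end FA.ShortLiouville

end
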