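import Fermat.Agent.ShortLiouville.Bilinear
import Fermat.Agent.ShortLiouville.PrimeSums
import Fermat.Agent.Root.SummaryPrimeNumberTheorem

/-!
# The last range of primes

Tent-weighted `log p / log x` on the primes of consecutive intervals `(x, x (1 + 2 d)]` from
`exp ((log X) ^ (4/5))` to `exp ((log X) ^ (9/10))`: the mass grows like `log log X` and each piece
is small on `(log X) ^ 40 ≤ |t| ≤ X`.
-/

set_option autoImplicit false

noncomputable section

namespace FA.ShortLiouville

open Finset Filter FA.Hoheisel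
open scoped Real Topology

/-- The left end of the `i`-th interval. -/
def tentStart (d a : ℝ) (i : ℕ) : ℝ := Real.exp (a + i * Real.log (1 + 2 * d))

theorem tentStart_pos (d a : ℝ) (i : ℕ) : 0 < tentStart d a i := Real.exp_pos _

theorem tentStart_succ {d : ℝ} (hd : 0 < d) (a : ℝ) (i : ℕ) :
    tentStart d a (i + 1) = tentStart d a i + 2 * (d * tentStart d a i) := by
  rw [tentStart, tentStart]
  push_cast
  rw [show a + ((i : ℝ) + 1) * Real.log (1 + 2 * d) =
    a + i * Real.log (1 + 2 * d) + Real.log (1 + 2 * d) by ring, Real.exp_add,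
    Real.exp_log (by linarith)]
  ring

theorem tentStart_mono {d : ℝ} (hd : 0 < d) (a : ℝ) : Monotone (tentStart d a) := fun i j h => by
  refine Real.exp_le_exp.2 ?_
  have := mul_le_mul_of_nonneg_right (Nat.cast_le (α := ℝ).2 h)
    (Real.log_nonneg (show (1 : ℝ) ≤ 1 + 2 * d by linarith))
  linarith

theorem eq_of_mem_piecePrimes {d : ℝ} (hd : 0 < d) (a : ℝ) {i j p : ℕ}
    (hi : p ∈ piecePrimes (tentStart d a i) (d * tentStart d a i))
    (hj : p ∈ piecePrimes (tentStart d a j) (d * tentStart d a j)) : i = j := by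
  rw [mem_piecePrimes (tentStart_pos d a _).le (mul_nonneg hd.le (tentStart_pos d a _).le),
    ← tentStart_succ hd] at hi hj
  by_contra hne
  rcases Ne.lt_or_gt hne with h | h
  · exact absurd (hi.2.2.trans (tentStart_mono hd a h)) (not_le.2 hj.2.1)
  · exact absurd (hj.2.2.trans (tentStart_mono hd a h)) (not_le.2 hi.2.1)

theorem tentPiece_weight_le {d a : ℝ} (hd : 0 < d) (hd4 : d ≤ 1 / 4) (ha : 1 ≤ a) {i p : ℕ}
    (hp : p ∈ piecePrimes (tentStart d a i) (d * tentStart d a i)) :
    0 ≤ Real.log p * tentWeight (tentStart d a i) (d * tentStart d a i) p /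
        Real.log (tentStart d a i) ∧
      Real.log p * tentWeight (tentStart d a i) (d * tentStart d a i) p /
        Real.log (tentStart d a i) ≤ 2 := by
  obtain ⟨x, hx⟩ : ∃ x, x = tentStart d a i := ⟨_, rfl⟩
  rw [← hx] at hp ⊢
  have hx0 : 0 < x := hx ▸ tentStart_pos d a i
  obtain ⟨-, h1, h2⟩ := (mem_piecePrimes hx0.le (mul_nonneg hd.le hx0.le)).1 hp
  obtain ⟨t0, t1⟩ := tentWeight_bounds (mul_pos hd hx0) h1.le h2
  have hlx : 1 ≤ Real.log x := by
    rw [hx, tentStart, Real.log_exp]
    have := mul_nonneg (Nat.cast_nonneg (α := ℝ) i)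
      (Real.log_nonneg (show (1 : ℝ) ≤ 1 + 2 * d by linarith))
    linarith
  have hlp : Real.log p ≤ 2 * Real.log x := by
    rw [show 2 * Real.log x = Real.log (x ^ 2) by rw [Real.log_pow]; norm_num]
    refine Real.log_le_log (by linarith) (h2.trans ?_)
    have : (2 : ℝ) ≤ x :=
      calc (2 : ℝ) ≤ Real.exp 1 := by linarith [Real.exp_one_gt_d9]
        _ ≤ x := by rw [← Real.exp_log hx0]; exact Real.exp_le_exp.2 hlx
    nlinarith
  refine ⟨div_nonneg (mul_nonneg (Real.log_natCast_nonneg p) t0) (by linarith), ?_⟩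
  rw [div_le_iff₀ (by linarith)]
  nlinarith [mul_le_mul_of_nonneg_left t1 (Real.log_natCast_nonneg p)]

/-- The pieces of the last range. -/
def tentPieces (d : ℝ) (hd : 0 < d) (hd4 : d ≤ 1 / 4) (a : ℝ) (ha : 1 ≤ a) (n : ℕ) : Pieces where
  index := range n
  start := tentStart d a
  primes i := piecePrimes (tentStart d a i) (d * tentStart d a i)
  weight i p := Real.log p * tentWeight (tentStart d a i) (d * tentStart d a i) p /
    Real.log (tentStart d a i)
  ratio := 1 + 2 * d
  one_le_ratio := by linarith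
  start_pos i _ := tentStart_pos d a i
  prime_mem i _ p hp := (mem_filter.1 hp).2
  range_mem i _ p hp := by
    obtain ⟨-, h1, h2⟩ := (mem_piecePrimes (tentStart_pos d a i).le
      (mul_nonneg hd.le (tentStart_pos d a i).le)).1 hp
    exact ⟨h1.le, h2.trans (le_of_eq (by ring))⟩
  weight_nonneg i _ p hp := (tentPiece_weight_le hd hd4 ha hp).1
  total_le p := by
    classical
    by_cases h : ∃ j ∈ range n, p ∈ piecePrimes (tentStart d a j) (d * tentStart d a j)
    · obtain ⟨j, hj, hjp⟩ := h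
      rw [sum_eq_single_of_mem j hj fun i _ hi =>
        if_neg fun hip => hi (eq_of_mem_piecePrimes hd a hip hjp), if_pos hjp]
      exact (tentPiece_weight_le hd hd4 ha hjp).2
    · rw [sum_eq_zero fun i hi => if_neg fun hip => h ⟨i, hi, hip⟩]
      norm_num

theorem tentPieces_size_le {d : ℝ} (hd : 0 < d) (hd4 : d ≤ 1 / 4) {a : ℝ} (ha : 1 ≤ a) (n : ℕ) :
    (tentPieces d hd hd4 a ha n).size ≤ 2 * (tentStart d a n + 1) := by
  obtain ⟨B, hB⟩ : ∃ B, B = tentPieces d hd hd4 a ha n := ⟨_, rfl⟩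
  rw [← hB, Pieces.size]
  refine (sum_le_card_nsmul _ _ 2 fun p _ => B.total_le p).trans ?_
  rw [nsmul_eq_mul, mul_comm]
  refine mul_le_mul_of_nonneg_left ?_ two_pos.le
  have hsub : B.support ⊆ range (⌊tentStart d a n⌋₊ + 1) := fun p hp => by
    rw [hB, Pieces.support, mem_biUnion] at hp
    obtain ⟨i, hi, hp⟩ := hp
    obtain ⟨-, -, h2⟩ := (mem_piecePrimes (tentStart_pos d a i).le
      (mul_nonneg hd.le (tentStart_pos d a i).le)).1 hp
    rw [← tentStart_succ hd] at h2
    exact mem_range.2 (Nat.lt_succ_of_le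
      (Nat.le_floor (h2.trans (tentStart_mono hd a (mem_range.1 hi)))))
  refine (Nat.cast_le.2 (card_le_card hsub)).trans ?_
  rw [card_range]
  push_cast
  linarith [Nat.floor_le (tentStart_pos d a n).le]

/-- By the prime number theorem an interval carries its share. -/
theorem exists_tent_mass {d : ℝ} (hd : 0 < d) (hd4 : d ≤ 1 / 4) : ∃ x₀ : ℝ, ∀ x, x₀ ≤ x →
    d * x / 4 ≤ ∑ p ∈ piecePrimes x (d * x), Real.log p * tentWeight x (d * x) p := by
  obtain ⟨x₀, hx₀⟩ := eventually_atTop.1 (Metric.tendsto_nhds.1 PNT.Summary.tendsto_theta (d / 8)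
    (by positivity))
  refine ⟨max x₀ 1, fun x hx => ?_⟩
  have hx1 : 1 ≤ x := le_of_max_le_right hx
  obtain ⟨w, hw⟩ : ∃ w, w = d * x := ⟨_, rfl⟩
  have hw0 : 0 < w := hw ▸ mul_pos hd (by linarith)
  rw [← hw]
  have hwx : 2 * w ≤ x / 2 := by rw [hw]; nlinarith
  have hθ : ∀ y, x ≤ y → y ≤ 3 / 2 * x → |Chebyshev.theta y - y| ≤ 3 / 16 * w := fun y hy hy' => by
    have h := hx₀ y ((le_max_left x₀ 1).trans (hx.trans hy))
    have hy0 : 0 < y := by linarith
    rw [Real.dist_eq, div_sub_one hy0.ne', abs_div, abs_of_pos hy0, div_lt_iff₀ hy0] at h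
    refine h.le.trans ?_
    rw [hw]
    nlinarith
  obtain ⟨u, hu⟩ : ∃ u, u = x + w / 2 := ⟨_, rfl⟩
  obtain ⟨v, hv⟩ : ∃ v, v = x + 3 / 2 * w := ⟨_, rfl⟩
  have hsum : Chebyshev.theta v - Chebyshev.theta u =
      ∑ p ∈ (Ioc ⌊u⌋₊ ⌊v⌋₊).filter Nat.Prime, Real.log p := by
    rw [Chebyshev.theta, Chebyshev.theta, sum_filter, sum_filter, sum_filter,
      ← sum_Ioc_consecutive _ (Nat.zero_le _) (Nat.floor_le_floor (show u ≤ v by linarith))]
    ring
  have hlow : (3 : ℝ) / 5 * w ≤ ∑ p ∈ (Ioc ⌊u⌋₊ ⌊v⌋₊).filter Nat.Prime, Real.log p := by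
    have h1 := abs_le.1 (hθ u (by linarith) (by linarith))
    have h2 := abs_le.1 (hθ v (by linarith) (by linarith))
    linarith
  calc w / 4 ≤ 1 / 2 * ∑ p ∈ (Ioc ⌊u⌋₊ ⌊v⌋₊).filter Nat.Prime, Real.log p := by linarith
    _ ≤ ∑ p ∈ (Ioc ⌊u⌋₊ ⌊v⌋₊).filter Nat.Prime, Real.log p * tentWeight x w p := by
        rw [mul_sum]
        refine sum_le_sum fun p hp => ?_
        rw [mem_filter, mem_Ioc, Nat.floor_lt (by linarith), Nat.le_floor_iff (by linarith)] at hp
        rw [mul_comm]
        exact mul_le_mul_of_nonneg_left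
          (tentWeight_ge_half hw0 (by linarith [hp.1.1]) (by linarith [hp.1.2]))
          (Real.log_natCast_nonneg p)
    _ ≤ _ := by
        refine sum_le_sum_of_subset_of_nonneg (filter_subset_filter _ (Ioc_subset_Ioc
          (Nat.floor_le_floor (by linarith)) (Nat.floor_le_floor (by linarith)))) fun p hp _ => ?_
        obtain ⟨-, h1, h2⟩ := (mem_piecePrimes (by linarith) hw0.le).1 hp
        exact mul_nonneg (Real.log_natCast_nonneg p) (tentWeight_bounds hw0 h1.le h2).1

/-- The mass of the last range. -/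
theorem exists_tentPieces_mass {d : ℝ} (hd : 0 < d) (hd4 : d ≤ 1 / 4) : ∃ a₀ : ℝ,
    ∀ (a : ℝ) (ha : 1 ≤ a), a₀ ≤ a → ∀ n : ℕ,
      Real.log ((a + n * Real.log (1 + 2 * d)) / a) / 16 ≤ (tentPieces d hd hd4 a ha n).mass := by
  obtain ⟨x₀, hx₀⟩ := exists_tent_mass hd hd4
  refine ⟨x₀, fun a ha ha₀ n => ?_⟩
  obtain ⟨g, hg⟩ : ∃ g, g = Real.log (1 + 2 * d) := ⟨_, rfl⟩
  have hg0 : 0 < g := hg ▸ Real.log_pos (by linarith)
  have hg2 : g ≤ 2 * d := hg ▸ (Real.log_le_sub_one_of_pos (by linarith)).trans (by linarith)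
  rw [← hg, Pieces.mass]
  have e : ∀ p : ℕ, (tentPieces d hd hd4 a ha n).wt p / p =
      (tentPieces d hd hd4 a ha n).wt p * (1 / p) := fun p => by ring
  simp only [e]
  rw [← Pieces.sum_weight_eq]
  have hpt : ∀ i ∈ range n, d / (8 * (a + i * g)) ≤
      ∑ p ∈ piecePrimes (tentStart d a i) (d * tentStart d a i),
        Real.log p * tentWeight (tentStart d a i) (d * tentStart d a i) p /
          Real.log (tentStart d a i) * (1 / (p : ℝ)) := fun i _ => by
    obtain ⟨x, hx⟩ : ∃ x, x = tentStart d a i := ⟨_, rfl⟩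
    have hlx : Real.log x = a + i * g := by rw [hx, tentStart, Real.log_exp, hg]
    have hx0 : 0 < x := hx ▸ tentStart_pos d a i
    rw [← hx, hlx]
    have hax : x₀ ≤ x := by
      refine ha₀.trans ((le_trans ?_ (Real.add_one_le_exp a)).trans ?_)
      · linarith
      · rw [← Real.exp_log hx0, hlx]
        exact Real.exp_le_exp.2 (le_add_of_nonneg_right (by positivity))
    have hden : 0 < a + i * g := by positivity
    calc d / (8 * (a + i * g)) = d * x / 4 * (1 / ((a + i * g) * (2 * x))) := by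
          field_simp
          ring
      _ ≤ (∑ p ∈ piecePrimes x (d * x), Real.log p * tentWeight x (d * x) p) *
            (1 / ((a + i * g) * (2 * x))) :=
          mul_le_mul_of_nonneg_right (hx₀ x hax) (by positivity)
      _ ≤ _ := by
          rw [sum_mul]
          refine sum_le_sum fun p hp => ?_
          obtain ⟨hpp, h1, h2⟩ := (mem_piecePrimes hx0.le (mul_nonneg hd.le hx0.le)).1 hp
          obtain ⟨t0, -⟩ := tentWeight_bounds (mul_pos hd hx0) h1.le h2
          rw [div_mul_eq_mul_div, mul_div_assoc, div_eq_mul_one_div (1 / (p : ℝ)),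
            one_div_mul_one_div]
          refine mul_le_mul_of_nonneg_left (one_div_le_one_div_of_le ?_ ?_)
            (mul_nonneg (Real.log_natCast_nonneg p) t0)
          · exact mul_pos (Nat.cast_pos.2 hpp.pos) hden
          · rw [mul_comm (p : ℝ)]
            exact mul_le_mul_of_nonneg_left (h2.trans (by nlinarith)) hden.le
  refine le_trans ?_ (sum_le_sum hpt)
  have htel : ∀ m : ℕ, Real.log ((a + m * g) / a) / 16 ≤
      ∑ i ∈ range m, d / (8 * (a + i * g)) := fun m => by
    induction m with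
    | zero => simp [show a ≠ 0 by linarith]
    | succ m ih =>
      rw [sum_range_succ]
      push_cast
      have hm : 0 < a + m * g := by positivity
      have hstep : Real.log ((a + ((m : ℝ) + 1) * g) / a) - Real.log ((a + m * g) / a) ≤
          2 * d / (a + m * g) := by
        rw [← Real.log_div (by positivity) (by positivity), div_div_div_cancel_right₀ (by linarith)]
        refine (Real.log_le_sub_one_of_pos (by positivity)).trans ?_
        rw [div_sub_one hm.ne']
        refine div_le_div_of_nonneg_right ?_ hm.le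
        linarith
      have he : d / (8 * (a + m * g)) = 2 * d / (a + m * g) / 16 := by
        field_simp
        ring
      linarith
  exact htel n

end FA.ShortLiouville

end
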