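import Fermat.Agent.ShortLiouville.Levels
import Fermat.Agent.ShortLiouville.FinalWeights

/-!
# The last step

Where a piece of the last level is large the set is thinner than `X ^ (0.41)`; there the inequality
of Halász and Montgomery and the smallness of prime sums in the range of Vinogradov and Korobov
finish.
-/

set_option autoImplicit false

noncomputable section

namespace FA.ShortLiouville

open MeasureTheory Finset Filter FA.Hoheisel
open scoped Real Topology

/-- The large sets of a level meet a Dirichlet polynomial of length `N` in little. -/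
theorem setIntegral_largeSet_le (F : Twist) {a b H u N : ℕ} {α T L : ℝ} (hH : 1 ≤ H) (ha : 1 ≤ a)
    (hu : u ∈ (levelPieces a b H).index) (hα : 0 ≤ α) (hα1 : α ≤ 3 / 16) (hT : 0 ≤ T)
    (hTL : T ≤ Real.exp L) (hL : 10 ^ 6 ≤ L) (hb : (b : ℝ) ≤ √L) (hal : 256 * Real.log L ≤ a)
    {s : Finset ℕ} (hs : s ⊆ Icc 1 N) {c : ℕ → ℂ} (hc : ∀ n ∈ s, ‖c n‖ ≤ 1)
    (hN1 : (N : ℝ) ≤ 5 * Real.exp L) (hN2 : Real.exp (0.98 * L) ≤ N) :
    ∫ t in largeSet F (levelPieces a b H) α T u, ‖dpoly s c t‖ ^ 2 ≤ 700 * L * (N : ℝ) ^ 2 := by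
  obtain ⟨U, hUdef⟩ : ∃ U, U = largeSet F (levelPieces a b H) α T u := ⟨_, rfl⟩
  have hUm : MeasurableSet U := hUdef ▸ measurableSet_largeSet F _ _ _ hu
  have hU : U ⊆ Set.Icc (-T) T := hUdef ▸ Set.inter_subset_left
  have hμ := measureReal_largeSet_le F hH ha hu hα hT hTL (by linarith)
  rw [← hUdef] at hμ ⊢
  have hN0 : (0 : ℝ) < N := (Real.exp_pos _).trans_le hN2
  have hsum : ∑ n ∈ s, ‖c n‖ ^ 2 ≤ N := by
    refine (sum_le_card_nsmul _ _ 1 fun n hn => pow_le_one₀ (norm_nonneg _) (hc n hn)).trans ?_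
    rw [nsmul_one]
    exact_mod_cast (card_le_card hs).trans (le_of_eq (by simp))
  have hsq : √L ≤ L / 1000 := by
    rw [Real.sqrt_le_iff]
    exact ⟨by linarith, by nlinarith⟩
  have hlogL : Real.log L ≤ L / 500 := by
    have h1 := Real.log_sqrt (show 0 ≤ L by linarith)
    have h2 := Real.log_le_self (Real.sqrt_nonneg L)
    linarith
  have hlog5 : 5 ≤ Real.log L := by
    rw [Real.le_log_iff_exp_le (by linarith)]
    calc Real.exp 5 = Real.exp 1 ^ 5 := by rw [← Real.exp_nat_mul]; norm_num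
      _ ≤ 3 ^ 5 := pow_le_pow_left₀ (Real.exp_pos 1).le Real.exp_one_lt_three.le 5
      _ ≤ L := le_trans (by norm_num) hL
  have hexp : 2 * α * (L + b) + (L / a + 1) * (Real.log (9 * (L + 2)) + 2) ≤ 0.4 * L := by
    have h1 : Real.log (9 * (L + 2)) + 2 ≤ 2 * Real.log L := by
      have h2 : Real.log (9 * (L + 2)) ≤ Real.log (18 * L) :=
        Real.log_le_log (by linarith) (by linarith)
      rw [Real.log_mul (x := 18) (by norm_num) (by linarith)] at h2
      have h3 : Real.log 18 ≤ 3 := by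
        rw [Real.log_le_iff_le_exp (by norm_num)]
        calc (18 : ℝ) ≤ 2.7 ^ 3 := by norm_num
          _ ≤ Real.exp 1 ^ 3 :=
            pow_le_pow_left₀ (by norm_num) (by linarith [Real.exp_one_gt_d9]) 3
          _ = Real.exp 3 := by rw [← Real.exp_nat_mul]; norm_num
      linarith
    have ha0 : (0 : ℝ) < a := Nat.cast_pos.2 ha
    have h4 : (L / a + 1) * (Real.log (9 * (L + 2)) + 2) ≤ L / 128 + 2 * Real.log L := by
      refine (mul_le_mul_of_nonneg_left h1 (by positivity)).trans ?_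
      rw [add_mul, one_mul]
      refine add_le_add ?_ le_rfl
      rw [div_mul_eq_mul_div, div_le_div_iff₀ ha0 (by norm_num)]
      have := mul_le_mul_of_nonneg_left hal (show 0 ≤ L by linarith)
      linarith
    have h5 : 2 * α * (L + b) ≤ 3 / 8 * (L + L / 1000) :=
      mul_le_mul (by linarith) (by linarith) (by positivity) (by norm_num)
    linarith
  have hμ' : volume.real U ≤ 21 * Real.exp (0.4 * L) :=
    hμ.trans (mul_le_mul_of_nonneg_left (Real.exp_le_exp.2 hexp) (by norm_num))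
  have hT4 : 1 + 2 * T ≤ 4 * Real.exp L := by linarith [Real.one_le_exp (show 0 ≤ L by linarith)]
  have hlogT : Real.log (1 + 2 * T) ≤ 2 * L := by
    refine (Real.log_le_log (by linarith) hT4).trans ?_
    rw [Real.log_mul (by norm_num) (Real.exp_pos L).ne', Real.log_exp]
    linarith [Real.log_le_sub_one_of_pos (show (0 : ℝ) < 4 by norm_num)]
  have hsqT : √(1 + 2 * T) ≤ 2 * Real.exp (L / 2) := by
    rw [Real.sqrt_le_iff]
    refine ⟨by positivity, hT4.trans (le_of_eq ?_)⟩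
    rw [mul_pow, ← Real.exp_nat_mul]
    push_cast
    ring_nf
  have hlog2 : (Nat.log 2 N : ℝ) + 1 ≤ 4 * L := by
    have hN' : N ≠ 0 := fun h => by rw [h] at hN0; simp at hN0
    have h1 : ((2 ^ Nat.log 2 N : ℕ) : ℝ) ≤ N := Nat.cast_le.2 (Nat.pow_log_le_self 2 hN')
    push_cast at h1
    have h2 := Real.log_le_log (by positivity) (h1.trans hN1)
    rw [Real.log_pow, Real.log_mul (by norm_num) (Real.exp_pos L).ne', Real.log_exp] at h2
    have h3 := Real.log_two_gt_d9
    have h5 := Real.log_le_sub_one_of_pos (show (0 : ℝ) < 5 by norm_num)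
    nlinarith [(Nat.cast_nonneg (Nat.log 2 N) : (0 : ℝ) ≤ Nat.log 2 N)]
  have hbig : 150 * Real.exp (0.9 * L) ≤ N := by
    refine le_trans ?_ hN2
    rw [show 0.98 * L = 0.08 * L + 0.9 * L by ring, Real.exp_add]
    refine mul_le_mul_of_nonneg_right ?_ (Real.exp_pos _).le
    linarith [Real.add_one_le_exp (0.08 * L)]
  refine (setIntegral_large_values_le hs c hT hUm hU).trans ?_
  refine (mul_le_mul hsum (d := (700 * L) * N) ?_ ?_ hN0.le).trans (le_of_eq (by ring))
  · calc 300 * N * Real.log (1 + 2 * T) +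
          87 * √(1 + 2 * T) * (Nat.log 2 N + 1) * volume.real U
        ≤ 300 * N * (2 * L) +
            87 * (2 * Real.exp (L / 2)) * (4 * L) * (21 * Real.exp (0.4 * L)) := by
          gcongr
      _ = 600 * N * L + 14616 * L * (Real.exp (L / 2) * Real.exp (0.4 * L)) := by ring
      _ ≤ _ := by
          rw [← Real.exp_add, show L / 2 + 0.4 * L = 0.9 * L by ring]
          have := mul_le_mul_of_nonneg_left hbig (show 0 ≤ L by linarith)
          have := mul_nonneg (show 0 ≤ L by linarith) (Real.exp_pos (0.9 * L)).le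
          linarith
  · have := Real.log_nonneg (show (1 : ℝ) ≤ 1 + 2 * T by linarith)
    positivity

/-- The sums over short pieces of primes are small. -/
def Twist.PrimesCancel (F : Twist) : Prop :=
  ∀ d : ℝ, 0 < d → d ≤ 1 / 4 → ∀ᶠ X : ℕ in atTop, ∀ x t : ℝ,
    Real.exp (Real.log X ^ (3 / 4 : ℝ)) ≤ x → x ≤ X → Real.log X ^ 40 ≤ |t| → |t| ≤ X →
      ‖dpoly (piecePrimes x (d * x))
        (fun p => F.fn p * ((Real.log p * tentWeight x (d * x) p : ℝ) : ℂ)) t‖ ≤
          x / Real.log X ^ 20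

/-- **The last step.** -/
theorem eventually_last_step (F : Twist) (hF : F.PrimesCancel) {K : ℕ} (hK : 2 ≤ K) :
    ∀ᶠ X : ℕ in atTop, ∀ (a b H : ℕ) (α T : ℝ)
    (W : Set ℝ), 1 ≤ H → 1 ≤ a → H ≤ b → 256 * Real.log (Real.log X) ≤ a →
      (b : ℝ) ≤ √(Real.log X) → 0 ≤ α → α ≤ 3 / 16 → 0 ≤ T → T ≤ X → MeasurableSet W →
      W ⊆ Set.Icc (-T) T → Disjoint W (goodSet F (levelPieces a b H) α T) →
      (∀ t ∈ W, Real.log X ^ 40 ≤ |t|) →
        ∫ t in W, ‖twistPoly F X t‖ ^ 2 ≤ 25000 * (X : ℝ) ^ 2 / K := by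
  have hK0 : (0 : ℝ) < K := Nat.cast_pos.2 (by omega)
  obtain ⟨d, hd⟩ : ∃ d : ℝ, d = 1 / (2 * K) := ⟨_, rfl⟩
  have hd0 : 0 < d := hd ▸ by positivity
  have hd4 : d ≤ 1 / 4 := by
    rw [hd]
    refine one_div_le_one_div_of_le (by norm_num) ?_
    have : (2 : ℝ) ≤ K := Nat.ofNat_le_cast.2 hK
    linarith
  obtain ⟨g, hg⟩ : ∃ g, g = Real.log (1 + 2 * d) := ⟨_, rfl⟩
  have hg0 : 0 < g := hg ▸ Real.log_pos (by linarith)
  have hg1 : g ≤ 1 := hg ▸ (Real.log_le_sub_one_of_pos (by linarith)).trans (by linarith)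
  obtain ⟨a₀, ha₀⟩ := exists_tentPieces_mass hd0 hd4
  have hlog : Tendsto (fun X : ℕ => Real.log X) atTop atTop :=
    Real.tendsto_log_atTop.comp (tendsto_natCast_atTop_atTop (R := ℝ))
  filter_upwards [eventually_ge_atTop 3, hF d hd0 hd4,
    hlog.eventually_ge_atTop (10 ^ 6),
    hlog.eventually_ge_atTop (52500 * K / g ^ 2),
    ((tendsto_rpow_atTop (show (0 : ℝ) < 4 / 5 by norm_num)).comp hlog).eventually_ge_atTop a₀,
    ((tendsto_rpow_atTop (show (0 : ℝ) < 1 / 10 by norm_num)).comp hlog).eventually_ge_atTop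
      (max 400 (2 * Real.exp (16 * (K : ℝ))))]
    with X hX hsum hL hLK ha' hL10
      a b H α T W hH ha hHb hal hb hα hα1 hT hTX hWm hW hWg hWt
  simp only [Function.comp_apply] at ha' hL10
  obtain ⟨L, hLdef⟩ : ∃ L, L = Real.log (X : ℝ) := ⟨_, rfl⟩
  rw [← hLdef] at hsum hL hLK ha' hL10 hal hb hWt
  have hX3 : (3 : ℝ) ≤ X := Nat.ofNat_le_cast.2 hX
  have hXexp : (X : ℝ) = Real.exp L := by rw [hLdef, Real.exp_log (by linarith)]
  have hL0 : 0 < L := by linarith
  obtain ⟨A, hA⟩ : ∃ A, A = L ^ (4 / 5 : ℝ) := ⟨_, rfl⟩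
  have hA1 : 1 ≤ A := hA ▸ Real.one_le_rpow (by linarith) (by norm_num)
  obtain ⟨Q, hQ⟩ : ∃ Q, Q = L ^ (9 / 10 : ℝ) := ⟨_, rfl⟩
  have hAQ : A ≤ Q := hA ▸ hQ ▸ Real.rpow_le_rpow_of_exponent_le (by linarith) (by norm_num)
  have hQsplit : Q = A * L ^ (1 / 10 : ℝ) := by
    rw [hA, hQ, ← Real.rpow_add hL0]; norm_num
  have hQ400 : 400 * Q ≤ L := by
    have e : L = Q * L ^ (1 / 10 : ℝ) := by rw [hQ, ← Real.rpow_add hL0]; norm_num
    have h1 := mul_le_mul_of_nonneg_left ((le_max_left _ _).trans hL10)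
      (show 0 ≤ Q by linarith)
    linarith
  obtain ⟨n, hn⟩ : ∃ n, n = ⌊Q / g⌋₊ := ⟨_, rfl⟩
  have hn1 : (n : ℝ) * g ≤ Q := by
    rw [← le_div_iff₀ hg0, hn]; exact Nat.floor_le (div_nonneg (by linarith) hg0.le)
  have hn2 : Q - g ≤ (n : ℝ) * g := by
    have h1 := Nat.lt_floor_add_one (Q / g)
    rw [← hn, div_lt_iff₀ hg0] at h1
    linarith
  obtain ⟨B, hB⟩ : ∃ B, B = tentPieces d hd0 hd4 A hA1 n := ⟨_, rfl⟩
  have hstart : ∀ i, B.start i = tentStart d A i := fun i => by rw [hB]; rfl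
  have hxlo : ∀ i, Real.exp (L ^ (3 / 4 : ℝ)) ≤ B.start i := fun i => by
    rw [hstart, tentStart, Real.exp_le_exp, hA, ← hg]
    have : 0 ≤ (i : ℝ) * g := by positivity
    linarith [Real.rpow_le_rpow_of_exponent_le (show 1 ≤ L by linarith)
      (show (3 / 4 : ℝ) ≤ 4 / 5 by norm_num)]
  have hxhi : ∀ i ≤ n, B.start i ≤ Real.exp (L / 200) := fun i hi => by
    rw [hstart, tentStart, Real.exp_le_exp, ← hg]
    have : (i : ℝ) * g ≤ n * g := mul_le_mul_of_nonneg_right (Nat.cast_le.2 hi) hg0.le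
    linarith
  have hindex : B.index = range n := by rw [hB]; rfl
  have hM : (K : ℝ) ≤ B.mass := by
    rw [hB]
    refine le_trans ?_ (ha₀ A hA1 (hA ▸ ha') n)
    rw [le_div_iff₀ (by norm_num), ← hg, Real.le_log_iff_exp_le (by positivity), mul_comm,
      le_div_iff₀ (by linarith)]
    have h1 : Real.exp (16 * (K : ℝ)) ≤ L ^ (1 / 10 : ℝ) := by
      have := (le_max_right _ _).trans hL10
      linarith [Real.exp_pos (16 * (K : ℝ))]
    have h2 := mul_le_mul_of_nonneg_left h1 (show 0 ≤ A by linarith)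
    linarith
  have hratio : B.ratio = 1 + 2 * d := by rw [hB]; rfl
  have hd2 : 2 * d = 1 / K := by rw [hd]; field_simp
  have hKL : 52500 * (K : ℝ) ≤ L := le_trans (le_div_self (by positivity) (pow_pos hg0 2)
    (pow_le_one₀ hg0.le hg1)) hLK
  have hsize : B.size ^ 2 ≤ (B.ratio - 1) * X := by
    rw [hratio, add_sub_cancel_left, hd2, div_mul_eq_mul_div, one_mul, le_div_iff₀ hK0]
    have h1 : B.size ≤ 4 * Real.exp (L / 200) := by
      rw [hB]
      refine (tentPieces_size_le hd0 hd4 hA1 n).trans ?_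
      have h2 := hxhi n le_rfl
      rw [hstart] at h2
      linarith [Real.one_le_exp (show 0 ≤ L / 200 by linarith)]
    refine (mul_le_mul_of_nonneg_right (pow_le_pow_left₀ B.size_nonneg h1 2) hK0.le).trans ?_
    rw [hXexp, show L = 2 * (L / 200) + 0.99 * L by ring, Real.exp_add, mul_pow,
      ← Real.exp_nat_mul, show 2 * (L / 200) + 0.99 * L = L by ring]
    push_cast
    rw [mul_comm (4 ^ 2), mul_assoc]
    refine mul_le_mul_of_nonneg_left ?_ (Real.exp_pos _).le
    linarith [Real.add_one_le_exp (0.99 * L)]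
  have hsize' : B.size ^ 2 ≤ X := by
    refine hsize.trans (mul_le_of_le_one_left (Nat.cast_nonneg X) ?_)
    rw [hratio]
    linarith
  refine (B.setIntegral_twistPoly_le F hT hTX (le_trans (Nat.one_le_cast.2 (by omega)) hM)
    (by rw [hratio]; linarith) hsize' hsize hWm hW).trans ?_
  have hterm : ∀ v ∈ B.index, ∫ t in W, ‖B.piece F v t * B.cofactor F X v t‖ ^ 2 ≤
      17500 * (X : ℝ) ^ 2 * L ^ 2 / L ^ 40 := fun v hv => by
    obtain ⟨x, hx⟩ : ∃ x, x = B.start v := ⟨_, rfl⟩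
    have hvn : v ≤ n := (mem_range.1 (hindex ▸ hv)).le
    have hx1 : x ≤ Real.exp (L / 200) := hx ▸ hxhi v hvn
    have hx0 : Real.exp (L ^ (3 / 4 : ℝ)) ≤ x := hx ▸ hxlo v
    have hlx : 1 ≤ Real.log x := by
      rw [hx, hstart, tentStart, Real.log_exp, ← hg]
      have : 0 ≤ (v : ℝ) * g := by positivity
      linarith
    have hx10 : 1 ≤ x :=
      le_trans (Real.one_le_exp (Real.rpow_nonneg hL0.le _)) hx0
    have hxX : x ≤ X := hx1.trans (hXexp ▸ Real.exp_le_exp.2 (by linarith))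
    have hpiece : ∀ t ∈ W, ‖B.piece F v t‖ ≤ x / L ^ 20 := fun t ht => by
      have h1 := hsum x t hx0 hxX (hWt t ht) ((abs_le.2 (hW ht)).trans hTX)
      have e : B.piece F v t = ((1 / Real.log x : ℝ) : ℂ) * dpoly (piecePrimes x (d * x))
          (fun p => F.fn p * ((Real.log p * tentWeight x (d * x) p : ℝ) : ℂ)) t := by
        rw [← dpoly_mul_const, hx, hB, Pieces.piece, dpoly, dpoly]
        refine sum_congr rfl fun p _ => ?_
        simp only [tentPieces]
        push_cast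
        ring
      rw [e, norm_mul, Complex.norm_real, Real.norm_of_nonneg (by positivity)]
      refine (mul_le_of_le_one_left (norm_nonneg _) ?_).trans h1
      rw [div_le_one (by linarith)]
      exact hlx
    obtain ⟨N, hN⟩ : ∃ N, N = ⌊5 * (X : ℝ) / x⌋₊ := ⟨_, rfl⟩
    have hcof : B.cofRange X v ⊆ Icc 1 N := fun m hm => by
      obtain ⟨h1, h2⟩ := mem_Ioc.1 hm
      exact mem_Icc.2 ⟨by omega, hN ▸ hx ▸ h2⟩
    have hNx : (N : ℝ) * x ≤ 5 * X := by
      rw [← le_div_iff₀ (by linarith)]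
      exact hN ▸ Nat.floor_le (by positivity)
    have hN1 : (N : ℝ) ≤ 5 * Real.exp L :=
      hXexp ▸ le_trans (le_mul_of_one_le_right (Nat.cast_nonneg N) hx10) hNx
    have hN2 : Real.exp (0.98 * L) ≤ N := by
      have h1 : 5 * Real.exp (0.98 * L) ≤ 5 * (X : ℝ) / x := by
        rw [le_div_iff₀ (by linarith)]
        refine (mul_le_mul_of_nonneg_left hx1 (by positivity)).trans ?_
        rw [mul_assoc, ← Real.exp_add, hXexp]
        exact mul_le_mul_of_nonneg_left (Real.exp_le_exp.2 (by linarith)) (by norm_num)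
      have h2 := Nat.lt_floor_add_one (5 * (X : ℝ) / x)
      rw [← hN] at h2
      linarith [Real.one_le_exp (show 0 ≤ 0.98 * L by linarith)]
    have hcc : Continuous fun t => ‖dpoly (B.cofRange X v) F.fn t‖ ^ 2 :=
      ((continuous_dpoly (fun m hm => (mem_Icc.1 (hcof hm)).1) _).norm).pow 2
    have hcof2 : ∫ t in W, ‖B.cofactor F X v t‖ ^ 2 ≤ L * (700 * L * (N : ℝ) ^ 2) := by
      refine (setIntegral_le_sum_largeSet F (levelPieces a b H) α hWm hW hWg hcc
        fun t => sq_nonneg _).trans ?_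
      refine (sum_le_card_nsmul _ _ (700 * L * (N : ℝ) ^ 2) fun u hu =>
        (setIntegral_mono_set (hcc.integrableOn_Icc.mono_set Set.inter_subset_left)
          (ae_of_all _ fun t => sq_nonneg _) Set.inter_subset_right.eventuallyLE).trans
          (setIntegral_largeSet_le F hH ha hu hα hα1 hT (hXexp ▸ hTX) hL hb hal hcof
            (fun m _ => F.norm_le m) hN1 hN2)).trans ?_
      rw [nsmul_eq_mul]
      refine mul_le_mul_of_nonneg_right ?_ (by positivity)
      rw [show (levelPieces a b H).index = Ico (a * H) (b * H) from rfl, Nat.card_Ico]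
      refine (Nat.cast_le.2 ((Nat.sub_le _ _).trans (Nat.mul_le_mul le_rfl hHb))).trans ?_
      push_cast
      calc (b : ℝ) * b ≤ √L * √L := mul_le_mul hb hb (Nat.cast_nonneg b) (Real.sqrt_nonneg L)
        _ = L := Real.mul_self_sqrt hL0.le
    have hbc : Continuous fun t => ‖B.piece F v t * B.cofactor F X v t‖ ^ 2 :=
      (((continuous_piece F B hv).mul
        (continuous_dpoly (fun m hm => (mem_Icc.1 (hcof hm)).1) _)).norm).pow 2
    refine (setIntegral_mono_on (hbc.integrableOn_Icc.mono_set hW)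
      ((hcc.const_mul ((x / L ^ 20) ^ 2)).integrableOn_Icc.mono_set hW) hWm fun t ht => ?_).trans ?_
    · rw [norm_mul, mul_pow]
      exact mul_le_mul_of_nonneg_right (pow_le_pow_left₀ (norm_nonneg _) (hpiece t ht) 2)
        (sq_nonneg _)
    rw [integral_const_mul]
    refine (mul_le_mul_of_nonneg_left hcof2 (sq_nonneg _)).trans ?_
    calc (x / L ^ 20) ^ 2 * (L * (700 * L * (N : ℝ) ^ 2))
        = 700 * ((N : ℝ) * x) ^ 2 * L ^ 2 / L ^ 40 := by rw [div_pow, ← pow_mul]; ring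
      _ ≤ 700 * (5 * (X : ℝ)) ^ 2 * L ^ 2 / L ^ 40 := by gcongr
      _ = _ := by ring
  obtain ⟨M, hMdef⟩ : ∃ M, M = B.mass := ⟨_, rfl⟩
  rw [← hMdef] at hM ⊢
  have hM1 : 1 ≤ M := le_trans (Nat.one_le_cast.2 (by omega)) hM
  refine (add_le_add (mul_le_mul_of_nonneg_left (sum_le_sum hterm)
      (div_nonneg (mul_nonneg (by norm_num) (Nat.cast_nonneg _)) (sq_nonneg M)))
    (mul_le_mul_of_nonneg_left (b := 1 / M + (B.ratio - 1)) (c := 2 / (K : ℝ))
      ?_ (show (0 : ℝ) ≤ 12000 * (X : ℝ) ^ 2 by positivity))).trans ?_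
  · rw [hratio, add_sub_cancel_left, hd2]
    have : 1 / M ≤ 1 / (K : ℝ) := one_div_le_one_div_of_le hK0 hM
    linarith [show (2 : ℝ) / K = 1 / K + 1 / K by ring]
  rw [sum_const, hindex, card_range, nsmul_eq_mul]
  have hnL : (n : ℝ) ≤ L / g := by
    rw [le_div_iff₀ hg0]
    linarith
  have hmain : 3 * (n : ℝ) / M ^ 2 * (n * (17500 * (X : ℝ) ^ 2 * L ^ 2 / L ^ 40)) ≤
      (X : ℝ) ^ 2 / K := by
    calc 3 * (n : ℝ) / M ^ 2 * (n * (17500 * (X : ℝ) ^ 2 * L ^ 2 / L ^ 40))
        ≤ 3 * (L / g) * ((L / g) * (17500 * (X : ℝ) ^ 2 * L ^ 2 / L ^ 40)) := by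
          refine mul_le_mul ((div_le_self (by positivity) (one_le_pow₀ hM1)).trans (by linarith))
            (mul_le_mul_of_nonneg_right hnL (by positivity)) (by positivity) (by positivity)
      _ = (52500 / g ^ 2) / L ^ 36 * (X : ℝ) ^ 2 := by field_simp; ring
      _ ≤ 1 / K * (X : ℝ) ^ 2 := by
          refine mul_le_mul_of_nonneg_right ?_ (sq_nonneg _)
          rw [div_le_div_iff₀ (by positivity) hK0, one_mul, div_mul_eq_mul_div]
          exact hLK.trans (le_self_pow₀ (by linarith) (by norm_num))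
      _ = _ := by ring
  calc _ ≤ (X : ℝ) ^ 2 / K + 12000 * (X : ℝ) ^ 2 * (2 / K) := add_le_add hmain le_rfl
    _ ≤ _ := by
      rw [show 12000 * (X : ℝ) ^ 2 * (2 / K) = 24000 * ((X : ℝ) ^ 2 / K) by ring, mul_div_assoc]
      linarith [show (0 : ℝ) ≤ (X : ℝ) ^ 2 / K by positivity]

end FA.ShortLiouville

end
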