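import Fermat.Agent.ShortLiouville.Basic

/-!
# Moments of short Dirichlet polynomials over primes

`∫ |Q ^ l R|²` for `Q` over primes up to `P` and `R` of length `M`: the coefficients of the product
have square sum at most `N (S (S + 2 l)) ^ l`, `N = P ^ l M` and `S = ∑ w p / p`.
-/

set_option autoImplicit false

noncomputable section

namespace FA.ShortLiouville

open MeasureTheory Finset FA.Hoheisel
open scoped Real

/-- The tuples of length `l` of members of `s`. -/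
def tuples (s : Finset ℕ) (l : ℕ) : Finset (Fin l → ℕ) := Fintype.piFinset fun _ => s

theorem mem_tuples {s : Finset ℕ} {l : ℕ} {f : Fin l → ℕ} : f ∈ tuples s l ↔ ∀ i, f i ∈ s :=
  Fintype.mem_piFinset

theorem gcd_prod_le {ι : Type*} (s : Finset ι) (q : ι → ℕ) (P : ℕ) :
    P.gcd (∏ i ∈ s, q i) ∣ ∏ i ∈ s, P.gcd (q i) := by
  classical
  induction s using Finset.induction with
  | empty => simp
  | insert a s ha ih =>
    rw [prod_insert ha, prod_insert ha]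
    have h := gcd_mul_dvd_mul_gcd P (q a) (∏ i ∈ s, q i)
    simp only [gcd_eq_nat_gcd] at h
    exact h.trans (mul_dvd_mul_left _ ih)

/-- One coordinate of the sum over the second tuple. -/
theorem sum_gcd_div_le {s : Finset ℕ} (hs : ∀ p ∈ s, p.Prime) {w : ℕ → ℝ}
    (hw0 : ∀ p ∈ s, 0 ≤ w p) (hw2 : ∀ p ∈ s, w p ≤ 2) {l : ℕ} {f : Fin l → ℕ}
    (hf : f ∈ tuples s l) :
    ∑ q ∈ s, w q * (((∏ i, f i).gcd q : ℕ) : ℝ) / q ≤ ∑ q ∈ s, w q / q + 2 * l := by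
  classical
  have h : ∀ q ∈ s, w q * (((∏ i, f i).gcd q : ℕ) : ℝ) / q ≤
      w q / q + if q ∈ Finset.univ.image f then 2 else 0 := fun q hq => by
    have hq0 : (0 : ℝ) < q := Nat.cast_pos.2 (hs q hq).pos
    by_cases hd : q ∣ ∏ i, f i
    · obtain ⟨i, -, hi⟩ := (hs q hq).prime.exists_mem_finset_dvd hd
      have hmem : q ∈ Finset.univ.image f := mem_image.2 ⟨i, mem_univ i,
        (((Nat.prime_dvd_prime_iff_eq (hs q hq) (hs _ (mem_tuples.1 hf i))).1 hi)).symm⟩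
      rw [if_pos hmem, Nat.gcd_eq_right hd, mul_div_assoc, div_self hq0.ne', mul_one]
      linarith [div_nonneg (hw0 q hq) hq0.le, hw2 q hq]
    · rw [Nat.gcd_comm, ((hs q hq).coprime_iff_not_dvd.2 hd).gcd_eq_one, Nat.cast_one, mul_one]
      split_ifs <;> linarith
  refine (sum_le_sum h).trans ?_
  rw [sum_add_distrib, ← sum_filter]
  refine add_le_add le_rfl ?_
  rw [sum_const, nsmul_eq_mul, mul_comm]
  refine mul_le_mul_of_nonneg_left (Nat.cast_le.2 ?_) two_pos.le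
  refine (card_le_card fun q hq => (mem_filter.1 hq).2).trans (card_image_le.trans ?_)
  simp

/-- **The square sum of the coefficients of `Q ^ l R`.** -/
theorem sum_count_sq_le {s : Finset ℕ} (hs : ∀ p ∈ s, p.Prime) {w : ℕ → ℝ}
    (hw0 : ∀ p ∈ s, 0 ≤ w p) (hw2 : ∀ p ∈ s, w p ≤ 2) (l N : ℕ) :
    ∑ n ∈ Ioc 0 N,
        (∑ f ∈ tuples s l, if (∏ i, f i) ∣ n then ∏ i, w (f i) else 0) ^ 2 ≤
      (N : ℝ) * ((∑ p ∈ s, w p / p) * ((∑ p ∈ s, w p / p) + 2 * l)) ^ l := by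
  classical
  have hW : ∀ f ∈ tuples s l, 0 ≤ ∏ i, w (f i) := fun f hf =>
    prod_nonneg fun i _ => hw0 _ (mem_tuples.1 hf i)
  have hP : ∀ f ∈ tuples s l, 0 < ∏ i, f i := fun f hf =>
    prod_pos fun i _ => (hs _ (mem_tuples.1 hf i)).pos
  have hkey : ∀ f ∈ tuples s l, ∀ g ∈ tuples s l,
      ∑ n ∈ Ioc 0 N, (if (∏ i, f i) ∣ n then ∏ i, w (f i) else 0) *
          (if (∏ i, g i) ∣ n then ∏ i, w (g i) else 0) ≤
        (N : ℝ) * ((∏ i, w (f i)) / (∏ i, f i : ℕ)) *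
          ((∏ i, w (g i)) * (((∏ i, f i).gcd (∏ i, g i) : ℕ) : ℝ) / (∏ i, g i : ℕ)) := by
    intro f hf g hg
    obtain ⟨a, ha⟩ : ∃ a, a = ∏ i, f i := ⟨_, rfl⟩
    obtain ⟨b, hb⟩ : ∃ b, b = ∏ i, g i := ⟨_, rfl⟩
    have ha0 : 0 < a := ha ▸ hP f hf
    have hb0 : 0 < b := hb ▸ hP g hg
    rw [← ha, ← hb]
    have e : ∑ n ∈ Ioc 0 N, (if a ∣ n then ∏ i, w (f i) else 0) *
        (if b ∣ n then ∏ i, w (g i) else 0) =
        (∏ i, w (f i)) * (∏ i, w (g i)) * ((N / Nat.lcm a b : ℕ) : ℝ) := by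
      rw [← Nat.Ioc_filter_dvd_card_eq_div, card_eq_sum_ones, Nat.cast_sum, sum_filter, mul_sum]
      refine sum_congr rfl fun n _ => ?_
      by_cases h : Nat.lcm a b ∣ n
      · rw [if_pos ((Nat.dvd_lcm_left a b).trans h), if_pos ((Nat.dvd_lcm_right a b).trans h),
          if_pos h, Nat.cast_one, mul_one]
      · rw [if_neg h, mul_zero]
        by_cases h1 : a ∣ n
        · rw [if_neg fun h2 => h (Nat.lcm_dvd h1 h2), mul_zero]
        · rw [if_neg h1, zero_mul]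
    rw [e]
    refine (mul_le_mul_of_nonneg_left Nat.cast_div_le
      (mul_nonneg (hW f hf) (hW g hg))).trans (le_of_eq ?_)
    have hgcd : ((a.gcd b : ℕ) : ℝ) * (Nat.lcm a b : ℕ) = (a : ℝ) * b := by
      exact_mod_cast Nat.gcd_mul_lcm a b
    have hl0 : ((Nat.lcm a b : ℕ) : ℝ) ≠ 0 := Nat.cast_ne_zero.2 (Nat.lcm_pos ha0 hb0).ne'
    have ha' : (a : ℝ) ≠ 0 := Nat.cast_ne_zero.2 ha0.ne'
    have hb' : (b : ℝ) ≠ 0 := Nat.cast_ne_zero.2 hb0.ne'
    field_simp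
    linear_combination (-(∏ i, w (f i)) * (∏ i, w (g i)) * N) * hgcd
  obtain ⟨S, hS⟩ : ∃ S, S = ∑ p ∈ s, w p / p := ⟨_, rfl⟩
  rw [← hS]
  have hinner : ∀ f ∈ tuples s l, ∑ g ∈ tuples s l,
      (∏ i, w (g i)) * (((∏ i, f i).gcd (∏ i, g i) : ℕ) : ℝ) / (∏ i, g i : ℕ) ≤
        (S + 2 * l) ^ l := by
    intro f hf
    calc _ ≤ ∑ g ∈ tuples s l, ∏ i, w (g i) * (((∏ j, f j).gcd (g i) : ℕ) : ℝ) / (g i : ℕ) := by
          refine sum_le_sum fun g hg => ?_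
          rw [prod_div_distrib, prod_mul_distrib, ← Nat.cast_prod, ← Nat.cast_prod]
          refine div_le_div_of_nonneg_right (mul_le_mul_of_nonneg_left (Nat.cast_le.2
            (Nat.le_of_dvd ?_ (gcd_prod_le _ _ _))) (hW g hg)) (Nat.cast_nonneg _)
          exact prod_pos fun i _ => Nat.gcd_pos_of_pos_left _ (hP f hf)
      _ = (∑ q ∈ s, w q * (((∏ j, f j).gcd q : ℕ) : ℝ) / q) ^ l :=
          (sum_pow' s (fun q => w q * (((∏ j, f j).gcd q : ℕ) : ℝ) / q) l).symm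
      _ ≤ _ := pow_le_pow_left₀ (sum_nonneg fun q hq =>
          div_nonneg (mul_nonneg (hw0 q hq) (Nat.cast_nonneg _)) (Nat.cast_nonneg _))
          (hS ▸ sum_gcd_div_le hs hw0 hw2 hf) l
  simp only [sq, sum_mul_sum]
  rw [sum_comm]
  simp only [sum_comm (s := Ioc 0 N)]
  refine (sum_le_sum fun f hf => (sum_le_sum fun g hg => hkey f hf g hg).trans
    (le_of_eq (mul_sum _ _ _).symm) |>.trans
      (mul_le_mul_of_nonneg_left (hinner f hf)
        (mul_nonneg (Nat.cast_nonneg N) (div_nonneg (hW f hf) (Nat.cast_nonneg _))))).trans ?_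
  rw [← sum_mul, ← mul_sum, mul_pow, mul_assoc]
  refine le_of_eq (congrArg (fun x => (N : ℝ) * (x * (S + 2 * l) ^ l)) ?_)
  rw [hS, sum_pow']
  refine sum_congr rfl fun f _ => ?_
  rw [prod_div_distrib, Nat.cast_prod]

/-- `Q ^ l R` as a single polynomial. -/
theorem dpoly_pow_mul (s t : Finset ℕ) (w a : ℕ → ℂ) (l : ℕ) {N : ℕ}
    (hN : ∀ f ∈ tuples s l, ∀ m ∈ t, (∏ i, f i) * m ∈ Ioc 0 N) (x : ℝ) :
    dpoly s w x ^ l * dpoly t a x = dpoly (Ioc 0 N)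
      (fun n => ∑ f ∈ tuples s l, ∑ m ∈ t,
        if (∏ i, f i) * m = n then (∏ i, w (f i)) * a m else 0) x := by
  classical
  obtain ⟨E, hE⟩ : ∃ E : ℕ → ℂ, E = fun n : ℕ => (n : ℂ) ^ (-(Complex.I * (x : ℂ))) := ⟨_, rfl⟩
  have hmul : ∀ m n, E (m * n) = E m * E n := fun m n => by rw [hE]; exact natCast_mul_cpow m n _
  have h1 : E 1 = 1 := by simp [hE]
  have hprod : ∀ f : Fin l → ℕ, E (∏ i, f i) = ∏ i, E (f i) := fun f => by
    refine Finset.induction_on (Finset.univ : Finset (Fin l)) (by simp [h1]) fun i u hi ih => ?_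
    rw [prod_insert hi, prod_insert hi, hmul, ih]
  simp only [dpoly]
  rw [sum_pow', sum_mul_sum]
  simp only [sum_mul]
  conv_rhs => rw [sum_comm]
  refine sum_congr rfl fun f hf => ?_
  conv_rhs => rw [sum_comm]
  refine sum_congr rfl fun m hm => ?_
  simp only [ite_mul, zero_mul]
  rw [sum_ite_eq, if_pos (hN f hf m hm), prod_mul_distrib]
  have hE' : ∀ n : ℕ, (n : ℂ) ^ (-(Complex.I * (x : ℂ))) = E n := fun n => by rw [hE]
  simp only [hE']
  rw [hmul, hprod]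
  ring

/-- **The mean square of `Q ^ l R`.** -/
theorem setIntegral_pow_mul_le {s : Finset ℕ} (hs : ∀ p ∈ s, p.Prime) {w : ℕ → ℝ}
    (hw0 : ∀ p ∈ s, 0 ≤ w p) (hw2 : ∀ p ∈ s, w p ≤ 2) {b : ℕ → ℂ}
    (hbw : ∀ p ∈ s, ‖b p‖ ≤ w p) {t : Finset ℕ} (ht : ∀ m ∈ t, 1 ≤ m)
    {a : ℕ → ℂ} (ha : ∀ m ∈ t, ‖a m‖ ≤ 1) {P M : ℝ} (hP0 : 0 ≤ P) (hP : ∀ p ∈ s, (p : ℝ) ≤ P)
    (hM0 : 0 ≤ M) (hM : ∀ m ∈ t, (m : ℝ) ≤ M) (l : ℕ) {T : ℝ} (hT : 0 ≤ T) {U : Set ℝ}
    (hU : U ⊆ Set.Icc (-T) T) :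
    ∫ x in U, ‖dpoly s b x ^ l * dpoly t a x‖ ^ 2 ≤
      (2 * T + 19 * (P ^ l * M)) *
        (P ^ l * M * ((∑ p ∈ s, w p / p) * ((∑ p ∈ s, w p / p) + 2 * l)) ^ l) := by
  classical
  obtain ⟨N, hN⟩ : ∃ N, N = ⌊P ^ l * M⌋₊ := ⟨_, rfl⟩
  have hNle : (N : ℝ) ≤ P ^ l * M := hN ▸ Nat.floor_le (mul_nonneg (pow_nonneg hP0 l) hM0)
  have hmem : ∀ f ∈ tuples s l, ∀ m ∈ t, (∏ i, f i) * m ∈ Ioc 0 N := fun f hf m hm => by
    refine mem_Ioc.2 ⟨Nat.mul_pos (prod_pos fun i _ => (hs _ (mem_tuples.1 hf i)).pos) (ht m hm),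
      hN ▸ Nat.le_floor ?_⟩
    push_cast
    refine mul_le_mul ?_ (hM m hm) (Nat.cast_nonneg m) (pow_nonneg hP0 l)
    refine (prod_le_prod (fun i _ => Nat.cast_nonneg _)
      fun i _ => hP _ (mem_tuples.1 hf i)).trans (le_of_eq ?_)
    simp
  simp only [dpoly_pow_mul s t _ a l hmem]
  refine (setIntegral_dpoly_le (M := N) (fun n hn => by
    simp only [mem_Ioc, mem_Icc] at hn ⊢; omega) _ hT hU).trans ?_
  have hS0 : 0 ≤ ∑ p ∈ s, w p / p :=
    sum_nonneg fun p hp => div_nonneg (hw0 p hp) (Nat.cast_nonneg p)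
  refine mul_le_mul (by linarith) ?_ (sum_nonneg fun n _ => sq_nonneg _)
    (by have := mul_nonneg (pow_nonneg hP0 l) hM0; linarith)
  refine (sum_le_sum fun n _ => pow_le_pow_left₀ (norm_nonneg _) ?_ 2).trans
    ((sum_count_sq_le hs hw0 hw2 l N).trans
      (mul_le_mul_of_nonneg_right hNle (pow_nonneg (mul_nonneg hS0 (by positivity)) l)))
  refine (norm_sum_le _ _).trans (sum_le_sum fun f hf => (norm_sum_le _ _).trans ?_)
  have hw : 0 ≤ ∏ i, w (f i) := prod_nonneg fun i _ => hw0 _ (mem_tuples.1 hf i)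
  have hb : ∀ m ∈ t, ‖if (∏ i, f i) * m = n then (∏ i, b (f i)) * a m else 0‖ ≤
      if (∏ i, f i) * m = n then ∏ i, w (f i) else 0 := fun m hm => by
    split_ifs with h
    · rw [norm_mul, norm_prod]
      exact (mul_le_of_le_one_right (prod_nonneg fun i _ => norm_nonneg _) (ha m hm)).trans
        (prod_le_prod (fun i _ => norm_nonneg _) fun i _ => hbw _ (mem_tuples.1 hf i))
    · rw [norm_zero]
  refine (sum_le_sum hb).trans ?_
  rw [← sum_filter, sum_const, nsmul_eq_mul]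
  have hpos : 0 < ∏ i, f i := prod_pos fun i _ => (hs _ (mem_tuples.1 hf i)).pos
  have hcard : (t.filter fun m => (∏ i, f i) * m = n).card ≤ 1 :=
    card_le_one.2 fun x hx y hy =>
      Nat.eq_of_mul_eq_mul_left hpos ((mem_filter.1 hx).2.trans (mem_filter.1 hy).2.symm)
  split_ifs with hd
  · exact mul_le_of_le_one_left hw (Nat.cast_le_one.2 hcard)
  · rw [filter_eq_empty_iff.2 fun m _ h => hd ⟨m, h.symm⟩, card_empty, Nat.cast_zero, zero_mul]

end FA.ShortLiouville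

end
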