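import Fermat.Agent.ShortLiouville.Bilinear
import Fermat.Agent.ShortLiouville.Moments
import Fermat.Agent.ShortLiouville.LargeValues
import Fermat.Agent.ErdosKac.Mertens

/-!
# A level of the iteration

The primes of `(e ^ a, e ^ b]` cut at `e ^ (v / H)`. If the polynomial of a piece is small the
product with its cofactor is small in mean; if a piece of the level below is large, a power of it
is traded for the loss (the iteration of Matomäki and Radziwiłł).
-/

set_option autoImplicit false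

noncomputable section

namespace FA.ShortLiouville

open MeasureTheory Finset FA.Hoheisel
open scoped Real

/-- The primes of `(e ^ (v / H), e ^ ((v + 1) / H)]`. -/
def levelPrimes (H v : ℕ) : Finset ℕ :=
  (Ioc ⌊Real.exp ((v : ℝ) / H)⌋₊ ⌊Real.exp (((v : ℝ) + 1) / H)⌋₊).filter Nat.Prime

theorem mem_levelPrimes {H v p : ℕ} : p ∈ levelPrimes H v ↔
    p.Prime ∧ Real.exp ((v : ℝ) / H) < p ∧ (p : ℝ) ≤ Real.exp (((v : ℝ) + 1) / H) := by
  simp only [levelPrimes, mem_filter, mem_Ioc, Nat.floor_lt (Real.exp_pos _).le,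
    Nat.le_floor_iff (Real.exp_pos _).le]
  tauto

theorem eq_of_mem_levelPrimes {H v w p : ℕ} (hv : p ∈ levelPrimes H v)
    (hw : p ∈ levelPrimes H w) : v = w := by
  have key : ∀ i j : ℕ, p ∈ levelPrimes H i → p ∈ levelPrimes H j → ¬i < j := fun i j hi hj h => by
    rw [mem_levelPrimes] at hi hj
    have : Real.exp (((i : ℝ) + 1) / H) ≤ Real.exp ((j : ℝ) / H) :=
      Real.exp_le_exp.2 (div_le_div_of_nonneg_right (by exact_mod_cast h) (Nat.cast_nonneg H))
    linarith [hi.2.2, hj.2.1]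
  rcases Nat.lt_trichotomy v w with h | h | h
  · exact (key v w hv hw h).elim
  · exact h
  · exact (key w v hw hv h).elim

/-- The pieces of the primes of `(e ^ a, e ^ b]`. -/
def levelPieces (a b H : ℕ) : Pieces where
  index := Ico (a * H) (b * H)
  start v := Real.exp ((v : ℝ) / H)
  primes := levelPrimes H
  weight _ _ := 1
  ratio := Real.exp (1 / (H : ℝ))
  one_le_ratio := Real.one_le_exp (by positivity)
  start_pos v _ := Real.exp_pos _
  prime_mem v _ p hp := (mem_filter.1 hp).2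
  range_mem v _ p hp := by
    obtain ⟨-, h1, h2⟩ := mem_levelPrimes.1 hp
    refine ⟨h1.le, h2.trans (le_of_eq ?_)⟩
    rw [← Real.exp_add]
    ring_nf
  weight_nonneg v _ p _ := zero_le_one
  total_le p := by
    classical
    by_cases h : ∃ w ∈ Ico (a * H) (b * H), p ∈ levelPrimes H w
    · obtain ⟨w, hw, hwp⟩ := h
      rw [sum_eq_single_of_mem w hw fun i _ hi =>
        if_neg fun hip => hi (eq_of_mem_levelPrimes hip hwp), if_pos hwp]
      norm_num
    · rw [sum_eq_zero fun i hi => if_neg fun hip => h ⟨i, hi, hip⟩]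
      norm_num

theorem exists_levelPieces_mass : ∃ C : ℝ, ∀ a b H : ℕ, 1 ≤ a → 2 ≤ b → a ≤ b → 1 ≤ H →
    Real.log ((b : ℝ) / a) - C ≤ (levelPieces a b H).mass := by
  obtain ⟨C, hC⟩ := ErdosKac.exists_abs_recipSum_sub_le
  refine ⟨2 * C + 1, fun a b H ha hb hab hH => ?_⟩
  obtain ⟨A, hA⟩ : ∃ A, A = ⌊Real.exp (a : ℝ)⌋₊ := ⟨_, rfl⟩
  obtain ⟨B, hB⟩ : ∃ B, B = ⌊Real.exp (b : ℝ)⌋₊ := ⟨_, rfl⟩
  have hA2 : 2 ≤ A := hA ▸ Nat.le_floor (by
    push_cast
    linarith [Real.add_one_le_exp (a : ℝ), (Nat.one_le_cast.2 ha : (1 : ℝ) ≤ a)])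
  have hAB : A ≤ B := hA ▸ hB ▸ Nat.floor_le_floor (Real.exp_le_exp.2 (Nat.cast_le.2 hab))
  have hsub : (Ioc A B).filter Nat.Prime ⊆ (levelPieces a b H).support := fun p hp => by
    rw [mem_filter, mem_Ioc, hA, hB, Nat.floor_lt (Real.exp_pos _).le,
      Nat.le_floor_iff (Real.exp_pos _).le] at hp
    obtain ⟨⟨h1, h2⟩, hpp⟩ := hp
    have hp0 : (0 : ℝ) < p := Nat.cast_pos.2 hpp.pos
    rw [← Real.lt_log_iff_exp_lt hp0] at h1
    rw [← Real.log_le_iff_le_exp hp0] at h2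
    have hH0 : (0 : ℝ) < H := Nat.cast_pos.2 hH
    obtain ⟨q, hq⟩ : ∃ q : ℝ, q = Real.log p * H := ⟨_, rfl⟩
    have hqa : ((a * H : ℕ) : ℝ) < q := by push_cast; rw [hq]; exact mul_lt_mul_of_pos_right h1 hH0
    have hqb : q ≤ ((b * H : ℕ) : ℝ) := by
      push_cast; rw [hq]; exact mul_le_mul_of_nonneg_right h2 hH0.le
    obtain ⟨v, hv⟩ : ∃ v, v + 1 = ⌈q⌉₊ :=
      ⟨⌈q⌉₊ - 1, Nat.sub_add_cancel (Nat.ceil_pos.2 ((Nat.cast_nonneg _).trans_lt hqa))⟩
    have hv1 : q ≤ (v : ℝ) + 1 := (Nat.le_ceil q).trans (le_of_eq (by rw [← hv]; push_cast; rfl))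
    have hv2 : (v : ℝ) < q := by
      have := Nat.ceil_lt_add_one ((Nat.cast_nonneg (a * H)).trans hqa.le)
      rw [← hv] at this
      push_cast at this
      linarith
    have hlo : a * H ≤ v := by
      have : ((a * H : ℕ) : ℝ) < ((v + 1 : ℕ) : ℝ) := by push_cast at hqa ⊢; linarith
      exact Nat.lt_succ_iff.1 (Nat.cast_lt.1 this)
    have hhi : v < b * H := Nat.cast_lt.1 (hv2.trans_le hqb)
    refine mem_biUnion.2 ⟨v, mem_Ico.2 ⟨hlo, hhi⟩, mem_levelPrimes.2 ⟨hpp, ?_, ?_⟩⟩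
    · rw [← Real.lt_log_iff_exp_lt hp0, div_lt_iff₀ hH0]
      linarith
    · rw [← Real.log_le_iff_le_exp hp0, le_div_iff₀ hH0]
      linarith
  have hwt : ∀ p ∈ (Ioc A B).filter Nat.Prime, (p : ℝ)⁻¹ ≤ (levelPieces a b H).wt p / p := by
    intro p hp
    obtain ⟨v, hv, hpv⟩ := mem_biUnion.1 (hsub hp)
    rw [inv_eq_one_div]
    refine div_le_div_of_nonneg_right ?_ (Nat.cast_nonneg p)
    rw [Pieces.wt]
    refine le_trans (le_of_eq ?_) (single_le_sum (fun i hi => ?_) hv)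
    · rw [if_pos hpv]; rfl
    · split_ifs with h
      · exact (levelPieces a b H).weight_nonneg i hi p h
      · exact le_rfl
  rw [Pieces.mass]
  refine le_trans ?_ (sum_le_sum_of_subset_of_nonneg hsub fun p _ _ =>
    div_nonneg ((levelPieces a b H).wt_nonneg p) (Nat.cast_nonneg p))
  refine le_trans ?_ (sum_le_sum hwt)
  have e : ∑ p ∈ (Ioc A B).filter Nat.Prime, (p : ℝ)⁻¹ =
      ErdosKac.recipSum B - ErdosKac.recipSum A := by
    rw [ErdosKac.recipSum, ErdosKac.recipSum, ErdosKac.primesUpTo, ErdosKac.primesUpTo,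
      sum_filter, sum_filter, sum_filter, show Icc 1 B = Ioc 0 B from rfl,
      show Icc 1 A = Ioc 0 A from rfl, ← sum_Ioc_consecutive _ (Nat.zero_le _) hAB]
    ring
  rw [e]
  have h1 := (abs_le.1 (hC A hA2)).2
  have h2 := (abs_le.1 (hC B (hA2.trans hAB))).1
  have ha1 : (1 : ℝ) ≤ a := Nat.one_le_cast.2 ha
  have hb2 : (2 : ℝ) ≤ b := Nat.ofNat_le_cast.2 hb
  have hla : Real.log (Real.log A) ≤ Real.log a := by
    have hA0 : (2 : ℝ) ≤ A := Nat.ofNat_le_cast.2 hA2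
    refine Real.log_le_log (Real.log_pos (by linarith)) ?_
    rw [Real.log_le_iff_le_exp (by linarith), hA]
    exact Nat.floor_le (Real.exp_pos _).le
  have hlb : Real.log b - 1 ≤ Real.log (Real.log B) := by
    have h3 : (b : ℝ) - 1 ≤ Real.log B := by
      rw [Real.le_log_iff_exp_le (Nat.cast_pos.2 (by omega))]
      have h4 : Real.exp (b : ℝ) < B + 1 := hB ▸ Nat.lt_floor_add_one _
      have h5 : 2 * Real.exp ((b : ℝ) - 1) ≤ Real.exp (b : ℝ) := by
        rw [show Real.exp (b : ℝ) = Real.exp 1 * Real.exp ((b : ℝ) - 1) by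
          rw [← Real.exp_add]; ring_nf]
        exact mul_le_mul_of_nonneg_right (by linarith [Real.exp_one_gt_d9]) (Real.exp_pos _).le
      linarith [Real.one_le_exp (show 0 ≤ (b : ℝ) - 1 by linarith)]
    refine le_trans ?_ (Real.log_le_log (by linarith) h3)
    rw [sub_le_iff_le_add, show (1 : ℝ) = Real.log (Real.exp 1) by rw [Real.log_exp],
      ← Real.log_mul (by rw [Real.log_exp]; linarith) (Real.exp_pos 1).ne']
    refine Real.log_le_log (by linarith) ?_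
    rw [Real.log_exp]
    nlinarith [Real.exp_one_gt_d9]
  rw [Real.log_div (by linarith) (by linarith)]
  linarith

theorem level_piece_recip_le (H v : ℕ) : ∑ p ∈ levelPrimes H v, 1 / (p : ℝ) ≤ 3 := by
  have hP := Real.exp_pos ((v : ℝ) / H)
  refine (sum_le_card_nsmul _ _ (1 / Real.exp ((v : ℝ) / H)) fun p hp =>
    one_div_le_one_div_of_le hP (mem_levelPrimes.1 hp).2.1.le).trans ?_
  rw [nsmul_eq_mul, mul_one_div, div_le_iff₀ hP]
  refine (Nat.cast_le.2 (card_filter_le _ _)).trans ?_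
  rw [Nat.card_Ioc]
  refine le_trans (Nat.cast_le.2 (Nat.sub_le _ _)) ((Nat.floor_le (Real.exp_pos _).le).trans ?_)
  rw [add_div, Real.exp_add, mul_comm]
  refine mul_le_mul_of_nonneg_right ((Real.exp_le_exp.2 ?_).trans Real.exp_one_lt_three.le) hP.le
  rcases Nat.eq_zero_or_pos H with rfl | hH
  · simp
  · rw [div_le_one (Nat.cast_pos.2 hH)]
    exact Nat.one_le_cast.2 hH

theorem levelPieces_size_le (a b H : ℕ) : (levelPieces a b H).size ≤ 2 * Real.exp (b : ℝ) := by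
  refine (sum_le_card_nsmul _ _ 2 fun p _ => (levelPieces a b H).total_le p).trans ?_
  rw [nsmul_eq_mul, mul_comm]
  refine mul_le_mul_of_nonneg_left ?_ two_pos.le
  have hsub : (levelPieces a b H).support ⊆ Ioc 0 ⌊Real.exp (b : ℝ)⌋₊ := fun p hp => by
    rw [Pieces.support, mem_biUnion] at hp
    obtain ⟨v, hv, hp⟩ := hp
    obtain ⟨hpp, -, h2⟩ := mem_levelPrimes.1 hp
    refine mem_Ioc.2 ⟨hpp.pos, Nat.le_floor (h2.trans (Real.exp_le_exp.2 ?_))⟩
    have hvb : v + 1 ≤ b * H := (mem_Ico.1 hv).2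
    rcases Nat.eq_zero_or_pos H with rfl | hH
    · simp
    · rw [div_le_iff₀ (Nat.cast_pos.2 hH)]
      exact_mod_cast hvb
  refine (Nat.cast_le.2 (card_le_card hsub)).trans ?_
  rw [Nat.card_Ioc, Nat.sub_zero]
  exact Nat.floor_le (Real.exp_pos _).le

/-- The moments of one piece against a cofactor. -/
theorem level_moment_le (F : Twist) {H u : ℕ} {t : Finset ℕ} (ht : ∀ m ∈ t, 1 ≤ m) {c : ℕ → ℂ}
    (hc : ∀ m ∈ t, ‖c m‖ ≤ 1) {M : ℝ} (hM0 : 0 ≤ M) (hM : ∀ m ∈ t, (m : ℝ) ≤ M) (l : ℕ) {T : ℝ}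
    (hT : 0 ≤ T) (hTN : T ≤ Real.exp (((u : ℝ) + 1) / H * l) * M) {U : Set ℝ}
    (hU : U ⊆ Set.Icc (-T) T) :
    ∫ x in U, ‖dpoly (levelPrimes H u) (fun p => F.fn p * ((1 : ℝ) : ℂ)) x ^ l * dpoly t c x‖ ^ 2 ≤
      21 * (Real.exp (((u : ℝ) + 1) / H * l) * M) ^ 2 * (9 * ((l : ℝ) + 1)) ^ l := by
  obtain ⟨N, hN⟩ : ∃ N, N = Real.exp (((u : ℝ) + 1) / H * l) * M := ⟨_, rfl⟩
  rw [← hN] at hTN ⊢
  have hP : Real.exp (((u : ℝ) + 1) / H) ^ l * M = N := by
    rw [hN, ← Real.exp_nat_mul, mul_comm (l : ℝ)]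
  refine (setIntegral_pow_mul_le (s := levelPrimes H u) (fun p hp => (mem_filter.1 hp).2)
    (w := fun _ => 1)
    (fun _ _ => zero_le_one) (fun _ _ => one_le_two)
    (fun p _ => by simpa using F.norm_le p) ht hc (Real.exp_pos _).le
    (fun p hp => (mem_levelPrimes.1 hp).2.2) hM0 hM l hT hU).trans ?_
  rw [hP]
  obtain ⟨S, hS⟩ : ∃ S : ℝ, S = ∑ p ∈ levelPrimes H u, 1 / (p : ℝ) := ⟨_, rfl⟩
  have hS3 : S ≤ 3 := hS ▸ level_piece_recip_le H u
  have hS0 : 0 ≤ S := hS ▸ sum_nonneg fun p _ => by positivity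
  rw [← hS]
  have hl : (0 : ℝ) ≤ l := Nat.cast_nonneg l
  have hN0 : 0 ≤ N := hT.trans hTN
  have hb : (S * (S + 2 * l)) ^ l ≤ (9 * ((l : ℝ) + 1)) ^ l :=
    pow_le_pow_left₀ (by positivity) (by nlinarith) l
  calc (2 * T + 19 * N) * (N * (S * (S + 2 * l)) ^ l)
      ≤ 21 * N * (N * (9 * ((l : ℝ) + 1)) ^ l) := by gcongr; linarith
    _ = _ := by ring

/-- The part of `[-T, T]` on which every piece of the level is small. -/
def goodSet (F : Twist) (B : Pieces) (α T : ℝ) : Set ℝ :=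
  Set.Icc (-T) T ∩ ⋂ v ∈ B.index, {t | ‖B.piece F v t‖ ≤ B.start v ^ (1 - α)}

/-- The part on which one piece is large. -/
def largeSet (F : Twist) (B : Pieces) (α T : ℝ) (u : ℕ) : Set ℝ :=
  Set.Icc (-T) T ∩ {t | B.start u ^ (1 - α) < ‖B.piece F u t‖}

theorem continuous_piece (F : Twist) (B : Pieces) {v : ℕ} (hv : v ∈ B.index) :
    Continuous (B.piece F v) :=
  continuous_dpoly (fun p hp => (B.prime_mem v hv p hp).one_le) _

theorem measurableSet_goodSet (F : Twist) (B : Pieces) (α T : ℝ) :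
    MeasurableSet (goodSet F B α T) :=
  measurableSet_Icc.inter (Finset.measurableSet_biInter _ fun _ hv =>
    measurableSet_le (continuous_piece F B hv).norm.measurable measurable_const)

theorem measurableSet_largeSet (F : Twist) (B : Pieces) (α T : ℝ) {u : ℕ} (hu : u ∈ B.index) :
    MeasurableSet (largeSet F B α T u) :=
  measurableSet_Icc.inter
    (measurableSet_lt measurable_const (continuous_piece F B hu).norm.measurable)

/-- Off the good set some piece is large. -/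
theorem setIntegral_le_sum_largeSet (F : Twist) (B : Pieces) (α : ℝ) {T : ℝ} {U : Set ℝ}
    (hUm : MeasurableSet U) (hU : U ⊆ Set.Icc (-T) T) (hUg : Disjoint U (goodSet F B α T))
    {f : ℝ → ℝ}
    (hf : Continuous f) (h0 : ∀ t, 0 ≤ f t) :
    ∫ t in U, f t ≤ ∑ u ∈ B.index, ∫ t in U ∩ largeSet F B α T u, f t := by
  have hi : ∀ u ∈ B.index, IntegrableOn ((largeSet F B α T u).indicator f) U :=
    fun u hu => (hf.integrableOn_Icc.mono_set hU).indicator (measurableSet_largeSet F B α T hu)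
  calc ∫ t in U, f t
      ≤ ∫ t in U, ∑ u ∈ B.index, (largeSet F B α T u).indicator f t := by
        refine setIntegral_mono_on (hf.integrableOn_Icc.mono_set hU)
          (integrable_finsetSum _ hi) hUm fun t ht => ?_
        have hne : t ∉ goodSet F B α T := fun h => Set.disjoint_left.1 hUg ht h
        simp only [goodSet, Set.mem_inter_iff, hU ht, true_and, Set.mem_iInter, not_forall,
          Set.mem_ofPred_eq, not_le] at hne
        obtain ⟨u, hu, hlt⟩ := hne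
        refine le_trans (le_of_eq ?_) (single_le_sum
          (fun i _ => Set.indicator_nonneg (fun x _ => h0 x) t) hu)
        rw [Set.indicator_of_mem (show t ∈ largeSet F B α T u from ⟨hU ht, hlt⟩)]
    _ = _ := by
        rw [integral_finsetSum _ hi]
        exact sum_congr rfl fun u hu => setIntegral_indicator (measurableSet_largeSet F B α T hu)

theorem levelPieces_piece (F : Twist) (a b H u : ℕ) (x : ℝ) :
    (levelPieces a b H).piece F u x =
      dpoly (levelPrimes H u) (fun p => F.fn p * ((1 : ℝ) : ℂ)) x := rfl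

theorem cofRange_bounds (B : Pieces) {X v : ℕ} (hv : v ∈ B.index) :
    ∀ m ∈ B.cofRange X v, 1 ≤ m ∧ (m : ℝ) ≤ 5 * (X : ℝ) / B.start v := fun m hm => by
  obtain ⟨h1, h2⟩ := mem_Ioc.1 hm
  exact ⟨by omega, (Nat.cast_le.2 h2).trans
    (Nat.floor_le (div_nonneg (by positivity) (B.start_pos v hv).le))⟩

/-- **The first level.** -/
theorem first_level_le (F : Twist) {a b H X v : ℕ} {α T : ℝ} (hv : v ∈ (levelPieces a b H).index)
    (hT : 0 ≤ T)
    (hTX : T ≤ X / Real.exp ((v : ℝ) / H)) :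
    ∫ t in goodSet F (levelPieces a b H) α T,
        ‖(levelPieces a b H).piece F v t * (levelPieces a b H).cofactor F X v t‖ ^ 2 ≤
      485 * (X : ℝ) ^ 2 * Real.exp (-(2 * α * ((v : ℝ) / H))) := by
  obtain ⟨B, hB⟩ : ∃ B, B = levelPieces a b H := ⟨_, rfl⟩
  obtain ⟨P, hP⟩ : ∃ P, P = Real.exp ((v : ℝ) / H) := ⟨_, rfl⟩
  have hP0 : 0 < P := hP ▸ Real.exp_pos _
  have hst : B.start v = P := by rw [hB, hP]; rfl
  rw [← hB] at hv ⊢
  rw [← hP] at hTX
  have hcof := cofRange_bounds B (X := X) hv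
  rw [hst] at hcof
  have hc : Continuous fun t => ‖B.cofactor F X v t‖ ^ 2 :=
    ((continuous_dpoly (fun m hm => (hcof m hm).1) _).norm).pow 2
  have hcp : Continuous fun t => ‖B.piece F v t * B.cofactor F X v t‖ ^ 2 :=
    (((continuous_piece F B hv).mul (continuous_dpoly (fun m hm => (hcof m hm).1) _)).norm).pow 2
  have hg : goodSet F B α T ⊆ Set.Icc (-T) T := Set.inter_subset_left
  refine (setIntegral_mono_on (hcp.integrableOn_Icc.mono_set hg)
    ((hc.const_mul ((P ^ (1 - α)) ^ 2)).integrableOn_Icc.mono_set hg)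
    (measurableSet_goodSet F B α T) fun t ht => ?_).trans ?_
  · rw [norm_mul, mul_pow]
    refine mul_le_mul_of_nonneg_right (pow_le_pow_left₀ (norm_nonneg _) ?_ 2) (sq_nonneg _)
    have := Set.mem_iInter₂.1 ht.2 v hv
    rwa [Set.mem_ofPred_eq, hst] at this
  · rw [integral_const_mul]
    have hsum : ∑ m ∈ B.cofRange X v, ‖F.fn m‖ ^ 2 ≤ 5 * (X : ℝ) / P := by
      refine (sum_le_card_nsmul _ _ 1 fun m _ =>
        pow_le_one₀ (norm_nonneg _) (F.norm_le m)).trans ?_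
      rw [nsmul_one, Pieces.cofRange, Nat.card_Ioc, hst]
      exact (Nat.cast_le.2 (Nat.sub_le _ _)).trans (Nat.floor_le (by positivity))
    have hR := setIntegral_dpoly_le (s := B.cofRange X v) (M := ⌊5 * (X : ℝ) / P⌋₊) (fun m hm =>
      mem_Icc.2 ⟨(hcof m hm).1, Nat.le_floor (hcof m hm).2⟩) F.fn hT hg
    refine (mul_le_mul_of_nonneg_left hR (sq_nonneg _)).trans ?_
    have hbr : 2 * T + 19 * ((⌊5 * (X : ℝ) / P⌋₊ : ℕ) : ℝ) ≤ 97 * ((X : ℝ) / P) := by
      have := Nat.floor_le (show 0 ≤ 5 * (X : ℝ) / P by positivity)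
      rw [mul_div_assoc] at this ⊢
      linarith
    refine (mul_le_mul_of_nonneg_left (mul_le_mul hbr hsum
      (sum_nonneg fun m _ => sq_nonneg _) (by positivity)) (sq_nonneg _)).trans (le_of_eq ?_)
    have e : (P ^ (1 - α)) ^ 2 = P ^ 2 * Real.exp (-(2 * α * ((v : ℝ) / H))) := by
      rw [hP, ← Real.exp_mul, ← Real.exp_nat_mul, ← Real.exp_nat_mul, ← Real.exp_add]
      congr 1
      push_cast
      ring
    rw [e]
    field_simp
    ring

/-- **The step from one level to the next.** -/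
theorem next_level_le (F : Twist) {a b H a' b' H' X v u : ℕ} {α α' T κ : ℝ} (hb : 2 ≤ b)
    (hbb : b ≤ a')
    (hH : 1 ≤ H) (hH' : 1 ≤ H') (ha : 1 ≤ a) (hα : 0 ≤ α) (hα1 : α ≤ 1 / 2) (hκ0 : 0 ≤ κ)
    (hκ : Real.log (9 * ((b' : ℝ) + 3)) + 2 ≤ κ * a) (hκΔ : 2 * κ ≤ α' - α)
    (hv : v ∈ (levelPieces a' b' H').index) (hu : u ∈ (levelPieces a b H).index) (hT : 0 ≤ T)
    (hTX : T ≤ X) :
    ∫ t in goodSet F (levelPieces a' b' H') α' T ∩ largeSet F (levelPieces a b H) α T u,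
        ‖(levelPieces a' b' H').piece F v t * (levelPieces a' b' H').cofactor F X v t‖ ^ 2 ≤
      525 * (X : ℝ) ^ 2 * Real.exp (b - (α' - α) * a') := by
  obtain ⟨B, hB⟩ : ∃ B, B = levelPieces a b H := ⟨_, rfl⟩
  obtain ⟨B', hB'⟩ : ∃ B', B' = levelPieces a' b' H' := ⟨_, rfl⟩
  rw [← hB] at hu ⊢
  rw [← hB'] at hv ⊢
  obtain ⟨y, hy⟩ : ∃ y : ℝ, y = (u : ℝ) / H := ⟨_, rfl⟩
  obtain ⟨z, hz⟩ : ∃ z : ℝ, z = (v : ℝ) / H' := ⟨_, rfl⟩
  have hH0 : (0 : ℝ) < H := Nat.cast_pos.2 hH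
  have hH0' : (0 : ℝ) < H' := Nat.cast_pos.2 hH'
  have hu' : a * H ≤ u ∧ u < b * H := by rw [hB] at hu; exact mem_Ico.1 hu
  have hv' : a' * H' ≤ v ∧ v < b' * H' := by rw [hB'] at hv; exact mem_Ico.1 hv
  have hya : (a : ℝ) ≤ y := by rw [hy, le_div_iff₀ hH0]; exact_mod_cast hu'.1
  have hyb : y ≤ b := by rw [hy, div_le_iff₀ hH0]; exact_mod_cast hu'.2.le
  have hza : (a' : ℝ) ≤ z := by rw [hz, le_div_iff₀ hH0']; exact_mod_cast hv'.1
  have hzb : z ≤ b' := by rw [hz, div_le_iff₀ hH0']; exact_mod_cast hv'.2.le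
  have ha1 : (1 : ℝ) ≤ a := Nat.one_le_cast.2 ha
  have hb2 : (2 : ℝ) ≤ b := Nat.ofNat_le_cast.2 hb
  have hba : (b : ℝ) ≤ a' := Nat.cast_le.2 hbb
  have hy0 : 0 < y := by linarith
  obtain ⟨l, hl⟩ : ∃ l, l = ⌈z / y⌉₊ := ⟨_, rfl⟩
  have hl1 : (z / y : ℝ) ≤ l := hl ▸ Nat.le_ceil _
  have hl2 : (l : ℝ) < z / y + 1 := hl ▸ Nat.ceil_lt_add_one (div_nonneg (by linarith) hy0.le)
  have hzl : z ≤ l * y := by rwa [div_le_iff₀ hy0] at hl1
  have hlz : (l : ℝ) * y ≤ z + y := by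
    have := mul_le_mul_of_nonneg_right hl2.le hy0.le
    rwa [add_mul, div_mul_cancel₀ _ hy0.ne', one_mul] at this
  obtain ⟨P, hP⟩ : ∃ P, P = Real.exp y := ⟨_, rfl⟩
  obtain ⟨P', hP'⟩ : ∃ P', P' = Real.exp z := ⟨_, rfl⟩
  have hP0 : 0 < P := hP ▸ Real.exp_pos _
  have hP0' : 0 < P' := hP' ▸ Real.exp_pos _
  have hst : B.start u = P := by rw [hB, hP, hy]; rfl
  have hst' : B'.start v = P' := by rw [hB', hP', hz]; rfl
  have hcof := cofRange_bounds B' (X := X) hv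
  rw [hst'] at hcof
  have hcR := continuous_dpoly (fun m hm => (hcof m hm).1) (s := B'.cofRange X v) F.fn
  obtain ⟨U, hU⟩ : ∃ U, U = goodSet F B' α' T ∩ largeSet F B α T u := ⟨_, rfl⟩
  have hUT : U ⊆ Set.Icc (-T) T := hU ▸ Set.inter_subset_left.trans Set.inter_subset_left
  have hUm : MeasurableSet U :=
    hU ▸ (measurableSet_goodSet F _ _ _).inter (measurableSet_largeSet F _ _ _ hu)
  rw [← hU]
  have hexpu : ((u : ℝ) + 1) / H = y + 1 / H := by rw [hy, add_div]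
  have hH1 : 1 / (H : ℝ) ≤ 1 := (div_le_one hH0).2 (Nat.one_le_cast.2 hH)
  have hTN : T ≤ Real.exp (((u : ℝ) + 1) / H * l) * (5 * (X : ℝ) / P') := by
    have h1 : P' ≤ Real.exp (((u : ℝ) + 1) / H * l) := by
      rw [hP', Real.exp_le_exp, hexpu, add_mul, mul_comm y]
      linarith [mul_nonneg (div_nonneg zero_le_one hH0.le) (Nat.cast_nonneg (α := ℝ) l)]
    calc T ≤ 5 * X := by linarith
      _ = P' * (5 * (X : ℝ) / P') := by field_simp
      _ ≤ _ := mul_le_mul_of_nonneg_right h1 (by positivity)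
  have hmom := level_moment_le F (H := H) (u := u) (t := B'.cofRange X v)
    (fun m hm => (hcof m hm).1)
    (c := F.fn) (fun m _ => F.norm_le m) (M := 5 * (X : ℝ) / P') (by positivity)
    (fun m hm => (hcof m hm).2) l hT hTN hUT
  have hpt : ∀ t ∈ U, ‖B'.piece F v t * B'.cofactor F X v t‖ ^ 2 ≤
      (P' ^ (1 - α')) ^ 2 / (P ^ (1 - α)) ^ (2 * l) *
        ‖dpoly (levelPrimes H u) (fun p => F.fn p * ((1 : ℝ) : ℂ)) t ^ l *
          dpoly (B'.cofRange X v) F.fn t‖ ^ 2 := by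
    intro t ht
    rw [hU] at ht
    have h1 : ‖B'.piece F v t‖ ≤ P' ^ (1 - α') := by
      have := Set.mem_iInter₂.1 ht.1.2 v hv
      rwa [Set.mem_ofPred_eq, hst'] at this
    have h2 : P ^ (1 - α) ≤ ‖dpoly (levelPrimes H u) (fun p => F.fn p * ((1 : ℝ) : ℂ)) t‖ := by
      have h3 : B.start u ^ (1 - α) < ‖B.piece F u t‖ := ht.2.2
      rw [hst, hB, levelPieces_piece] at h3
      exact h3.le
    have hc0 : 0 < P ^ (1 - α) := Real.rpow_pos_of_pos hP0 _
    rw [norm_mul, norm_mul, norm_pow, mul_pow, mul_pow, ← pow_mul, mul_comm l 2,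
      show ‖B'.cofactor F X v t‖ = ‖dpoly (B'.cofRange X v) F.fn t‖ from rfl, ← mul_assoc]
    refine mul_le_mul_of_nonneg_right ?_ (sq_nonneg _)
    rw [div_mul_eq_mul_div, le_div_iff₀ (pow_pos hc0 _)]
    exact mul_le_mul (pow_le_pow_left₀ (norm_nonneg _) h1 2) (pow_le_pow_left₀ hc0.le h2 _)
      (pow_nonneg hc0.le _) (sq_nonneg _)
  have hcp : Continuous fun t => ‖B'.piece F v t * B'.cofactor F X v t‖ ^ 2 :=
    (((continuous_piece F B' hv).mul hcR).norm).pow 2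
  have hcm : Continuous fun t => ‖dpoly (levelPrimes H u) (fun p => F.fn p * ((1 : ℝ) : ℂ)) t ^ l *
      dpoly (B'.cofRange X v) F.fn t‖ ^ 2 :=
    ((((continuous_dpoly (fun p hp => ((mem_filter.1 hp).2).one_le) _).pow l).mul hcR).norm).pow 2
  refine (setIntegral_mono_on (hcp.integrableOn_Icc.mono_set hUT)
    ((hcm.const_mul _).integrableOn_Icc.mono_set hUT) hUm hpt).trans ?_
  rw [integral_const_mul]
  refine (mul_le_mul_of_nonneg_left hmom (by positivity)).trans ?_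
  obtain ⟨q, hq⟩ : ∃ q : ℝ, q = 9 * ((l : ℝ) + 1) := ⟨_, rfl⟩
  have hq0 : 0 < q := by rw [hq]; positivity
  rw [← hq, ← Real.exp_log (pow_pos hq0 l), Real.log_pow, hexpu, hP, hP', ← Real.exp_mul,
    ← Real.exp_mul, ← Real.exp_nat_mul, ← Real.exp_nat_mul, ← Real.exp_sub, mul_pow, div_pow,
    ← Real.exp_nat_mul, ← Real.exp_nat_mul]
  refine le_of_eq_of_le (b := 525 * (X : ℝ) ^ 2 * Real.exp ((((2 : ℕ) : ℝ) * (z * (1 - α')) -
      ((2 * l : ℕ) : ℝ) * (y * (1 - α))) + ((2 : ℕ) : ℝ) * ((y + 1 / H) * l) + (l : ℝ) *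
        Real.log q - ((2 : ℕ) : ℝ) * z)) ?_ ?_
  · rw [Real.exp_sub _ (((2 : ℕ) : ℝ) * z), Real.exp_add, Real.exp_add]
    ring
  refine mul_le_mul_of_nonneg_left (Real.exp_le_exp.2 ?_) (by positivity)
  have hlq : Real.log q + 2 ≤ κ * a := by
    refine le_trans (add_le_add (Real.log_le_log hq0 ?_) le_rfl) hκ
    have h1 : z / y ≤ b' := (div_le_self (by linarith) (by linarith)).trans hzb
    rw [hq]
    linarith
  have hla : (l : ℝ) * (κ * a) ≤ 2 * κ * z := by
    have h1 : (l : ℝ) * a ≤ 2 * z := by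
      have h2 : (l : ℝ) * a ≤ l * y := mul_le_mul_of_nonneg_left hya (Nat.cast_nonneg l)
      linarith
    calc (l : ℝ) * (κ * a) = κ * ((l : ℝ) * a) := by ring
      _ ≤ κ * (2 * z) := mul_le_mul_of_nonneg_left h1 hκ0
      _ = _ := by ring
  push_cast
  have h3 : (l : ℝ) * (2 * (1 / H) + Real.log q) ≤ (l : ℝ) * (κ * a) :=
    mul_le_mul_of_nonneg_left (by linarith) (Nat.cast_nonneg l)
  have h4 : 2 * α * ((l : ℝ) * y) ≤ 2 * α * z + b := by
    have := mul_le_mul_of_nonneg_left hlz (show 0 ≤ 2 * α by linarith)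
    nlinarith [mul_le_mul_of_nonneg_right (show 2 * α ≤ 1 by linarith) hy0.le]
  have h5 : 2 * κ * z ≤ (α' - α) * z := mul_le_mul_of_nonneg_right hκΔ (by linarith)
  have h6 : (α' - α) * a' ≤ (α' - α) * z := mul_le_mul_of_nonneg_left hza (by linarith)
  linear_combination h3 + hla + h4 + h5 + h6

/-- **The measure of the exceptional set of a level.** -/
theorem measureReal_largeSet_le (F : Twist) {a b H u : ℕ} {α T L : ℝ} (hH : 1 ≤ H) (ha : 1 ≤ a)
    (hu : u ∈ (levelPieces a b H).index) (hα : 0 ≤ α) (hT : 0 ≤ T) (hTL : T ≤ Real.exp L)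
    (hL : 0 ≤ L) :
    volume.real (largeSet F (levelPieces a b H) α T u) ≤
      21 * Real.exp (2 * α * (L + b) + (L / a + 1) * (Real.log (9 * (L + 2)) + 2)) := by
  obtain ⟨B, hB⟩ : ∃ B, B = levelPieces a b H := ⟨_, rfl⟩
  rw [← hB] at hu ⊢
  obtain ⟨y, hy⟩ : ∃ y : ℝ, y = (u : ℝ) / H := ⟨_, rfl⟩
  have hH0 : (0 : ℝ) < H := Nat.cast_pos.2 hH
  have hu' : a * H ≤ u ∧ u < b * H := by rw [hB] at hu; exact mem_Ico.1 hu
  have hya : (a : ℝ) ≤ y := by rw [hy, le_div_iff₀ hH0]; exact_mod_cast hu'.1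
  have hyb : y ≤ b := by rw [hy, div_le_iff₀ hH0]; exact_mod_cast hu'.2.le
  have ha1 : (1 : ℝ) ≤ a := Nat.one_le_cast.2 ha
  have hy0 : 0 < y := by linarith
  obtain ⟨k, hk⟩ : ∃ k, k = ⌈L / y⌉₊ := ⟨_, rfl⟩
  have hk1 : L ≤ k * y := by
    have := Nat.le_ceil (L / y)
    rwa [← hk, div_le_iff₀ hy0] at this
  have hk2 : (k : ℝ) ≤ L / y + 1 := hk ▸ (Nat.ceil_lt_add_one (div_nonneg hL hy0.le)).le
  have hk3 : (k : ℝ) * y ≤ L + b := by
    have := mul_le_mul_of_nonneg_right hk2 hy0.le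
    rw [add_mul, div_mul_cancel₀ _ hy0.ne', one_mul] at this
    linarith
  have hk4 : (k : ℝ) ≤ L / a + 1 :=
    hk2.trans (add_le_add (div_le_div_of_nonneg_left hL (by linarith) hya) le_rfl)
  have hexpu : ((u : ℝ) + 1) / H = y + 1 / H := by rw [hy, add_div]
  have hH1 : 1 / (H : ℝ) ≤ 1 := (div_le_one hH0).2 (Nat.one_le_cast.2 hH)
  have hsub : largeSet F B α T u ⊆ Set.Icc (-T) T := Set.inter_subset_left
  have hTN : T ≤ Real.exp (((u : ℝ) + 1) / H * k) * 1 := by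
    rw [mul_one, hexpu]
    refine hTL.trans (Real.exp_le_exp.2 ?_)
    have : 0 ≤ 1 / (H : ℝ) * k := by positivity
    linarith
  have hmom := level_moment_le F (H := H) (u := u) (t := {1}) (fun m hm => (mem_singleton.1 hm).ge)
    (c := fun _ => 1) (fun m _ => norm_one.le) zero_le_one
    (fun m hm => by rw [mem_singleton.1 hm]; norm_num) k hT hTN hsub
  have hcont : Continuous fun x => B.piece F u x ^ k := (continuous_piece F B hu).pow k
  have hc0 : 0 < Real.exp (y * (1 - α)) ^ k := pow_pos (Real.exp_pos _) k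
  refine (measureReal_le_moment (measurableSet_largeSet F B α T hu) hsub hcont hc0
    fun x hx => ?_).trans ?_
  · rw [norm_pow, Real.exp_mul]
    refine pow_le_pow_left₀ (Real.rpow_nonneg (Real.exp_pos _).le _) ?_ k
    have h3 : B.start u ^ (1 - α) < ‖B.piece F u x‖ := hx.2
    rw [hy]
    rw [hB] at h3 ⊢
    exact h3.le
  · refine (div_le_div_of_nonneg_right ((le_of_eq (integral_congr_ae (ae_of_all _ fun x => ?_)))
      |>.trans hmom) (sq_nonneg _)).trans ?_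
    · simp only [hB, levelPieces_piece, dpoly, sum_singleton, Nat.cast_one, Complex.one_cpow,
        mul_one]
    obtain ⟨q, hq⟩ : ∃ q : ℝ, q = 9 * ((k : ℝ) + 1) := ⟨_, rfl⟩
    have hq0 : 0 < q := by rw [hq]; positivity
    rw [← hq, mul_one, ← Real.exp_log (pow_pos hq0 k), Real.log_pow, hexpu, ← pow_mul,
      ← Real.exp_nat_mul, ← Real.exp_nat_mul, mul_assoc, ← Real.exp_add, mul_div_assoc,
      ← Real.exp_sub]
    refine mul_le_mul_of_nonneg_left (Real.exp_le_exp.2 ?_) (by norm_num)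
    push_cast
    have hlq : 2 * (1 / (H : ℝ)) + Real.log q ≤ Real.log (9 * (L + 2)) + 2 := by
      have h1 : k ≤ L + 1 := hk4.trans (add_le_add (div_le_self hL ha1) le_rfl)
      have h2 : Real.log q ≤ Real.log (9 * (L + 2)) :=
        Real.log_le_log hq0 (by rw [hq]; linarith)
      linarith
    have h3 : (k : ℝ) * (2 * (1 / H) + Real.log q) ≤
        (L / a + 1) * (Real.log (9 * (L + 2)) + 2) := by
      refine mul_le_mul hk4 hlq ?_ (by positivity)
      have : 0 ≤ Real.log q := Real.log_nonneg (by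
        rw [hq]
        linarith [(Nat.cast_nonneg k : (0 : ℝ) ≤ k)])
      positivity
    have h4 := mul_le_mul_of_nonneg_left hk3 (show 0 ≤ 2 * α by linarith)
    linear_combination h3 + h4

end FA.ShortLiouville

end
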