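import Fermat.Agent.ShortLiouville.Plancherel
import Mathlib.MeasureTheory.Integral.IntegralEqImproper

/-!
# From the Dirichlet polynomial to sums over short intervals

`∑_{X < m ≤ 2 X} |∑_{m < n ≤ m + h} λ n|²` is bounded by the mean square of
`∑_{X < n ≤ 5 X} λ n n ^ (-it)` on `[-T, T]`, for every `T`.
-/

set_option autoImplicit false

noncomputable section

namespace FA.ShortLiouville

open MeasureTheory Finset FA.Hoheisel
open scoped Real

/-- `∑_{m < n ≤ m + h} λ n`. -/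
def shortSum (h m : ℕ) : ℂ := ∑ n ∈ Ioc m (m + h), liou n

/-- `∑_{m < n ≤ m + h} g n`. -/
def twistSum (F : Twist) (h m : ℕ) : ℂ := ∑ n ∈ Ioc m (m + h), F.fn n

theorem norm_sum_fn_le (F : Twist) (s : Finset ℕ) : ‖∑ n ∈ s, F.fn n‖ ≤ s.card :=
  (norm_sum_le _ _).trans (by simpa using sum_le_sum (s := s) fun n _ => F.norm_le n)

theorem norm_sum_liou_le (s : Finset ℕ) : ‖∑ n ∈ s, liou n‖ ≤ s.card :=
  (norm_sum_le _ _).trans (by simpa using sum_le_sum (s := s) fun n _ => norm_liou_le n)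

/-- The window starting at `log x` differs little from the short sum. -/
theorem norm_twistSum_le (F : Twist) {X h K m : ℕ} {Y x : ℝ} (hX : 2 ≤ X) (hh : h ≤ X)
    (hY : (X : ℝ) ≤ Y)
    (hYm : Y < m) (hmY : (m : ℝ) ≤ Y + X / K) (hm : m ≤ 2 * X) (hx : (m : ℝ) ≤ x)
    (hx' : x < (m : ℝ) + 1) :
    ‖twistSum F h m‖ ≤ ‖logWindow (Ioc X (5 * X)) F.fn (Real.log (1 + h / Y)) (Real.log x)‖ +
      ((h : ℝ) / K + 2) := by
  have hX0 : (0 : ℝ) < X := Nat.cast_pos.2 (by omega)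
  have hY0 : 0 < Y := hX0.trans_le hY
  have hx0 : 0 < x := by linarith
  obtain ⟨N, hN⟩ : ∃ N, N = ⌊x * (1 + h / Y)⌋₊ := ⟨_, rfl⟩
  have hfl : ⌊x⌋₊ = m := (Nat.floor_eq_iff hx0.le).2 ⟨hx, hx'⟩
  have hXm : X < m := by exact_mod_cast hY.trans_lt hYm
  have hxh : (h : ℝ) ≤ x * (h / Y) := by
    rw [mul_div_assoc', le_div_iff₀ hY0, mul_comm]
    exact mul_le_mul_of_nonneg_right (hYm.le.trans hx) (Nat.cast_nonneg h)
  have hlo : m + h ≤ N := hN ▸ Nat.le_floor (by push_cast; linarith)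
  have hfrac : (h : ℝ) / Y ≤ h / X :=
    div_le_div_of_nonneg_left (Nat.cast_nonneg h) hX0 hY
  have hhX : (h : ℝ) / X ≤ 1 := (div_le_one hX0).2 (Nat.cast_le.2 hh)
  have hNX : N ≤ 5 * X := by
    rw [hN]
    refine Nat.floor_le_of_le ?_
    push_cast
    have hm' : (m : ℝ) ≤ 2 * X := by exact_mod_cast hm
    have hX2 : (2 : ℝ) ≤ X := Nat.ofNat_le_cast.2 hX
    nlinarith
  have hwin : logWindow (Ioc X (5 * X)) F.fn (Real.log (1 + h / Y)) (Real.log x) =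
      ∑ n ∈ Ioc m N, F.fn n := by
    classical
    rw [logWindow]
    simp only [Set.indicator_apply, ← sum_filter]
    refine sum_congr (Finset.ext fun n => ?_) fun _ _ => rfl
    simp only [mem_filter, mem_Ioc, Set.mem_Ico]
    have hpos : (0 : ℝ) < 1 + h / Y := by positivity
    constructor
    · rintro ⟨⟨h1, -⟩, h2, h3⟩
      have hn : (0 : ℝ) < n := Nat.cast_pos.2 (by omega)
      rw [sub_le_iff_le_add, ← Real.log_mul hx0.ne' hpos.ne',
        Real.log_le_log_iff hn (mul_pos hx0 hpos)] at h2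
      rw [Real.log_lt_log_iff hx0 hn] at h3
      exact ⟨by exact_mod_cast hx.trans_lt h3, hN ▸ Nat.le_floor h2⟩
    · rintro ⟨h1, h2⟩
      have hn : (0 : ℝ) < n := Nat.cast_pos.2 (by omega)
      refine ⟨⟨by omega, by omega⟩, ?_, ?_⟩
      · rw [sub_le_iff_le_add, ← Real.log_mul hx0.ne' hpos.ne']
        exact Real.log_le_log hn
          ((Nat.cast_le.2 (hN ▸ h2)).trans (Nat.floor_le (by positivity)))
      · exact Real.log_lt_log hx0 (Nat.lt_of_floor_lt (by rw [hfl]; exact h1))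
  rw [hwin, twistSum, ← sum_Ioc_consecutive _ (show m ≤ m + h by omega) hlo]
  have hcard : ((Ioc (m + h) N).card : ℝ) ≤ h / K + 2 := by
    rw [Nat.card_Ioc, Nat.cast_sub hlo]
    have h1 : (N : ℝ) ≤ x * (1 + h / Y) := hN ▸ Nat.floor_le (by positivity)
    have h2 : x * (h / Y) ≤ h + h / K + h / X := by
      have h3 : x ≤ Y + X / K + 1 := by linarith
      refine (mul_le_mul_of_nonneg_right h3 (by positivity)).trans ?_
      rw [add_mul, add_mul, one_mul, mul_div_cancel₀ _ hY0.ne']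
      refine add_le_add (add_le_add le_rfl ?_) hfrac
      refine (mul_le_mul_of_nonneg_left hfrac (by positivity)).trans (le_of_eq ?_)
      field_simp
    push_cast
    nlinarith
  have := norm_sub_norm_le (∑ n ∈ Ioc m (m + h), F.fn n) (-∑ n ∈ Ioc (m + h) N, F.fn n)
  rw [norm_neg, sub_neg_eq_add] at this
  linarith [norm_sum_fn_le F (Ioc (m + h) N)]

theorem integrableOn_window (s : Finset ℕ) (b : ℕ → ℂ) (δ a c : ℝ) :
    IntegrableOn (fun x => ‖logWindow s b δ (Real.log x)‖ ^ 2) (Set.Ioc a c) := by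
  refine Measure.integrableOn_of_bounded (M := (∑ n ∈ s, ‖b n‖) ^ 2) measure_Ioc_lt_top.ne ?_
    (ae_of_all _ fun x => ?_)
  · refine (Measurable.aestronglyMeasurable ?_)
    refine ((Finset.measurable_sum _ fun n _ => ?_).norm).pow_const 2
    exact (measurable_const.indicator measurableSet_Ico).comp Real.measurable_log
  · rw [Real.norm_of_nonneg (sq_nonneg _)]
    refine pow_le_pow_left₀ (norm_nonneg _) ((norm_sum_le _ _).trans (sum_le_sum fun n _ => ?_)) 2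
    exact norm_indicator_le_norm_self _ _

/-- The change of variable `x = e ^ u`. -/
theorem setIntegral_window_le (s : Finset ℕ) (b : ℕ → ℂ) (δ : ℝ) {a c : ℝ} (ha : 0 < a)
    (hac : a ≤ c) :
    ∫ x in Set.Ioc a c, ‖logWindow s b δ (Real.log x)‖ ^ 2 ≤
      c * ∫ u, ‖logWindow s b δ u‖ ^ 2 := by
  obtain ⟨g, hg⟩ : ∃ g : ℝ → ℝ,
      g = (Set.Iic c).indicator fun x => ‖logWindow s b δ (Real.log x)‖ ^ 2 := ⟨_, rfl⟩
  have h1 : ∫ x in Set.Ioi a, g x =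
      ∫ x in Set.Ioc a c, ‖logWindow s b δ (Real.log x)‖ ^ 2 := by
    rw [hg, setIntegral_indicator measurableSet_Iic, Set.Ioi_inter_Iic]
  rw [← h1, ← Real.exp_log ha, ← integral_comp_exp_Ioi, ← integral_const_mul]
  refine (integral_mono_of_nonneg (ae_of_all _ fun u => ?_)
    ((integrable_logWindow_sq s b δ).const_mul c).integrableOn (ae_of_all _ fun u => ?_)).trans
    (setIntegral_le_integral ((integrable_logWindow_sq s b δ).const_mul c)
      (ae_of_all _ fun u => mul_nonneg (ha.le.trans hac) (sq_nonneg _)))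
  · simp only [hg, smul_eq_mul]
    exact mul_nonneg (Real.exp_pos u).le (Set.indicator_nonneg (fun x _ => sq_nonneg _) _)
  · simp only [hg, smul_eq_mul, Set.indicator_apply, Set.mem_Iic, Real.log_exp]
    split_ifs with hu
    · exact mul_le_mul_of_nonneg_right hu (sq_nonneg _)
    · rw [mul_zero]
      exact mul_nonneg (ha.le.trans hac) (sq_nonneg _)

theorem sum_integral_unit_le {f : ℝ → ℝ} (hf : ∀ x, 0 ≤ f x) {a c : ℝ}
    (hi : IntegrableOn f (Set.Ioc a c)) {S : Finset ℕ}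
    (hS : ∀ m ∈ S, a < m ∧ (m : ℝ) + 1 ≤ c) :
    ∑ m ∈ S, ∫ x in Set.Ico (m : ℝ) (m + 1), f x ≤ ∫ x in Set.Ioc a c, f x := by
  have hsub : ∀ m ∈ S, Set.Ico (m : ℝ) (m + 1) ⊆ Set.Ioc a c := fun m hm x hx =>
    ⟨(hS m hm).1.trans_le hx.1, hx.2.le.trans (hS m hm).2⟩
  rw [← integral_biUnion_finset S (fun m _ => measurableSet_Ico) (fun m _ l _ hml => ?_)
    fun m hm => hi.mono_set (hsub m hm)]
  · exact setIntegral_mono_set hi (ae_of_all _ hf) (Set.iUnion₂_subset hsub).eventuallyLE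
  · refine Set.disjoint_left.2 fun x hx hx' => hml ?_
    have h0 : 0 ≤ x := (Nat.cast_nonneg m).trans hx.1
    rw [← (Nat.floor_eq_iff h0).2 ⟨hx.1, hx.2⟩, (Nat.floor_eq_iff h0).2 ⟨hx'.1, hx'.2⟩]

theorem block_le (F : Twist) {X h K : ℕ} {Y T I : ℝ} (hX : 2 ≤ X) (hh : h ≤ X) (hY : (X : ℝ) ≤ Y)
    (hT : 0 < T) (hI : ∫ t in Set.Icc (-T) T, ‖twistPoly F X t‖ ^ 2 ≤ I) :
    ∑ m ∈ (Ioc X (2 * X)).filter fun m : ℕ => Y < m ∧ (m : ℝ) ≤ Y + X / K,
        ‖twistSum F h m‖ ^ 2 ≤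
      6 * X * (((h : ℝ) / X) ^ 2 * I + 8 * ((4 / T + 95 * X / T ^ 2) * (4 * X))) +
        2 * ((h : ℝ) / K + 2) ^ 2 *
          ((Ioc X (2 * X)).filter fun m : ℕ => Y < m ∧ (m : ℝ) ≤ Y + X / K).card := by
  obtain ⟨S, hS⟩ : ∃ S : Finset ℕ,
      S = (Ioc X (2 * X)).filter fun m : ℕ => Y < m ∧ (m : ℝ) ≤ Y + X / K := ⟨_, rfl⟩
  rw [← hS]
  obtain ⟨δ, hδ⟩ : ∃ δ, δ = Real.log (1 + (h : ℝ) / Y) := ⟨_, rfl⟩
  have hX0 : (0 : ℝ) < X := Nat.cast_pos.2 (by omega)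
  have hY0 : 0 < Y := hX0.trans_le hY
  have hδ0 : 0 ≤ δ := hδ ▸ Real.log_nonneg (le_add_of_nonneg_right (by positivity))
  have hδ1 : δ ≤ h / X := by
    refine hδ ▸ (Real.log_le_sub_one_of_pos (by positivity)).trans ?_
    rw [add_sub_cancel_left]
    exact div_le_div_of_nonneg_left (Nat.cast_nonneg h) hX0 hY
  obtain ⟨f, hf⟩ : ∃ f : ℝ → ℝ,
      f = fun x => ‖logWindow (Ioc X (5 * X)) F.fn δ (Real.log x)‖ ^ 2 := ⟨_, rfl⟩
  have hmem : ∀ m ∈ S, X < m ∧ m ≤ 2 * X ∧ Y < m ∧ (m : ℝ) ≤ Y + X / K := fun m hm => by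
    rw [hS, mem_filter, mem_Ioc] at hm
    exact ⟨hm.1.1, hm.1.2, hm.2.1, hm.2.2⟩
  have hint : IntegrableOn f (Set.Ioc (X : ℝ) (3 * X)) := hf ▸ integrableOn_window _ _ _ _ _
  have hpt : ∀ m ∈ S, ‖twistSum F h m‖ ^ 2 ≤
      2 * (∫ x in Set.Ico (m : ℝ) (m + 1), f x) + 2 * ((h : ℝ) / K + 2) ^ 2 := by
    intro m hm
    obtain ⟨h1, h2, h3, h4⟩ := hmem m hm
    have h2' : (m : ℝ) ≤ 2 * X := by exact_mod_cast h2
    have hX2 : (2 : ℝ) ≤ X := Nat.ofNat_le_cast.2 hX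
    have hsub : Set.Ico (m : ℝ) (m + 1) ⊆ Set.Ioc (X : ℝ) (3 * X) := fun x hx =>
      ⟨(Nat.cast_lt.2 h1).trans_le hx.1, by linarith [hx.2]⟩
    calc ‖twistSum F h m‖ ^ 2 = ∫ _x in Set.Ico (m : ℝ) (m + 1), ‖twistSum F h m‖ ^ 2 := by simp
      _ ≤ ∫ x in Set.Ico (m : ℝ) (m + 1), (2 * f x + 2 * ((h : ℝ) / K + 2) ^ 2) := by
          refine setIntegral_mono_on (integrableOn_const measure_Ico_lt_top.ne)
            (((hint.mono_set hsub).const_mul 2).add (integrableOn_const measure_Ico_lt_top.ne))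
            measurableSet_Ico fun x hx => ?_
          have := norm_twistSum_le F hX hh hY h3 h4 h2 hx.1 hx.2
          rw [← hδ] at this
          refine (pow_le_pow_left₀ (norm_nonneg _) this 2).trans ?_
          rw [hf]
          nlinarith [sq_nonneg (‖logWindow (Ioc X (5 * X)) F.fn δ (Real.log x)‖ -
            ((h : ℝ) / K + 2))]
      _ = _ := by
          rw [integral_add ((hint.mono_set hsub).const_mul 2)
            (integrableOn_const measure_Ico_lt_top.ne), integral_const_mul]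
          simp
  refine (sum_le_sum hpt).trans ?_
  rw [sum_add_distrib, sum_const, nsmul_eq_mul, mul_comm _ (2 * ((h : ℝ) / K + 2) ^ 2), ← mul_sum]
  refine add_le_add ?_ le_rfl
  have hX2 : (2 : ℝ) ≤ X := Nat.ofNat_le_cast.2 hX
  have h5 := sum_integral_unit_le (fun x => by rw [hf]; positivity) hint fun m hm => by
    obtain ⟨h1, h2, -, -⟩ := hmem m hm
    have h2' : (m : ℝ) ≤ 2 * X := by exact_mod_cast h2
    exact ⟨Nat.cast_lt.2 h1, by linarith⟩
  have h6 : ∫ x in Set.Ioc (X : ℝ) (3 * X), f x ≤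
      3 * X * ∫ u, ‖logWindow (Ioc X (5 * X)) F.fn δ u‖ ^ 2 :=
    hf ▸ setIntegral_window_le _ _ _ hX0 (by linarith)
  have h7 := integral_logWindow_sq_le (s := Ioc X (5 * X)) (M := 5 * X)
    (fun n hn => by simp only [mem_Ioc, mem_Icc] at hn ⊢; omega) F.fn hδ0 hT
  have hsum : ∑ n ∈ Ioc X (5 * X), ‖F.fn n‖ ^ 2 ≤ 4 * X := by
    refine (sum_le_card_nsmul _ _ 1 fun n _ => pow_le_one₀ (norm_nonneg _) (F.norm_le n)).trans
      (le_of_eq ?_)
    rw [Nat.card_Ioc, nsmul_one, Nat.cast_sub (by omega)]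
    push_cast
    ring
  have h8 : δ ^ 2 * (∫ t in Set.Icc (-T) T, ‖dpoly (Ioc X (5 * X)) F.fn t‖ ^ 2) ≤
      ((h : ℝ) / X) ^ 2 * I :=
    mul_le_mul (pow_le_pow_left₀ hδ0 hδ1 2) hI
      (integral_nonneg fun t => sq_nonneg _) (by positivity)
  push_cast at h7
  rw [show (19 : ℝ) * (5 * X) = 95 * X by ring] at h7
  have h9 : (4 / T + 95 * (X : ℝ) / T ^ 2) * ∑ n ∈ Ioc X (5 * X), ‖F.fn n‖ ^ 2 ≤
      (4 / T + 95 * X / T ^ 2) * (4 * X) := mul_le_mul_of_nonneg_left hsum (by positivity)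
  calc 2 * ∑ m ∈ S, ∫ x in Set.Ico (m : ℝ) (m + 1), f x
      ≤ 2 * (3 * X * ∫ u, ‖logWindow (Ioc X (5 * X)) F.fn δ u‖ ^ 2) := by linarith
    _ ≤ 2 * (3 * X * (((h : ℝ) / X) ^ 2 * I + 8 * ((4 / T + 95 * X / T ^ 2) * (4 * X)))) := by
        gcongr
        linarith
    _ = _ := by ring

/-- **The reduction to the Dirichlet polynomial.** -/
theorem sum_twistSum_sq_le (F : Twist) {X h K : ℕ} {T I : ℝ} (hX : 2 ≤ X) (hh : h ≤ X) (hK : 1 ≤ K)
    (hT : 0 < T) (hI : ∫ t in Set.Icc (-T) T, ‖twistPoly F X t‖ ^ 2 ≤ I) :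
    ∑ m ∈ Ioc X (2 * X), ‖twistSum F h m‖ ^ 2 ≤
      6 * K * X * (((h : ℝ) / X) ^ 2 * I + 8 * ((4 / T + 95 * X / T ^ 2) * (4 * X))) +
        2 * ((h : ℝ) / K + 2) ^ 2 * X := by
  classical
  have hX0 : (0 : ℝ) < X := Nat.cast_pos.2 (by omega)
  have hK0 : (0 : ℝ) < K := Nat.cast_pos.2 hK
  obtain ⟨Y, hY⟩ : ∃ Y : ℕ → ℝ, Y = fun k : ℕ => (X : ℝ) + k * (X / K) := ⟨_, rfl⟩
  obtain ⟨S, hS⟩ : ∃ S : ℕ → Finset ℕ, S = fun k =>
      (Ioc X (2 * X)).filter fun m : ℕ => Y k < m ∧ (m : ℝ) ≤ Y k + X / K := ⟨_, rfl⟩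
  have hcov : (range K).biUnion S = Ioc X (2 * X) := by
    refine Subset.antisymm (biUnion_subset.2 fun k _ => hS ▸ filter_subset _ _) fun m hm => ?_
    obtain ⟨h1, h2⟩ := mem_Ioc.1 hm
    obtain ⟨q, hq⟩ : ∃ q : ℝ, q = ((m : ℝ) - X) * K / X := ⟨_, rfl⟩
    have hq0 : 0 < q := hq ▸ div_pos (mul_pos (sub_pos.2 (Nat.cast_lt.2 h1)) hK0) hX0
    have hqK : q ≤ K := by
      rw [hq, div_le_iff₀ hX0]
      have : (m : ℝ) ≤ 2 * X := by exact_mod_cast h2
      nlinarith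
    obtain ⟨k, hk⟩ : ∃ k, k + 1 = ⌈q⌉₊ :=
      ⟨⌈q⌉₊ - 1, Nat.sub_add_cancel (Nat.ceil_pos.2 hq0)⟩
    have hk1 : q ≤ k + 1 := le_trans (Nat.le_ceil q) (by rw [← hk]; push_cast; rfl)
    have hk2 : (k : ℝ) < q := by
      have := Nat.ceil_lt_add_one hq0.le
      rw [← hk] at this
      push_cast at this
      linarith
    have e : (m : ℝ) = X + q * (X / K) := by rw [hq]; field_simp; ring
    have hXK : 0 < (X : ℝ) / K := div_pos hX0 hK0
    refine mem_biUnion.2 ⟨k, mem_range.2 ?_, ?_⟩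
    · exact_mod_cast hk2.trans_le hqK
    · rw [hS, mem_filter, hY]
      exact ⟨hm, by nlinarith, by nlinarith⟩
  have hXK : 0 ≤ (X : ℝ) / K := by positivity
  have hdisj : (range K : Set ℕ).PairwiseDisjoint S := by
    intro k _ l _ hkl
    refine Finset.disjoint_left.2 fun m hm hm' => ?_
    simp only [hS, hY, mem_filter] at hm hm'
    rcases hkl.lt_or_gt with hlt | hlt
    · have : ((k : ℝ) + 1) * (X / K) ≤ l * (X / K) :=
        mul_le_mul_of_nonneg_right (by exact_mod_cast hlt) hXK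
      linarith [hm.2.2, hm'.2.1]
    · have : ((l : ℝ) + 1) * (X / K) ≤ k * (X / K) :=
        mul_le_mul_of_nonneg_right (by exact_mod_cast hlt) hXK
      linarith [hm.2.1, hm'.2.2]
  have hcard : ∑ k ∈ range K, ((S k).card : ℝ) = X := by
    rw [← Nat.cast_sum, ← card_biUnion hdisj, hcov, Nat.card_Ioc]
    congr 1
    omega
  conv_lhs => rw [← hcov, sum_biUnion hdisj]
  simp only [hS] at hcard ⊢
  refine (sum_le_sum fun k _ => block_le F (K := K) (Y := Y k) hX hh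
    (hY ▸ le_add_of_nonneg_right (by positivity)) hT hI).trans (le_of_eq ?_)
  rw [sum_add_distrib, sum_const, card_range, nsmul_eq_mul, ← mul_sum, hcard]
  ring

end FA.ShortLiouville

end
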