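import Fermat.Agent.ShortLiouville.Core
import Fermat.Agent.ShortLiouville.Windows

/-!
# The theorem of Matomäki and Radziwiłł for the Liouville function

In almost all intervals of length `h` the average of `λ` tends to `0`, as soon as `h → ∞`; the
same, uniformly, for every completely multiplicative function with cancelling long sums.
-/

set_option autoImplicit false

noncomputable section

namespace FA.ShortLiouville

open MeasureTheory Finset Filter
open scoped Real Topology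

/-- The square of a short sum, as an integer. -/
theorem norm_shortSum_sq (h m : ℕ) : ‖shortSum h m‖ ^ 2 =
    ((∑ n ∈ Ioc m (m + h), ArithmeticFunction.liouville n : ℤ) : ℝ) ^ 2 := by
  rw [shortSum, show (∑ n ∈ Ioc m (m + h), liou n) =
    ((∑ n ∈ Ioc m (m + h), ArithmeticFunction.liouville n : ℤ) : ℂ) by push_cast; rfl,
    Complex.norm_intCast, sq_abs]

/-- The theorem of Matomäki and Radziwiłł from the bound for the last step, uniformly in `g`. -/
theorem exists_interval_le_of {ε : ℝ} (hε : 0 < ε) : ∃ K H₀ X₀ : ℕ, 2 ≤ K ∧ ∀ (F : Twist)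
    (X h : ℕ), X₀ ≤ X → H₀ ≤ h → h ≤ X → LastOK F K X →
      ∑ m ∈ Ioc X (2 * X), ‖∑ n ∈ Ioc m (m + h), F.fn n‖ ^ 2 ≤
          ε * X * (h : ℝ) ^ 2 := by
  obtain ⟨K₁, hK₁⟩ := exists_integral_twistPoly_le_of
  obtain ⟨k, hk⟩ : ∃ k, k = ⌈16 / ε⌉₊ + 1 := ⟨_, rfl⟩
  have hk1 : 16 / ε ≤ k := (Nat.le_ceil _).trans (Nat.cast_le.2 (by omega))
  have hk0 : (1 : ℝ) ≤ k := Nat.one_le_cast.2 (by omega)
  obtain ⟨K, hK⟩ : ∃ K, K = max K₁ (⌈4 * 750000 * (k : ℝ) / ε⌉₊ + 2) := ⟨_, rfl⟩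
  have hKk : 4 * 750000 * (k : ℝ) / ε ≤ K := (Nat.le_ceil _).trans (Nat.cast_le.2 (by omega))
  have hK0 : (0 : ℝ) < K := Nat.cast_pos.2 (by omega)
  obtain ⟨e₀, he₀⟩ : ∃ e₀, e₀ = Real.exp (towerB K 0) := ⟨_, rfl⟩
  have he0 : 0 < e₀ := he₀ ▸ Real.exp_pos _
  obtain ⟨c, hc⟩ : ∃ c, c = 192 * (k : ℝ) * (4 * e₀ + 95 * e₀ ^ 2) + 16 := ⟨_, rfl⟩
  obtain ⟨X₁, hX₁⟩ := eventually_atTop.1 (hK₁ K (hK ▸ le_max_left _ _))
  refine ⟨K, ⌈4 * c / ε⌉₊ + 1, max X₁ 2, by omega, fun F X h hX hh hhX hlast => ?_⟩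
  have hX2 : 2 ≤ X := le_of_max_le_right hX
  have hXpos : (0 : ℝ) < X := Nat.cast_pos.2 (by omega)
  have hI := hX₁ X (le_of_max_le_left hX) F hlast (X / e₀) (by positivity) (le_of_eq (by rw [he₀]))
  have hmain := sum_twistSum_sq_le F hX2 hhX (show 1 ≤ k by omega) (div_pos hXpos he0) hI
  refine hmain.trans ?_
  have hh1 : (1 : ℝ) ≤ h := Nat.one_le_cast.2 (by omega)
  have hch : 4 * c / ε ≤ h := (Nat.le_ceil _).trans (Nat.cast_le.2 (by omega))
  rw [div_le_iff₀ hε] at hch hk1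
  rw [div_le_iff₀ hε] at hKk
  have hh2 : (h : ℝ) ≤ (h : ℝ) ^ 2 := le_self_pow₀ hh1 two_ne_zero
  have e1 : 6 * (k : ℝ) * X * (((h : ℝ) / X) ^ 2 * (125000 * (X : ℝ) ^ 2 / K) +
      8 * ((4 / (X / e₀) + 95 * X / (X / e₀) ^ 2) * (4 * X))) =
      750000 * (k : ℝ) / K * (X * (h : ℝ) ^ 2) + (c - 16) * X := by
    rw [hc]
    field_simp
    ring
  have t1 : 750000 * (k : ℝ) / K * (X * (h : ℝ) ^ 2) ≤ ε / 4 * (X * (h : ℝ) ^ 2) := by
    refine mul_le_mul_of_nonneg_right ?_ (by positivity)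
    rw [div_le_iff₀ hK0]
    linarith
  have t2 : c * X ≤ ε / 4 * (X * (h : ℝ) ^ 2) := by
    have h1 : 4 * c ≤ ε * (h : ℝ) ^ 2 :=
      hch.trans (by rw [mul_comm]; exact mul_le_mul_of_nonneg_left hh2 hε.le)
    have := mul_le_mul_of_nonneg_right h1 hXpos.le
    linarith
  have t3 : 2 * ((h : ℝ) / k + 2) ^ 2 * X ≤ 16 * X + ε / 4 * (X * (h : ℝ) ^ 2) := by
    have h1 : ((h : ℝ) / k + 2) ^ 2 ≤ 2 * ((h : ℝ) ^ 2 / k) + 8 := by
      have h2 : ((h : ℝ) / k) ^ 2 ≤ (h : ℝ) ^ 2 / k := by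
        rw [div_pow]
        exact div_le_div_of_nonneg_left (sq_nonneg _) (by linarith) (le_self_pow₀ hk0 two_ne_zero)
      nlinarith [sq_nonneg ((h : ℝ) / k - 2)]
    have h3 : 4 * ((h : ℝ) ^ 2 / k) ≤ ε / 4 * (h : ℝ) ^ 2 := by
      rw [← mul_div_assoc, div_le_iff₀ (by linarith)]
      have := mul_le_mul_of_nonneg_right hk1 (sq_nonneg (h : ℝ))
      linarith
    have := mul_le_mul_of_nonneg_right h1 hXpos.le
    have := mul_le_mul_of_nonneg_right h3 hXpos.le
    linarith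
  have : 0 ≤ ε * (X * (h : ℝ) ^ 2) := by positivity
  rw [e1]
  linarith

/-- **Matomäki and Radziwiłł**, for a twist with small ordinates and cancelling primes. -/
theorem exists_twist_interval_le (F : Twist) (hS : F.SmallOrdinates) (hP : F.PrimesCancel)
    {ε : ℝ} (hε : 0 < ε) : ∃ H₀ X₀ : ℕ, ∀ X h : ℕ,
    X₀ ≤ X → H₀ ≤ h → h ≤ X →
      ∑ m ∈ Ioc X (2 * X), ‖∑ n ∈ Ioc m (m + h), F.fn n‖ ^ 2 ≤
          ε * X * (h : ℝ) ^ 2 := by
  obtain ⟨K, H₀, X₀, hK, h⟩ := exists_interval_le_of hε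
  obtain ⟨X₁, hX₁⟩ := eventually_atTop.1 (eventually_lastOK F hS hP hK)
  exact ⟨H₀, max X₀ X₁, fun X k hX hk hkX =>
    h F X k (le_of_max_le_left hX) hk hkX (hX₁ X (le_of_max_le_right hX))⟩

/-- **Matomäki and Radziwiłł, uniformly in the function**: cancellation of the long sums
`∑_{n ≤ Y} g n n ^ (-it)` gives cancellation in almost all short intervals. -/
theorem exists_interval_le_of_cancel {ε : ℝ} (hε : 0 < ε) : ∃ (δ : ℝ) (H₀ X₀ : ℕ), 0 < δ ∧
    ∀ (F : Twist) (X h : ℕ), X₀ ≤ X → H₀ ≤ h → h ≤ X → F.Cancel δ X →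
      ∑ m ∈ Ioc X (2 * X), ‖∑ n ∈ Ioc m (m + h), F.fn n‖ ^ 2 ≤
          ε * X * (h : ℝ) ^ 2 := by
  obtain ⟨K, H₀, X₀, hK, h⟩ := exists_interval_le_of hε
  obtain ⟨δ, hδ, hlast⟩ := exists_last_step hK
  obtain ⟨X₁, hX₁⟩ := eventually_atTop.1 hlast
  exact ⟨δ, H₀, max X₀ X₁, hδ, fun F X k hX hk hkX hF =>
    h F X k (le_of_max_le_left hX) hk hkX (hX₁ X (le_of_max_le_right hX) F hF)⟩

/-- **Matomäki and Radziwiłł for `λ`.** -/
theorem exists_short_interval_le {ε : ℝ} (hε : 0 < ε) : ∃ H₀ X₀ : ℕ, ∀ X h : ℕ,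
    X₀ ≤ X → H₀ ≤ h → h ≤ X →
      ∑ m ∈ Ioc X (2 * X),
        ((∑ n ∈ Ioc m (m + h), ArithmeticFunction.liouville n : ℤ) : ℝ) ^ 2 ≤
          ε * X * (h : ℝ) ^ 2 := by
  obtain ⟨H₀, X₀, h⟩ := exists_twist_interval_le liouTwist liouTwist_smallOrdinates
    liouTwist_primesCancel hε
  refine ⟨H₀, X₀, fun X k hX hk hkX => ?_⟩
  simp only [← norm_shortSum_sq]
  exact h X k hX hk hkX

/-- The short sums at a real point and of a real length. -/
theorem realShortSum_sq_le {h x : ℝ} (hh : 0 ≤ h) (hx : 0 ≤ x) :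
    ((∑ n ∈ Ioc ⌊x⌋₊ ⌊x + h⌋₊, ArithmeticFunction.liouville n : ℤ) : ℝ) ^ 2 ≤
      2 * ‖shortSum ⌊h⌋₊ ⌊x⌋₊‖ ^ 2 + 2 := by
  rw [norm_shortSum_sq]
  have h1 : ⌊x⌋₊ + ⌊h⌋₊ ≤ ⌊x + h⌋₊ :=
    Nat.le_floor (by push_cast; linarith [Nat.floor_le hx, Nat.floor_le hh])
  have h2 : ⌊x + h⌋₊ ≤ ⌊x⌋₊ + ⌊h⌋₊ + 1 := by
    refine Nat.lt_succ_iff.1 ((Nat.floor_lt (by linarith)).2 ?_)
    push_cast
    linarith [Nat.lt_floor_add_one x, Nat.lt_floor_add_one h]
  rw [← sum_Ioc_consecutive _ (Nat.le_add_right _ _) h1, Int.cast_add]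
  obtain ⟨A, hA⟩ : ∃ A : ℝ,
      A = ((∑ n ∈ Ioc (⌊x⌋₊ + ⌊h⌋₊) ⌊x + h⌋₊, ArithmeticFunction.liouville n : ℤ) : ℝ) := ⟨_, rfl⟩
  rw [← hA]
  have hA1 : A ^ 2 ≤ 1 := by
    rcases h2.eq_or_lt with h3 | h3
    · rw [hA, h3, Nat.Ioc_succ_singleton, sum_singleton,
        ArithmeticFunction.liouville_apply (Nat.succ_ne_zero _)]
      rcases neg_one_pow_eq_or ℤ (ArithmeticFunction.cardFactors (⌊x⌋₊ + ⌊h⌋₊ + 1)) with e | e <;>
        simp [e]
    · rw [hA, show ⌊x + h⌋₊ = ⌊x⌋₊ + ⌊h⌋₊ by omega]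
      simp
  nlinarith [sq_nonneg (((∑ n ∈ Ioc ⌊x⌋₊ (⌊x⌋₊ + ⌊h⌋₊), ArithmeticFunction.liouville n : ℤ) : ℝ)
    - A)]

/-- **The theorem as an integral, for real `X` and `h`.** -/
theorem exists_short_average_le {ε : ℝ} (hε : 0 < ε) : ∃ H₀ X₀ : ℝ, ∀ X h : ℝ,
    X₀ ≤ X → H₀ ≤ h → h ≤ X →
      ∫ x in X..2 * X,
        ((∑ n ∈ Ioc ⌊x⌋₊ ⌊x + h⌋₊, ArithmeticFunction.liouville n : ℤ) : ℝ) ^ 2 ≤
          ε * X * h ^ 2 := by
  obtain ⟨H₀, X₀, hmain⟩ := exists_short_interval_le (show 0 < ε / 8 by positivity)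
  refine ⟨H₀ + 1 + 8 / ε, X₀ + 1 + 64 / ε, fun X h hX hh hhX => ?_⟩
  have h8 : 0 ≤ 8 / ε := by positivity
  have h64 : 0 ≤ 64 / ε := by positivity
  have hH0 : (0 : ℝ) ≤ H₀ := Nat.cast_nonneg _
  have hX00 : (0 : ℝ) ≤ X₀ := Nat.cast_nonneg _
  have hh1 : 1 ≤ h := by linarith
  have hX1 : 1 ≤ X := by linarith
  obtain ⟨N, hN⟩ : ∃ N, N = ⌊X⌋₊ := ⟨_, rfl⟩
  obtain ⟨l, hl⟩ : ∃ l, l = ⌊h⌋₊ := ⟨_, rfl⟩
  obtain ⟨G, hG⟩ : ∃ G : ℕ → ℝ, G = fun m => ‖shortSum l m‖ ^ 2 := ⟨_, rfl⟩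
  have hG0 : ∀ m, 0 ≤ G m := fun m => hG ▸ sq_nonneg _
  have hGh : ∀ m, G m ≤ h ^ 2 := fun m => by
    rw [hG]
    refine pow_le_pow_left₀ (norm_nonneg _) ((norm_sum_liou_le _).trans ?_) 2
    rw [Nat.card_Ioc, Nat.add_sub_cancel_left, hl]
    exact Nat.floor_le (by linarith)
  have hsumG : ∑ m ∈ Ico N (2 * N + 2), G m ≤ ε / 8 * X * h ^ 2 + 2 * h ^ 2 := by
    have h1 := hmain N l (hN ▸ Nat.le_floor (by linarith)) (hl ▸ Nat.le_floor (by linarith))
      (hN ▸ hl ▸ Nat.floor_le_floor hhX)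
    simp only [← norm_shortSum_sq] at h1
    rw [show Ico N (2 * N + 2) = insert N (insert (2 * N + 1) (Ioc N (2 * N))) by
      ext m; simp only [mem_Ico, mem_insert, mem_Ioc]; omega,
      sum_insert (by simp only [mem_insert, mem_Ioc]; omega),
      sum_insert (by simp only [mem_Ioc]; omega)]
    have h2 : ∑ m ∈ Ioc N (2 * N), G m ≤ ε / 8 * X * h ^ 2 := by
      rw [hG]
      refine h1.trans ?_
      gcongr
      · exact hN ▸ Nat.floor_le (by linarith)
      · exact hl ▸ Nat.floor_le (by linarith)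
    linarith [hGh N, hGh (2 * N + 1)]
  have hGm : Measurable fun x : ℝ => G ⌊x⌋₊ := measurable_from_nat.comp Nat.measurable_floor
  have hGi : ∀ a b : ℝ, IntervalIntegrable (fun x : ℝ => G ⌊x⌋₊) volume a b := fun a b =>
    intervalIntegrable_const (c := h ^ 2) |>.mono_fun hGm.aestronglyMeasurable
      (ae_of_all _ fun x => by
        simp only [Real.norm_eq_abs, abs_of_nonneg (hG0 _), abs_of_nonneg (sq_nonneg h)]
        exact hGh _)
  have hNX : (N : ℝ) ≤ X := hN ▸ Nat.floor_le (by linarith)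
  have hXN : 2 * X ≤ ((2 * N + 2 : ℕ) : ℝ) := by
    push_cast
    linarith [hN ▸ Nat.lt_floor_add_one X]
  calc ∫ x in X..2 * X,
        ((∑ n ∈ Ioc ⌊x⌋₊ ⌊x + h⌋₊, ArithmeticFunction.liouville n : ℤ) : ℝ) ^ 2
      ≤ ∫ x in X..2 * X, (2 * G ⌊x⌋₊ + 2) := by
        rw [intervalIntegral.integral_of_le (by linarith),
          intervalIntegral.integral_of_le (by linarith)]
        refine integral_mono_of_nonneg (ae_of_all _ fun x => sq_nonneg _)
          (((hGi X (2 * X)).const_mul 2).add intervalIntegrable_const).1 ?_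
        refine (ae_restrict_iff' measurableSet_Ioc).2 (ae_of_all _ fun x hx => ?_)
        rw [hG, hl]
        exact realShortSum_sq_le (by linarith) (by linarith [hx.1])
    _ = 2 * (∫ x in X..2 * X, G ⌊x⌋₊) + 2 * X := by
        rw [intervalIntegral.integral_add ((hGi _ _).const_mul 2) intervalIntegrable_const,
          intervalIntegral.integral_const_mul, intervalIntegral.integral_const, smul_eq_mul]
        ring
    _ ≤ 2 * (∫ x in (N : ℝ)..((2 * N + 2 : ℕ) : ℝ), G ⌊x⌋₊) + 2 * X := by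
        have := intervalIntegral.integral_mono_interval hNX (by linarith) hXN
          (ae_of_all _ fun x => hG0 ⌊x⌋₊) (hGi _ _)
        linarith
    _ = 2 * (∑ m ∈ Ico N (2 * N + 2), G m) + 2 * X := by
        rw [← intervalIntegral.sum_integral_adjacent_intervals_Ico (by omega)
          (fun m _ => hGi _ _)]
        congr 2
        refine sum_congr rfl fun m _ => ?_
        rw [intervalIntegral.integral_congr_ae (g := fun _ => G m) ?_,
          intervalIntegral.integral_const, Nat.cast_add, Nat.cast_one, add_sub_cancel_left,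
          one_smul]
        have hne : ∀ᵐ x : ℝ, x ≠ ((m + 1 : ℕ) : ℝ) := by
          rw [ae_iff]
          simp
        filter_upwards [hne] with x hx hmem
        rw [Set.uIoc_of_le (by push_cast; linarith), Set.mem_Ioc] at hmem
        push_cast at hmem hx
        rw [(Nat.floor_eq_iff (by linarith [(Nat.cast_nonneg m : (0 : ℝ) ≤ m)])).2
          ⟨hmem.1.le, lt_of_le_of_ne hmem.2 hx⟩]
    _ ≤ ε * X * h ^ 2 := by
        have hhh : h ≤ h ^ 2 := le_self_pow₀ hh1 two_ne_zero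
        have h1 : 8 ≤ ε * h := by
          rw [← div_le_iff₀' hε]
          linarith
        have h2 : 64 ≤ ε * X := by
          rw [← div_le_iff₀' hε]
          linarith
        have h3 := mul_le_mul_of_nonneg_right h2 (sq_nonneg h)
        have h4 := mul_le_mul_of_nonneg_right
          (h1.trans (mul_le_mul_of_nonneg_left hhh hε.le)) (show 0 ≤ X by linarith)
        have : 0 ≤ ε * X * h ^ 2 := by positivity
        linarith

/-- **Almost all short intervals.** -/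
theorem exists_card_biased_le {δ ε : ℝ} (hδ : 0 < δ) (hε : 0 < ε) : ∃ H₀ X₀ : ℕ, ∀ X h : ℕ,
    X₀ ≤ X → H₀ ≤ h → h ≤ X →
      (((Ioc X (2 * X)).filter fun m => δ * (h : ℝ) <
          |((∑ n ∈ Ioc m (m + h), ArithmeticFunction.liouville n : ℤ) : ℝ)|).card : ℝ) ≤
        ε * X := by
  obtain ⟨H₀, X₀, hmain⟩ := exists_short_interval_le (show 0 < ε * δ ^ 2 by positivity)
  refine ⟨max H₀ 1, X₀, fun X h hX hh hhX => ?_⟩
  have h0 := hmain X h hX (le_of_max_le_left hh) hhX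
  obtain ⟨S, hS⟩ : ∃ S, S = (Ioc X (2 * X)).filter fun m => δ * (h : ℝ) <
      |((∑ n ∈ Ioc m (m + h), ArithmeticFunction.liouville n : ℤ) : ℝ)| := ⟨_, rfl⟩
  rw [← hS]
  have hpos : 0 < (δ * (h : ℝ)) ^ 2 := by
    have : 1 ≤ h := le_of_max_le_right hh
    positivity
  refine le_of_mul_le_mul_right ?_ hpos
  calc (S.card : ℝ) * (δ * (h : ℝ)) ^ 2
      ≤ ∑ m ∈ S, ((∑ n ∈ Ioc m (m + h), ArithmeticFunction.liouville n : ℤ) : ℝ) ^ 2 := by
        rw [← nsmul_eq_mul]
        refine card_nsmul_le_sum _ _ _ fun m hm => ?_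
        rw [hS, mem_filter] at hm
        exact (sq_le_sq.2 (by rw [abs_of_nonneg (by positivity)]; exact hm.2.le))
    _ ≤ _ := (sum_le_sum_of_subset_of_nonneg (hS ▸ filter_subset _ _)
        fun m _ _ => sq_nonneg _).trans h0
    _ = _ := by ring

/-- **The averages of `λ` over intervals of any growing length tend to `0` almost everywhere.** -/
theorem tendsto_density_biased {ψ : ℕ → ℕ} (hψ : Tendsto ψ atTop atTop)
    (hψX : ∀ᶠ X in atTop, ψ X ≤ X) {δ : ℝ} (hδ : 0 < δ) :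
    Tendsto (fun X : ℕ => (((Ioc X (2 * X)).filter fun m => δ * (ψ X : ℝ) <
      |((∑ n ∈ Ioc m (m + ψ X), ArithmeticFunction.liouville n : ℤ) : ℝ)|).card : ℝ) / X)
      atTop (𝓝 0) := by
  rw [Metric.tendsto_nhds]
  intro ε hε
  obtain ⟨H₀, X₀, h⟩ := exists_card_biased_le hδ (show 0 < ε / 2 by positivity)
  filter_upwards [hψ.eventually_ge_atTop H₀, hψX, eventually_ge_atTop (max X₀ 1)] with X h1 h2 h3
  have hX0 : (0 : ℝ) < X := Nat.cast_pos.2 (le_of_max_le_right h3)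
  rw [Real.dist_0_eq_abs, abs_of_nonneg (by positivity), div_lt_iff₀ hX0]
  exact (h X (ψ X) (le_of_max_le_left h3) h1 h2).trans_lt
    (mul_lt_mul_of_pos_right (by linarith) hX0)

/-- The changes of sign of `λ` up to `N`. -/
def signChanges (N : ℕ) : Finset ℕ :=
  (Icc 1 N).filter fun n => ArithmeticFunction.liouville n ≠ ArithmeticFunction.liouville (n + 1)

/-- **`λ` changes sign a positive proportion of the time.** -/
theorem exists_sign_changes_ge : ∃ c : ℝ, 0 < c ∧ ∀ᶠ N : ℕ in atTop,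
    c * N ≤ ((signChanges N).card : ℝ) := by
  obtain ⟨H₀, X₀, h⟩ := exists_card_biased_le (show (0 : ℝ) < 1 / 2 by norm_num)
    (show (0 : ℝ) < 1 / 2 by norm_num)
  obtain ⟨l, hl⟩ : ∃ l, l = H₀ + 1 := ⟨_, rfl⟩
  refine ⟨1 / (8 * l), by rw [hl]; positivity, ?_⟩
  filter_upwards [eventually_ge_atTop (3 * (X₀ + l + 4))] with N hN
  obtain ⟨X, hX⟩ : ∃ X, X = N / 3 := ⟨_, rfl⟩
  have hh := h X l (by omega) (by omega) (by omega)
  obtain ⟨S, hS⟩ : ∃ S, S = (Ioc X (2 * X)).filter fun m => 1 / 2 * (l : ℝ) <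
      |((∑ n ∈ Ioc m (m + l), ArithmeticFunction.liouville n : ℤ) : ℝ)| := ⟨_, rfl⟩
  rw [← hS] at hh
  classical
  obtain ⟨G, hG⟩ : ∃ G, G = Ioc X (2 * X) \ S := ⟨_, rfl⟩
  have hsub : G ⊆ (signChanges N).biUnion fun n => Ico (n - l) n := fun m hm => by
    rw [hG, Finset.mem_sdiff, hS, mem_filter] at hm
    obtain ⟨hmX, hm⟩ := hm
    have hmX' := mem_Ioc.1 hmX
    by_contra hcon
    simp only [mem_biUnion, not_exists, not_and, signChanges, mem_filter, mem_Icc, mem_Ico,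
      and_imp] at hcon
    have hconst : ∀ i, i < l → ArithmeticFunction.liouville (m + 1 + i) =
        ArithmeticFunction.liouville (m + 1) := fun i => by
      induction i with
      | zero => exact fun _ => rfl
      | succ i ih =>
        intro hi
        rw [← ih (by omega)]
        by_contra hne
        exact hcon (m + 1 + i) (by omega) (by omega) (fun he => hne he.symm) (by omega) (by omega)
    have hsum : ∑ n ∈ Ioc m (m + l), ArithmeticFunction.liouville n =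
        l * ArithmeticFunction.liouville (m + 1) := by
      rw [sum_congr rfl (g := fun _ => ArithmeticFunction.liouville (m + 1)) fun n hn => by
        obtain ⟨h1, h2⟩ := mem_Ioc.1 hn
        obtain ⟨i, rfl⟩ := Nat.exists_eq_add_of_le h1
        exact hconst i (by omega)]
      simp
    refine hm ⟨hmX, ?_⟩
    rw [hsum, ArithmeticFunction.liouville_apply (Nat.succ_ne_zero _)]
    push_cast
    rw [abs_mul, abs_pow, abs_neg, abs_one, one_pow, mul_one, Nat.abs_cast]
    have : (1 : ℝ) ≤ l := Nat.one_le_cast.2 (by omega)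
    linarith
  have hcard : (G.card : ℝ) ≤ (signChanges N).card * (l : ℝ) := by
    have h1 := (card_le_card hsub).trans (card_biUnion_le_card_mul _ _ l fun n _ => by
      rw [Nat.card_Ico]; omega)
    exact_mod_cast h1
  have hGc : (X : ℝ) / 2 ≤ G.card := by
    have h1 : G.card = X - S.card := by
      rw [hG, card_sdiff_of_subset (hS ▸ filter_subset _ _), Nat.card_Ioc]
      omega
    have h2 : S.card ≤ X := by
      rw [hS]
      refine (card_filter_le _ _).trans ?_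
      rw [Nat.card_Ioc]
      omega
    rw [h1, Nat.cast_sub h2]
    linarith
  have hNX : (N : ℝ) ≤ 4 * X := by exact_mod_cast (show N ≤ 4 * X by omega)
  have hl0 : (0 : ℝ) < l := Nat.cast_pos.2 (by omega)
  rw [div_mul_eq_mul_div, one_mul, div_le_iff₀ (by positivity)]
  linarith

/-- Where `λ` does not change its sign. -/
def signRepeats (N : ℕ) : Finset ℕ :=
  (Icc 1 N).filter fun n => ArithmeticFunction.liouville n = ArithmeticFunction.liouville (n + 1)

theorem liouville_eq_one_or {n : ℕ} (hn : n ≠ 0) :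
    ArithmeticFunction.liouville n = 1 ∨ ArithmeticFunction.liouville n = -1 := by
  rw [ArithmeticFunction.liouville_apply hn]
  exact neg_one_pow_eq_or ℤ _

theorem liouville_two_mul (n : ℕ) :
    ArithmeticFunction.liouville (2 * n) = -ArithmeticFunction.liouville n := by
  rw [ArithmeticFunction.liouville_apply_mul, ArithmeticFunction.liouville_apply two_ne_zero,
    ArithmeticFunction.cardFactors_apply_prime Nat.prime_two]
  ring

/-- A change at `n` gives a repeat at `2 n` or `2 n + 1`. -/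
theorem card_signChanges_le (N : ℕ) : (signChanges N).card ≤ (signRepeats (2 * N + 1)).card := by
  classical
  refine card_le_card_of_injOn
    (fun n => if ArithmeticFunction.liouville (2 * n) = ArithmeticFunction.liouville (2 * n + 1)
      then 2 * n else 2 * n + 1) (fun n hn => ?_) (fun a _ b _ hab => ?_)
  · simp only [signChanges, coe_filter, mem_Icc, Set.mem_ofPred_eq] at hn
    simp only [signRepeats, coe_filter, mem_Icc, Set.mem_ofPred_eq]
    split_ifs with h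
    · exact ⟨⟨by omega, by omega⟩, h⟩
    · refine ⟨⟨by omega, by omega⟩, ?_⟩
      have h2 : ArithmeticFunction.liouville (2 * n + 1 + 1) =
          -ArithmeticFunction.liouville (n + 1) := by
        rw [show 2 * n + 1 + 1 = 2 * (n + 1) by ring, liouville_two_mul]
      rw [liouville_two_mul] at h
      rw [h2]
      rcases liouville_eq_one_or (show n ≠ 0 by omega) with a1 | a1 <;>
        rcases liouville_eq_one_or (show n + 1 ≠ 0 by omega) with a2 | a2 <;>
        rcases liouville_eq_one_or (show 2 * n + 1 ≠ 0 by omega) with a3 | a3 <;>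
        simp [a1, a2, a3] at hn h ⊢
  · simp only at hab
    split_ifs at hab <;> omega

/-- **Chowla's two-point sum is not extremal.** -/
theorem exists_two_point_sum_le : ∃ δ : ℝ, 0 < δ ∧ ∀ᶠ N : ℕ in atTop,
    |((∑ n ∈ Icc 1 N, ArithmeticFunction.liouville n * ArithmeticFunction.liouville (n + 1) : ℤ)
      : ℝ)| ≤ (1 - δ) * N := by
  obtain ⟨c, hc, h⟩ := exists_sign_changes_ge
  obtain ⟨N₀, hN₀⟩ := eventually_atTop.1 h
  refine ⟨c / 2, by positivity, ?_⟩
  filter_upwards [eventually_ge_atTop (2 * N₀ + 2), eventually_ge_atTop 4] with N hN hN4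
  have hsum : (∑ n ∈ Icc 1 N,
      ArithmeticFunction.liouville n * ArithmeticFunction.liouville (n + 1) : ℤ) =
        ((signRepeats N).card : ℤ) - (signChanges N).card := by
    rw [sum_congr rfl (g := fun n => if ArithmeticFunction.liouville n =
        ArithmeticFunction.liouville (n + 1) then (1 : ℤ) else -1) fun n hn => by
      rcases liouville_eq_one_or (show n ≠ 0 by have := mem_Icc.1 hn; omega) with a | a <;>
        rcases liouville_eq_one_or (show n + 1 ≠ 0 by omega) with b | b <;> simp [a, b],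
      sum_ite]
    simp [signRepeats, signChanges]
    ring
  have htot : (signRepeats N).card + (signChanges N).card = N := by
    rw [signRepeats, signChanges, card_filter_add_card_filter_not, Nat.card_Icc]
    omega
  have h1 := hN₀ N (by omega)
  have h2 := hN₀ ((N - 1) / 2) (by omega)
  have h3 : (signChanges ((N - 1) / 2)).card ≤ (signRepeats N).card :=
    (card_signChanges_le _).trans (card_le_card (filter_subset_filter _
      (Icc_subset_Icc le_rfl (by omega))))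
  have h4 : (N : ℝ) ≤ 4 * (((N - 1) / 2 : ℕ) : ℝ) := by
    exact_mod_cast (show N ≤ 4 * ((N - 1) / 2) by omega)
  have h5 := mul_le_mul_of_nonneg_left h4 hc.le
  have h3' : ((signChanges ((N - 1) / 2)).card : ℝ) ≤ (signRepeats N).card := Nat.cast_le.2 h3
  have htot' : ((signRepeats N).card : ℝ) + (signChanges N).card = N := by exact_mod_cast htot
  have : 0 ≤ c * N := by positivity
  rw [hsum]
  push_cast
  rw [abs_le]
  constructor <;> linarith

end FA.ShortLiouville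

end
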