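import Fermat.Agent.ShortLiouville.Basic
import Fermat.Agent.Halasz.Plancherel

/-!
# Plancherel's identity for short sums on the logarithmic scale

`u ↦ ∑_{e ^ u < n ≤ e ^ (u + δ)} b n` has mean square at most `δ²` times that of the Dirichlet
polynomial on `[-T, T]` and a tail bounded by the mean value theorem.
-/

set_option autoImplicit false

noncomputable section

namespace FA.ShortLiouville

open MeasureTheory Finset FA.Hoheisel FourierTransform
open scoped Real ENNReal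

/-- `∑ b n` over the `n` in `s` with `e ^ u < n ≤ e ^ (u + δ)`. -/
def logWindow (s : Finset ℕ) (b : ℕ → ℂ) (δ : ℝ) (u : ℝ) : ℂ :=
  ∑ n ∈ s, (Set.Ico (Real.log n - δ) (Real.log n)).indicator (fun _ => b n) u

theorem memLp_logWindow (s : Finset ℕ) (b : ℕ → ℂ) (δ : ℝ) (p : ℝ≥0∞) :
    MemLp (logWindow s b δ) p :=
  memLp_finsetSum _ fun n _ =>
    memLp_indicator_const p measurableSet_Ico (b n) (Or.inr measure_Ico_lt_top.ne)

theorem integrable_logWindow_sq (s : Finset ℕ) (b : ℕ → ℂ) (δ : ℝ) :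
    Integrable fun u => ‖logWindow s b δ u‖ ^ 2 :=
  (memLp_two_iff_integrable_sq_norm (memLp_logWindow s b δ 2).1).1 (memLp_logWindow s b δ 2)

/-- The Fourier factor of an interval of length `δ`. -/
def windowFactor (δ t : ℝ) : ℂ := ∫ v in (-δ)..0, Complex.exp (-(Complex.I * (t : ℂ)) * v)

theorem norm_windowFactor_le {δ : ℝ} (hδ : 0 ≤ δ) (t : ℝ) :
    ‖windowFactor δ t‖ ≤ δ ∧ ‖windowFactor δ t‖ * |t| ≤ 2 := by
  have hn : ∀ v : ℝ, ‖Complex.exp (-(Complex.I * (t : ℂ)) * v)‖ = 1 := fun v => by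
    rw [Complex.norm_exp]
    simp
  refine ⟨?_, ?_⟩
  · refine (intervalIntegral.norm_integral_le_of_norm_le_const fun v _ => (hn v).le).trans ?_
    rw [one_mul, zero_sub, neg_neg, abs_of_nonneg hδ]
  · rcases eq_or_ne t 0 with rfl | ht
    · simp
    have hc : -(Complex.I * (t : ℂ)) ≠ 0 := by simp [ht]
    rw [windowFactor, integral_exp_mul_complex hc, norm_div, norm_neg, norm_mul, Complex.norm_I,
      one_mul, Complex.norm_real, Real.norm_eq_abs, div_mul_cancel₀ _ (abs_ne_zero.2 ht)]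
    exact (norm_sub_le _ _).trans (by rw [hn, hn]; norm_num)

theorem fourier_logWindow {s : Finset ℕ} (hs : ∀ n ∈ s, 1 ≤ n) (b : ℕ → ℂ) {δ : ℝ} (hδ : 0 ≤ δ)
    (ξ : ℝ) :
    𝓕 (logWindow s b δ) ξ = windowFactor δ (2 * π * ξ) * dpoly s b (2 * π * ξ) := by
  rw [Real.fourier_real_eq_integral_exp_smul]
  have hint : ∀ n ∈ s, Integrable fun u : ℝ =>
      Complex.exp (((-2 * π * u * ξ : ℝ) : ℂ) * Complex.I) •
      (Set.Ico (Real.log n - δ) (Real.log n)).indicator (fun _ => b n) u := fun n _ => by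
    refine ((memLp_one_iff_integrable.1
      (memLp_indicator_const 1 measurableSet_Ico (b n) (Or.inr measure_Ico_lt_top.ne))).bdd_mul
        (c := 1) (Continuous.aestronglyMeasurable (by fun_prop))
        (Filter.Eventually.of_forall fun u => ?_))
    rw [Complex.norm_exp_ofReal_mul_I]
  simp only [logWindow, Finset.smul_sum]
  rw [integral_finsetSum _ hint, dpoly, Finset.mul_sum]
  refine Finset.sum_congr rfl fun n hn => ?_
  simp only [smul_eq_mul]
  have e0 : (fun u : ℝ => Complex.exp (((-2 * π * u * ξ : ℝ) : ℂ) * Complex.I) *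
      (Set.Ico (Real.log n - δ) (Real.log n)).indicator (fun _ => b n) u) =
      (Set.Ico (Real.log n - δ) (Real.log n)).indicator
        (fun u => Complex.exp (((-2 * π * u * ξ : ℝ) : ℂ) * Complex.I) * b n) :=
    funext fun u => (Set.indicator_mul_right _
      (fun u : ℝ => Complex.exp (((-2 * π * u * ξ : ℝ) : ℂ) * Complex.I)) (fun _ => b n)).symm
  rw [e0]
  rw [integral_indicator measurableSet_Ico, integral_Ico_eq_integral_Ioc,
    ← intervalIntegral.integral_of_le (by linarith), intervalIntegral.integral_mul_const,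
    show Real.log n - δ = Real.log n + -δ by ring]
  nth_rewrite 2 [show Real.log n = Real.log n + 0 by ring]
  rw [← intervalIntegral.integral_comp_add_left, windowFactor,
    ← intervalIntegral.integral_mul_const, ← intervalIntegral.integral_mul_const]
  refine intervalIntegral.integral_congr fun v _ => ?_
  rw [Complex.cpow_def_of_ne_zero (Nat.cast_ne_zero.2 (by have := hs n hn; omega)),
    ← Complex.natCast_log]
  have e : (((-2 * π * (Real.log n + v) * ξ : ℝ)) : ℂ) * Complex.I =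
      -(Complex.I * ((2 * π * ξ : ℝ) : ℂ)) * v +
        (Real.log n : ℂ) * -(Complex.I * ((2 * π * ξ : ℝ) : ℂ)) := by
    push_cast
    ring
  rw [e, Complex.exp_add]
  ring

theorem lintegral_tail_le {s : Finset ℕ} {M : ℕ} (hs : s ⊆ Icc 1 M) (b : ℕ → ℂ) {T : ℝ}
    (hT : 0 < T) :
    ∫⁻ t in (Set.Icc (-T) T)ᶜ, ENNReal.ofReal (‖dpoly s b t‖ ^ 2 / t ^ 2) ≤
      ENNReal.ofReal (2 * ((4 / T + 19 * M / T ^ 2) * ∑ n ∈ s, ‖b n‖ ^ 2)) := by
  obtain ⟨A, hA⟩ : ∃ A : ℕ → Set ℝ, A = fun k : ℕ =>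
      Set.Icc (-(2 ^ (k + 1) * T)) (2 ^ (k + 1) * T) \ Set.Ioo (-(2 ^ k * T)) (2 ^ k * T) :=
    ⟨_, rfl⟩
  have hcov : (Set.Icc (-T) T)ᶜ ⊆ ⋃ k, A k := fun t ht => by
    have h1 : T < |t| := by
      simp only [Set.mem_compl_iff, Set.mem_Icc] at ht
      by_contra hc
      exact ht (abs_le.1 (not_lt.1 hc))
    obtain ⟨k, hk, hk'⟩ := exists_nat_pow_near ((one_le_div hT).2 h1.le) one_lt_two
    rw [le_div_iff₀ hT] at hk
    rw [div_lt_iff₀ hT] at hk'
    rw [Set.mem_iUnion]
    refine ⟨k, hA ▸ ⟨abs_le.1 hk'.le, fun h => ?_⟩⟩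
    have := abs_lt.2 (Set.mem_Ioo.1 h)
    linarith
  refine (lintegral_mono_set hcov).trans ((lintegral_iUnion_le _ _).trans ?_)
  obtain ⟨S, hS⟩ : ∃ S, S = ∑ n ∈ s, ‖b n‖ ^ 2 := ⟨_, rfl⟩
  have hS0 : 0 ≤ S := hS ▸ sum_nonneg fun n _ => sq_nonneg _
  rw [← hS]
  have hc := continuous_dpoly (fun n hn => (mem_Icc.1 (hs hn)).1) b
  have hpiece : ∀ k : ℕ, ∫⁻ t in A k, ENNReal.ofReal (‖dpoly s b t‖ ^ 2 / t ^ 2) ≤
      ENNReal.ofReal ((4 / T + 19 * M / T ^ 2) * S * (1 / 2) ^ k) := fun k => by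
    obtain ⟨c, hc'⟩ : ∃ c : ℝ, c = 2 ^ k * T := ⟨_, rfl⟩
    have hc0 : 0 < c := hc' ▸ mul_pos (pow_pos two_pos _) hT
    have e2 : 2 ^ (k + 1) * T = 2 * c := by rw [hc']; ring
    have hsub : A k ⊆ Set.Icc (-(2 * c)) (2 * c) := fun t ht => by
      rw [hA] at ht
      rw [← e2]
      exact ht.1
    have hmA : MeasurableSet (A k) := hA ▸ measurableSet_Icc.diff measurableSet_Ioo
    calc ∫⁻ t in A k, ENNReal.ofReal (‖dpoly s b t‖ ^ 2 / t ^ 2)
        ≤ ∫⁻ t in A k, ENNReal.ofReal (‖dpoly s b t‖ ^ 2 / c ^ 2) := by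
          refine setLIntegral_mono' hmA fun t ht => ENNReal.ofReal_le_ofReal ?_
          refine div_le_div_of_nonneg_left (sq_nonneg _) (by positivity) (sq_le_sq.2 ?_)
          rw [abs_of_pos hc0]
          by_contra hlt
          rw [hA] at ht
          exact ht.2 (hc' ▸ Set.mem_Ioo.2 (abs_lt.1 (not_le.1 hlt)))
      _ = ENNReal.ofReal (∫ t in A k, ‖dpoly s b t‖ ^ 2 / c ^ 2) :=
          (ofReal_integral_eq_lintegral_ofReal
            (((by fun_prop : Continuous fun t => ‖dpoly s b t‖ ^ 2 / c ^ 2).integrableOn_Icc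
              ).mono_set hsub) (ae_of_all _ fun t => by positivity)).symm
      _ ≤ _ := by
          refine ENNReal.ofReal_le_ofReal ?_
          rw [integral_div, div_le_iff₀ (by positivity)]
          refine (setIntegral_dpoly_le hs b (T := 2 * c) (by linarith) hsub).trans ?_
          rw [← hS]
          have h2 : (1 : ℝ) ≤ 2 ^ k := one_le_pow₀ one_le_two
          have e3 : (4 / T + 19 * M / T ^ 2) * S * (1 / 2) ^ k * c ^ 2 =
              (4 * c + 19 * M * 2 ^ k) * S := by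
            rw [hc', one_div_pow]
            field_simp
          rw [e3]
          refine mul_le_mul_of_nonneg_right ?_ hS0
          have : (19 : ℝ) * M ≤ 19 * M * 2 ^ k := le_mul_of_one_le_right (by positivity) h2
          linarith
  refine (ENNReal.tsum_le_tsum hpiece).trans ?_
  rw [← ENNReal.ofReal_tsum_of_nonneg (fun k => by positivity)
    (summable_geometric_two.mul_left _), tsum_mul_left, tsum_geometric_two, mul_comm]

/-- **The mean square of a short sum on the logarithmic scale.** -/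
theorem integral_logWindow_sq_le {s : Finset ℕ} {M : ℕ} (hs : s ⊆ Icc 1 M) (b : ℕ → ℂ) {δ T : ℝ}
    (hδ : 0 ≤ δ) (hT : 0 < T) :
    ∫ u, ‖logWindow s b δ u‖ ^ 2 ≤ δ ^ 2 * (∫ t in Set.Icc (-T) T, ‖dpoly s b t‖ ^ 2) +
      8 * ((4 / T + 19 * M / T ^ 2) * ∑ n ∈ s, ‖b n‖ ^ 2) := by
  obtain ⟨S, hS⟩ : ∃ S, S = ∑ n ∈ s, ‖b n‖ ^ 2 := ⟨_, rfl⟩
  have hS0 : 0 ≤ S := hS ▸ sum_nonneg fun n _ => sq_nonneg _
  rw [← hS]
  have hs1 : ∀ n ∈ s, 1 ≤ n := fun n hn => (mem_Icc.1 (hs hn)).1
  have hcont := continuous_dpoly hs1 b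
  obtain ⟨G, hG⟩ : ∃ G : ℝ → ℝ≥0∞, G = fun t =>
      ENNReal.ofReal (‖windowFactor δ t * dpoly s b t‖ ^ 2) := ⟨_, rfl⟩
  have hl : ∫⁻ ξ, ‖𝓕 (logWindow s b δ) ξ‖ₑ ^ 2 = ∫⁻ ξ, G (2 * π * ξ) := lintegral_congr fun ξ => by
    simp only [hG, fourier_logWindow hs1 b hδ, ENNReal.ofReal_pow (norm_nonneg _), ofReal_norm]
  have hscale : ∫⁻ ξ, G (2 * π * ξ) ≤ ∫⁻ t, G t := by
    have he : MeasurableEmbedding (fun ξ : ℝ => 2 * π * ξ) :=
      (Homeomorph.mulLeft₀ (2 * π) (by positivity)).measurableEmbedding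
    rw [← he.lintegral_map, Real.map_volume_mul_left (by positivity : (2 * π : ℝ) ≠ 0),
      lintegral_smul_measure, smul_eq_mul]
    refine mul_le_of_le_one_left' (ENNReal.ofReal_le_one.2 ?_)
    rw [abs_inv, abs_of_pos (by positivity : (0 : ℝ) < 2 * π)]
    exact inv_le_one_of_one_le₀ (by linarith [Real.pi_gt_three])
  have hmain : ∫⁻ t, G t ≤ ENNReal.ofReal (δ ^ 2 *
      (∫ t in Set.Icc (-T) T, ‖dpoly s b t‖ ^ 2) + 8 * ((4 / T + 19 * M / T ^ 2) * S)) := by
    rw [← lintegral_add_compl G (measurableSet_Icc (a := -T) (b := T)),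
      ENNReal.ofReal_add (by positivity) (by positivity)]
    refine add_le_add ?_ ?_
    · rw [← integral_const_mul, ofReal_integral_eq_lintegral_ofReal
        ((by fun_prop : Continuous fun t => δ ^ 2 * ‖dpoly s b t‖ ^ 2).integrableOn_Icc)
        (ae_of_all _ fun t => by positivity)]
      refine setLIntegral_mono' measurableSet_Icc fun t _ => hG ▸ ENNReal.ofReal_le_ofReal ?_
      rw [norm_mul, mul_pow]
      exact mul_le_mul_of_nonneg_right
        (pow_le_pow_left₀ (norm_nonneg _) (norm_windowFactor_le hδ t).1 2) (sq_nonneg _)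
    · calc ∫⁻ t in (Set.Icc (-T) T)ᶜ, G t
          ≤ ∫⁻ t in (Set.Icc (-T) T)ᶜ, ENNReal.ofReal 4 *
              ENNReal.ofReal (‖dpoly s b t‖ ^ 2 / t ^ 2) := by
            refine setLIntegral_mono' measurableSet_Icc.compl fun t ht => ?_
            rw [hG, ← ENNReal.ofReal_mul (by norm_num)]
            refine ENNReal.ofReal_le_ofReal ?_
            have ht0 : t ≠ 0 := fun h => ht (by rw [h]; exact ⟨by linarith, hT.le⟩)
            rw [norm_mul, mul_pow, ← mul_div_assoc, le_div_iff₀ (by positivity), mul_right_comm,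
              ← sq_abs t, ← mul_pow]
            refine mul_le_mul_of_nonneg_right ?_ (sq_nonneg _)
            exact (pow_le_pow_left₀ (by positivity) (norm_windowFactor_le hδ t).2 2).trans
              (by norm_num)
        _ = ENNReal.ofReal 4 *
              ∫⁻ t in (Set.Icc (-T) T)ᶜ, ENNReal.ofReal (‖dpoly s b t‖ ^ 2 / t ^ 2) :=
            lintegral_const_mul' _ _ ENNReal.ofReal_ne_top
        _ ≤ _ := by
            refine (mul_le_mul' le_rfl (lintegral_tail_le hs b hT)).trans (le_of_eq ?_)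
            rw [← hS, ← ENNReal.ofReal_mul (by norm_num)]
            congr 1
            ring
  have h := (Halasz.lintegral_enorm_fourier_sq
    (memLp_one_iff_integrable.1 (memLp_logWindow s b δ 1)) (memLp_logWindow s b δ 2)).symm
  rw [hl] at h
  refine (ENNReal.ofReal_le_ofReal_iff (by positivity)).1 ?_
  rw [ofReal_integral_eq_lintegral_ofReal (integrable_logWindow_sq s b δ)
    (ae_of_all _ fun u => sq_nonneg _)]
  simp only [ENNReal.ofReal_pow (norm_nonneg _), ofReal_norm]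
  exact h.trans_le (hscale.trans hmain)

end FA.ShortLiouville

end
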