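import Fermat.Agent.ShortLiouville.Levels

/-!
# The ranges of primes of the iteration

`a 0 = 10 ^ 8 K`, `a (j + 1) = exp (a j / (1024 · 2 ^ j))`, `b j = a j · 2 ^ (K 2 ^ j)`: the mass of
the level `j` is about `K 2 ^ j`, and `log b (j + 1)` is still small against `a j`.
-/

set_option autoImplicit false

noncomputable section

namespace FA.ShortLiouville

open Finset
open scoped Real

/-- The left end of a level. -/
def towerA (K : ℕ) : ℕ → ℕ
  | 0 => 10 ^ 8 * K
  | j + 1 => ⌊Real.exp ((towerA K j : ℝ) / (1024 * 2 ^ j))⌋₊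

/-- The right end of a level. -/
def towerB (K j : ℕ) : ℕ := towerA K j * 2 ^ (K * 2 ^ j)

/-- The number of cuts of a level in a unit. -/
def towerH (K j : ℕ) : ℕ := K * 2 ^ j

/-- The saving exponent of a level. -/
def towerAlpha (j : ℕ) : ℝ := 1 / 8 + (1 - (1 / 2) ^ j) / 16

theorem towerAlpha_bounds (j : ℕ) :
    1 / 8 ≤ towerAlpha j ∧ towerAlpha j ≤ 3 / 16 ∧
      towerAlpha (j + 1) - towerAlpha j = 1 / (32 * 2 ^ j) := by
  have h0 : (0 : ℝ) ≤ (1 / 2) ^ j := by positivity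
  have h1 : ((1 : ℝ) / 2) ^ j ≤ 1 := pow_le_one₀ (by norm_num) (by norm_num)
  refine ⟨by rw [towerAlpha]; linarith, by rw [towerAlpha]; linarith, ?_⟩
  rw [towerAlpha, towerAlpha, pow_succ, one_div_pow]
  field_simp
  ring

/-- `a j / (1024 · 2 ^ j)`. -/
def towerY (K j : ℕ) : ℝ := (towerA K j : ℝ) / (1024 * 2 ^ j)

theorem big_mul_le_exp {w y : ℝ} (hw : 1 ≤ w) (hy : 90000 * w ≤ y) :
    10 ^ 7 * y * Real.exp (8 * w) ≤ Real.exp y := by
  have h1 : y ≤ Real.exp (y / 2) := by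
    refine le_trans ?_ (Real.quadratic_le_exp_of_nonneg (by linarith))
    nlinarith
  have h2 : (10 : ℝ) ^ 7 ≤ Real.exp 17 :=
    calc (10 : ℝ) ^ 7 ≤ 2.7 ^ 17 := by norm_num
      _ ≤ Real.exp 1 ^ 17 :=
        pow_le_pow_left₀ (by norm_num) (by linarith [Real.exp_one_gt_d9]) 17
      _ = Real.exp 17 := by rw [← Real.exp_nat_mul]; norm_num
  calc 10 ^ 7 * y * Real.exp (8 * w) ≤ Real.exp 17 * Real.exp (y / 2) * Real.exp (8 * w) := by
        gcongr
        linarith
    _ ≤ _ := by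
        rw [← Real.exp_add, ← Real.exp_add, Real.exp_le_exp]
        linarith

theorem towerA_ge {K : ℕ} (hK : 1 ≤ K) :
    ∀ j, (10 : ℝ) ^ 8 * K * 4 ^ j ≤ (towerA K j : ℝ) := by
  intro j
  induction j with
  | zero => norm_num [towerA]
  | succ j ih =>
    rw [towerA]
    refine le_trans ?_ (le_of_lt (Nat.sub_one_lt_floor _))
    obtain ⟨y, hy⟩ : ∃ y, y = (towerA K j : ℝ) / (1024 * 2 ^ j) := ⟨_, rfl⟩
    rw [← hy]
    have hK1 : (1 : ℝ) ≤ K := Nat.one_le_cast.2 hK
    have h2 : (0 : ℝ) < 2 ^ j := by positivity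
    have hy1 : 97656 * K * 2 ^ j ≤ y := by
      rw [hy, le_div_iff₀ (by positivity)]
      refine le_trans (le_of_eq_of_le ?_ (mul_le_mul_of_nonneg_right
        (show (97656 : ℝ) * 1024 ≤ 10 ^ 8 by norm_num)
        (show 0 ≤ (K : ℝ) * 4 ^ j by positivity))) (le_of_eq_of_le (by ring) ih)
      rw [show (4 : ℝ) = 2 * 2 by norm_num, mul_pow]
      ring
    have hy0 : 0 ≤ 97656 * (K : ℝ) * 2 ^ j := by positivity
    have h3 := Real.quadratic_le_exp_of_nonneg (hy0.trans hy1)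
    have h4 := pow_le_pow_left₀ hy0 hy1 2
    have h5 : (K : ℝ) * 4 ^ j ≤ K ^ 2 * 4 ^ j := by
      have : (K : ℝ) ≤ K ^ 2 := by nlinarith
      exact mul_le_mul_of_nonneg_right this (by positivity)
    rw [show (97656 * (K : ℝ) * 2 ^ j) ^ 2 = 97656 ^ 2 * (K ^ 2 * 4 ^ j) by
      rw [show (4 : ℝ) = 2 ^ 2 by norm_num, ← pow_mul, mul_comm 2 j, pow_mul]; ring] at h4
    rw [pow_succ (4 : ℝ) j]
    have h6 : (1 : ℝ) ≤ K * 4 ^ j := by
      have : (1 : ℝ) ≤ 4 ^ j := one_le_pow₀ (by norm_num)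
      nlinarith
    linarith

theorem towerY_ge {K : ℕ} (hK : 1 ≤ K) (j : ℕ) : 90000 * ((K : ℝ) * 2 ^ j) ≤ towerY K j := by
  rw [towerY, le_div_iff₀ (by positivity)]
  refine le_trans ?_ (towerA_ge hK j)
  have : (0 : ℝ) ≤ K * 4 ^ j := by positivity
  rw [show 90000 * ((K : ℝ) * 2 ^ j) * (1024 * 2 ^ j) = 92160000 * (K * (2 ^ j * 2 ^ j)) by ring,
    ← mul_pow, show (2 : ℝ) * 2 = 4 by norm_num]
  linarith

theorem one_le_w {K : ℕ} (hK : 1 ≤ K) (j : ℕ) :
    1 ≤ (K : ℝ) * 2 ^ j ∧ (2 : ℝ) ^ j ≤ (K : ℝ) * 2 ^ j := by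
  have h1 : (1 : ℝ) ≤ K := Nat.one_le_cast.2 hK
  have h2 : (1 : ℝ) ≤ 2 ^ j := one_le_pow₀ (by norm_num)
  exact ⟨one_le_mul_of_one_le_of_one_le h1 h2, le_mul_of_one_le_left (by linarith) h1⟩

theorem two_pow_le_exp (n : ℕ) : ((2 ^ n : ℕ) : ℝ) ≤ Real.exp n := by
  rw [← mul_one (n : ℝ), Real.exp_nat_mul]
  push_cast
  exact pow_le_pow_left₀ two_pos.le (by linarith [Real.exp_one_gt_d9]) n

theorem towerB_le {K : ℕ} (hK : 1 ≤ K) (j : ℕ) :
    (towerB K j : ℝ) ≤ 1024 * towerY K j * Real.exp (2 * ((K : ℝ) * 2 ^ j)) ∧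
      (towerB K (j + 1) : ℝ) ≤ Real.exp (towerY K j + 2 * ((K : ℝ) * 2 ^ j)) := by
  obtain ⟨hw, h2w⟩ := one_le_w hK j
  have hy : 0 ≤ towerY K j := le_trans (by positivity) (towerY_ge hK j)
  constructor
  · rw [towerB, Nat.cast_mul, two_mul, Real.exp_add,
      show (towerA K j : ℝ) = 1024 * towerY K j * 2 ^ j by rw [towerY]; field_simp, mul_assoc]
    refine mul_le_mul_of_nonneg_left (mul_le_mul ?_ ?_ (Nat.cast_nonneg _) (Real.exp_pos _).le)
      (by linarith)
    · exact h2w.trans ((le_add_of_nonneg_right zero_le_one).trans (Real.add_one_le_exp _))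
    · refine (two_pow_le_exp _).trans (le_of_eq ?_)
      push_cast
      rfl
  · rw [towerB, Nat.cast_mul, Real.exp_add, towerA]
    refine mul_le_mul (Nat.floor_le (Real.exp_pos _).le) ?_ (Nat.cast_nonneg _) (Real.exp_pos _).le
    refine (two_pow_le_exp _).trans (le_of_eq ?_)
    push_cast
    ring_nf

theorem towerA_le_towerB (K j : ℕ) : towerA K j ≤ towerB K j :=
  Nat.le_mul_of_pos_right _ (Nat.two_pow_pos _)

theorem one_le_towerA {K : ℕ} (hK : 1 ≤ K) (j : ℕ) : 2 ≤ towerA K j := by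
  have h := towerA_ge hK j
  obtain ⟨hw, -⟩ := one_le_w hK 0
  have h4 : (1 : ℝ) ≤ 4 ^ j := one_le_pow₀ (by norm_num)
  have : (2 : ℝ) ≤ towerA K j := by
    refine le_trans ?_ h
    have : (1 : ℝ) ≤ (K : ℝ) * 4 ^ j := one_le_mul_of_one_le_of_one_le (by simpa using hw) h4
    linarith
  exact_mod_cast this

theorem towerA_succ_ge (K j : ℕ) : Real.exp (towerY K j) - 1 ≤ (towerA K (j + 1) : ℝ) := by
  rw [towerA, towerY]
  exact (Nat.sub_one_lt_floor _).le

theorem towerB_le_next {K : ℕ} (hK : 1 ≤ K) (j : ℕ) : towerB K j ≤ towerA K (j + 1) := by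
  obtain ⟨hw, -⟩ := one_le_w hK j
  have hy := towerY_ge hK j
  have h1 := (towerB_le hK j).1
  have h2 := big_mul_le_exp hw hy
  have h3 := towerA_succ_ge K j
  have h4 : Real.exp (2 * ((K : ℝ) * 2 ^ j)) ≤ Real.exp (8 * ((K : ℝ) * 2 ^ j)) :=
    Real.exp_le_exp.2 (by linarith)
  have h5 : (1 : ℝ) ≤ towerY K j * Real.exp (8 * ((K : ℝ) * 2 ^ j)) :=
    one_le_mul_of_one_le_of_one_le (by linarith) (Real.one_le_exp (by linarith))
  have h6 := mul_le_mul_of_nonneg_left h4 (show 0 ≤ 1024 * towerY K j by linarith)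
  have : (towerB K j : ℝ) ≤ (towerA K (j + 1) : ℝ) := by linarith
  exact_mod_cast this

/-- The exponent of the recursion is affordable. -/
theorem tower_log_le {K : ℕ} (hK : 1 ≤ K) (j : ℕ) :
    Real.log (9 * ((towerB K (j + 1) : ℝ) + 3)) + 2 ≤ 1 / (64 * 2 ^ j) * towerA K j := by
  obtain ⟨hw, -⟩ := one_le_w hK j
  have hy := towerY_ge hK j
  have hb := (towerB_le hK j).2
  rw [show 1 / (64 * (2 : ℝ) ^ j) * towerA K j = 16 * towerY K j by rw [towerY]; field_simp; ring]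
  have h1 : 9 * ((towerB K (j + 1) : ℝ) + 3) ≤
      Real.exp (towerY K j + 2 * ((K : ℝ) * 2 ^ j) + 4) := by
    rw [Real.exp_add]
    have he : (36 : ℝ) ≤ Real.exp 4 :=
      calc (36 : ℝ) ≤ 2.7 ^ 4 := by norm_num
        _ ≤ Real.exp 1 ^ 4 :=
          pow_le_pow_left₀ (by norm_num) (by linarith [Real.exp_one_gt_d9]) 4
        _ = Real.exp 4 := by rw [← Real.exp_nat_mul]; norm_num
    have h2 : (1 : ℝ) ≤ Real.exp (towerY K j + 2 * ((K : ℝ) * 2 ^ j)) :=
      Real.one_le_exp (by linarith)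
    calc 9 * ((towerB K (j + 1) : ℝ) + 3) ≤ Real.exp (towerY K j + 2 * ((K : ℝ) * 2 ^ j)) * 36 := by
          linarith
      _ ≤ _ := mul_le_mul_of_nonneg_left he (Real.exp_pos _).le
  have := (Real.log_le_iff_le_exp (by positivity)).2 h1
  linarith

/-- **The loss of a step is summable.** -/
theorem tower_step_le {K : ℕ} (hK : 1 ≤ K) (j : ℕ) :
    1575 * ((towerB K (j + 1) : ℝ) * towerH K (j + 1)) ^ 2 * ((towerB K j : ℝ) * towerH K j) *
        Real.exp (towerB K j - (towerAlpha (j + 1) - towerAlpha j) * towerA K (j + 1)) ≤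
      1 / ((K : ℝ) * 2 ^ j) := by
  obtain ⟨w, hwdef⟩ : ∃ w : ℝ, w = (K : ℝ) * 2 ^ j := ⟨_, rfl⟩
  obtain ⟨hw, h2w⟩ := one_le_w hK j
  obtain ⟨hb, hb'⟩ := towerB_le hK j
  have hy := towerY_ge hK j
  have ha := towerA_succ_ge K j
  rw [(towerAlpha_bounds j).2.2]
  rw [← hwdef] at hw h2w hb hb' hy ⊢
  obtain ⟨y, hydef⟩ : ∃ y, y = towerY K j := ⟨_, rfl⟩
  rw [← hydef] at hb hb' hy ha
  have hwe : w ≤ Real.exp w := (le_add_of_nonneg_right zero_le_one).trans (Real.add_one_le_exp _)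
  have hH : (towerH K j : ℝ) = w := by rw [towerH, hwdef]; push_cast; rfl
  have hH' : (towerH K (j + 1) : ℝ) = 2 * w := by rw [towerH, hwdef]; push_cast; ring
  have h1 : (towerB K (j + 1) : ℝ) * towerH K (j + 1) ≤ Real.exp (y + 4 * w) := by
    rw [hH', show y + 4 * w = (y + 2 * w) + 2 * w by ring, Real.exp_add]
    exact mul_le_mul hb' (by linarith [Real.add_one_le_exp (2 * w)]) (by linarith)
      (Real.exp_pos _).le
  have h2 : (towerB K j : ℝ) * towerH K j ≤ Real.exp (y + 3 * w + 7) := by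
    rw [hH]
    have he : (1024 : ℝ) ≤ Real.exp 7 :=
      calc (1024 : ℝ) ≤ 2.7 ^ 7 := by norm_num
        _ ≤ Real.exp 1 ^ 7 :=
          pow_le_pow_left₀ (by norm_num) (by linarith [Real.exp_one_gt_d9]) 7
        _ = Real.exp 7 := by rw [← Real.exp_nat_mul]; norm_num
    calc (towerB K j : ℝ) * w ≤ 1024 * y * Real.exp (2 * w) * w :=
          mul_le_mul_of_nonneg_right hb (by linarith)
      _ ≤ Real.exp 7 * Real.exp y * Real.exp (2 * w) * Real.exp w := by
          gcongr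
          all_goals linarith [Real.add_one_le_exp y]
      _ = _ := by rw [← Real.exp_add, ← Real.exp_add, ← Real.exp_add]; ring_nf
  have h3 : (1575 : ℝ) ≤ Real.exp 8 :=
    calc (1575 : ℝ) ≤ 2.7 ^ 8 := by norm_num
      _ ≤ Real.exp 1 ^ 8 :=
        pow_le_pow_left₀ (by norm_num) (by linarith [Real.exp_one_gt_d9]) 8
      _ = Real.exp 8 := by rw [← Real.exp_nat_mul]; norm_num
  rw [le_div_iff₀ (by linarith)]
  calc _ ≤ Real.exp 8 * Real.exp (y + 4 * w) ^ 2 * Real.exp (y + 3 * w + 7) *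
        Real.exp (towerB K j - 1 / (32 * 2 ^ j) * towerA K (j + 1)) * Real.exp w := by
        refine mul_le_mul (mul_le_mul_of_nonneg_right (mul_le_mul (mul_le_mul h3
          (pow_le_pow_left₀ (by positivity) h1 2) (by positivity) (Real.exp_pos _).le)
          h2 (by positivity) (by positivity)) (Real.exp_pos _).le) hwe (by linarith)
          (by positivity)
    _ ≤ 1 := by
        rw [← Real.exp_nat_mul, ← Real.exp_add, ← Real.exp_add, ← Real.exp_add, ← Real.exp_add]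
        refine Real.exp_le_one_iff.2 ?_
        push_cast
        have h4 : (Real.exp y - 1) / (32 * w) ≤ 1 / (32 * 2 ^ j) * towerA K (j + 1) := by
          rw [one_div_mul_eq_div]
          exact div_le_div₀ (Nat.cast_nonneg _) ha (by positivity) (by linarith)
        have h5 : 32 * w * (3 * y + 12 * w + 15 + towerB K j) + 1 ≤ Real.exp y := by
          refine le_trans ?_ (big_mul_le_exp hw hy)
          have e2 : Real.exp (2 * w) * w ≤ Real.exp (8 * w) := by
            refine (mul_le_mul_of_nonneg_left hwe (Real.exp_pos _).le).trans ?_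
            rw [← Real.exp_add, Real.exp_le_exp]
            linarith
          have e1 : w ≤ Real.exp (8 * w) := hwe.trans (Real.exp_le_exp.2 (by linarith))
          have b1 : w * (towerB K j : ℝ) ≤ 1024 * y * Real.exp (8 * w) :=
            calc w * (towerB K j : ℝ) ≤ w * (1024 * y * Real.exp (2 * w)) :=
                  mul_le_mul_of_nonneg_left hb (by linarith)
              _ = 1024 * y * (Real.exp (2 * w) * w) := by ring
              _ ≤ _ := mul_le_mul_of_nonneg_left e2 (by linarith)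
          have b2 : w * (3 * y + 12 * w + 15) ≤ 10 * y * Real.exp (8 * w) :=
            calc w * (3 * y + 12 * w + 15) ≤ Real.exp (8 * w) * (10 * y) :=
                  mul_le_mul e1 (by linarith) (by linarith) (Real.exp_pos _).le
              _ = _ := by ring
          have b3 : (1 : ℝ) ≤ y * Real.exp (8 * w) :=
            one_le_mul_of_one_le_of_one_le (by linarith) (Real.one_le_exp (by linarith))
          linarith
        rw [div_le_iff₀ (by linarith)] at h4
        by_contra hc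
        have := mul_pos (show (0 : ℝ) < 32 * w by linarith) (not_le.1 hc)
        linarith

theorem tower_first_le {K : ℕ} (hK : 1 ≤ K) :
    1455 * ((towerB K 0 : ℝ) * towerH K 0) ^ 2 *
      Real.exp (-(2 * towerAlpha 0 * towerA K 0)) ≤ 1 / (K : ℝ) := by
  have hK1 : (1 : ℝ) ≤ K := Nat.one_le_cast.2 hK
  have hK0 : (K : ℝ) ≤ Real.exp K :=
    (le_add_of_nonneg_right zero_le_one).trans (Real.add_one_le_exp _)
  have e2 : ((2 ^ K : ℕ) : ℝ) ≤ Real.exp K := two_pow_le_exp K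
  have h1 : (towerB K 0 : ℝ) * towerH K 0 ≤ Real.exp (19 + 3 * K) := by
    simp only [towerB, towerH, towerA, pow_zero, mul_one, Nat.cast_mul]
    have he : ((10 ^ 8 : ℕ) : ℝ) ≤ Real.exp 19 :=
      calc ((10 ^ 8 : ℕ) : ℝ) ≤ 2.7 ^ 19 := by norm_num
        _ ≤ Real.exp 1 ^ 19 :=
          pow_le_pow_left₀ (by norm_num) (by linarith [Real.exp_one_gt_d9]) 19
        _ = Real.exp 19 := by rw [← Real.exp_nat_mul]; norm_num
    calc ((10 ^ 8 : ℕ) : ℝ) * K * ((2 ^ K : ℕ) : ℝ) * K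
        ≤ Real.exp 19 * Real.exp K * Real.exp K * Real.exp K := by gcongr
      _ = _ := by rw [← Real.exp_add, ← Real.exp_add, ← Real.exp_add]; ring_nf
  have ha : 2 * towerAlpha 0 * (towerA K 0 : ℝ) = 25000000 * K := by
    simp [towerAlpha, towerA]
    ring
  have h8 : (1455 : ℝ) ≤ Real.exp 8 :=
    calc (1455 : ℝ) ≤ 2.7 ^ 8 := by norm_num
      _ ≤ Real.exp 1 ^ 8 :=
        pow_le_pow_left₀ (by norm_num) (by linarith [Real.exp_one_gt_d9]) 8
      _ = Real.exp 8 := by rw [← Real.exp_nat_mul]; norm_num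
  rw [ha, le_div_iff₀ (by linarith)]
  calc 1455 * ((towerB K 0 : ℝ) * towerH K 0) ^ 2 * Real.exp (-(25000000 * K)) * K
      ≤ Real.exp 8 * Real.exp (19 + 3 * K) ^ 2 * Real.exp (-(25000000 * K)) * Real.exp K := by
        gcongr
    _ ≤ 1 := by
        rw [← Real.exp_nat_mul, ← Real.exp_add, ← Real.exp_add, ← Real.exp_add]
        refine Real.exp_le_one_iff.2 ?_
        push_cast
        linarith

theorem towerB_lt_exists (K : ℕ) (hK : 1 ≤ K) (x : ℝ) : ∃ j, x < (towerB K (j + 1) : ℝ) := by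
  obtain ⟨n, hn⟩ := exists_nat_gt x
  refine ⟨n, hn.trans_le ?_⟩
  refine le_trans ?_ ((towerA_ge hK (n + 1)).trans (Nat.cast_le.2 (towerA_le_towerB K (n + 1))))
  have h4 : ((n + 1 : ℕ) : ℝ) ≤ (4 : ℝ) ^ (n + 1) := by
    exact_mod_cast (Nat.lt_pow_self (show 1 < 4 by norm_num)).le
  have hK1 : (1 : ℝ) ≤ K := Nat.one_le_cast.2 hK
  push_cast at h4
  refine le_trans (le_trans (le_add_of_nonneg_right zero_le_one) h4) ?_
  exact le_mul_of_one_le_left (by positivity) (by linarith)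

/-- The last level reaches past `256 log L`. -/
theorem tower_last_ge {K J : ℕ} (hK : 1 ≤ K) {L : ℝ} (hL : 1 ≤ L)
    (hJ : √L < (towerB K (J + 1) : ℝ)) : 256 * Real.log L ≤ (towerA K J : ℝ) := by
  obtain ⟨hw, -⟩ := one_le_w hK J
  have hy := towerY_ge hK J
  have hsq : 0 < √L := Real.sqrt_pos.2 (by linarith)
  have h2 := Real.log_le_log hsq (hJ.le.trans (towerB_le hK J).2)
  rw [Real.log_sqrt (by linarith), Real.log_exp] at h2
  have h3 : towerY K J ≤ (towerA K J : ℝ) / 1024 := by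
    rw [towerY]
    exact div_le_div_of_nonneg_left (Nat.cast_nonneg _) (by norm_num)
      (le_mul_of_one_le_right (by norm_num) (one_le_pow₀ one_le_two))
  linarith

end FA.ShortLiouville

end
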