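import Fermat.Agent.Korobov.Region
import Fermat.Agent.SiegelWalfisz.Perron

/-!
# Smoothed sums of `(Λ n - 1) n ^ (-it)`

The smoothed Perron formula for `-ζ'/ζ - ζ`, shifted by `it`, in the region of Vinogradov and
Korobov, where it is a power of the logarithm.
-/

set_option autoImplicit false

noncomputable section

namespace FA.ShortLiouville

open Complex MeasureTheory FA.ZeroFree
open scoped ArithmeticFunction.vonMangoldt Real

/-- `-ζ'/ζ - ζ` is a power of the logarithm in the region of Vinogradov and Korobov. -/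
theorem exists_errLog_polylog : ∃ a C, 0 < a ∧ a ≤ 1 ∧ 0 ≤ C ∧ ∀ s : ℂ,
    1 - a / Korobov.gauge s.im ≤ s.re → s.re ≤ 2 →
      riemannZeta₁ s ≠ 0 ∧ ‖errLog s‖ ≤ C * ell s.im ^ 41 := by
  obtain ⟨c, hc, hc1, h⟩ := Korobov.exists_region
  obtain ⟨K, hK0, hK⟩ := Korobov.exists_logDeriv_region hc hc1 h
  obtain ⟨D, hD, hzeta⟩ := Korobov.exists_zeta_bound
  have hKc : IsCompact (Set.Icc (1 - c / Korobov.gauge 5) 2 ×ℂ Set.Icc (-5 : ℝ) 5) :=
    IsCompact.reProdIm isCompact_Icc isCompact_Icc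
  have hin : ∀ s : ℂ, |s.im| ≤ 5 → 1 - c / Korobov.gauge 5 ≤ s.re → riemannZeta₁ s ≠ 0 :=
    fun s ht hr => h s (by
      have := div_le_div_of_nonneg_left hc.le (Korobov.gauge_pos s.im)
        (Korobov.gauge_mono (t := 5) (by rwa [abs_of_pos (by norm_num : (0 : ℝ) < 5)]))
      linarith)
  obtain ⟨M, hM⟩ := hKc.exists_bound_of_continuousOn (f := errLog) fun s hs =>
    ((differentiableAt_errLog (hin s (abs_le.2 (Complex.mem_reProdIm.1 hs).2)
      (Complex.mem_reProdIm.1 hs).1.1)).continuousAt).continuousWithinAt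
  have h5 := Korobov.gauge_pos 5
  obtain ⟨a, ha⟩ : ∃ a, a = min (c / 5) (c / Korobov.gauge 5) := ⟨_, rfl⟩
  have ha0 : 0 < a := ha ▸ lt_min (by positivity) (by positivity)
  have hac : a ≤ c / 5 := ha ▸ min_le_left _ _
  refine ⟨a, |M| + K + D * Real.exp (2 * Korobov.expConst), ha0, by linarith, by positivity,
    fun s hs hs2 => ?_⟩
  obtain ⟨g, hgdef⟩ : ∃ g, g = Korobov.gauge s.im := ⟨_, rfl⟩
  rw [← hgdef] at hs
  have hg : 2 ≤ g := hgdef ▸ (Korobov.gauge_bounds s.im).1
  have hag : a / g ≤ c / g := div_le_div_of_nonneg_right (by linarith) (by linarith)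
  have hz : riemannZeta₁ s ≠ 0 := h s (by rw [← hgdef]; linarith)
  refine ⟨hz, ?_⟩
  have hL := four_le_ell s.im
  have hL1 : (1 : ℝ) ≤ ell s.im ^ 41 := one_le_pow₀ (by linarith)
  have hga : a / g ≤ a := div_le_self ha0.le (by linarith)
  rcases le_total |s.im| 5 with ht | ht
  · have hr : 1 - c / Korobov.gauge 5 ≤ s.re := by
      linarith [ha ▸ min_le_right (c / 5) (c / Korobov.gauge 5)]
    refine ((hM s (Complex.mem_reProdIm.2 ⟨⟨hr, hs2⟩, abs_le.1 ht⟩)).trans (le_abs_self M)).trans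
      ?_
    have : 0 ≤ K + D * Real.exp (2 * Korobov.expConst) := by positivity
    nlinarith [abs_nonneg M]
  · have hs1 : s ≠ 1 := fun hh => by rw [hh] at ht; norm_num at ht
    have hzeta0 : riemannZeta s ≠ 0 := by
      rw [riemannZeta_eq_inv_sub_mul hs1]
      exact mul_ne_zero (inv_ne_zero (sub_ne_zero.2 hs1)) hz
    rw [errLog_eq hs1 hzeta0]
    refine (norm_sub_le _ _).trans ?_
    rw [neg_div, norm_neg]
    have h1 : ‖deriv riemannZeta s / riemannZeta s‖ ≤ K * ell s.im ^ 41 :=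
      (hK s ht (by rw [← hgdef]; linarith [div_le_div_of_nonneg_right hac (by linarith : 0 ≤ g)])
        hs2).trans (mul_le_mul_of_nonneg_left (pow_le_pow_right₀ (by linarith) (by norm_num)) hK0)
    have h2 : ‖riemannZeta s‖ ≤ D * Real.exp (2 * Korobov.expConst) * ell s.im ^ 41 := by
      refine (hzeta s (by linarith) (by linarith) (by linarith)).trans ?_
      rw [mul_right_comm D]
      refine mul_le_mul_of_nonneg_right (mul_le_mul_of_nonneg_left (Real.exp_le_exp.2 ?_) hD.le)
        (pow_nonneg (ell_pos _).le _)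
      have h6 : max (1 - s.re) 0 ≤ 1 / g :=
        max_le (by
          linarith [div_le_div_of_nonneg_right (show a ≤ 1 by linarith) (by linarith : 0 ≤ g)])
          (div_nonneg zero_le_one (by linarith))
      have h7 : ell s.im ≤ g ^ (3 / 2 : ℝ) := by
        rw [hgdef, Korobov.gauge, Real.mul_rpow (Real.rpow_nonneg (ell_pos _).le _)
          (Real.rpow_nonneg (by linarith [Korobov.one_le_log_ell s.im]) _),
          ← Real.rpow_mul (ell_pos _).le,
          ← Real.rpow_mul (by linarith [Korobov.one_le_log_ell s.im]),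
          show (2 / 3 : ℝ) * (3 / 2) = 1 by norm_num, Real.rpow_one]
        exact le_mul_of_one_le_right (ell_pos _).le
          (Real.one_le_rpow (Korobov.one_le_log_ell _) (by norm_num))
      have h8 : max (1 - s.re) 0 ^ (3 / 2 : ℝ) * ell s.im ≤ 1 := by
        refine (mul_le_mul (Real.rpow_le_rpow (le_max_right _ _) h6 (by norm_num)) h7
          (ell_pos _).le (Real.rpow_nonneg (div_nonneg zero_le_one (by linarith)) _)).trans
          (le_of_eq ?_)
        rw [← Real.mul_rpow (div_nonneg zero_le_one (by linarith)) (by linarith),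
          one_div_mul_cancel (by linarith), Real.one_rpow]
      have hA : (0 : ℝ) ≤ Korobov.expConst := by rw [Korobov.expConst]; norm_num
      nlinarith
    have : 0 ≤ |M| * ell s.im ^ 41 := by positivity
    linarith

/-- `(Λ n - 1) n ^ (-it)`. -/
def twistErr (t : ℝ) (n : ℕ) : ℂ := errCoeff n * (n : ℂ) ^ (-(I * (t : ℂ)))

theorem term_twistErr (t : ℝ) (s : ℂ) (n : ℕ) :
    LSeries.term (twistErr t) s n = LSeries.term errCoeff (s + I * (t : ℂ)) n := by
  rcases eq_or_ne n 0 with rfl | hn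
  · simp
  · rw [LSeries.term_of_ne_zero hn, LSeries.term_of_ne_zero hn, twistErr,
      cpow_add _ _ (Nat.cast_ne_zero.2 hn), cpow_neg]
    field_simp

theorem ell_add_le (y t : ℝ) : ell (y + t) ≤ ell y * ell t := by
  have h1 := four_le_ell y
  have h2 := four_le_ell t
  have h3 : ell (y + t) ≤ ell y + ell t := by
    rw [ell, ell, ell, ← Real.log_mul (by positivity) (by positivity)]
    refine Real.log_le_log (by positivity) ?_
    nlinarith [abs_add_le y t, abs_nonneg y, abs_nonneg t,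
      mul_nonneg (abs_nonneg y) (abs_nonneg t)]
  nlinarith

/-- **The smoothed sum of `(Λ n - 1) n ^ (-it)`.** -/
theorem exists_smooth_twist_le : ∃ a K, 0 < a ∧ 0 ≤ K ∧ ∀ y T t : ℝ, 3 ≤ y → 1 ≤ T →
    ‖SiegelWalfisz.smoothSum (twistErr t) y‖ ≤
      K * ell t ^ 41 * y * (y ^ (-(a / Korobov.gauge (|t| + T))) + T ^ (-(1 / 2) : ℝ)) := by
  obtain ⟨a, C, ha, ha1, hC, h⟩ := exists_errLog_polylog
  obtain ⟨P, hP1, hP⟩ := Korobov.ell_pow_high
  obtain ⟨K, hK, hper⟩ := SiegelWalfisz.exists_norm_smoothSum_le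
  refine ⟨a, K * (C * P), ha, by positivity, fun y T t hy hT => ?_⟩
  obtain ⟨σ₁, hσ₁⟩ : ∃ σ₁, σ₁ = 1 - a / Korobov.gauge (|t| + T) := ⟨_, rfl⟩
  have hg := Korobov.gauge_pos (|t| + T)
  have hag : a / Korobov.gauge (|t| + T) ≤ 1 / 2 :=
    (div_le_div_of_nonneg_right ha1 hg.le).trans
      (one_div_le_one_div_of_le (by norm_num) (Korobov.gauge_bounds _).1)
  have hre : ∀ s : ℂ, (s + I * (t : ℂ)).re = s.re := fun s => by simp
  have hser : ∀ s : ℂ, 1 < s.re → LSeriesSummable (twistErr t) s ∧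
      LSeries (twistErr t) s = errLog (s + I * (t : ℂ)) := fun s hs => by
    obtain ⟨h1, h2⟩ := errLog_eq_LSeries (s := s + I * (t : ℂ)) (by rw [hre]; exact hs)
    refine ⟨?_, ?_⟩
    · simpa only [LSeriesSummable, funext (term_twistErr t s)] using h1
    · rw [← h2, LSeries, LSeries, funext (term_twistErr t s)]
  have hmain := hper (twistErr t) (fun s => errLog (s + I * (t : ℂ))) y T σ₁
    (C * ell t ^ 41 * P) hy hT (by rw [hσ₁]; linarith)
    (by rw [hσ₁]; linarith [div_nonneg ha.le hg.le])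
    (mul_nonneg (mul_nonneg hC (pow_nonneg (ell_pos t).le _)) (by linarith))
    (fun σ hσ => (hser σ (by simpa using hσ)).1) (fun s hs => (hser s hs).2)
    fun σ u hreg hσ2 => ?_
  · refine hmain.trans (le_of_eq ?_)
    rw [hσ₁, show 1 - a / Korobov.gauge (|t| + T) - 1 = -(a / Korobov.gauge (|t| + T)) by ring]
    ring
  · have him : ((σ : ℂ) + u * I + I * (t : ℂ)).im = u + t := by simp
    have hre' : ((σ : ℂ) + u * I + I * (t : ℂ)).re = σ := by simp
    have hin : 1 - a / Korobov.gauge (u + t) ≤ σ := by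
      rcases hreg with ⟨hu, hσ⟩ | hσ
      · refine le_trans ?_ (hσ₁ ▸ hσ)
        refine sub_le_sub_left (div_le_div_of_nonneg_left ha.le (Korobov.gauge_pos _)
          (Korobov.gauge_mono ?_)) 1
        rw [abs_of_nonneg (show 0 ≤ |t| + T by positivity)]
        linarith [abs_add_le u t]
      · linarith [div_nonneg ha.le (Korobov.gauge_pos (u + t)).le]
    obtain ⟨hz, hb⟩ := h ((σ : ℂ) + u * I + I * (t : ℂ)) (by rw [him, hre']; exact hin)
      (by rw [hre']; exact hσ2)
    refine ⟨DifferentiableAt.comp (g := errLog) _ (differentiableAt_errLog hz)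
      (differentiableAt_id.add_const _), hb.trans ?_⟩
    rw [him]
    calc C * ell (u + t) ^ 41 ≤ C * (ell u * ell t) ^ 41 :=
          mul_le_mul_of_nonneg_left (pow_le_pow_left₀ (ell_pos _).le (ell_add_le u t) 41) hC
      _ = C * ell t ^ 41 * ell u ^ 41 := by ring
      _ ≤ C * ell t ^ 41 * (P * (1 + u ^ 2) ^ (1 / 4 : ℝ)) :=
          mul_le_mul_of_nonneg_left (hP u) (mul_nonneg hC (pow_nonneg (ell_pos t).le _))
      _ = _ := by ring

end FA.ShortLiouville

end
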